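import Mathlib
import Fermat.Agent.S05.XForm

/-!
# S13, route DP, piece A-IND: division polynomials and multiples of a point

`W` is a Weierstrass curve `Y² = X³ + a₂ X² + a₄ X` (`S05.IsLeg W`) over a field `K` of
characteristic `0`, `P = (x, y)` an affine point, `psi W x y n` the value at `P` of Mathlib's
`n`-th division polynomial `W.ψ n`.

* `claimA` : if `psi j ≠ 0` for `1 ≤ j ≤ n` then `n • P` is affine with
  `x(n • P) = x - psi (n+1) * psi (n-1) / psi n ^ 2`;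
* `claimB` : if moreover `psi (n+1) = 0` then `(n+1) • P = 0`;
* `exists_psi_eq_zero` : if `n • P = 0` (`n ≥ 1`), some `2 ≤ r ≤ n` has `psi r = 0`, `r • P = 0`;
* `eval_preΨ_eq_zero` (N2) : if `p • P = 0`, `p` an odd prime, then `(W.preΨ p).eval x = 0`;
* `exists_nsmul_eq_zero_of_eval_preΨ` : if `(W.preΨ n).eval x = 0`, `n` odd, then `r • P = 0` for
  some `2 ≤ r ≤ n`.

The proof of `claimA` is a strong induction fed by the chord formulas of `S05/XForm.lean`
(`x(Q+R) x(Q-R)` and `x(Q+R) + x(Q-R)`), the duplication formula, and Mathlib's recursions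
`normEDS_even`, `normEDS_odd`.
-/

set_option autoImplicit false

namespace Fermat.Agent.S13.DPInd

open WeierstrassCurve WeierstrassCurve.Affine Polynomial

section Psi

variable {K : Type*} [Field K] (W : WeierstrassCurve K) (x y : K)

/-- The value of the `n`-th division polynomial `W.ψ n` at `(x, y)`. -/
noncomputable def psi (n : ℤ) : K := (W.ψ n).evalEval x y

theorem psi_eq_normEDS (n : ℤ) :
    psi W x y n = normEDS ((W.ψ₂).evalEval x y) ((W.Ψ₃).eval x) ((W.preΨ₄).eval x) n := by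
  rw [psi, WeierstrassCurve.ψ, ← coe_evalEvalRingHom, map_normEDS]
  simp

theorem psi_zero : psi W x y 0 = 0 := by rw [psi_eq_normEDS, normEDS_zero]

theorem psi_one : psi W x y 1 = 1 := by rw [psi_eq_normEDS, normEDS_one]

theorem psi_two : psi W x y 2 = (W.ψ₂).evalEval x y := by rw [psi_eq_normEDS, normEDS_two]

theorem psi_three : psi W x y 3 = (W.Ψ₃).eval x := by rw [psi_eq_normEDS, normEDS_three]

theorem psi_four : psi W x y 4 = (W.preΨ₄).eval x * (W.ψ₂).evalEval x y := by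
  rw [psi_eq_normEDS, normEDS_four]

theorem psi_even (m : ℤ) : psi W x y (2 * m) * psi W x y 2 =
    psi W x y (m - 1) ^ 2 * psi W x y m * psi W x y (m + 2) -
      psi W x y (m - 2) * psi W x y m * psi W x y (m + 1) ^ 2 := by
  simp only [psi_eq_normEDS]
  rw [normEDS_two]
  exact normEDS_even ..

theorem psi_odd (m : ℤ) : psi W x y (2 * m + 1) =
    psi W x y (m + 2) * psi W x y m ^ 3 - psi W x y (m - 1) * psi W x y (m + 1) ^ 3 := by
  simp only [psi_eq_normEDS]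
  exact normEDS_odd ..

variable {W x y} in
/-- `psi` at a point of the curve, in terms of Mathlib's univariate `preΨ`. -/
theorem psi_of_equation (heq : W.toAffine.Equation x y) (n : ℤ) :
    psi W x y n = (W.preΨ n).eval x * (if Even n then (W.ψ₂).evalEval x y else 1) := by
  have h := Affine.CoordinateRing.mk_ψ W n
  rw [Affine.CoordinateRing.mk, ← sub_eq_zero, ← map_sub, AdjoinRoot.mk_eq_zero] at h
  obtain ⟨c, hc⟩ := h
  have h2 : (W.ψ n).evalEval x y - (W.Ψ n).evalEval x y = 0 := by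
    have := congrArg (evalEvalRingHom x y) hc
    rw [map_sub, map_mul, coe_evalEvalRingHom] at this
    rw [this]
    have h0 : W.toAffine.polynomial.evalEval x y = 0 := heq
    rw [h0, zero_mul]
  rw [psi, sub_eq_zero.mp h2, WeierstrassCurve.Ψ, ← coe_evalEvalRingHom, map_mul,
    coe_evalEvalRingHom, evalEval_C]
  split_ifs <;> simp

end Psi

section EDS

variable {K : Type*} [Field K]

/-- `u n = ψ (n+1) ψ (n-1) / ψ n ^ 2`. -/
noncomputable def uu (ψ : ℤ → K) (n : ℤ) : K := ψ (n + 1) * ψ (n - 1) / ψ n ^ 2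

variable {ψ : ℤ → K}

theorem uu_succ_sub
    (hodd : ∀ m : ℤ, ψ (2 * m + 1) = ψ (m + 2) * ψ m ^ 3 - ψ (m - 1) * ψ (m + 1) ^ 3)
    (m : ℤ) (h₀ : ψ m ≠ 0) (h₁ : ψ (m + 1) ≠ 0) :
    uu ψ (m + 1) - uu ψ m = ψ (2 * m + 1) / (ψ m ^ 2 * ψ (m + 1) ^ 2) := by
  rw [uu, uu, hodd, show m + 1 + 1 = m + 2 by ring, show m + 1 - 1 = m by ring]
  field_simp

theorem uu_succ_sub_pred
    (heven : ∀ m : ℤ, ψ (2 * m) * ψ 2 =
      ψ (m - 1) ^ 2 * ψ m * ψ (m + 2) - ψ (m - 2) * ψ m * ψ (m + 1) ^ 2)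
    (m : ℤ) (h₀ : ψ (m - 1) ≠ 0) (h₁ : ψ (m + 1) ≠ 0) :
    uu ψ (m + 1) - uu ψ (m - 1) = ψ (2 * m) * ψ 2 / (ψ (m + 1) ^ 2 * ψ (m - 1) ^ 2) := by
  rw [uu, uu, heven, show m + 1 + 1 = m + 2 by ring, show m + 1 - 1 = m by ring,
    show m - 1 + 1 = m by ring, show m - 1 - 1 = m - 2 by ring]
  field_simp

theorem uu_two_mul
    (hodd : ∀ m : ℤ, ψ (2 * m + 1) = ψ (m + 2) * ψ m ^ 3 - ψ (m - 1) * ψ (m + 1) ^ 3)
    (heven : ∀ m : ℤ, ψ (2 * m) * ψ 2 =
      ψ (m - 1) ^ 2 * ψ m * ψ (m + 2) - ψ (m - 2) * ψ m * ψ (m + 1) ^ 2)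
    (m : ℤ) (hA : ψ (m - 1) ≠ 0) (hB : ψ m ≠ 0) (hC : ψ (m + 1) ≠ 0) (h2m : ψ (2 * m) ≠ 0) :
    uu ψ (2 * m) * ((uu ψ (m + 1) - uu ψ (m - 1)) ^ 2 * uu ψ m ^ 2) =
      ψ 2 ^ 2 * (uu ψ (m + 1) - uu ψ m) * (uu ψ m - uu ψ (m - 1)) := by
  have e1 := uu_succ_sub hodd m hB hC
  have e2 := uu_succ_sub hodd (m - 1) hA (by rwa [sub_add_cancel])
  rw [sub_add_cancel, show 2 * (m - 1) + 1 = 2 * m - 1 by ring] at e2
  have e3 := uu_succ_sub_pred heven m hA hC
  rw [e1, e2, e3, uu, uu]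
  field_simp

theorem uu_two_mul_add_one
    (hodd : ∀ m : ℤ, ψ (2 * m + 1) = ψ (m + 2) * ψ m ^ 3 - ψ (m - 1) * ψ (m + 1) ^ 3)
    (heven : ∀ m : ℤ, ψ (2 * m) * ψ 2 =
      ψ (m - 1) ^ 2 * ψ m * ψ (m + 2) - ψ (m - 2) * ψ m * ψ (m + 1) ^ 2)
    (m : ℤ) (hA : ψ (m - 1) ≠ 0) (hB : ψ m ≠ 0) (hC : ψ (m + 1) ≠ 0) (hD : ψ (m + 2) ≠ 0)
    (h2m : ψ (2 * m + 1) ≠ 0) :
    uu ψ (2 * m + 1) * (ψ 2 ^ 2 * (uu ψ (m + 1) - uu ψ m) ^ 2) =
      (uu ψ (m + 2) - uu ψ m) * (uu ψ (m + 1) - uu ψ (m - 1)) * (uu ψ m * uu ψ (m + 1)) ^ 2 := by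
  have e1 := uu_succ_sub hodd m hB hC
  have e2 := uu_succ_sub_pred heven (m + 1) (by rwa [add_sub_cancel_right])
    (by rwa [show m + 1 + 1 = m + 2 by ring])
  rw [add_sub_cancel_right, show m + 1 + 1 = m + 2 by ring] at e2
  have e3 := uu_succ_sub_pred heven m hA hC
  rw [e1, e2, e3, uu, uu, uu, show 2 * m + 1 + 1 = 2 * (m + 1) by ring,
    show 2 * m + 1 - 1 = 2 * m by ring, show m + 1 + 1 = m + 2 by ring,
    show m + 1 - 1 = m by ring]
  field_simp

end EDS

section Alg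

variable {K : Type*} [Field K]

/-- the discriminant identity: `(b - a)² u⁴ = F · 4 f(x - u)` -/
theorem disc_id {x a₂ a₄ u a b : K}
    (hS : (a + b) * u ^ 2 =
      2 * (3 * x ^ 2 + 2 * a₂ * x + a₄) * u - 4 * (x ^ 3 + a₂ * x ^ 2 + a₄ * x))
    (hP : a * b * u ^ 2 = 4 * (x ^ 3 + a₂ * x ^ 2 + a₄ * x) * u -
      (3 * x ^ 4 + 4 * a₂ * x ^ 3 + 6 * a₄ * x ^ 2 - a₄ ^ 2)) :
    (b - a) ^ 2 * u ^ 4 = 4 * (x ^ 3 + a₂ * x ^ 2 + a₄ * x) *
      (4 * ((x - u) ^ 3 + a₂ * (x - u) ^ 2 + a₄ * (x - u))) := by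
  linear_combination ((a + b) * u ^ 2 +
      (2 * (3 * x ^ 2 + 2 * a₂ * x + a₄) * u - 4 * (x ^ 3 + a₂ * x ^ 2 + a₄ * x))) * hS -
    4 * u ^ 2 * hP

/-- even step -/
theorem even_step {x a₂ a₄ u a b X2 : K} (hu : u ≠ 0)
    (hS : (a + b) * u ^ 2 =
      2 * (3 * x ^ 2 + 2 * a₂ * x + a₄) * u - 4 * (x ^ 3 + a₂ * x ^ 2 + a₄ * x))
    (hP : a * b * u ^ 2 = 4 * (x ^ 3 + a₂ * x ^ 2 + a₄ * x) * u -
      (3 * x ^ 4 + 4 * a₂ * x ^ 3 + 6 * a₄ * x ^ 2 - a₄ ^ 2))
    (hX : X2 * (4 * ((x - u) ^ 3 + a₂ * (x - u) ^ 2 + a₄ * (x - u))) = ((x - u) ^ 2 - a₄) ^ 2) :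
    (x - X2) * ((b - a) ^ 2 * u ^ 2) =
      4 * (x ^ 3 + a₂ * x ^ 2 + a₄ * x) * (b - u) * (u - a) := by
  apply mul_right_cancel₀ (pow_ne_zero 2 hu)
  linear_combination ((x - X2) * ((a + b) * u ^ 2 +
      (2 * (3 * x ^ 2 + 2 * a₂ * x + a₄) * u - 4 * (x ^ 3 + a₂ * x ^ 2 + a₄ * x))) -
      4 * (x ^ 3 + a₂ * x ^ 2 + a₄ * x) * u) * hS +
    (4 * (x ^ 3 + a₂ * x ^ 2 + a₄ * x) - 4 * u ^ 2 * (x - X2)) * hP -
    4 * (x ^ 3 + a₂ * x ^ 2 + a₄ * x) * hX

/-- odd step -/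
theorem odd_step {x a₂ a₄ c a b d X3 : K}
    (hS : (c + b) * a ^ 2 =
      2 * (3 * x ^ 2 + 2 * a₂ * x + a₄) * a - 4 * (x ^ 3 + a₂ * x ^ 2 + a₄ * x))
    (hP : c * b * a ^ 2 = 4 * (x ^ 3 + a₂ * x ^ 2 + a₄ * x) * a -
      (3 * x ^ 4 + 4 * a₂ * x ^ 3 + 6 * a₄ * x ^ 2 - a₄ ^ 2))
    (hS' : (a + d) * b ^ 2 =
      2 * (3 * x ^ 2 + 2 * a₂ * x + a₄) * b - 4 * (x ^ 3 + a₂ * x ^ 2 + a₄ * x))
    (hX : (X3 + x) * (a - b) ^ 2 =
      2 * (((x - b) + (x - a)) * ((x - b) * (x - a) + a₄) + 2 * a₂ * (x - b) * (x - a))) :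
    (x - X3) * (4 * (x ^ 3 + a₂ * x ^ 2 + a₄ * x) * (b - a) ^ 2) =
      (d - a) * (b - c) * (a * b) ^ 2 := by
  linear_combination (-(4 * (x ^ 3 + a₂ * x ^ 2 + a₄ * x))) * hX +
    (4 * a * b) * (b * hS - hP) -
    (2 * b * a ^ 2 - (c + b) * a ^ 2) * hS' +
    (2 * (3 * x ^ 2 + 2 * a₂ * x + a₄) * b - 4 * (x ^ 3 + a₂ * x ^ 2 + a₄ * x) - 2 * a * b ^ 2) * hS

end Alg

section Geom

open Fermat.Agent.S05

variable {K : Type*} [Field K] [DecidableEq K] [CharZero K] {W : WeierstrassCurve K}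

/-- The `x`-coordinate of a point (junk value `0` at infinity). -/
def xOf : W.toAffine.Point → K
  | .zero => 0
  | .some x _ _ => x

omit [DecidableEq K] [CharZero K] in
theorem xOf_some {x y : K} (h : W.toAffine.Nonsingular x y) : xOf (Point.some x y h) = x := rfl

omit [DecidableEq K] [CharZero K] in
theorem exists_some {Q : W.toAffine.Point} (hQ : Q ≠ 0) :
    ∃ (x y : K) (h : W.toAffine.Nonsingular x y), Q = Point.some x y h := by
  cases Q with
  | zero => exact absurd rfl hQ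
  | some x y h => exact ⟨x, y, h, rfl⟩

omit [CharZero K] in
theorem add_sub_xOf (hW : IsLeg W) {Q R : W.toAffine.Point} (hQ : Q ≠ 0) (hR : R ≠ 0)
    (hx : xOf Q ≠ xOf R) :
    Q + R ≠ 0 ∧ Q - R ≠ 0 ∧
      xOf (Q + R) * xOf (Q - R) * (xOf Q - xOf R) ^ 2 = (xOf Q * xOf R - W.a₄) ^ 2 ∧
      (xOf (Q + R) + xOf (Q - R)) * (xOf Q - xOf R) ^ 2 =
        2 * ((xOf Q + xOf R) * (xOf Q * xOf R + W.a₄) + 2 * W.a₂ * xOf Q * xOf R) := by
  obtain ⟨x₁, y₁, h₁, rfl⟩ := exists_some hQ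
  obtain ⟨x₂, y₂, h₂, rfl⟩ := exists_some hR
  simp only [xOf_some] at hx ⊢
  obtain ⟨x₃, y₃, h₃, x₄, y₄, h₄, ha, hs, hp, -, -, hsum⟩ := add_sub_some_aux hW h₁ h₂ hx
  rw [ha, hs]
  simp only [xOf_some]
  exact ⟨Point.some_ne_zero _, Point.some_ne_zero _, hp, hsum⟩

omit [DecidableEq K] in
theorem eq_or_eq_neg_of_xOf_eq (hW : IsLeg W) {Q R : W.toAffine.Point} (hQ : Q ≠ 0) (hR : R ≠ 0)
    (hx : xOf Q = xOf R) : Q = R ∨ Q = -R := by
  obtain ⟨x₁, y₁, h₁, rfl⟩ := exists_some hQ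
  obtain ⟨x₂, y₂, h₂, rfl⟩ := exists_some hR
  simp only [xOf_some] at hx
  subst hx
  rcases eq_or_eq_neg_of_x_eq hW h₁ h₂ with hy | hy
  · left; subst hy; rfl
  · right
    obtain ⟨h', hneg⟩ := neg_some hW h₂
    rw [hneg]; subst hy; rfl

theorem add_self_xOf (hW : IsLeg W) {Q : W.toAffine.Point} (hQ : Q ≠ 0)
    (hf : xOf Q ^ 3 + W.a₂ * xOf Q ^ 2 + W.a₄ * xOf Q ≠ 0) :
    Q + Q ≠ 0 ∧ xOf (Q + Q) * (4 * (xOf Q ^ 3 + W.a₂ * xOf Q ^ 2 + W.a₄ * xOf Q)) =
      (xOf Q ^ 2 - W.a₄) ^ 2 := by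
  obtain ⟨x₁, y₁, h₁, rfl⟩ := exists_some hQ
  simp only [xOf_some] at hf ⊢
  have heq := eq_of_nonsingular hW h₁
  have hy : y₁ ≠ 0 := by
    rintro rfl
    apply hf
    rw [← heq]; ring
  obtain ⟨x', y', h', h2, hx'⟩ := two_nsmul_some hW h₁ hy
  rw [two_nsmul] at h2
  rw [h2, xOf_some, ← heq]
  exact ⟨Point.some_ne_zero _, hx'⟩

theorem add_self_eq_zero (hW : IsLeg W) {x y : K} (h : W.toAffine.Nonsingular x y) (hy : y = 0) :
    Point.some x y h + Point.some x y h = 0 := by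
  rw [← two_nsmul]
  exact two_nsmul_some_eq_zero hW h hy

end Geom

section Ind

open Fermat.Agent.S05

variable {K : Type*} [Field K] [DecidableEq K] [CharZero K] {W : WeierstrassCurve K}

omit [DecidableEq K] [CharZero K] in
theorem psi_two_leg (hW : IsLeg W) (x y : K) : psi W x y 2 = 2 * y := by
  rw [psi_two, WeierstrassCurve.ψ₂, evalEval_polynomialY, hW.a₁, hW.a₃]; ring

omit [DecidableEq K] [CharZero K] in
theorem psi_three_leg (hW : IsLeg W) (x y : K) :
    psi W x y 3 = 3 * x ^ 4 + 4 * W.a₂ * x ^ 3 + 6 * W.a₄ * x ^ 2 - W.a₄ ^ 2 := by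
  rw [psi_three, WeierstrassCurve.Ψ₃, b₂, b₄, b₆, b₈, hW.a₁, hW.a₃, hW.a₆]
  simp only [eval_add, eval_mul, eval_pow, eval_C, eval_X, eval_ofNat]
  ring

omit [DecidableEq K] [CharZero K] in
theorem psi_four_leg (hW : IsLeg W) (x y : K) :
    psi W x y 4 = (2 * x ^ 6 + 4 * W.a₂ * x ^ 5 + 10 * W.a₄ * x ^ 4 - 10 * W.a₄ ^ 2 * x ^ 2
      - 4 * W.a₂ * W.a₄ ^ 2 * x - 2 * W.a₄ ^ 3) * (2 * y) := by
  rw [psi_four, WeierstrassCurve.preΨ₄, WeierstrassCurve.ψ₂, evalEval_polynomialY, b₂, b₄, b₆, b₈,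
    hW.a₁, hW.a₃, hW.a₆]
  simp only [eval_add, eval_mul, eval_pow, eval_C, eval_X, eval_ofNat]
  ring

/-- `n • P` is affine with `x`-coordinate `x - u n`. -/
def Good (W : WeierstrassCurve K) {x y : K} (h : W.toAffine.Nonsingular x y) (n : ℤ) : Prop :=
  n • Point.some x y h ≠ 0 ∧ xOf (n • Point.some x y h) = x - uu (psi W x y) n

omit [CharZero K] in
theorem good_one {x y : K} (h : W.toAffine.Nonsingular x y) : Good W h 1 := by
  refine ⟨by rw [one_smul]; exact Point.some_ne_zero _, ?_⟩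
  rw [one_smul, xOf_some, uu, show (1 : ℤ) - 1 = 0 by norm_num, psi_zero]
  simp

omit [CharZero K] in
/-- The geometric step: the sum and product relations at index `j`. -/
theorem geom_step (hW : IsLeg W) {x y : K} (h : W.toAffine.Nonsingular x y) (j : ℤ)
    (h₀ : Good W h (j - 1)) (h₁ : Good W h j) (hu : uu (psi W x y) j ≠ 0) :
    (j + 1) • Point.some x y h ≠ 0 ∧
    (uu (psi W x y) (j - 1) + (x - xOf ((j + 1) • Point.some x y h))) * uu (psi W x y) j ^ 2 =
      2 * (3 * x ^ 2 + 2 * W.a₂ * x + W.a₄) * uu (psi W x y) j -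
        4 * (x ^ 3 + W.a₂ * x ^ 2 + W.a₄ * x) ∧
    uu (psi W x y) (j - 1) * (x - xOf ((j + 1) • Point.some x y h)) * uu (psi W x y) j ^ 2 =
      4 * (x ^ 3 + W.a₂ * x ^ 2 + W.a₄ * x) * uu (psi W x y) j -
        (3 * x ^ 4 + 4 * W.a₂ * x ^ 3 + 6 * W.a₄ * x ^ 2 - W.a₄ ^ 2) := by
  have hxP : xOf (Point.some x y h) = x := rfl
  have hne : xOf (j • Point.some x y h) ≠ xOf (Point.some x y h) := by
    rw [h₁.2, hxP]
    intro e
    apply hu
    linear_combination -e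
  obtain ⟨ha, -, hprod, hsum⟩ := add_sub_xOf hW h₁.1 (Point.some_ne_zero h) hne
  have e1 : j • Point.some x y h + Point.some x y h = (j + 1) • Point.some x y h := by
    rw [add_smul, one_smul]
  have e2 : j • Point.some x y h - Point.some x y h = (j - 1) • Point.some x y h := by
    rw [sub_smul, one_smul]
  rw [e1, e2, h₁.2, h₀.2, hxP] at hprod hsum
  rw [e1] at ha
  refine ⟨ha, ?_, ?_⟩
  · linear_combination (-1 : K) * hsum
  · linear_combination hprod - x * hsum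

/-- CLAIM A, integer-indexed form, by strong induction. -/
theorem good_of_forall (hW : IsLeg W) {x y : K} (h : W.toAffine.Nonsingular x y) :
    ∀ (k : ℕ) (n : ℤ), 1 ≤ n → n ≤ k → (∀ j : ℤ, 1 ≤ j → j ≤ n → psi W x y j ≠ 0) →
      Good W h n := by
  have heq := eq_of_nonsingular hW h
  have hodd := psi_odd W x y
  have heven := psi_even W x y
  have h2 := psi_two_leg hW x y
  have h3 := psi_three_leg hW x y
  have h4 := psi_four_leg hW x y
  have hF : psi W x y 2 ^ 2 = 4 * (x ^ 3 + W.a₂ * x ^ 2 + W.a₄ * x) := by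
    rw [h2]; linear_combination 4 * heq
  intro k
  induction k with
  | zero => intro n h1 h2; omega
  | succ k ih =>
    intro n hn1 hnk hψ
    push_cast at hnk
    rcases (show n ≤ k ∨ n = k + 1 by omega) with hle | hnk'
    · exact ih n hn1 hle hψ
    have IH : ∀ j : ℤ, 1 ≤ j → j < n → Good W h j := fun j hj1 hjn =>
      ih j hj1 (by omega) (fun i hi1 hij => hψ i hi1 (by omega))
    rcases (show n = 1 ∨ n = 2 ∨ n = 3 ∨ 4 ≤ n by omega) with rfl | rfl | rfl | hn4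
    · exact good_one h
    · -- n = 2
      have ψ2 : psi W x y 2 ≠ 0 := hψ 2 (by norm_num) le_rfl
      have hf : x ^ 3 + W.a₂ * x ^ 2 + W.a₄ * x ≠ 0 := by
        intro e
        rw [e, mul_zero] at hF
        exact ψ2 (pow_eq_zero_iff (two_ne_zero) |>.mp hF)
      obtain ⟨hne, hx2⟩ := add_self_xOf hW (Point.some_ne_zero h) (by rwa [xOf_some])
      rw [xOf_some] at hx2
      have e2 : (2 : ℤ) • Point.some x y h = Point.some x y h + Point.some x y h := two_smul ..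
      refine ⟨by rw [e2]; exact hne, ?_⟩
      have hf4 : (4 : K) * (x ^ 3 + W.a₂ * x ^ 2 + W.a₄ * x) ≠ 0 := mul_ne_zero (by norm_num) hf
      have key : x - xOf (Point.some x y h + Point.some x y h) =
          (3 * x ^ 4 + 4 * W.a₂ * x ^ 3 + 6 * W.a₄ * x ^ 2 - W.a₄ ^ 2) /
            (4 * (x ^ 3 + W.a₂ * x ^ 2 + W.a₄ * x)) := by
        rw [eq_div_iff hf4]
        linear_combination (-1 : K) * hx2
      rw [e2, uu, show (2 : ℤ) + 1 = 3 by norm_num, show (2 : ℤ) - 1 = 1 by norm_num, psi_one, hF,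
        h3, mul_one]
      linear_combination (-1 : K) * key
    · -- n = 3
      have ψ2 : psi W x y 2 ≠ 0 := hψ 2 (by norm_num) (by norm_num)
      have ψ3 : psi W x y 3 ≠ 0 := hψ 3 (by norm_num) le_rfl
      have g1 := good_one h
      have g2 := IH 2 (by norm_num) (by norm_num)
      have hu2 : uu (psi W x y) 2 = psi W x y 3 / psi W x y 2 ^ 2 := by
        rw [uu, show (2 : ℤ) + 1 = 3 by norm_num, show (2 : ℤ) - 1 = 1 by norm_num, psi_one,
          mul_one]
      have hu1 : uu (psi W x y) 1 = 0 := by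
        rw [uu, show (1 : ℤ) - 1 = 0 by norm_num, psi_zero]; simp
      have hu : uu (psi W x y) 2 ≠ 0 := by
        rw [hu2]; exact div_ne_zero ψ3 (pow_ne_zero 2 ψ2)
      obtain ⟨hne, hS, -⟩ := geom_step hW h 2 (by simpa using g1) g2 hu
      rw [show (2 : ℤ) + 1 = 3 by norm_num, show (2 : ℤ) - 1 = 1 by norm_num, hu1, zero_add,
        hu2] at hS
      refine ⟨hne, ?_⟩
      have ψ3sq : psi W x y 3 ^ 2 ≠ 0 := pow_ne_zero 2 ψ3
      have hS2 : (x - xOf ((3 : ℤ) • Point.some x y h)) * psi W x y 3 ^ 2 =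
          2 * (3 * x ^ 2 + 2 * W.a₂ * x + W.a₄) * psi W x y 3 * psi W x y 2 ^ 2 -
            4 * (x ^ 3 + W.a₂ * x ^ 2 + W.a₄ * x) * psi W x y 2 ^ 4 := by
        calc (x - xOf ((3 : ℤ) • Point.some x y h)) * psi W x y 3 ^ 2
            = ((x - xOf ((3 : ℤ) • Point.some x y h)) * (psi W x y 3 / psi W x y 2 ^ 2) ^ 2) *
                psi W x y 2 ^ 4 := by field_simp
          _ = (2 * (3 * x ^ 2 + 2 * W.a₂ * x + W.a₄) * (psi W x y 3 / psi W x y 2 ^ 2) -
                4 * (x ^ 3 + W.a₂ * x ^ 2 + W.a₄ * x)) * psi W x y 2 ^ 4 := by rw [hS]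
          _ = _ := by field_simp
      have key : x - xOf ((3 : ℤ) • Point.some x y h) =
          psi W x y 4 * psi W x y 2 / psi W x y 3 ^ 2 := by
        rw [eq_div_iff ψ3sq, hS2, h4, h2, h3]
        linear_combination (8 * (3 * x ^ 2 + 2 * W.a₂ * x + W.a₄) *
            (3 * x ^ 4 + 4 * W.a₂ * x ^ 3 + 6 * W.a₄ * x ^ 2 - W.a₄ ^ 2) -
          4 * (2 * x ^ 6 + 4 * W.a₂ * x ^ 5 + 10 * W.a₄ * x ^ 4 - 10 * W.a₄ ^ 2 * x ^ 2
            - 4 * W.a₂ * W.a₄ ^ 2 * x - 2 * W.a₄ ^ 3) -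
          64 * (x ^ 3 + W.a₂ * x ^ 2 + W.a₄ * x) *
            (y ^ 2 + (x ^ 3 + W.a₂ * x ^ 2 + W.a₄ * x))) * heq
      rw [uu, show (3 : ℤ) + 1 = 4 by norm_num, show (3 : ℤ) - 1 = 2 by norm_num]
      linear_combination (-1 : K) * key
    · -- `n ≥ 4`
      have ψ2 : psi W x y 2 ≠ 0 := hψ 2 (by norm_num) (by omega)
      obtain ⟨m, rfl | rfl⟩ := Int.even_or_odd' n
      · -- even case `n = 2 m`, `m ≥ 2`
        have hm1 := IH (m - 1) (by omega) (by omega)
        have hm := IH m (by omega) (by omega)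
        have hm2 := IH (m + 1) (by omega) (by omega)
        have ψA : psi W x y (m - 1) ≠ 0 := hψ _ (by omega) (by omega)
        have ψB : psi W x y m ≠ 0 := hψ _ (by omega) (by omega)
        have ψC : psi W x y (m + 1) ≠ 0 := hψ _ (by omega) (by omega)
        have ψn : psi W x y (2 * m) ≠ 0 := hψ _ (by omega) le_rfl
        have hu : uu (psi W x y) m ≠ 0 := by
          rw [uu]; exact div_ne_zero (mul_ne_zero ψC ψA) (pow_ne_zero 2 ψB)
        obtain ⟨-, hS, hP⟩ := geom_step hW h m hm1 hm hu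
        rw [hm2.2, sub_sub_cancel] at hS hP
        have hba : uu (psi W x y) (m + 1) - uu (psi W x y) (m - 1) ≠ 0 := by
          rw [uu_succ_sub_pred heven m ψA ψC]
          exact div_ne_zero (mul_ne_zero ψn ψ2) (mul_ne_zero (pow_ne_zero 2 ψC) (pow_ne_zero 2 ψA))
        have hdisc := disc_id hS hP
        have hf : (x - uu (psi W x y) m) ^ 3 + W.a₂ * (x - uu (psi W x y) m) ^ 2 +
            W.a₄ * (x - uu (psi W x y) m) ≠ 0 := by
          intro e
          rw [e, mul_zero, mul_zero] at hdisc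
          exact mul_ne_zero (pow_ne_zero 2 hba) (pow_ne_zero 4 hu) hdisc
        obtain ⟨hne, hX⟩ := add_self_xOf hW hm.1 (by rw [hm.2]; exact hf)
        rw [hm.2] at hX
        have e2 : (2 * m) • Point.some x y h = m • Point.some x y h + m • Point.some x y h := by
          rw [two_mul, add_smul]
        rw [← e2] at hne hX
        refine ⟨hne, ?_⟩
        have hes := even_step hu hS hP hX
        have hut := uu_two_mul hodd heven m ψA ψB ψC ψn
        rw [hF] at hut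
        have hden : (uu (psi W x y) (m + 1) - uu (psi W x y) (m - 1)) ^ 2 *
            uu (psi W x y) m ^ 2 ≠ 0 := mul_ne_zero (pow_ne_zero 2 hba) (pow_ne_zero 2 hu)
        have key : x - xOf ((2 * m) • Point.some x y h) = uu (psi W x y) (2 * m) :=
          mul_right_cancel₀ hden (hes.trans hut.symm)
        linear_combination (-1 : K) * key
      · -- odd case `n = 2 m + 1`, `m ≥ 2`
        have hm1 := IH (m - 1) (by omega) (by omega)
        have hm := IH m (by omega) (by omega)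
        have hm2 := IH (m + 1) (by omega) (by omega)
        have hm3 := IH (m + 2) (by omega) (by omega)
        have ψA : psi W x y (m - 1) ≠ 0 := hψ _ (by omega) (by omega)
        have ψB : psi W x y m ≠ 0 := hψ _ (by omega) (by omega)
        have ψC : psi W x y (m + 1) ≠ 0 := hψ _ (by omega) (by omega)
        have ψD : psi W x y (m + 2) ≠ 0 := hψ _ (by omega) (by omega)
        have ψn : psi W x y (2 * m + 1) ≠ 0 := hψ _ (by omega) le_rfl
        have hua : uu (psi W x y) m ≠ 0 := by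
          rw [uu]; exact div_ne_zero (mul_ne_zero ψC ψA) (pow_ne_zero 2 ψB)
        have hub : uu (psi W x y) (m + 1) ≠ 0 := by
          rw [uu, show m + 1 + 1 = m + 2 by ring, show m + 1 - 1 = m by ring]
          exact div_ne_zero (mul_ne_zero ψD ψB) (pow_ne_zero 2 ψC)
        obtain ⟨-, hS, hP⟩ := geom_step hW h m hm1 hm hua
        rw [hm2.2, sub_sub_cancel] at hS hP
        have hm' : Good W h (m + 1 - 1) := by rwa [add_sub_cancel_right]
        obtain ⟨-, hS', -⟩ := geom_step hW h (m + 1) hm' hm2 hub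
        rw [show m + 1 + 1 = m + 2 by ring, show m + 1 - 1 = m by ring, hm3.2,
          sub_sub_cancel] at hS'
        have hba : uu (psi W x y) (m + 1) - uu (psi W x y) m ≠ 0 := by
          rw [uu_succ_sub hodd m ψB ψC]
          exact div_ne_zero ψn (mul_ne_zero (pow_ne_zero 2 ψB) (pow_ne_zero 2 ψC))
        have hne' : xOf ((m + 1) • Point.some x y h) ≠ xOf (m • Point.some x y h) := by
          rw [hm2.2, hm.2]
          intro e
          apply hba
          linear_combination (-1 : K) * e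
        obtain ⟨hne, -, -, hsum⟩ := add_sub_xOf hW hm2.1 hm.1 hne'
        have e1 : (m + 1) • Point.some x y h + m • Point.some x y h =
            (2 * m + 1) • Point.some x y h := by
          rw [← add_smul]; congr 1; ring
        have e2 : (m + 1) • Point.some x y h - m • Point.some x y h = Point.some x y h := by
          rw [← sub_smul, add_sub_cancel_left, one_smul]
        rw [e1, e2, hm2.2, hm.2, xOf_some] at hsum
        rw [e1] at hne
        refine ⟨hne, ?_⟩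
        have hX : (xOf ((2 * m + 1) • Point.some x y h) + x) *
            (uu (psi W x y) m - uu (psi W x y) (m + 1)) ^ 2 =
            2 * (((x - uu (psi W x y) (m + 1)) + (x - uu (psi W x y) m)) *
              ((x - uu (psi W x y) (m + 1)) * (x - uu (psi W x y) m) + W.a₄) +
              2 * W.a₂ * (x - uu (psi W x y) (m + 1)) * (x - uu (psi W x y) m)) := by
          linear_combination hsum
        have hos := odd_step hS hP hS' hX
        have hut := uu_two_mul_add_one hodd heven m ψA ψB ψC ψD ψn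
        rw [hF] at hut
        have hF0 : 4 * (x ^ 3 + W.a₂ * x ^ 2 + W.a₄ * x) ≠ 0 := by
          rw [← hF]; exact pow_ne_zero 2 ψ2
        have hden : 4 * (x ^ 3 + W.a₂ * x ^ 2 + W.a₄ * x) *
            (uu (psi W x y) (m + 1) - uu (psi W x y) m) ^ 2 ≠ 0 :=
          mul_ne_zero hF0 (pow_ne_zero 2 hba)
        have key : x - xOf ((2 * m + 1) • Point.some x y h) = uu (psi W x y) (2 * m + 1) :=
          mul_right_cancel₀ hden (hos.trans hut.symm)
        linear_combination (-1 : K) * key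

/-- CLAIM B, integer-indexed form. -/
theorem zero_of_psi_eq_zero (hW : IsLeg W) {x y : K} (h : W.toAffine.Nonsingular x y) (n : ℤ)
    (hn : 1 ≤ n) (hψ : ∀ j : ℤ, 1 ≤ j → j ≤ n → psi W x y j ≠ 0)
    (h0 : psi W x y (n + 1) = 0) : (n + 1) • Point.some x y h = 0 := by
  have G : ∀ j : ℤ, 1 ≤ j → j ≤ n → Good W h j := fun j hj1 hjn =>
    good_of_forall hW h j.toNat j hj1 (by omega) (fun i hi1 hij => hψ i hi1 (by omega))
  obtain ⟨m, hm | hm⟩ := Int.even_or_odd' (n + 1)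
  · -- `n + 1 = 2 m`
    rcases (show m = 1 ∨ 2 ≤ m by omega) with rfl | hm2
    · have hn1 : n = 1 := by omega
      subst hn1
      rw [show (1 : ℤ) + 1 = 2 by norm_num] at h0 ⊢
      rw [psi_two_leg hW] at h0
      have hy : y = 0 := by simpa using h0
      rw [two_smul]
      exact add_self_eq_zero hW h hy
    · have gA := G (m - 1) (by omega) (by omega)
      have gC := G (m + 1) (by omega) (by omega)
      have ψA : psi W x y (m - 1) ≠ 0 := hψ _ (by omega) (by omega)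
      have ψC : psi W x y (m + 1) ≠ 0 := hψ _ (by omega) (by omega)
      have e := uu_succ_sub_pred (psi_even W x y) m ψA ψC
      rw [← hm, h0, zero_mul, zero_div] at e
      have hx : xOf ((m + 1) • Point.some x y h) = xOf ((m - 1) • Point.some x y h) := by
        rw [gC.2, gA.2]; linear_combination (-1 : K) * e
      rcases eq_or_eq_neg_of_xOf_eq hW gC.1 gA.1 hx with h1 | h1
      · exfalso
        have g2 := G 2 (by norm_num) (by omega)
        apply g2.1
        have e2 : (2 : ℤ) • Point.some x y h =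
            (m + 1) • Point.some x y h - (m - 1) • Point.some x y h := by
          rw [← sub_smul]; congr 1; ring
        rw [e2, h1, sub_self]
      · have e2 : (n + 1) • Point.some x y h =
            (m + 1) • Point.some x y h + (m - 1) • Point.some x y h := by
          rw [← add_smul]; congr 1; omega
        rw [e2, h1, neg_add_cancel]
  · -- `n + 1 = 2 m + 1`
    have gB := G m (by omega) (by omega)
    have gC := G (m + 1) (by omega) (by omega)
    have ψB : psi W x y m ≠ 0 := hψ _ (by omega) (by omega)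
    have ψC : psi W x y (m + 1) ≠ 0 := hψ _ (by omega) (by omega)
    have e := uu_succ_sub (psi_odd W x y) m ψB ψC
    rw [← hm, h0, zero_div] at e
    have hx : xOf ((m + 1) • Point.some x y h) = xOf (m • Point.some x y h) := by
      rw [gC.2, gB.2]; linear_combination (-1 : K) * e
    rcases eq_or_eq_neg_of_xOf_eq hW gC.1 gB.1 hx with h1 | h1
    · exfalso
      apply Point.some_ne_zero h
      have e2 : Point.some x y h = (m + 1) • Point.some x y h - m • Point.some x y h := by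
        rw [← sub_smul, add_sub_cancel_left, one_smul]
      rw [e2, h1, sub_self]
    · have e2 : (n + 1) • Point.some x y h =
          (m + 1) • Point.some x y h + m • Point.some x y h := by
        rw [← add_smul]; congr 1; omega
      rw [e2, h1, neg_add_cancel]

/-- **CLAIM A**: if the division polynomials `ψ₁, …, ψₙ` do not vanish at `P = (x, y)`, then
`n • P` is an affine point with `x(n • P) = x - ψₙ₊₁ ψₙ₋₁ / ψₙ²`. -/
theorem claimA (hW : IsLeg W) {x y : K} (h : W.toAffine.Nonsingular x y) {n : ℕ} (hn : 1 ≤ n)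
    (hψ : ∀ j : ℕ, 1 ≤ j → j ≤ n → psi W x y j ≠ 0) :
    ∃ (xn yn : K) (h' : W.toAffine.Nonsingular xn yn),
      n • Point.some x y h = Point.some xn yn h' ∧
      xn = x - psi W x y (n + 1) * psi W x y (n - 1) / psi W x y n ^ 2 := by
  have hg : Good W h (n : ℤ) :=
    good_of_forall hW h n n (by exact_mod_cast hn) le_rfl (fun j hj1 hjn => by
      lift j to ℕ using (by omega)
      exact hψ j (by exact_mod_cast hj1) (by exact_mod_cast hjn))
  obtain ⟨h0, hx⟩ := hg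
  rw [natCast_zsmul] at h0 hx
  obtain ⟨xn, yn, h', e⟩ := exists_some h0
  refine ⟨xn, yn, h', e, ?_⟩
  rw [e, xOf_some] at hx
  exact hx

/-- **CLAIM B**: if `ψ₁, …, ψₙ` do not vanish at `P` and `ψₙ₊₁` does, then `(n + 1) • P = 0`. -/
theorem claimB (hW : IsLeg W) {x y : K} (h : W.toAffine.Nonsingular x y) {n : ℕ} (hn : 1 ≤ n)
    (hψ : ∀ j : ℕ, 1 ≤ j → j ≤ n → psi W x y j ≠ 0) (h0 : psi W x y (n + 1) = 0) :
    (n + 1) • Point.some x y h = 0 := by
  have key := zero_of_psi_eq_zero hW h (n : ℤ) (by exact_mod_cast hn) (fun j hj1 hjn => by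
    lift j to ℕ using (by omega)
    exact hψ j (by exact_mod_cast hj1) (by exact_mod_cast hjn)) h0
  rw [← natCast_zsmul]
  push_cast
  exact key

/-- If some `ψ_j`, `1 ≤ j ≤ n`, vanishes at `P`, then for the least such index `r` we have
`2 ≤ r ≤ n` and `r • P = 0`. -/
theorem exists_nsmul_eq_zero_of_psi (hW : IsLeg W) {x y : K} (h : W.toAffine.Nonsingular x y)
    {n : ℕ} (hn : 1 ≤ n) (h0 : psi W x y n = 0) :
    ∃ r : ℕ, 2 ≤ r ∧ r ≤ n ∧ psi W x y r = 0 ∧ r • Point.some x y h = 0 := by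
  classical
  have hex : ∃ j : ℕ, 1 ≤ j ∧ j ≤ n ∧ psi W x y j = 0 := ⟨n, hn, le_rfl, h0⟩
  obtain ⟨hr1, hrn, hr0⟩ := Nat.find_spec hex
  have hmin : ∀ j : ℕ, 1 ≤ j → j < Nat.find hex → psi W x y j ≠ 0 :=
    fun j hj1 hjr e => Nat.find_min hex hjr ⟨hj1, by omega, e⟩
  have hr2 : 2 ≤ Nat.find hex := by
    by_contra hlt
    have h1 : Nat.find hex = 1 := by omega
    rw [h1, Nat.cast_one, psi_one] at hr0
    exact one_ne_zero hr0
  refine ⟨Nat.find hex, hr2, hrn, hr0, ?_⟩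
  obtain ⟨s, hs⟩ : ∃ s, Nat.find hex = s + 1 := ⟨Nat.find hex - 1, by omega⟩
  have key := claimB hW h (n := s) (by omega) (fun j hj1 hjs => hmin j hj1 (by omega))
    (by rw [hs] at hr0; exact_mod_cast hr0)
  rw [hs]
  exact key

/-- If `n • P = 0` (`n ≥ 1`), then some division polynomial `ψ_r`, `2 ≤ r ≤ n`, vanishes at `P`,
and for the least such `r` we have `r • P = 0`. -/
theorem exists_psi_eq_zero (hW : IsLeg W) {x y : K} (h : W.toAffine.Nonsingular x y) {n : ℕ}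
    (hn : 1 ≤ n) (hP : n • Point.some x y h = 0) :
    ∃ r : ℕ, 2 ≤ r ∧ r ≤ n ∧ psi W x y r = 0 ∧ r • Point.some x y h = 0 := by
  by_contra hcon
  have hall : ∀ j : ℕ, 1 ≤ j → j ≤ n → psi W x y j ≠ 0 := by
    intro j hj1 hjn e
    obtain ⟨r, hr2, hrj, hr0, hrP⟩ := exists_nsmul_eq_zero_of_psi hW h hj1 e
    exact hcon ⟨r, hr2, hrj.trans hjn, hr0, hrP⟩
  obtain ⟨xn, yn, h', e, -⟩ := claimA hW h hn hall
  rw [e] at hP
  exact Point.some_ne_zero h' hP

/-- **N2**: the `x`-coordinate of a point of prime order `p` is a root of Mathlib's univariate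
division polynomial `W.preΨ p` (`p` odd). -/
theorem eval_preΨ_eq_zero (hW : IsLeg W) {x y : K} (h : W.toAffine.Nonsingular x y) {p : ℕ}
    (hp : p.Prime) (hp2 : p ≠ 2) (hP : p • Point.some x y h = 0) :
    (W.preΨ (p : ℤ)).eval x = 0 := by
  obtain ⟨r, hr2, hrp, hr0, hrP⟩ := exists_psi_eq_zero hW h hp.one_le hP
  have hord : addOrderOf (Point.some x y h) = p := by
    rcases (Nat.dvd_prime hp).mp (addOrderOf_dvd_of_nsmul_eq_zero hP) with h1 | h1
    · exact absurd (AddMonoid.addOrderOf_eq_one_iff.mp h1) (Point.some_ne_zero h)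
    · exact h1
  have hdvd : p ∣ r := hord ▸ addOrderOf_dvd_of_nsmul_eq_zero hrP
  have hrp' : r = p := le_antisymm hrp (Nat.le_of_dvd (by omega) hdvd)
  rw [hrp', psi_of_equation h.1] at hr0
  have hodd : ¬ Even (p : ℤ) := by
    rw [Int.even_coe_nat]
    exact fun he => hp2 ((Nat.Prime.even_iff hp).mp he)
  rwa [if_neg hodd, mul_one] at hr0

/-- Converse direction for odd `n`: a point whose `x`-coordinate is a root of `W.preΨ n` is killed
by some `2 ≤ r ≤ n`. -/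
theorem exists_nsmul_eq_zero_of_eval_preΨ (hW : IsLeg W) {x y : K}
    (h : W.toAffine.Nonsingular x y) {n : ℕ} (hn : Odd n) (h0 : (W.preΨ (n : ℤ)).eval x = 0) :
    ∃ r : ℕ, 2 ≤ r ∧ r ≤ n ∧ r • Point.some x y h = 0 := by
  have hpsi : psi W x y n = 0 := by
    rw [psi_of_equation h.1, h0, zero_mul]
  obtain ⟨r, hr2, hrn, -, hrP⟩ := exists_nsmul_eq_zero_of_psi hW h hn.pos hpsi
  exact ⟨r, hr2, hrn, hrP⟩

end Ind

end Fermat.Agent.S13.DPInd
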