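/-
S13, route DP, piece A-W2: the value at `0` of the univariate division polynomials `preΨₙ`
of a Weierstrass curve with `a₃ = a₆ = 0` (no hypothesis on `a₁`, `a₂`):

  `preΨ_{2m+1}(0) = (-1)^m a₄^(m(m+1))`,   `preΨ_{2m}(0) = (-1)^(m+1) m a₄^(m²-1)`.

Pure Mathlib: an induction on the defining recursion of `preNormEDS'` with extra parameter
`b = Ψ₂Sq(0)² = 0`, `c = Ψ₃(0) = -a₄²`, `d = preΨ₄(0) = -2a₄³`.
-/
import Mathlib.AlgebraicGeometry.EllipticCurve.DivisionPolynomial.Degree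

namespace Fermat.Agent.S13.DPZero

open Polynomial

variable {R : Type*} [CommRing R]

/-- The closed form of `preNormEDS' 0 (-a²) (-2a³)` at odd indices `2k+1`. -/
def oddVal (a : R) (k : ℕ) : R := (-1) ^ k * a ^ (k * (k + 1))

/-- The closed form of `preNormEDS' 0 (-a²) (-2a³)` at even indices `2k+2`. -/
def evenVal (a : R) (k : ℕ) : R := (-1) ^ k * ((k : R) + 1) * a ^ (k * (k + 2))

private lemma sgn_two_mul_add_two (j : ℕ) : (-1 : R) ^ (2 * j + 2) = 1 := by
  rw [pow_add, pow_mul]; simp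

private lemma sgn_two_mul_add_three (j : ℕ) : (-1 : R) ^ (2 * j + 3) = -1 := by
  rw [show 2 * j + 3 = (2 * j + 2) + 1 by ring, pow_succ, sgn_two_mul_add_two]; simp

private lemma sgn_add_one (j : ℕ) : (-1 : R) ^ (j + 1) = -(-1) ^ j := by
  rw [pow_succ]; ring

private lemma sgn_add_two (j : ℕ) : (-1 : R) ^ (j + 2) = (-1) ^ j := by
  rw [pow_add]; simp

/-- odd step, `m = 2j`. -/
private lemma step_odd_even (a : R) (j k : ℕ) (hk : k = 2 * j + 2) :
    oddVal a k = -(oddVal a j * oddVal a (j + 1) ^ 3) := by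
  subst hk
  simp only [oddVal, sgn_two_mul_add_two, sgn_add_one]
  rcases neg_one_pow_eq_or R j with h | h <;> rw [h] <;> ring

/-- odd step, `m = 2j+1`. -/
private lemma step_odd_odd (a : R) (j k : ℕ) (hk : k = 2 * j + 3) :
    oddVal a k = oddVal a (j + 2) * oddVal a (j + 1) ^ 3 := by
  subst hk
  simp only [oddVal, sgn_two_mul_add_three, sgn_add_one]
  rcases neg_one_pow_eq_or R j with h | h <;> rw [h] <;> ring

/-- even step, `m = 2j`. -/
private lemma step_even_even (a : R) (j k : ℕ) (hk : k = 2 * j + 2) :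
    evenVal a k =
      evenVal a j ^ 2 * oddVal a (j + 1) * oddVal a (j + 2) -
        oddVal a j * oddVal a (j + 1) * evenVal a (j + 1) ^ 2 := by
  subst hk
  simp only [oddVal, evenVal, sgn_two_mul_add_two, sgn_add_one]
  push_cast
  rcases neg_one_pow_eq_or R j with h | h <;> rw [h] <;> ring

/-- even step, `m = 2j+1`. -/
private lemma step_even_odd (a : R) (j k : ℕ) (hk : k = 2 * j + 3) :
    evenVal a k =
      oddVal a (j + 1) ^ 2 * evenVal a (j + 1) * evenVal a (j + 2) -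
        evenVal a j * evenVal a (j + 1) * oddVal a (j + 2) ^ 2 := by
  subst hk
  simp only [oddVal, evenVal, sgn_two_mul_add_three, sgn_add_one]
  push_cast
  rcases neg_one_pow_eq_or R j with h | h <;> rw [h] <;> ring

/-- The auxiliary sequence with parameters `b = 0`, `c = -a²`, `d = -2a³` in closed form. -/
theorem preNormEDS'_closed (a : R) (n : ℕ) :
    (∀ k : ℕ, n = 2 * k + 1 → preNormEDS' 0 (-a ^ 2) (-2 * a ^ 3) n = oddVal a k) ∧
    (∀ k : ℕ, n = 2 * k + 2 → preNormEDS' 0 (-a ^ 2) (-2 * a ^ 3) n = evenVal a k) := by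
  induction n using Nat.strong_induction_on with
  | _ n ih =>
    have hO : ∀ i k : ℕ, i = 2 * k + 1 → i < n →
        preNormEDS' 0 (-a ^ 2) (-2 * a ^ 3) i = oddVal a k :=
      fun i k hi hk => (ih _ hk).1 k hi
    have hE : ∀ i k : ℕ, i = 2 * k + 2 → i < n →
        preNormEDS' 0 (-a ^ 2) (-2 * a ^ 3) i = evenVal a k :=
      fun i k hi hk => (ih _ hk).2 k hi
    refine ⟨fun k hk => ?_, fun k hk => ?_⟩
    · subst hk
      rcases k with _ | _ | m
      · simp [oddVal]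
      · simp [oddVal]
      · rw [show 2 * (m + 1 + 1) + 1 = 2 * (m + 2) + 1 by ring, preNormEDS'_odd]
        rcases Nat.even_or_odd' m with ⟨j, rfl | rfl⟩
        · rw [if_pos (even_two_mul j), if_pos (even_two_mul j), mul_zero, mul_one, zero_sub,
            hO (2 * j + 1) j rfl (by omega), hO (2 * j + 3) (j + 1) (by omega) (by omega)]
          exact (step_odd_even a j _ (by omega)).symm
        · rw [if_neg (Nat.not_even_two_mul_add_one j), if_neg (Nat.not_even_two_mul_add_one j),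
            mul_zero, mul_one, sub_zero,
            hO (2 * j + 1 + 4) (j + 2) (by omega) (by omega),
            hO (2 * j + 1 + 2) (j + 1) (by omega) (by omega)]
          exact (step_odd_odd a j _ (by omega)).symm
    · subst hk
      rcases k with _ | _ | m
      · simp [evenVal]
      · simp [evenVal]; ring
      · rw [show 2 * (m + 1 + 1) + 2 = 2 * (m + 3) by ring, preNormEDS'_even]
        rcases Nat.even_or_odd' m with ⟨j, rfl | rfl⟩
        · rw [hO (2 * j + 1) j rfl (by omega), hO (2 * j + 3) (j + 1) (by omega) (by omega),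
            hO (2 * j + 5) (j + 2) (by omega) (by omega),
            hE (2 * j + 2) j rfl (by omega), hE (2 * j + 4) (j + 1) (by omega) (by omega)]
          exact (step_even_even a j _ (by omega)).symm
        · rw [hO (2 * j + 1 + 2) (j + 1) (by omega) (by omega),
            hO (2 * j + 1 + 4) (j + 2) (by omega) (by omega),
            hE (2 * j + 1 + 1) j (by omega) (by omega),
            hE (2 * j + 1 + 3) (j + 1) (by omega) (by omega),
            hE (2 * j + 1 + 5) (j + 2) (by omega) (by omega)]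
          exact (step_even_odd a j _ (by omega)).symm

theorem preNormEDS'_odd_closed (a : R) (k : ℕ) :
    preNormEDS' 0 (-a ^ 2) (-2 * a ^ 3) (2 * k + 1) = (-1) ^ k * a ^ (k * (k + 1)) :=
  (preNormEDS'_closed a _).1 k rfl

theorem preNormEDS'_even_closed (a : R) (k : ℕ) :
    preNormEDS' 0 (-a ^ 2) (-2 * a ^ 3) (2 * k + 2) =
      (-1) ^ k * ((k : R) + 1) * a ^ (k * (k + 2)) :=
  (preNormEDS'_closed a _).2 k rfl

variable (W : WeierstrassCurve R)

/-- Evaluating `preΨ'ₙ` at `0` gives the auxiliary sequence with the evaluated parameters. -/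
theorem eval_zero_preΨ' (n : ℕ) :
    (W.preΨ' n).eval 0 =
      preNormEDS' (W.b₆ ^ 2) W.b₈ (W.b₄ * W.b₈ - W.b₆ ^ 2) n := by
  have h := map_preNormEDS' (evalRingHom (0 : R)) (W.Ψ₂Sq ^ 2) W.Ψ₃ W.preΨ₄ n
  simp only [coe_evalRingHom] at h
  rw [WeierstrassCurve.preΨ', h]
  congr 1
  · simp [WeierstrassCurve.Ψ₂Sq]
  · simp [WeierstrassCurve.Ψ₃]
  · simp [WeierstrassCurve.preΨ₄]

variable {W}

theorem preΨ'_eval_zero_odd (h3 : W.a₃ = 0) (h6 : W.a₆ = 0) (m : ℕ) :
    (W.preΨ' (2 * m + 1)).eval 0 = (-1) ^ m * W.a₄ ^ (m * (m + 1)) := by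
  rw [eval_zero_preΨ', ← preNormEDS'_odd_closed]
  congr 1
  · simp [WeierstrassCurve.b₆, h3, h6]
  · simp [WeierstrassCurve.b₈, h3, h6]
  · simp [WeierstrassCurve.b₈, WeierstrassCurve.b₆, WeierstrassCurve.b₄, h3, h6]; ring

theorem preΨ'_eval_zero_even (h3 : W.a₃ = 0) (h6 : W.a₆ = 0) (m : ℕ) :
    (W.preΨ' (2 * m + 2)).eval 0 = (-1) ^ m * ((m : R) + 1) * W.a₄ ^ (m * (m + 2)) := by
  rw [eval_zero_preΨ', ← preNormEDS'_even_closed]
  congr 1
  · simp [WeierstrassCurve.b₆, h3, h6]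
  · simp [WeierstrassCurve.b₈, h3, h6]
  · simp [WeierstrassCurve.b₈, WeierstrassCurve.b₆, WeierstrassCurve.b₄, h3, h6]; ring

/-- `preΨ_{2m+1}(0) = (-1)^m a₄^(m(m+1))` for a curve with `a₃ = a₆ = 0`. -/
theorem preΨ_eval_zero_odd (h3 : W.a₃ = 0) (h6 : W.a₆ = 0) (m : ℕ) :
    (W.preΨ (2 * m + 1 : ℤ)).eval 0 = (-1) ^ m * W.a₄ ^ (m * (m + 1)) := by
  have : (2 * m + 1 : ℤ) = ((2 * m + 1 : ℕ) : ℤ) := by push_cast; ring
  rw [this, WeierstrassCurve.preΨ_ofNat, preΨ'_eval_zero_odd h3 h6]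

/-- `preΨ_{2m}(0) = (-1)^(m+1) m a₄^(m²-1)` for a curve with `a₃ = a₆ = 0`. -/
theorem preΨ_eval_zero_even (h3 : W.a₃ = 0) (h6 : W.a₆ = 0) (m : ℕ) :
    (W.preΨ (2 * m : ℤ)).eval 0 = (-1) ^ (m + 1) * m * W.a₄ ^ (m ^ 2 - 1) := by
  rcases m with _ | m
  · simp
  · have : (2 * ((m + 1 : ℕ) : ℤ)) = ((2 * m + 2 : ℕ) : ℤ) := by push_cast; ring
    rw [this, WeierstrassCurve.preΨ_ofNat, preΨ'_eval_zero_even h3 h6,
      show (m + 1) ^ 2 - 1 = m * (m + 2) by
        rw [show (m + 1) ^ 2 = m * (m + 2) + 1 by ring, Nat.add_sub_cancel]]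
    push_cast
    rw [pow_add, pow_add]
    ring

/-- The constant coefficient of `preΨₙ` for odd `n`, for a curve with `a₃ = a₆ = 0`. -/
theorem preΨ_coeff_zero_of_odd (h3 : W.a₃ = 0) (h6 : W.a₆ = 0) {n : ℕ} (hn : Odd n) :
    (W.preΨ (n : ℤ)).coeff 0 = (-1) ^ (n / 2) * W.a₄ ^ ((n ^ 2 - 1) / 4) := by
  obtain ⟨m, rfl⟩ := hn
  rw [coeff_zero_eq_eval_zero, WeierstrassCurve.preΨ_ofNat, preΨ'_eval_zero_odd h3 h6]
  have h1 : (2 * m + 1) / 2 = m := by omega
  have h2 : ((2 * m + 1) ^ 2 - 1) / 4 = m * (m + 1) := by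
    rw [show (2 * m + 1) ^ 2 = 4 * (m * (m + 1)) + 1 by ring, Nat.add_sub_cancel,
      Nat.mul_div_cancel_left _ (by norm_num)]
  rw [h1, h2]

/-- If `a₄` is a unit (and `a₃ = a₆ = 0`), the constant coefficient of `preΨₙ`, `n` odd, is a
unit. -/
theorem isUnit_preΨ_coeff_zero_of_odd (h3 : W.a₃ = 0) (h6 : W.a₆ = 0) (h4 : IsUnit W.a₄)
    {n : ℕ} (hn : Odd n) : IsUnit ((W.preΨ (n : ℤ)).coeff 0) := by
  rw [preΨ_coeff_zero_of_odd h3 h6 hn]
  exact (isUnit_one.neg.pow _).mul (h4.pow _)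

end Fermat.Agent.S13.DPZero
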