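/-
S13, route DP, piece A-NZ: existence of a point of exact order `p` in the kernel of reduction.

`K` algebraically closed of characteristic `0`, `v` a valuation on `K` with `v p < 1`, `W` a
Weierstrass curve over `K` with `v`-integral coefficients, `a₃ = a₆ = 0` and `a₄` a `v`-unit
(no hypothesis on the discriminant: points with non-integral `x` are automatically nonsingular).
Then the univariate division polynomial `preΨ_p = p X^d + ⋯ ± a₄^((p²-1)/4)` has a root `α` with
`1 < v α`; the point `Q = (α, y)` is in the kernel of reduction and satisfies `ψ_p(Q) = 0`, hence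
is killed by some `2 ≤ r ≤ p` (CLAIM B, taken as a hypothesis `hB`); the kernel of reduction has
no torsion prime to `p`, so `r = p`.
-/
import Mathlib
import Fermat.Prelude.Def_FLTPrelim_Ramification
import Fermat.Agent.S05.Kernel
import Fermat.Agent.S13.DPZero

namespace Fermat.Agent.S13.DPNZ

open Polynomial WeierstrassCurve WeierstrassCurve.Affine
open scoped Polynomial.Bivariate

/-! ### Evaluating `ψₙ` at a point of the curve -/

section Bridge

variable {R : Type*} [CommRing R] (W : WeierstrassCurve R)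

/-- Two bivariate polynomials with the same class in the coordinate ring take the same value at
every point of the curve. -/
theorem evalEval_eq_of_mk_eq {x y : R} (h : W.toAffine.Equation x y) {f g : R[X][Y]}
    (hfg : Affine.CoordinateRing.mk W.toAffine f = Affine.CoordinateRing.mk W.toAffine g) :
    f.evalEval x y = g.evalEval x y := by
  have hd : W.toAffine.polynomial ∣ f - g := AdjoinRoot.mk_eq_mk.mp hfg
  have h0 := evalEval_dvd x y hd
  rw [show W.toAffine.polynomial.evalEval x y = 0 from h, zero_dvd_iff, evalEval_sub,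
    sub_eq_zero] at h0
  exact h0

/-- The value of the `n`-division polynomial `ψₙ` at a point of the curve, in terms of the
univariate polynomial `preΨₙ`. -/
theorem evalEval_ψ {x y : R} (h : W.toAffine.Equation x y) (n : ℤ) :
    (W.ψ n).evalEval x y =
      (W.preΨ n).eval x * (if Even n then W.ψ₂.evalEval x y else 1) := by
  rw [evalEval_eq_of_mk_eq W h (Affine.CoordinateRing.mk_ψ W n), WeierstrassCurve.Ψ,
    evalEval_mul, evalEval_C]
  split_ifs <;> simp

/-- For odd `n`, `ψₙ(x, y) = preΨₙ(x)` at a point of the curve. -/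
theorem evalEval_ψ_of_odd {x y : R} (h : W.toAffine.Equation x y) {n : ℤ} (hn : Odd n) :
    (W.ψ n).evalEval x y = (W.preΨ n).eval x := by
  rw [evalEval_ψ W h, if_neg (Int.not_even_iff_odd.mpr hn), mul_one]

end Bridge

/-! ### Valuation bookkeeping -/

section Val

variable {K : Type*} [Field K] {Γ₀ : Type*} [LinearOrderedCommGroupWithZero Γ₀]
  (v : Valuation K Γ₀)

theorem val_intCast_le_one (n : ℤ) : v (n : K) ≤ 1 := by
  rcases Int.natAbs_eq n with h | h
  · rw [h, Int.cast_natCast]
    exact S05.Kernel.val_natCast_le_one _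
  · rw [h, Int.cast_neg, Int.cast_natCast, Valuation.map_neg]
    exact S05.Kernel.val_natCast_le_one _

/-- A natural number prime to `p` is a `v`-unit as soon as `v p < 1`. -/
theorem val_natCast_eq_one_of_coprime {p : ℕ} (hvp : v (p : K) < 1) {r : ℕ}
    (hr : Nat.Coprime r p) : v (r : K) = 1 := by
  refine le_antisymm (by simpa using val_intCast_le_one v (r : ℤ)) ?_
  by_contra hlt
  rw [not_le] at hlt
  have hbez : ((r : ℤ) * Nat.gcdA r p + (p : ℤ) * Nat.gcdB r p : ℤ) = 1 := by
    have := Nat.gcd_eq_gcd_ab r p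
    rw [hr] at this
    simpa using this.symm
  have hK : ((r : K) * (Nat.gcdA r p : K) + (p : K) * (Nat.gcdB r p : K)) = 1 := by
    exact_mod_cast congrArg (Int.cast : ℤ → K) hbez
  have h1 : v ((r : K) * (Nat.gcdA r p : K)) < 1 := by
    rw [map_mul]
    exact lt_of_le_of_lt (mul_le_of_le_one_right' (val_intCast_le_one v _)) hlt
  have h2 : v ((p : K) * (Nat.gcdB r p : K)) < 1 := by
    rw [map_mul]
    exact lt_of_le_of_lt (mul_le_of_le_one_right' (val_intCast_le_one v _)) hvp
  have h3 : v (1 : K) < 1 := by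
    rw [← hK]
    exact lt_of_le_of_lt (v.map_add _ _) (max_lt h1 h2)
  simp at h3

/-- If all elements of a multiset are `v`-integral, so is their product. -/
theorem val_multiset_prod_le_one (s : Multiset K) (hs : ∀ a ∈ s, v a ≤ 1) : v s.prod ≤ 1 := by
  induction s using Multiset.induction_on with
  | empty => simp
  | cons a s ih =>
    rw [Multiset.prod_cons, map_mul]
    exact mul_le_one' (hs a (Multiset.mem_cons_self a s))
      (ih fun b hb => hs b (Multiset.mem_cons_of_mem hb))

/-- A split polynomial whose constant coefficient is a `v`-unit while its leading coefficient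
is not has a root which is not `v`-integral. -/
theorem exists_root_val_gt_one {f : K[X]} (hf : f.Splits) (h0 : v (f.coeff 0) = 1)
    (hlc : v f.leadingCoeff < 1) : ∃ α : K, f.eval α = 0 ∧ 1 < v α := by
  by_contra hcon
  have hcon : ∀ α : K, f.eval α = 0 → v α ≤ 1 := fun α hα =>
    not_lt.mp fun hlt => hcon ⟨α, hα, hlt⟩
  have hne : f ≠ 0 := by
    rintro rfl
    simp at h0
  have hroots : ∀ a ∈ f.roots, v a ≤ 1 := fun a ha => hcon a ((mem_roots hne).mp ha)
  have hprod := val_multiset_prod_le_one v f.roots hroots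
  have h1 : v (f.coeff 0) < 1 := by
    rw [hf.coeff_zero_eq_leadingCoeff_mul_prod_roots, map_mul, map_mul, map_pow,
      Valuation.map_neg, map_one, one_pow, one_mul]
    exact lt_of_le_of_lt (mul_le_of_le_one_right' hprod) hlc
  rw [h0] at h1
  exact lt_irrefl _ h1

end Val

/-! ### The point of order `p` -/

section Main

variable {K : Type*} [Field K] [DecidableEq K] [CharZero K] [IsAlgClosed K]
  {Γ₀ : Type*} [LinearOrderedCommGroupWithZero Γ₀] (v : Valuation K Γ₀)
  (W : WeierstrassCurve K)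

omit [DecidableEq K] [CharZero K] in
/-- Over an algebraically closed field, every `x` is the `x`-coordinate of a solution of the
Weierstrass equation. -/
theorem exists_equation (α : K) : ∃ y : K, W.toAffine.Equation α y := by
  let g : K[X] := X ^ 2 + C (W.a₁ * α + W.a₃) * X - C (α ^ 3 + W.a₂ * α ^ 2 + W.a₄ * α + W.a₆)
  have hdeg : g.degree = 2 := by
    have : g = X ^ 2 + (C (W.a₁ * α + W.a₃) * X + C (-(α ^ 3 + W.a₂ * α ^ 2 + W.a₄ * α + W.a₆))) := by
      simp only [g, map_neg]; ring
    rw [this]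
    compute_degree!
  obtain ⟨y, hy⟩ := IsAlgClosed.exists_root g (by rw [hdeg]; norm_num)
  refine ⟨y, ?_⟩
  rw [Affine.equation_iff]
  have hy' : y ^ 2 + (W.a₁ * α + W.a₃) * y - (α ^ 3 + W.a₂ * α ^ 2 + W.a₄ * α + W.a₆) = 0 := by
    simpa [g, IsRoot] using hy
  linear_combination hy'

omit [DecidableEq K] [CharZero K] in
/-- Over an algebraically closed field, every `x` is the `x`-coordinate of a point of an
elliptic curve. -/
theorem exists_nonsingular [W.IsElliptic] (α : K) : ∃ y : K, W.toAffine.Nonsingular α y := by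
  obtain ⟨y, hy⟩ := exists_equation W α
  exact ⟨y, (Affine.equation_iff_nonsingular (W := W.toAffine)).mp hy⟩

omit [DecidableEq K] [CharZero K] [IsAlgClosed K] in
variable {v W} in
/-- On a curve with `v`-integral coefficients, a solution of the Weierstrass equation with
non-integral `x` is a nonsingular point as soon as `2` is a `v`-unit (no hypothesis on the
discriminant). -/
theorem nonsingular_of_val_gt_one (hW : S05.Kernel.Integral v W) (h2 : v (2 : K) = 1) {x y : K}
    (h : W.toAffine.Equation x y) (hx : 1 < v x) : W.toAffine.Nonsingular x y := by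
  rw [Affine.nonsingular_iff]
  refine ⟨h, Or.inr fun hy => ?_⟩
  have hxy := S05.Kernel.val_x_lt_val_y hW h hx
  have e : 2 * y = -(W.a₁ * x + W.a₃) := by linear_combination hy
  have h1 : v (2 * y) = v y := by rw [map_mul, h2, one_mul]
  have h3 : v (2 * y) ≤ v x := by
    rw [e, Valuation.map_neg]
    refine (v.map_add _ _).trans (max_le ?_ (hW.2.2.1.trans hx.le))
    rw [map_mul]
    exact mul_le_of_le_one_left' hW.1
  rw [h1] at h3
  exact absurd hxy (not_lt.mpr h3)

/-- **A-NZ.** A point of exact order `p` in the kernel of reduction (CLAIM B as hypothesis `hB`).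
-/
theorem exists_point_of_order (h3 : W.a₃ = 0) (h6 : W.a₆ = 0) (hW : S05.Kernel.Integral v W)
    (h4 : v W.a₄ = 1) {p : ℕ} (hp : p.Prime) (hp2 : p ≠ 2) (hvp : v (p : K) < 1)
    (hB : ∀ (x y : K) (h : W.toAffine.Nonsingular x y) (n : ℕ), 1 ≤ n →
      (∀ j : ℕ, 1 ≤ j → j ≤ n → (W.ψ (j : ℤ)).evalEval x y ≠ 0) →
      (W.ψ ((n : ℤ) + 1)).evalEval x y = 0 → (n + 1) • Point.some x y h = 0) :
    ∃ (x y : K) (h : W.toAffine.Nonsingular x y), 1 < v x ∧ p • Point.some x y h = 0 := by
  have hodd : Odd p := hp.odd_of_ne_two hp2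
  have hpK : ((p : ℤ) : K) ≠ 0 := by
    simpa using hp.ne_zero
  -- the root
  have hlc : (W.preΨ (p : ℤ)).leadingCoeff = (p : K) := by
    rw [W.leadingCoeff_preΨ hpK, if_neg (by simpa using hodd)]
    simp
  have hc0 : v ((W.preΨ (p : ℤ)).coeff 0) = 1 := by
    rw [DPZero.preΨ_coeff_zero_of_odd h3 h6 hodd, map_mul, map_pow, map_pow, Valuation.map_neg,
      map_one, one_pow, one_mul, h4, one_pow]
  obtain ⟨α, hα, hvα⟩ := exists_root_val_gt_one v (IsAlgClosed.splits (W.preΨ (p : ℤ))) hc0
    (by rw [hlc]; exact hvp)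
  obtain ⟨y, hy0⟩ := exists_equation W α
  have hv2 : v (2 : K) = 1 := by
    have := val_natCast_eq_one_of_coprime v hvp
      ((Nat.coprime_primes Nat.prime_two hp).mpr (Ne.symm hp2))
    simpa using this
  have hy : W.toAffine.Nonsingular α y := nonsingular_of_val_gt_one hW hv2 hy0 hvα
  refine ⟨α, y, hy, hvα, ?_⟩
  -- `ψ_p` vanishes at the point
  have hψp : (W.ψ (p : ℤ)).evalEval α y = 0 := by
    rw [evalEval_ψ_of_odd W hy.1 (by simpa using hodd), hα]
  -- the least zero of `j ↦ ψ_j`
  have hex : ∃ j : ℕ, 1 ≤ j ∧ (W.ψ (j : ℤ)).evalEval α y = 0 := ⟨p, hp.one_le, hψp⟩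
  classical
  set r := Nat.find hex with hr
  obtain ⟨hr1, hr0⟩ := Nat.find_spec hex
  have hrp : r ≤ p := Nat.find_min' hex ⟨hp.one_le, hψp⟩
  have hr2 : 2 ≤ r := by
    rcases Nat.lt_or_ge r 2 with h | h
    · have : r = 1 := by omega
      rw [← hr, this] at hr0
      simp at hr0
    · exact h
  have hmin : ∀ j : ℕ, 1 ≤ j → j ≤ r - 1 → (W.ψ (j : ℤ)).evalEval α y ≠ 0 := by
    intro j hj1 hj2 hj0
    have := Nat.find_min' hex ⟨hj1, hj0⟩
    omega
  have hrQ : r • Point.some α y hy = 0 := by
    have h := hB α y hy (r - 1) (by omega) hmin (by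
      have e : ((r - 1 : ℕ) : ℤ) + 1 = (r : ℤ) := by
        rw [Nat.cast_sub (by omega)]; simp
      rw [e]; exact hr0)
    rwa [Nat.sub_add_cancel (by omega)] at h
  -- `r = p`
  rcases Nat.lt_or_ge r p with hlt | hge
  · exfalso
    have hcop : Nat.Coprime r p :=
      (Nat.coprime_of_lt_prime (by omega) hlt hp).symm
    exact S05.Kernel.no_torsion_of_val_gt_one v W.toAffine hW.1 hW.2.1 hW.2.2.1 hW.2.2.2.1
      hW.2.2.2.2 r (val_natCast_eq_one_of_coprime v hvp hcop) hy hvα hrQ
  · have : r = p := le_antisymm hrp hge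
    rwa [this] at hrQ

end Main

/-! ### The valuation-subring form -/

section AForm

open ValuationSubring

/-- CLAIM B, in the shape consumed by `exists_point_of_order`. -/
def ClaimB {K : Type*} [Field K] [DecidableEq K] (W : WeierstrassCurve K) : Prop :=
  ∀ (x y : K) (h : W.toAffine.Nonsingular x y) (n : ℕ), 1 ≤ n →
    (∀ j : ℕ, 1 ≤ j → j ≤ n → (W.ψ (j : ℤ)).evalEval x y ≠ 0) →
    (W.ψ ((n : ℤ) + 1)).evalEval x y = 0 → (n + 1) • Point.some x y h = 0

variable {L : Type*} [Field L] [DecidableEq L] [Algebra ℚ L] [IsAlgClosed L]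

/-- **A-NZ, valuation-subring form.** `WL` a Weierstrass curve over `ℚ` with `a₃ = a₆ = 0`, whose
coefficients are integral at the valuation subring `A` of `L` over the odd prime `p` and whose
`a₄` is a unit of `A`: there is a point of exact order `p` with `x`-coordinate outside `A`. -/
theorem exists_point_not_mem (WL : WeierstrassCurve ℚ) (h3 : WL.a₃ = 0)
    (h6 : WL.a₆ = 0) (A : ValuationSubring L) {p : ℕ} (hp : p.Prime) (hp2 : p ≠ 2)
    (hA : A.LiesOverPrime p) (ha1 : algebraMap ℚ L WL.a₁ ∈ A) (ha2 : algebraMap ℚ L WL.a₂ ∈ A)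
    (ha4 : algebraMap ℚ L WL.a₄ ∈ A) (ha4' : algebraMap ℚ L WL.a₄ ∉ A.nonunits)
    (hB : ClaimB (WL.baseChange L)) :
    ∃ (x y : L) (h : (WL⁄L).Nonsingular x y), x ∉ A ∧ (p : ℤ) • Point.some x y h = 0 := by
  have : CharZero L := algebraRat.charZero L
  have hv : ∀ z : L, z ∈ A ↔ A.valuation z ≤ 1 := fun z => (A.valuation_le_one_iff z).symm
  have hW : S05.Kernel.Integral A.valuation (WL.baseChange L) := by
    refine ⟨(hv _).mp ha1, (hv _).mp ha2, ?_, (hv _).mp ha4, ?_⟩
    · change A.valuation (algebraMap ℚ L WL.a₃) ≤ 1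
      rw [h3, map_zero, map_zero]; exact zero_le_one
    · change A.valuation (algebraMap ℚ L WL.a₆) ≤ 1
      rw [h6, map_zero, map_zero]; exact zero_le_one
  have h4 : A.valuation (WL.baseChange L).a₄ = 1 := by
    change A.valuation (algebraMap ℚ L WL.a₄) = 1
    refine le_antisymm ((hv _).mp ha4) (not_lt.mp fun hlt => ha4' ?_)
    exact A.mem_nonunits_iff.mpr hlt
  have hvp : A.valuation (p : L) < 1 := A.mem_nonunits_iff.mp hA
  obtain ⟨x, y, h, hx, hpQ⟩ := exists_point_of_order A.valuation (WL.baseChange L)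
    (show (WL.baseChange L).a₃ = 0 by
      change algebraMap ℚ L WL.a₃ = 0; rw [h3, map_zero])
    (show (WL.baseChange L).a₆ = 0 by
      change algebraMap ℚ L WL.a₆ = 0; rw [h6, map_zero])
    hW h4 hp hp2 hvp hB
  refine ⟨x, y, h, fun hxA => ?_, ?_⟩
  · exact absurd ((hv x).mp hxA) (not_le.mpr hx)
  · rw [natCast_zsmul]; exact hpQ

/-- **A-NZ**: the `p`-torsion of such a curve is nontrivial. -/
theorem nontrivial_torsionBy (WL : WeierstrassCurve ℚ) (h3 : WL.a₃ = 0)
    (h6 : WL.a₆ = 0) (A : ValuationSubring L) {p : ℕ} (hp : p.Prime) (hp2 : p ≠ 2)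
    (hA : A.LiesOverPrime p) (ha1 : algebraMap ℚ L WL.a₁ ∈ A) (ha2 : algebraMap ℚ L WL.a₂ ∈ A)
    (ha4 : algebraMap ℚ L WL.a₄ ∈ A) (ha4' : algebraMap ℚ L WL.a₄ ∉ A.nonunits)
    (hB : ClaimB (WL.baseChange L)) :
    Nontrivial (Submodule.torsionBy ℤ (WL⁄L).Point p) := by
  obtain ⟨x, y, h, -, hpQ⟩ :=
    exists_point_not_mem WL h3 h6 A hp hp2 hA ha1 ha2 ha4 ha4' hB
  refine ⟨⟨⟨Point.some x y h, ?_⟩, 0, ?_⟩⟩
  · rw [Submodule.mem_torsionBy_iff]; exact hpQ
  · intro h0
    have := congrArg Subtype.val h0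
    exact absurd this (by simp)

end AForm

end Fermat.Agent.S13.DPNZ
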