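import Mathlib
import Fermat.Prelude.Def_FLTPrelim_GaloisRep
import Fermat.Agent.S13.DPZero

/-!
# S13, piece DP / A-TORS and the Legendre-side `(Xp)`

* `finite_card_le` : if every affine point killed by the odd number `p` has its `x`-coordinate
  among the roots of `preΨ_p`, then `E[p]` is finite of cardinality at most `p ^ 2`;
* `preΨ_eq_prod` : if moreover `#E[p] = p ^ 2` then `preΨ_p = p ∏ (X - x_P)`, the product over
  the `x`-coordinates of the nonzero `p`-torsion points.
-/

set_option autoImplicit false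
set_option linter.unusedSectionVars false

namespace Fermat.Agent.S13.DPTors

open WeierstrassCurve WeierstrassCurve.Affine Polynomial

section Count

variable {K : Type*} [Field K] [DecidableEq K] (W : WeierstrassCurve K)

/-- the coordinates of a point -/
def coords : W.toAffine.Point → Option (K × K)
  | .zero => none
  | .some x y _ => some (x, y)

theorem coords_injective : Function.Injective (coords W) := by
  rintro (_ | ⟨x₁, y₁, h₁⟩) (_ | ⟨x₂, y₂, h₂⟩) h
  · rfl
  · simp [coords] at h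
  · simp [coords] at h
  · simp only [coords, Option.some.injEq, Prod.mk.injEq] at h
    obtain ⟨rfl, rfl⟩ := h
    rfl

/-- the quadratic satisfied by the `y`-coordinates of the points above `x` -/
noncomputable def yPoly (x : K) : K[X] :=
  X ^ 2 + C (W.a₁ * x + W.a₃) * X - C (x ^ 3 + W.a₂ * x ^ 2 + W.a₄ * x + W.a₆)

theorem natDegree_yPoly (x : K) : (yPoly W x).natDegree = 2 := by
  unfold yPoly
  compute_degree!

theorem yPoly_ne_zero (x : K) : yPoly W x ≠ 0 := by
  intro h
  have := natDegree_yPoly W x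
  rw [h, natDegree_zero] at this
  exact absurd this (by norm_num)

theorem yPoly_eval_eq_zero {x y : K} (h : W.toAffine.Equation x y) : (yPoly W x).eval y = 0 := by
  rw [Affine.equation_iff] at h
  simp only [yPoly, eval_sub, eval_add, eval_pow, eval_X, eval_mul, eval_C]
  linear_combination h

/-- the finite set of candidate coordinates of points with `x`-coordinate in `s` -/
noncomputable def ptSet (s : Finset K) : Finset (Option (K × K)) :=
  Finset.insertNone (s.biUnion fun x => (yPoly W x).roots.toFinset.image fun y => (x, y))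

theorem card_ptSet_le (s : Finset K) : (ptSet W s).card ≤ 2 * s.card + 1 := by
  unfold ptSet
  rw [Finset.card_insertNone]
  have h1 : (s.biUnion fun x => (yPoly W x).roots.toFinset.image fun y => (x, y)).card
      ≤ ∑ x ∈ s, 2 := by
    refine Finset.card_biUnion_le.trans (Finset.sum_le_sum fun x _ => ?_)
    refine Finset.card_image_le.trans ?_
    refine (Multiset.toFinset_card_le _).trans ?_
    exact (card_roots' _).trans (natDegree_yPoly W x).le
  rw [Finset.sum_const, smul_eq_mul, mul_comm] at h1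
  omega

theorem coords_mem_ptSet {s : Finset K} (P : W.toAffine.Point)
    (hs : ∀ (x y : K) (h : W.toAffine.Nonsingular x y), P = Point.some x y h → x ∈ s) :
    coords W P ∈ ptSet W s := by
  unfold ptSet
  rcases P with _ | ⟨x, y, h⟩
  · exact Finset.none_mem_insertNone
  · simp only [coords, Finset.some_mem_insertNone, Finset.mem_biUnion, Finset.mem_image,
      Multiset.mem_toFinset, Prod.mk.injEq]
    refine ⟨x, hs x y h rfl, y, ?_, rfl, rfl⟩
    rw [mem_roots (yPoly_ne_zero W x)]
    exact yPoly_eval_eq_zero W h.1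

variable {W}

/-- Counting: if the `x`-coordinates of the nonzero points of a set `T` of points all lie in the
finite set `s`, then `T` is finite with at most `2 #s + 1` elements. -/
theorem finite_card_le_of_x_mem (T : Set W.toAffine.Point) (s : Finset K)
    (hs : ∀ (x y : K) (h : W.toAffine.Nonsingular x y), Point.some x y h ∈ T → x ∈ s) :
    Finite T ∧ Nat.card T ≤ 2 * s.card + 1 := by
  let g : T → {z : Option (K × K) // z ∈ ptSet W s} := fun Q =>
    ⟨coords W Q.1, coords_mem_ptSet W Q.1 (fun x y h e => hs x y h (e ▸ Q.2))⟩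
  have hg : Function.Injective g := by
    intro Q₁ Q₂ h
    apply Subtype.ext
    apply coords_injective W
    exact congrArg Subtype.val h
  have hfin : Finite T := Finite.of_injective g hg
  refine ⟨hfin, ?_⟩
  have h1 : Nat.card T ≤ Nat.card {z : Option (K × K) // z ∈ ptSet W s} :=
    Nat.card_le_card_of_injective g hg
  have h2 : Nat.card {z : Option (K × K) // z ∈ ptSet W s} = (ptSet W s).card := by
    rw [Nat.card_eq_fintype_card, Fintype.card_coe]
  rw [h2] at h1
  exact h1.trans (card_ptSet_le W s)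

/-- **(TR1)** Pure fibre count, any curve: if a nonzero polynomial `f` vanishes at the
`x`-coordinates of all affine points killed by `n`, then `E[n]` is finite with at most
`2 deg f + 1` elements. -/
theorem torsion_finite_card_le (W : WeierstrassCurve K) (n : ℕ) (f : K[X]) (hf : f ≠ 0)
    (h0 : ∀ (x y : K) (h : W.toAffine.Nonsingular x y),
      (n : ℤ) • Point.some x y h = 0 → f.eval x = 0) :
    Finite ↥(Submodule.torsionBy ℤ W.toAffine.Point (n : ℤ)) ∧
      Nat.card ↥(Submodule.torsionBy ℤ W.toAffine.Point (n : ℤ)) ≤ 2 * f.natDegree + 1 := by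
  obtain ⟨hfin, hle⟩ := finite_card_le_of_x_mem
    (T := (Submodule.torsionBy ℤ W.toAffine.Point (n : ℤ) : Set W.toAffine.Point))
    f.roots.toFinset (fun x y h hm => by
      rw [Multiset.mem_toFinset, mem_roots hf]
      exact h0 x y h ((Submodule.mem_torsionBy_iff _ _).mp hm))
  refine ⟨hfin, hle.trans ?_⟩
  have h2 : f.roots.toFinset.card ≤ f.natDegree :=
    (Multiset.toFinset_card_le _).trans (card_roots' _)
  omega

end Count

section Tors

variable {K : Type*} [Field K] [DecidableEq K] [CharZero K] {W : WeierstrassCurve K}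

theorem natCast_ne_zero_of_odd {p : ℕ} (hodd : Odd p) : ((p : ℤ) : K) ≠ 0 := by
  have : p ≠ 0 := by
    rintro rfl
    simp at hodd
  exact_mod_cast this

theorem not_even_of_odd {p : ℕ} (hodd : Odd p) : ¬ Even (p : ℤ) := by
  rw [Int.even_coe_nat]
  exact Nat.not_even_iff_odd.mpr hodd

theorem natDegree_preΨ_of_odd (W : WeierstrassCurve K) {p : ℕ} (hodd : Odd p) :
    (W.preΨ (p : ℤ)).natDegree = (p ^ 2 - 1) / 2 := by
  rw [W.natDegree_preΨ (natCast_ne_zero_of_odd hodd), Int.natAbs_natCast,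
    if_neg (not_even_of_odd hodd)]

theorem sq_eq_of_odd {p : ℕ} (hodd : Odd p) : p ^ 2 = 2 * ((p ^ 2 - 1) / 2) + 1 := by
  obtain ⟨k, rfl⟩ := hodd
  have : (2 * k + 1) ^ 2 = 4 * (k * k + k) + 1 := by ring
  rw [this]
  omega

/-- **(TORS1)** If the `x`-coordinates of the points killed by the odd number `p` are roots of
`preΨ_p`, then `E[p]` is finite with at most `p ^ 2` elements. -/
theorem finite_card_le {p : ℕ} (hodd : Odd p)
    (hN2 : ∀ (x y : K) (h : W.toAffine.Nonsingular x y),
      (p : ℤ) • Point.some x y h = 0 → (W.preΨ (p : ℤ)).eval x = 0) :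
    Finite ↥(Submodule.torsionBy ℤ W.toAffine.Point (p : ℤ)) ∧
      Nat.card ↥(Submodule.torsionBy ℤ W.toAffine.Point (p : ℤ)) ≤ p ^ 2 := by
  have hf0 : W.preΨ (p : ℤ) ≠ 0 := W.preΨ_ne_zero (natCast_ne_zero_of_odd hodd)
  obtain ⟨hfin, hle⟩ := finite_card_le_of_x_mem
    (T := (Submodule.torsionBy ℤ W.toAffine.Point (p : ℤ) : Set W.toAffine.Point))
    (W.preΨ (p : ℤ)).roots.toFinset (fun x y h hm => by
      rw [Multiset.mem_toFinset, mem_roots hf0]
      exact hN2 x y h ((Submodule.mem_torsionBy_iff _ _).mp hm))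
  refine ⟨hfin, hle.trans ?_⟩
  have h2 : (W.preΨ (p : ℤ)).roots.toFinset.card ≤ (p ^ 2 - 1) / 2 :=
    ((Multiset.toFinset_card_le _).trans (card_roots' _)).trans
      (natDegree_preΨ_of_odd W hodd).le
  have := sq_eq_of_odd hodd
  omega

/-- **(TORS2)** If moreover `#E[p] = p ^ 2`, then `preΨ_p = p ∏ (X - x)`, the product over the
`(p ^ 2 - 1) / 2` distinct `x`-coordinates of the nonzero points of `E[p]`. -/
theorem preΨ_eq_prod {p : ℕ} (hodd : Odd p)
    (hN2 : ∀ (x y : K) (h : W.toAffine.Nonsingular x y),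
      (p : ℤ) • Point.some x y h = 0 → (W.preΨ (p : ℤ)).eval x = 0)
    (hcard : Nat.card ↥(Submodule.torsionBy ℤ W.toAffine.Point (p : ℤ)) = p ^ 2) :
    ∃ s : Finset K,
      (∀ x, x ∈ s ↔ ∃ (y : K) (h : W.toAffine.Nonsingular x y),
        (p : ℤ) • Point.some x y h = 0) ∧
      s.card = (p ^ 2 - 1) / 2 ∧ W.preΨ (p : ℤ) = C (p : K) * ∏ x ∈ s, (X - C x) := by
  classical
  have hp0 : ((p : ℤ) : K) ≠ 0 := natCast_ne_zero_of_odd hodd
  have hf0 : W.preΨ (p : ℤ) ≠ 0 := W.preΨ_ne_zero hp0
  set f := W.preΨ (p : ℤ) with hf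
  set s := f.roots.toFinset.filter (fun x => ∃ (y : K) (h : W.toAffine.Nonsingular x y),
        (p : ℤ) • Point.some x y h = 0) with hsdef
  have hs : ∀ x, x ∈ s ↔ ∃ (y : K) (h : W.toAffine.Nonsingular x y),
        (p : ℤ) • Point.some x y h = 0 := by
    intro x
    rw [hsdef, Finset.mem_filter]
    refine ⟨fun h => h.2, fun h => ⟨?_, h⟩⟩
    obtain ⟨y, h, e⟩ := h
    rw [Multiset.mem_toFinset, mem_roots hf0]
    exact hN2 x y h e
  obtain ⟨-, hle⟩ := finite_card_le_of_x_mem
    (T := (Submodule.torsionBy ℤ W.toAffine.Point (p : ℤ) : Set W.toAffine.Point)) s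
    (fun x y h hm => (hs x).mpr ⟨y, h, (Submodule.mem_torsionBy_iff _ _).mp hm⟩)
  have hle' : p ^ 2 ≤ 2 * s.card + 1 := hcard ▸ hle
  have hd : f.natDegree = (p ^ 2 - 1) / 2 := natDegree_preΨ_of_odd W hodd
  have h1 : s.card ≤ f.roots.toFinset.card := Finset.card_filter_le _ _
  have h2 : f.roots.toFinset.card ≤ Multiset.card f.roots := Multiset.toFinset_card_le _
  have h3 : Multiset.card f.roots ≤ f.natDegree := card_roots' f
  have hpp := sq_eq_of_odd hodd
  have hsR : s = f.roots.toFinset :=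
    Finset.eq_of_subset_of_card_le (Finset.filter_subset _ _) (by omega)
  have hnodup : f.roots.Nodup := Multiset.toFinset_card_eq_card_iff_nodup.mp (by omega)
  have hsplit : Multiset.card f.roots = f.natDegree := by omega
  refine ⟨s, hs, by omega, ?_⟩
  have key := C_leadingCoeff_mul_prod_multiset_X_sub_C hsplit
  rw [hf, W.leadingCoeff_preΨ hp0, if_neg (not_even_of_odd hodd), ← hf] at key
  rw [← key, hsR, Finset.prod_eq_multiset_prod, Multiset.toFinset_val, hnodup.dedup,
    Int.cast_natCast]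

/-- With `a₃ = a₆ = 0`: in the situation of `preΨ_eq_prod`, the product of the `x`-coordinates of
the nonzero `p`-torsion points, times `p`, is `± a₄ ^ ((p ^ 2 - 1) / 4)`. -/
theorem natCast_mul_prod {p : ℕ} (hodd : Odd p) (h3 : W.a₃ = 0) (h6 : W.a₆ = 0)
    (hN2 : ∀ (x y : K) (h : W.toAffine.Nonsingular x y),
      (p : ℤ) • Point.some x y h = 0 → (W.preΨ (p : ℤ)).eval x = 0)
    (hcard : Nat.card ↥(Submodule.torsionBy ℤ W.toAffine.Point (p : ℤ)) = p ^ 2)
    (S : Finset K)
    (hS : ∀ x, x ∈ S ↔ ∃ (y : K) (h : W.toAffine.Nonsingular x y),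
      (p : ℤ) • Point.some x y h = 0) :
    (p : K) * ∏ x ∈ S, x = (-1) ^ ((p ^ 2 - 1) / 2 + p / 2) * W.a₄ ^ ((p ^ 2 - 1) / 4) := by
  obtain ⟨s, hs, hscard, hprod⟩ := preΨ_eq_prod hodd hN2 hcard
  have hSs : S = s := by
    ext x
    rw [hS, hs]
  subst hSs
  have e0 := DPZero.preΨ_coeff_zero_of_odd (W := W) h3 h6 hodd
  rw [coeff_zero_eq_eval_zero, hprod, eval_mul, eval_C, eval_prod] at e0
  simp only [eval_sub, eval_X, eval_C, zero_sub] at e0
  rw [Finset.prod_neg, hscard] at e0
  have h1 : ((-1 : K) ^ ((p ^ 2 - 1) / 2)) * ((-1) ^ ((p ^ 2 - 1) / 2)) = 1 := by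
    rw [← mul_pow]
    norm_num
  rw [pow_add]
  linear_combination ((-1 : K) ^ ((p ^ 2 - 1) / 2)) * e0 - (p : K) * (∏ x ∈ S, x) * h1

/-- The same in integrality form: if `a₄` lies in the valuation subring `A`, so does
`p ∏ x`. -/
theorem natCast_mul_prod_mem {p : ℕ} (hodd : Odd p) (h3 : W.a₃ = 0) (h6 : W.a₆ = 0)
    (hN2 : ∀ (x y : K) (h : W.toAffine.Nonsingular x y),
      (p : ℤ) • Point.some x y h = 0 → (W.preΨ (p : ℤ)).eval x = 0)
    (hcard : Nat.card ↥(Submodule.torsionBy ℤ W.toAffine.Point (p : ℤ)) = p ^ 2)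
    (A : ValuationSubring K) (ha4 : W.a₄ ∈ A) (S : Finset K)
    (hS : ∀ x, x ∈ S ↔ ∃ (y : K) (h : W.toAffine.Nonsingular x y),
      (p : ℤ) • Point.some x y h = 0) :
    (p : K) * ∏ x ∈ S, x ∈ A := by
  rw [natCast_mul_prod hodd h3 h6 hN2 hcard S hS]
  exact A.mul_mem _ _ (pow_mem (neg_mem (one_mem A)) _) (pow_mem ha4 _)

end Tors

section Line

/-- A finite `𝔽_p`-vector space with at most `p ^ 2` elements which has a proper nonzero subspace
has exactly `p ^ 2` elements. -/
theorem card_eq_sq_of_submodule {p : ℕ} [Fact p.Prime] {V : Type*} [AddCommGroup V]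
    [Module (ZMod p) V] [Finite V] (hle : Nat.card V ≤ p ^ 2) (N : Submodule (ZMod p) V)
    (h0 : N ≠ ⊥) (h1 : N ≠ ⊤) : Nat.card V = p ^ 2 := by
  have hfin : Module.Finite (ZMod p) V := Module.Finite.of_finite
  have hc : Nat.card V = p ^ Module.finrank (ZMod p) V := by
    rw [Module.natCard_eq_pow_finrank (K := ZMod p), Nat.card_zmod]
  have h2 : 1 ≤ Module.finrank (ZMod p) N := Submodule.one_le_finrank_iff.mpr h0
  have h3 : Module.finrank (ZMod p) N < Module.finrank (ZMod p) V := Submodule.finrank_lt h1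
  have hp1 : 1 < p := (Fact.out : p.Prime).one_lt
  have h4 : p ^ 2 ≤ p ^ Module.finrank (ZMod p) V := Nat.pow_le_pow_right (by omega) (by omega)
  omega

open WeierstrassCurve.Affine.Point in
/-- **The hypothesis `hc` of `XpCurve.no_stable`** on a model over `ℚ` with `a₃ = a₆ = 0` and
`a₄` integral at `A`, from (N2): if `E[p]` has a proper nonzero subspace then `p ∏ x ∈ A`. -/
theorem natCast_mul_prod_mem_of_submodule (W' : WeierstrassCurve ℚ) {p : ℕ} (hp : p.Prime)
    (hodd : Odd p) (h3 : W'.a₃ = 0) (h6 : W'.a₆ = 0)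
    (A : ValuationSubring (AlgebraicClosure ℚ))
    (ha4 : algebraMap ℚ (AlgebraicClosure ℚ) W'.a₄ ∈ A)
    (hN2 : ∀ (x y : AlgebraicClosure ℚ) (h : (W'⁄(AlgebraicClosure ℚ)).Nonsingular x y),
      (p : ℤ) • Point.some x y h = 0 → ((W'⁄(AlgebraicClosure ℚ)).preΨ (p : ℤ)).eval x = 0) :
    (∃ N : Submodule (ZMod p) (Submodule.torsionBy ℤ (W'⁄(AlgebraicClosure ℚ)).Point p),
        N ≠ ⊥ ∧ N ≠ ⊤) →
      ∀ S : Finset (AlgebraicClosure ℚ),
        (∀ x, x ∈ S ↔ ∃ (y : AlgebraicClosure ℚ) (h : (W'⁄(AlgebraicClosure ℚ)).Nonsingular x y),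
          (p : ℤ) • Point.some x y h = 0) →
        (p : AlgebraicClosure ℚ) * ∏ x ∈ S, x ∈ A := by
  rintro ⟨N, h0, h1⟩ S hS
  have : Fact p.Prime := ⟨hp⟩
  obtain ⟨hfin, hle⟩ := finite_card_le (W := W'⁄(AlgebraicClosure ℚ)) hodd hN2
  have := hfin
  have hcard := card_eq_sq_of_submodule hle N h0 h1
  exact natCast_mul_prod_mem (W := W'⁄(AlgebraicClosure ℚ)) hodd
    (by simp [h3]) (by simp [h6]) hN2 hcard A (by simpa using ha4) S hS

end Line

end Fermat.Agent.S13.DPTors
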