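/-
S13 piece XP-ABS (curve-free): a finite set `S ⊆ ℚ̄` of elements that are all non-integral at a
valuation subring `A` over `p`, with `p * ∏ S` integral at `A`, has no nonempty proper
Galois-stable subset.  Plus the Vieta relation for a polynomial with a full set of roots.
-/
import Mathlib
import Fermat.Prelude.Def_FLTPrelim_Ramification
import Fermat.Agent.S05.OrdLib
import Fermat.Agent.S05.OrdQbar

set_option autoImplicit false

namespace Fermat.Agent.S13.XpAbs

open Fermat.Agent.S05

/-- an element of `ℚ̄` fixed by the absolute Galois group is rational -/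
theorem mem_range_of_fixed {x : AlgebraicClosure ℚ}
    (hx : ∀ σ : AlgebraicClosure ℚ ≃ₐ[ℚ] AlgebraicClosure ℚ, σ x = x) :
    ∃ q : ℚ, algebraMap ℚ (AlgebraicClosure ℚ) q = x := by
  have hcl : IsAlgClosure ℚ (AlgebraicClosure ℚ) := AlgebraicClosure.instIsAlgClosure ℚ
  have : IsGalois ℚ (AlgebraicClosure ℚ) := IsAlgClosure.isGalois ℚ (AlgebraicClosure ℚ)
  have h1 : x ∈ IntermediateField.fixedField
      ((⊥ : IntermediateField ℚ (AlgebraicClosure ℚ)).fixingSubgroup) := by
    rintro ⟨g, -⟩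
    exact hx g
  rw [InfiniteGalois.fixedField_fixingSubgroup, IntermediateField.mem_bot] at h1
  exact h1

/-- a product over a finite Galois-stable subset of `ℚ̄` is rational -/
theorem prod_mem_range {T : Finset (AlgebraicClosure ℚ)}
    (hG : ∀ σ : AlgebraicClosure ℚ ≃ₐ[ℚ] AlgebraicClosure ℚ, ∀ t ∈ T, σ t ∈ T) :
    ∃ q : ℚ, algebraMap ℚ (AlgebraicClosure ℚ) q = ∏ t ∈ T, t := by
  classical
  refine mem_range_of_fixed fun σ => ?_
  have himg : T.image σ = T := by
    refine Finset.eq_of_subset_of_card_le ?_ ?_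
    · intro y hy
      obtain ⟨t, ht, rfl⟩ := Finset.mem_image.mp hy
      exact hG σ t ht
    · rw [Finset.card_image_of_injective _ σ.injective]
  rw [map_prod]
  conv_rhs => rw [← himg]
  rw [Finset.prod_image fun a _ b _ h => σ.injective h]

/-- `ord` of a finite product of nonzero elements -/
theorem ord_prod {K : Type*} [Field K] {A : ValuationSubring K} {ord : K → ℚ} (h : IsOrd A ord)
    (S : Finset K) (hS : ∀ s ∈ S, s ≠ 0) : ord (∏ s ∈ S, s) = ∑ s ∈ S, ord s := by
  classical
  induction S using Finset.induction_on with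
  | empty => simp [h.one]
  | insert a S ha ih =>
    have hS' : ∀ s ∈ S, s ≠ 0 := fun s hs => hS s (Finset.mem_insert_of_mem hs)
    rw [Finset.prod_insert ha, Finset.sum_insert ha,
      h.mul _ _ (hS a (Finset.mem_insert_self a S)) (Finset.prod_ne_zero_iff.mpr hS'), ih hS']

/-- **The product argument.** -/
theorem false_of_stable_subset (A : ValuationSubring (AlgebraicClosure ℚ)) {p : ℕ} (hp : p.Prime)
    (hA : A.LiesOverPrime p) (S T : Finset (AlgebraicClosure ℚ)) (hTS : T ⊆ S) (hT : T.Nonempty)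
    (hne : T ≠ S) (hS : ∀ s ∈ S, s ∉ A)
    (hG : ∀ σ : AlgebraicClosure ℚ ≃ₐ[ℚ] AlgebraicClosure ℚ, ∀ t ∈ T, σ t ∈ T)
    (hc : (p : AlgebraicClosure ℚ) * ∏ s ∈ S, s ∈ A) : False := by
  classical
  obtain ⟨ord, hord, hordQ, -⟩ := exists_ord hp A hA
  have hfp : Fact p.Prime := ⟨hp⟩
  have hS0 : ∀ s ∈ S, s ≠ 0 := fun s hs h0 => hS s hs (h0 ▸ A.zero_mem)
  have hSneg : ∀ s ∈ S, ord s < 0 := fun s hs =>
    not_le.mp fun h => hS s hs ((hord.mem_iff s (hS0 s hs)).mpr h)
  -- the product over `T` is rational with negative integral `ord`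
  obtain ⟨q, hq⟩ := prod_mem_range hG
  have hT0 : ∀ t ∈ T, t ≠ 0 := fun t ht => hS0 t (hTS ht)
  have hr0 : ∏ t ∈ T, t ≠ 0 := Finset.prod_ne_zero_iff.mpr hT0
  have hq0 : q ≠ 0 := by
    rintro rfl
    rw [map_zero] at hq
    exact hr0 hq.symm
  have hordT : ord (∏ t ∈ T, t) < 0 := by
    rw [ord_prod hord T hT0]
    exact Finset.sum_neg (fun t ht => hSneg t (hTS ht)) hT
  have hordT' : ord (∏ t ∈ T, t) ≤ -1 := by
    rw [← hq, hordQ q hq0] at hordT ⊢
    have h1 : padicValRat p q < 0 := by exact_mod_cast hordT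
    have h2 : padicValRat p q ≤ -1 := by omega
    exact_mod_cast h2
  -- the complement
  have hD : (S \ T).Nonempty := by
    rw [Finset.nonempty_iff_ne_empty, Ne, Finset.sdiff_eq_empty_iff_subset]
    exact fun h => hne (Finset.Subset.antisymm hTS h)
  have hD0 : ∀ s ∈ S \ T, s ≠ 0 := fun s hs => hS0 s (Finset.mem_sdiff.mp hs).1
  have hordD : ord (∏ s ∈ S \ T, s) < 0 := by
    rw [ord_prod hord _ hD0]
    exact Finset.sum_neg (fun s hs => hSneg s (Finset.mem_sdiff.mp hs).1) hD
  -- `ord p = 1`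
  have hp0 : (p : AlgebraicClosure ℚ) ≠ 0 := by exact_mod_cast hp.ne_zero
  have hordp : ord (p : AlgebraicClosure ℚ) = 1 := by
    have h := hordQ (p : ℚ) (by exact_mod_cast hp.ne_zero)
    rw [map_natCast] at h
    rw [h, padicValRat.of_nat, padicValNat_self]
    simp
  -- conclusion
  have hprod : ∏ s ∈ S, s = (∏ s ∈ S \ T, s) * ∏ t ∈ T, t := (Finset.prod_sdiff hTS).symm
  have hD00 : ∏ s ∈ S \ T, s ≠ 0 := Finset.prod_ne_zero_iff.mpr hD0
  have hc0 : (p : AlgebraicClosure ℚ) * ∏ s ∈ S, s ≠ 0 :=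
    mul_ne_zero hp0 (Finset.prod_ne_zero_iff.mpr hS0)
  have h0 := (hord.mem_iff _ hc0).mp hc
  rw [hprod, hord.mul _ _ hp0 (mul_ne_zero hD00 hr0), hord.mul _ _ hD00 hr0, hordp] at h0
  linarith

/-- Vieta for a polynomial with a full set of distinct roots. -/
theorem prod_roots {K : Type*} [Field K] (f : Polynomial K) (S : Finset K)
    (hS : ∀ s ∈ S, f.eval s = 0) (hcard : S.card = f.natDegree) (hf : f ≠ 0) :
    f.leadingCoeff * ∏ s ∈ S, s = (-1) ^ f.natDegree * f.eval 0 := by
  classical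
  have hle : S.val ≤ f.roots := by
    rw [Multiset.le_iff_subset S.nodup]
    intro s hs
    exact (Polynomial.mem_roots hf).mpr (hS s hs)
  have hroots : f.roots = S.val :=
    (Multiset.eq_of_le_of_card_le hle (by
      rw [Finset.card_val, hcard]
      exact Polynomial.card_roots' f)).symm
  have hcr : Multiset.card f.roots = f.natDegree := by rw [hroots, Finset.card_val, hcard]
  have h := Polynomial.C_leadingCoeff_mul_prod_multiset_X_sub_C hcr
  have h2 := congrArg (Polynomial.eval 0) h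
  rw [Polynomial.eval_mul, Polynomial.eval_C, Polynomial.eval_multiset_prod, Multiset.map_map,
    hroots] at h2
  have h3 : (Multiset.map (Polynomial.eval 0 ∘ fun a => Polynomial.X - Polynomial.C a) S.val).prod
      = (-1) ^ S.card * ∏ s ∈ S, s := by
    rw [← Finset.card_val, ← Multiset.card_map (fun s => s) S.val]
    change _ = _ * (S.val.map fun s => s).prod
    rw [← Multiset.prod_map_neg]
    simp
  rw [h3, hcard] at h2
  rw [← h2]
  have : ((-1 : K) ^ f.natDegree) * (-1) ^ f.natDegree = 1 := by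
    rw [← mul_pow]
    simp
  linear_combination (-(f.leadingCoeff * ∏ s ∈ S, s)) * this

end Fermat.Agent.S13.XpAbs
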