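/-
S13 piece XP-CURVE (route independent): for a Weierstrass curve `W'` over `ℚ` and an odd prime
`p`, if every nonzero `p`-torsion point has non-integral `x`-coordinate at a valuation subring
`A` of `ℚ̄` over `p`, and `p * ∏ x` over the `x`-coordinates of the nonzero `p`-torsion points is
integral at `A`, then the `p`-torsion has no proper nonzero Galois-stable subspace.
-/
import Mathlib
import Fermat.Prelude.Def_FLTPrelim_CofixedLine
import Fermat.Prelude.Def_FLTPrelim_Ramification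
import Fermat.Agent.S13.XpAbs

set_option autoImplicit false

namespace Fermat.Agent.S13.XpCurve

open WeierstrassCurve WeierstrassCurve.Affine WeierstrassCurve.Affine.Point

variable {W' : WeierstrassCurve ℚ} {p : ℕ}

/-- the `x`-coordinate of a torsion point (junk value `0` at the origin) -/
noncomputable def xc
    (Q : Submodule.torsionBy ℤ (W'⁄(AlgebraicClosure ℚ)).Point p) : AlgebraicClosure ℚ :=
  match (Q : (W'⁄(AlgebraicClosure ℚ)).Point) with
  | .zero => 0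
  | .some x₀ _ _ => x₀

theorem xc_smul (σ : AlgebraicClosure ℚ ≃ₐ[ℚ] AlgebraicClosure ℚ)
    (Q : Submodule.torsionBy ℤ (W'⁄(AlgebraicClosure ℚ)).Point p) : xc (σ • Q) = σ (xc Q) := by
  obtain ⟨Q, hQ⟩ := Q
  cases Q with
  | zero =>
    change (0 : AlgebraicClosure ℚ) = σ 0
    rw [_root_.map_zero]
  | some x₀ y₀ h => rfl

/-- a nonzero torsion point is affine -/
theorem exists_some {Q : Submodule.torsionBy ℤ (W'⁄(AlgebraicClosure ℚ)).Point p} (hQ : Q ≠ 0) :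
    ∃ (y : AlgebraicClosure ℚ) (h : (W'⁄(AlgebraicClosure ℚ)).Nonsingular (xc Q) y),
      (Q : (W'⁄(AlgebraicClosure ℚ)).Point) = Point.some (xc Q) y h ∧
      (p : ℤ) • Point.some (xc Q) y h = 0 := by
  obtain ⟨Q, hQ'⟩ := Q
  cases Q with
  | zero => exact absurd (Subtype.ext rfl) hQ
  | some x₀ y₀ h => exact ⟨y₀, h, rfl, (Submodule.mem_torsionBy_iff _ _).mp hQ'⟩

/-- two nonzero torsion points with the same `x`-coordinate agree up to sign -/
theorem eq_or_eq_neg {Q Q' : Submodule.torsionBy ℤ (W'⁄(AlgebraicClosure ℚ)).Point p}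
    (hQ : Q ≠ 0) (hQ' : Q' ≠ 0) (h : xc Q = xc Q') : Q = Q' ∨ Q = -Q' := by
  obtain ⟨y, hy, e, -⟩ := exists_some hQ
  obtain ⟨y', hy', e', -⟩ := exists_some hQ'
  rcases Y_eq_of_X_eq hy.1 hy'.1 h with h1 | h1
  · left
    apply Subtype.ext
    rw [e, e']
    subst h1
    congr 1
  · right
    apply Subtype.ext
    rw [Submodule.coe_neg, e, e', Point.neg_some]
    subst h1
    congr 1

/-- **(Xp), route-independent curve side.** -/
theorem no_stable {p : ℕ} (W' : WeierstrassCurve ℚ) (hp : p.Prime)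
    (A : ValuationSubring (AlgebraicClosure ℚ)) (hA : A.LiesOverPrime p)
    [Finite (Submodule.torsionBy ℤ (W'⁄(AlgebraicClosure ℚ)).Point p)]
    (hker : ∀ (x y : AlgebraicClosure ℚ) (h : (W'⁄(AlgebraicClosure ℚ)).Nonsingular x y),
      (p : ℤ) • Point.some x y h = 0 → x ∉ A)
    (hc : (∃ N : Submodule (ZMod p) (Submodule.torsionBy ℤ (W'⁄(AlgebraicClosure ℚ)).Point p),
        N ≠ ⊥ ∧ N ≠ ⊤) →
      ∀ S : Finset (AlgebraicClosure ℚ),
        (∀ x, x ∈ S ↔ ∃ (y : AlgebraicClosure ℚ) (h : (W'⁄(AlgebraicClosure ℚ)).Nonsingular x y),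
          (p : ℤ) • Point.some x y h = 0) →
        (p : AlgebraicClosure ℚ) * ∏ x ∈ S, x ∈ A) :
    ¬ ∃ N : Submodule (ZMod p) (Submodule.torsionBy ℤ (W'⁄(AlgebraicClosure ℚ)).Point p),
      IsGaloisStable ℚ N ∧ N ≠ ⊥ ∧ N ≠ ⊤ := by
  classical
  rintro ⟨N, hst, h0, h1⟩
  -- the set of all `x`-coordinates
  have hfinS : (xc '' {Q : Submodule.torsionBy ℤ (W'⁄(AlgebraicClosure ℚ)).Point p |
      Q ≠ 0}).Finite := (Set.toFinite _).image _
  have hfinT : (xc '' {Q : Submodule.torsionBy ℤ (W'⁄(AlgebraicClosure ℚ)).Point p |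
      Q ∈ N ∧ Q ≠ 0}).Finite := (Set.toFinite _).image _
  have hSmem : ∀ x, x ∈ hfinS.toFinset ↔
      ∃ (y : AlgebraicClosure ℚ) (h : (W'⁄(AlgebraicClosure ℚ)).Nonsingular x y),
        (p : ℤ) • Point.some x y h = 0 := by
    intro x
    rw [Set.Finite.mem_toFinset]
    constructor
    · rintro ⟨Q, hQ, rfl⟩
      obtain ⟨y, hy, -, e⟩ := exists_some hQ
      exact ⟨y, hy, e⟩
    · rintro ⟨y, h, e⟩
      refine ⟨⟨Point.some x y h, (Submodule.mem_torsionBy_iff _ _).mpr e⟩, ?_, rfl⟩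
      intro h0'
      have := congrArg Subtype.val h0'
      exact Point.some_ne_zero h this
  have hTmem : ∀ x, x ∈ hfinT.toFinset ↔ ∃ Q ∈ N, Q ≠ 0 ∧ xc Q = x := by
    intro x
    rw [Set.Finite.mem_toFinset]
    constructor
    · rintro ⟨Q, ⟨hQN, hQ⟩, rfl⟩
      exact ⟨Q, hQN, hQ, rfl⟩
    · rintro ⟨Q, hQN, hQ, rfl⟩
      exact ⟨Q, ⟨hQN, hQ⟩, rfl⟩
  refine XpAbs.false_of_stable_subset A hp hA hfinS.toFinset hfinT.toFinset ?_ ?_ ?_ ?_ ?_
    (hc ⟨N, h0, h1⟩ _ hSmem)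
  · -- `T ⊆ S`
    intro x hx
    obtain ⟨Q, -, hQ, rfl⟩ := (hTmem x).mp hx
    rw [Set.Finite.mem_toFinset]
    exact ⟨Q, hQ, rfl⟩
  · -- `T` is nonempty
    obtain ⟨Q, hQN, hQ⟩ := (Submodule.ne_bot_iff N).mp h0
    exact ⟨xc Q, (hTmem _).mpr ⟨Q, hQN, hQ, rfl⟩⟩
  · -- `T ≠ S`
    intro hTS
    obtain ⟨Q, hQ⟩ : ∃ Q, Q ∉ N := by
      by_contra hcon
      exact h1 (eq_top_iff.mpr fun Q _ => by_contra fun hQ => hcon ⟨Q, hQ⟩)
    have hQ0 : Q ≠ 0 := fun h => hQ (h ▸ N.zero_mem)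
    have hxS : xc Q ∈ hfinS.toFinset := by
      rw [Set.Finite.mem_toFinset]
      exact ⟨Q, hQ0, rfl⟩
    rw [← hTS] at hxS
    obtain ⟨Q', hQ'N, hQ'0, hxx⟩ := (hTmem _).mp hxS
    rcases eq_or_eq_neg hQ0 hQ'0 hxx.symm with h | h
    · exact hQ (h ▸ hQ'N)
    · exact hQ (h ▸ N.neg_mem hQ'N)
  · -- non-integrality
    intro x hx
    obtain ⟨y, h, e⟩ := (hSmem x).mp hx
    exact hker x y h e
  · -- Galois stability of `T`
    intro σ x hx
    obtain ⟨Q, hQN, hQ, rfl⟩ := (hTmem x).mp hx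
    refine (hTmem _).mpr ⟨σ • Q, hst σ Q hQN, ?_, xc_smul σ Q⟩
    intro h
    apply hQ
    have h2 : σ⁻¹ • (σ • Q) = σ⁻¹ • (0 : Submodule.torsionBy ℤ (W'⁄(AlgebraicClosure ℚ)).Point p) :=
      congrArg _ h
    rwa [inv_smul_smul, smul_zero] at h2

end Fermat.Agent.S13.XpCurve
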