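/-
S13, route DP (helper28): the glue between the landed DP pieces.

* (G1) `hN2` : the hypothesis `hN2` of `DPTors` (the `x`-coordinates of the points killed by the
  odd prime `p` are roots of `W.preΨ p`), discharged on `IsLeg` models by `DPInd.eval_preΨ_eq_zero`.
* (G2) `claimB` : the hypothesis `ClaimB` of `DPNZ`, discharged on `IsLeg` models by
  `DPInd.claimB`.
* `T_leg`  : (T) on a Legendre model over `ℚ` whose `a₄` is a unit at `A`
  (the `hleg` hypothesis of `DPModel.frey_T_wire`).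
* `Xp_leg` : (Xp) on a Legendre model over `ℚ` with `a₄` integral at `A`
  (the `hleg` hypothesis of `DPModel.frey_Xp_wire`).
* `frey_T`, `frey_Xp` : (T) and (Xp) on the frozen Frey model, in the exact shapes of the
  hypotheses `hT`, `hXp` of `Wire.cofixedLine_of_pieces` / `WireFrey.frey_cofixedLine_kernel`.
-/
import Mathlib
import Fermat.Agent.S54.Frobenius
import Fermat.Agent.S13.DPInd
import Fermat.Agent.S13.DPNZ
import Fermat.Agent.S13.DPTors
import Fermat.Agent.S13.DPModel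
import Fermat.Agent.S13.XpCurve

set_option autoImplicit false

namespace Fermat.Agent.S13.DPGlue

open WeierstrassCurve WeierstrassCurve.Affine WeierstrassCurve.Affine.Point
open Fermat.Agent.S05

section Field

variable {K : Type*} [Field K] [DecidableEq K] [CharZero K] {W : WeierstrassCurve K}

/-- **(G1)** the hypothesis `hN2` of `DPTors` on a Legendre model. -/
theorem hN2 (hW : IsLeg W) {p : ℕ} (hp : p.Prime) (hp2 : p ≠ 2) :
    ∀ (x y : K) (h : W.toAffine.Nonsingular x y),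
      (p : ℤ) • Point.some x y h = 0 → (W.preΨ (p : ℤ)).eval x = 0 := by
  intro x y h hP
  rw [natCast_zsmul] at hP
  exact DPInd.eval_preΨ_eq_zero hW h hp hp2 hP

/-- **(G2)** the hypothesis `ClaimB` of `DPNZ` on a Legendre model. -/
theorem claimB (hW : IsLeg W) : DPNZ.ClaimB W := by
  intro x y h n hn hψ h0
  exact DPInd.claimB hW h hn hψ h0

end Field

section Leg

variable {L : Type*} [Field L] [Algebra ℚ L]

/-- a Legendre model stays a Legendre model after base change -/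
theorem isLeg_baseChange {WL : WeierstrassCurve ℚ} (hL : IsLeg WL) : IsLeg (WL.baseChange L) :=
  ⟨by change algebraMap ℚ L WL.a₁ = 0; rw [hL.a₁, _root_.map_zero],
   by change algebraMap ℚ L WL.a₃ = 0; rw [hL.a₃, _root_.map_zero],
   by change algebraMap ℚ L WL.a₆ = 0; rw [hL.a₆, _root_.map_zero]⟩

end Leg

section Qbar

/-- **(T) on a Legendre model** `WL` over `ℚ` with `Δ ≠ 0` whose coefficients are integral at `A`
(over the odd prime `p`) and whose `a₄` is a unit at `A`. -/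
theorem T_leg (WL : WeierstrassCurve ℚ) (hL : IsLeg WL) (hΔ : WL.Δ ≠ 0) {p : ℕ} (hp : p.Prime)
    (hp2 : p ≠ 2) (A : ValuationSubring Kb) (hA : A.LiesOverPrime p)
    (ha2 : algebraMap ℚ Kb WL.a₂ ∈ A) (ha4 : algebraMap ℚ Kb WL.a₄ ∈ A)
    (ha4' : algebraMap ℚ Kb WL.a₄ ∉ A.nonunits) :
    Nontrivial (Submodule.torsionBy ℤ (WL⁄Kb).Point p) ∧
      Finite (Submodule.torsionBy ℤ (WL⁄Kb).Point p) ∧
      Nat.card (Submodule.torsionBy ℤ (WL⁄Kb).Point p) < p ^ 3 := by
  have hE : WL.IsElliptic := ⟨isUnit_iff_ne_zero.mpr hΔ⟩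
  have hLK : IsLeg (WL.baseChange Kb) := isLeg_baseChange hL
  have hodd : Odd p := hp.odd_of_ne_two hp2
  have ha1 : algebraMap ℚ Kb WL.a₁ ∈ A := by
    rw [hL.a₁, _root_.map_zero]; exact A.zero_mem
  have hnt := DPNZ.nontrivial_torsionBy (L := Kb) WL hL.a₃ hL.a₆ A hp hp2 hA ha1 ha2 ha4 ha4'
    (claimB hLK)
  obtain ⟨hfin, hle⟩ := DPTors.finite_card_le (W := WL.baseChange Kb) hodd (hN2 hLK hp hp2)
  refine ⟨hnt, hfin, lt_of_le_of_lt hle ?_⟩
  exact Nat.pow_lt_pow_right hp.one_lt (by norm_num)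

/-- **(Xp) on a Legendre model** `WL` over `ℚ` with `a₄` integral at `A` (over the odd
prime `p`): if all points killed by `p` lie in the kernel of reduction at `A`, then the
`p`-torsion has no Galois-stable proper nonzero subspace. -/
theorem Xp_leg (WL : WeierstrassCurve ℚ) (hL : IsLeg WL) {p : ℕ} (hp : p.Prime) (hp2 : p ≠ 2)
    (A : ValuationSubring Kb) (hA : A.LiesOverPrime p) (ha4 : algebraMap ℚ Kb WL.a₄ ∈ A)
    (hker : ∀ (x y : Kb) (h : (WL⁄Kb).Nonsingular x y),
      (p : ℤ) • Point.some x y h = 0 → x ∉ A) :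
    ¬ ∃ N : Submodule (ZMod p) (Submodule.torsionBy ℤ (WL⁄Kb).Point p),
      IsGaloisStable ℚ N ∧ N ≠ ⊥ ∧ N ≠ ⊤ := by
  have hLK : IsLeg (WL.baseChange Kb) := isLeg_baseChange hL
  have hodd : Odd p := hp.odd_of_ne_two hp2
  have hn2 := hN2 hLK hp hp2
  obtain ⟨hfin, -⟩ := DPTors.finite_card_le (W := WL.baseChange Kb) hodd hn2
  have : Finite (Submodule.torsionBy ℤ (WL⁄(AlgebraicClosure ℚ)).Point p) := hfin
  exact XpCurve.no_stable WL hp A hA hker
    (DPTors.natCast_mul_prod_mem_of_submodule WL hp hodd hL.a₃ hL.a₆ A ha4 hn2)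

/-- **(T) on the frozen Frey model**, in the exact shape of the hypothesis `hT` of
`Wire.cofixedLine_of_pieces` / `WireFrey.frey_cofixedLine_kernel`. -/
theorem frey_T (P : FreyPackage) :
    Nontrivial (Vp P.freyCurve P.p) ∧ Finite (Vp P.freyCurve P.p) ∧
      Nat.card (Vp P.freyCurve P.p) < P.p ^ 3 := by
  have hp2 : P.p ≠ 2 := by have := P.hp5; omega
  obtain ⟨A, hA⟩ := Fermat.Agent.S54.exists_liesOverPrime Kb P.pp
  refine DPModel.frey_T_wire P A hA ?_
  intro r _ hΔ h2 h4 h4u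
  exact T_leg (legOf P.freyCurve r) (isLeg_legOf _ _) hΔ P.pp hp2 A hA h2 h4 h4u

/-- **(Xp) on the frozen Frey model**, in the exact shape of the hypothesis `hXp` of
`Wire.cofixedLine_of_pieces`. -/
theorem frey_Xp (P : FreyPackage) (A : ValuationSubring Kb) (hA : A.LiesOverPrime P.p)
    (hker : ∀ Q : Vp P.freyCurve P.p, InKer P.freyCurve A (Q : (P.freyCurve⁄Kb).Point)) :
    ¬ ∃ N : Submodule (ZMod P.p) (Vp P.freyCurve P.p), IsGaloisStable ℚ N ∧ N ≠ ⊥ ∧ N ≠ ⊤ := by
  have hp2 : P.p ≠ 2 := by have := P.hp5; omega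
  refine DPModel.frey_Xp_wire P A hA ?_ hker
  intro _ h4 hk
  exact Xp_leg (legOf P.freyCurve 0) (isLeg_legOf _ _) P.pp hp2 A hA h4 hk

end Qbar

end Fermat.Agent.S13.DPGlue
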