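/-
S13, shared glue: the kernel of reduction `S05.Kernel.InKer v` of a Weierstrass curve with integral
coefficients is a subgroup of the group of points (wrappers around `S05.Kernel` without auxiliary
bounds), it has no torsion of order a unit, and its definition-free form at a valuation subring.
-/
import Mathlib
import Fermat.Agent.S05.Kernel

set_option autoImplicit false

namespace Fermat.Agent.S13.KerGroup

open WeierstrassCurve WeierstrassCurve.Affine
open Fermat.Agent.S05

/-! ### The kernel of reduction is a subgroup -/

section General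

variable {K : Type*} [Field K] [DecidableEq K] {Γ₀ : Type*} [LinearOrderedCommGroupWithZero Γ₀]
  {v : Valuation K Γ₀} {W : WeierstrassCurve K}

omit [DecidableEq K] in
theorem inKer_neg (hW : Kernel.Integral v W) {P : W.toAffine.Point} (hP : Kernel.InKer v P) :
    Kernel.InKer v (-P) :=
  (Kernel.neg_inKer hW (Kernel.zc_lt_one hW hP) hP (by simp [Kernel.Le])).1

theorem inKer_add (hW : Kernel.Integral v W) {P Q : W.toAffine.Point} (hP : Kernel.InKer v P)
    (hQ : Kernel.InKer v Q) : Kernel.InKer v (P + Q) := by
  have hc : max (v (Kernel.zc P)) (v (Kernel.zc Q)) < 1 :=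
    max_lt (Kernel.zc_lt_one hW hP) (Kernel.zc_lt_one hW hQ)
  refine (Kernel.add_inKer hW hc hP hQ ?_ ?_).1
  · unfold Kernel.Le
    rw [pow_one]
    exact le_max_left _ _
  · unfold Kernel.Le
    rw [pow_one]
    exact le_max_right _ _

theorem inKer_sub (hW : Kernel.Integral v W) {P Q : W.toAffine.Point} (hP : Kernel.InKer v P)
    (hQ : Kernel.InKer v Q) : Kernel.InKer v (P - Q) := by
  rw [sub_eq_add_neg]
  exact inKer_add hW hP (inKer_neg hW hQ)

omit [DecidableEq K] in
theorem inKer_zero : Kernel.InKer v (0 : W.toAffine.Point) := trivial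

theorem inKer_nsmul (hW : Kernel.Integral v W) {P : W.toAffine.Point} (hP : Kernel.InKer v P)
    (n : ℕ) : Kernel.InKer v (n • P) :=
  (Kernel.nsmul_inKer hW hP n).1

theorem inKer_zsmul (hW : Kernel.Integral v W) {P : W.toAffine.Point} (hP : Kernel.InKer v P)
    (n : ℤ) : Kernel.InKer v (n • P) := by
  cases n with
  | ofNat n =>
    rw [Int.ofNat_eq_natCast, natCast_zsmul]
    exact inKer_nsmul hW hP n
  | negSucc n =>
    rw [negSucc_zsmul]
    exact inKer_neg hW (inKer_nsmul hW hP (n + 1))

end General

/-! ### Torsion -/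

/-- A point of the kernel of reduction killed by a unit `n` is zero. -/
theorem eq_zero_of_inKer_of_nsmul {K : Type*} [Field K] [DecidableEq K] {Γ₀ : Type*}
    [LinearOrderedCommGroupWithZero Γ₀] {v : Valuation K Γ₀} {W : WeierstrassCurve K}
    (hW : Kernel.Integral v W) {n : ℕ} (hn : v (n : K) = 1) {D : W.toAffine.Point}
    (hD : Kernel.InKer v D) (h0 : n • D = 0) : D = 0 := by
  cases D with
  | zero => rfl
  | some x y h =>
    exact absurd h0 (Kernel.no_torsion_of_val_gt_one v W.toAffine hW.1 hW.2.1 hW.2.2.1 hW.2.2.2.1
      hW.2.2.2.2 n hn h hD)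

theorem nsmul_sq_sub {G : Type*} [AddCommGroup G] (Φ : G →+ G) {n : ℕ} {Q : G} (hQ : n • Q = 0) :
    n • (Φ (Φ Q - Q) - (Φ Q - Q)) = 0 := by
  rw [smul_sub, ← map_nsmul, smul_sub, ← map_nsmul, hQ, map_zero, sub_self, map_zero, sub_self]

/-! ### Valuation subrings -/

/-- Definition-free form of the kernel of reduction at a valuation subring. -/
theorem inKer_iff {K : Type*} [Field K] [DecidableEq K] (A : ValuationSubring K)
    {W : WeierstrassCurve K} (D : W.toAffine.Point) :
    Kernel.InKer A.valuation D ↔
      ∀ (x y : K) (h : W.toAffine.Nonsingular x y), D = Point.some x y h → x ∉ A := by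
  cases D with
  | zero =>
    refine ⟨fun _ x y h e => ?_, fun _ => trivial⟩
    exact absurd e (by simp)
  | some x y h =>
    constructor
    · intro hD x' y' h' e
      have hx : x = x' := by
        injection e
      rw [← hx, ← A.valuation_le_one_iff]
      exact not_le.mpr hD
    · intro hD
      have := hD x y h rfl
      rw [← A.valuation_le_one_iff, not_le] at this
      exact this

end Fermat.Agent.S13.KerGroup
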