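/-
S13, piece INST-U: instantiation of the generic local statement (U) ("`(σ - 1)²` maps the
`p`-torsion into the kernel of reduction") on the frozen Frey model, at the primes `2` and `p`.

The generic statement (U) of package RED is taken as the explicit hypothesis `UAt A` (the shape
announced for `S13/Red.lean`); everything else is proved here:
* `val_map_eq`, `val_sub_lt_one_of_mem_inertia`: elements of the decomposition / inertia group of
  a valuation subring `A` of `AlgebraicClosure ℚ` preserve the valuation / act trivially modulo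
  the maximal ideal;
* the arithmetic of the frozen Frey model: it is integral at every `A` (`frey_integral`), it has a
  node at `(0, 0)` at every `A` over `2` (`frey_node_two`), and at `A` over an odd prime its
  Legendre translate of `S05.Frey.frey_arith` is integral with good reduction or a node at
  `(0, 0)` (`frey_leg_data`);
* `U2`: for `σ` in an inertia group over `2`, `(σ - 1)² = 0` on the `p`-torsion;
* `Up`, `Up'`: for `σ` in an inertia group over `p`, `(σ - 1)²` maps the `p`-torsion into the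
  kernel of reduction;
* `frey_inKer_add/neg/sub`, `inKer_smul_iff`, `frey_eq_zero_of_inKer`.

The subgroup wrappers `inKer_add/neg/sub/nsmul` and `inKer_iff` are in `S13/KerGroup.lean`.
-/
import Mathlib
import Fermat.Prelude.Def_FLTPrelim_Ramification
import Fermat.Agent.S05.Kernel
import Fermat.Agent.S05.OrdQbar
import Fermat.Agent.S05.Inertia
import Fermat.Agent.S05.Model
import Fermat.Agent.S05.Frey
import Fermat.Agent.S13.KerGroup

set_option autoImplicit false

namespace Fermat.Agent.S13.InstU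

open WeierstrassCurve WeierstrassCurve.Affine
open Fermat.Agent.S05
open Fermat.Agent.S13.KerGroup



/-! ### Decomposition and inertia groups over `ℚ` -/

section Galois

local notation "Kb" => AlgebraicClosure ℚ

theorem isAlgebraic_int (x : Kb) : IsAlgebraic ℤ x := by
  have hcl : IsAlgClosure ℚ Kb := AlgebraicClosure.instIsAlgClosure ℚ
  have halg : Algebra.IsAlgebraic ℚ Kb := IsAlgClosure.isAlgebraic
  exact (IsFractionRing.isAlgebraic_iff ℤ ℚ Kb).mpr (Algebra.IsAlgebraic.isAlgebraic x)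

/-- Elements of the decomposition group of `A` preserve the valuation of `A`. -/
theorem val_map_eq {q : ℕ} (hq : q.Prime) {A : ValuationSubring Kb} (hA : A.LiesOverPrime q)
    {σ : Kb ≃ₐ[ℚ] Kb} (hσ : σ ∈ A.decompositionSubgroup ℚ) (x : Kb) :
    A.valuation (σ x) = A.valuation x := by
  by_cases hx : x = 0
  · rw [hx, map_zero]
  have hσx : σ x ≠ 0 := by simpa using hx
  have h := OrdQbar.ordQ_apply_of_mem_decompositionSubgroup A hq hA hσ hx (isAlgebraic_int x)
  refine le_antisymm ?_ ?_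
  · rw [OrdQbar.valuation_le_iff_ordQ_le A hq hA hσx hx (isAlgebraic_int _) (isAlgebraic_int _), h]
  · rw [OrdQbar.valuation_le_iff_ordQ_le A hq hA hx hσx (isAlgebraic_int _) (isAlgebraic_int _), h]

/-- Elements of the inertia group of `A` act trivially modulo the maximal ideal of `A`. -/
theorem val_sub_lt_one_of_mem_inertia {A : ValuationSubring Kb} {σ : Kb ≃ₐ[ℚ] Kb}
    (hσ : σ ∈ A.inertiaSubgroupIn ℚ) {x : Kb} (hx : A.valuation x ≤ 1) :
    A.valuation (σ x - x) < 1 :=
  (A.mem_nonunits_iff).mp (Inertia.sub_mem_nonunits A hσ ((A.valuation_le_one_iff x).mp hx))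

end Galois

/-! ### Arithmetic of the frozen Frey model -/

section Frey

local notation "Kb" => AlgebraicClosure ℚ

theorem two_dvd_b (P : FreyPackage) : (2 : ℤ) ∣ P.b :=
  (ZMod.intCast_zmod_eq_zero_iff_dvd P.b 2).1 P.hb2

theorem four_dvd_a_add_one (P : FreyPackage) : (4 : ℤ) ∣ P.a + 1 := by
  have h : ((P.a + 1 : ℤ) : ZMod 4) = 0 := by
    push_cast
    rw [P.ha4]
    decide
  exact (ZMod.intCast_zmod_eq_zero_iff_dvd _ 4).1 h

theorem not_two_dvd_a (P : FreyPackage) : ¬ (2 : ℤ) ∣ P.a := by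
  intro h
  obtain ⟨k, hk⟩ := four_dvd_a_add_one P
  obtain ⟨l, hl⟩ := h
  omega

theorem four_dvd_a2_num (P : FreyPackage) : (4 : ℤ) ∣ P.b ^ P.p - 1 - P.a ^ P.p := by
  have h1 : (4 : ℤ) ∣ P.b ^ P.p := by
    obtain ⟨k, hk⟩ := two_dvd_b P
    have hp : P.p = 2 + (P.p - 2) := by have := P.hp5; omega
    rw [hk, hp, pow_add]
    exact Dvd.intro (k ^ 2 * (2 * k) ^ (P.p - 2)) (by ring)
  have h2 : (4 : ℤ) ∣ P.a ^ P.p + 1 := by
    have h3 : P.a + 1 ∣ P.a ^ P.p + 1 ^ P.p := Odd.add_dvd_pow_add_pow P.a 1 P.hp_odd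
    rw [one_pow] at h3
    exact (four_dvd_a_add_one P).trans h3
  have e : P.b ^ P.p - 1 - P.a ^ P.p = P.b ^ P.p - (P.a ^ P.p + 1) := by ring
  rw [e]
  exact dvd_sub h1 h2

/-- `a₂` of the Frey model is an integer. -/
theorem frey_a2_int (P : FreyPackage) : ∃ n : ℤ, P.freyCurve.a₂ = (n : ℚ) := by
  obtain ⟨n, hn⟩ := four_dvd_a2_num P
  refine ⟨n, ?_⟩
  have h : (P.b : ℚ) ^ P.p - 1 - (P.a : ℚ) ^ P.p = 4 * (n : ℚ) := by exact_mod_cast hn
  simp only [FreyPackage.freyCurve]
  rw [h]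
  ring

/-- `a₄` of the Frey model is an even integer. -/
theorem frey_a4_int (P : FreyPackage) : ∃ n : ℤ, P.freyCurve.a₄ = ((2 * n : ℤ) : ℚ) := by
  obtain ⟨k, hk⟩ := two_dvd_b P
  obtain ⟨m, hm⟩ : ∃ m : ℕ, P.p = 5 + m := ⟨P.p - 5, by have := P.hp5; omega⟩
  refine ⟨-(P.a ^ P.p) * (2 ^ m * k ^ P.p), ?_⟩
  have h : (P.b : ℚ) ^ P.p = 32 * (2 ^ m * (k : ℚ) ^ P.p) := by
    have h1 : P.b ^ P.p = 32 * (2 ^ m * k ^ P.p) := by
      rw [hk, hm]
      ring
    exact_mod_cast h1
  simp only [FreyPackage.freyCurve]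
  rw [h]
  push_cast
  ring

theorem frey_b2 (P : FreyPackage) :
    P.freyCurve.a₁ ^ 2 + 4 * P.freyCurve.a₂ = ((P.b ^ P.p - P.a ^ P.p : ℤ) : ℚ) := by
  simp only [FreyPackage.freyCurve]
  push_cast
  ring

theorem not_two_dvd_b2 (P : FreyPackage) : ¬ (2 : ℤ) ∣ P.b ^ P.p - P.a ^ P.p := by
  intro h
  have h1 : (2 : ℤ) ∣ P.b ^ P.p := dvd_pow (two_dvd_b P) P.hp0
  have h2 : (2 : ℤ) ∣ P.a ^ P.p := (dvd_sub_right h1).mp h
  exact not_two_dvd_a P (Int.prime_two.dvd_of_dvd_pow h2)

theorem val_intCast_le_one (A : ValuationSubring Kb) (n : ℤ) :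
    A.valuation (algebraMap ℚ Kb (n : ℚ)) ≤ 1 := by
  rw [map_intCast]
  exact (A.valuation_le_one_iff _).mpr (intCast_mem A n)

/-- The frozen Frey model is integral at every valuation subring of `AlgebraicClosure ℚ`. -/
theorem frey_integral (P : FreyPackage) (A : ValuationSubring Kb) :
    Kernel.Integral A.valuation (P.freyCurve⁄Kb) := by
  obtain ⟨n₂, h₂⟩ := frey_a2_int P
  obtain ⟨n₄, h₄⟩ := frey_a4_int P
  refine ⟨?_, ?_, ?_, ?_, ?_⟩
  · change A.valuation (algebraMap ℚ Kb 1) ≤ 1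
    rw [map_one, map_one]
  · change A.valuation (algebraMap ℚ Kb P.freyCurve.a₂) ≤ 1
    rw [h₂]
    exact val_intCast_le_one A n₂
  · change A.valuation (algebraMap ℚ Kb 0) ≤ 1
    rw [map_zero, map_zero]
    exact zero_le_one
  · change A.valuation (algebraMap ℚ Kb P.freyCurve.a₄) ≤ 1
    rw [h₄]
    exact val_intCast_le_one A _
  · change A.valuation (algebraMap ℚ Kb 0) ≤ 1
    rw [map_zero, map_zero]
    exact zero_le_one

/-- At a valuation subring over `2`, the frozen Frey model has a node at `(0, 0)`. -/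
theorem frey_node_two (P : FreyPackage) {A : ValuationSubring Kb} (hA : A.LiesOverPrime 2) :
    A.valuation (P.freyCurve⁄Kb).a₄ < 1 ∧
      A.valuation ((P.freyCurve⁄Kb).a₁ ^ 2 + 4 * (P.freyCurve⁄Kb).a₂) = 1 := by
  have hA' : ((2 : ℕ) : Kb) ∈ A.nonunits := hA
  constructor
  · obtain ⟨n₄, h₄⟩ := frey_a4_int P
    change A.valuation (algebraMap ℚ Kb P.freyCurve.a₄) < 1
    rw [h₄, map_intCast]
    push_cast
    rw [map_mul]
    have h2 : A.valuation (2 : Kb) < 1 := by
      have := (A.mem_nonunits_iff).mp hA'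
      simpa using this
    have hn : A.valuation (n₄ : Kb) ≤ 1 := (A.valuation_le_one_iff _).mpr (intCast_mem A n₄)
    exact mul_lt_one_of_nonneg_of_lt_one_left zero_le h2 hn
  · have e : (P.freyCurve⁄Kb).a₁ ^ 2 + 4 * (P.freyCurve⁄Kb).a₂ =
        algebraMap ℚ Kb (P.freyCurve.a₁ ^ 2 + 4 * P.freyCurve.a₂) := by
      rw [map_add, map_pow, map_mul, map_ofNat]
      rfl
    rw [e, frey_b2, map_intCast]
    have hne : (P.b ^ P.p - P.a ^ P.p : ℤ) ≠ 0 := by
      intro h0
      exact not_two_dvd_b2 P (h0 ▸ dvd_zero _)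
    rw [OrdQbar.valuation_intCast A Nat.prime_two hA' hne,
      padicValInt.eq_zero_of_not_dvd (by exact_mod_cast not_two_dvd_b2 P), pow_zero]

/-- The prime `p` of the Frey package is a unit at every valuation subring over `2`. -/
theorem val_p_two (P : FreyPackage) {A : ValuationSubring Kb} (hA : A.LiesOverPrime 2) :
    A.valuation ((P.p : ℕ) : Kb) = 1 := by
  have hA' : ((2 : ℕ) : Kb) ∈ A.nonunits := hA
  refine OrdQbar.valuation_natCast_eq_one A Nat.prime_two hA' ?_
  intro h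
  have := (Nat.prime_dvd_prime_iff_eq Nat.prime_two P.pp).mp h
  have := P.hp5
  omega

end Frey

section U

local notation "Kb" => AlgebraicClosure ℚ

/-- The generic local statement (U) of package RED, at the valuation subring `A` of
`AlgebraicClosure ℚ`: for a curve `y² + a₁xy = x³ + a₂x² + a₄x` with integral coefficients and
good reduction, or a node at `(0, 0)`, an inertial `σ` satisfies `(σ - 1)² Q ∈ E₁` for every
point `Q` of odd prime order. -/
def UAt (A : ValuationSubring Kb) : Prop :=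
  ∀ (W : WeierstrassCurve Kb), W.a₃ = 0 → W.a₆ = 0 → Kernel.Integral A.valuation W →
    ((∀ x y : Kb, W.toAffine.Equation x y → A.valuation x ≤ 1 → A.valuation y ≤ 1 →
        ¬ (A.valuation (W.a₁ * y - (3 * x ^ 2 + 2 * W.a₂ * x + W.a₄)) < 1 ∧
          A.valuation (2 * y + W.a₁ * x + W.a₃) < 1)) ∨
      (A.valuation W.a₄ < 1 ∧ A.valuation (W.a₁ ^ 2 + 4 * W.a₂) = 1)) →
    ∀ σ : Kb →+* Kb, (∀ x, A.valuation (σ x) = A.valuation x) →
      (∀ x, A.valuation x ≤ 1 → A.valuation (σ x - x) < 1) →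
    ∀ Φ : W.toAffine.Point →+ W.toAffine.Point, IsPointAction W σ Φ →
    ∀ p : ℕ, p.Prime → p ≠ 2 → ∀ Q : W.toAffine.Point, p • Q = 0 →
      Kernel.InKer A.valuation (Φ (Φ Q - Q) - (Φ Q - Q))

theorem isPointAction_map (W : WeierstrassCurve ℚ) (σ : Kb ≃ₐ[ℚ] Kb) :
    IsPointAction (W.baseChange Kb) ((σ : Kb ≃+* Kb) : Kb →+* Kb)
      (Point.map (W' := W) σ.toAlgHom) := by
  intro x y h
  exact ⟨_, Point.map_some (W' := W) σ.toAlgHom h⟩

/-- `(σ - 1)²` kills the `p`-torsion of the Frey curve for `σ` in an inertia group over `2`. -/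
theorem U2_point (P : FreyPackage) {A : ValuationSubring Kb} (hA : A.LiesOverPrime 2)
    (hU : UAt A) {σ : Kb ≃ₐ[ℚ] Kb} (hσ : σ ∈ A.inertiaSubgroupIn ℚ)
    (Q : (P.freyCurve⁄Kb).Point) (hQ : P.p • Q = 0) :
    σ • (σ • Q - Q) = σ • Q - Q := by
  have hp2 : P.p ≠ 2 := by have := P.hp5; omega
  have hW := frey_integral P A
  have hdec := Inertia.mem_decompositionSubgroup A hσ
  have key := hU (P.freyCurve.baseChange Kb) (map_zero _) (map_zero _) hW
    (Or.inr (frey_node_two P hA)) ((σ : Kb ≃+* Kb) : Kb →+* Kb)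
    (fun x => val_map_eq Nat.prime_two hA hdec x)
    (fun x hx => val_sub_lt_one_of_mem_inertia hσ hx)
    (Point.map (W' := P.freyCurve) σ.toAlgHom) (isPointAction_map P.freyCurve σ) P.p P.pp hp2 Q hQ
  have hD := nsmul_sq_sub (Point.map (W' := P.freyCurve) σ.toAlgHom) hQ
  have h0 := eq_zero_of_inKer_of_nsmul hW (val_p_two P hA) key hD
  exact sub_eq_zero.mp h0

/-- **(U2)**: for `σ` in the inertia group of a valuation subring over `2`, `(σ - 1)² = 0` on
the `p`-torsion of the Frey curve. -/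
theorem U2 (P : FreyPackage) {A : ValuationSubring Kb} (hA : A.LiesOverPrime 2)
    (hU : UAt A) {σ : Kb ≃ₐ[ℚ] Kb} (hσ : σ ∈ A.inertiaSubgroupIn ℚ)
    (x : Submodule.torsionBy ℤ (P.freyCurve⁄Kb).Point P.p) :
    σ • (σ • x - x) = σ • x - x := by
  have hx : P.p • (x : (P.freyCurve⁄Kb).Point) = 0 := by
    have h := (Submodule.mem_torsionBy_iff _ _).mp x.2
    rwa [natCast_zsmul] at h
  exact Subtype.ext (U2_point P hA hU hσ x.1 hx)

end U

section Up

local notation "Kb" => AlgebraicClosure ℚ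

/-- Valuations of rational numbers at a valuation subring over `q`. -/
theorem val_rat {q : ℕ} (hq : q.Prime) {A : ValuationSubring Kb} (hA : A.LiesOverPrime q)
    {s : ℚ} (hs : s ≠ 0) :
    (A.valuation (algebraMap ℚ Kb s) ≤ 1 ↔ 0 ≤ padicValRat q s) ∧
      (A.valuation (algebraMap ℚ Kb s) < 1 ↔ 0 < padicValRat q s) := by
  have hA' : ((q : ℕ) : Kb) ∈ A.nonunits := hA
  have hs' : (s : Kb) ≠ 0 := by exact_mod_cast hs
  rw [eq_ratCast]
  constructor
  · rw [A.valuation_le_one_iff, OrdQbar.mem_iff_ordQ_nonneg A hq hA' hs' (isAlgebraic_int _),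
      OrdQbar.ordQ_ratCast A hq hA' hs]
    exact_mod_cast Iff.rfl
  · rw [← A.mem_nonunits_iff, OrdQbar.mem_nonunits_iff_ordQ_pos A hq hA' hs' (isAlgebraic_int _),
      OrdQbar.ordQ_ratCast A hq hA' hs]
    exact_mod_cast Iff.rfl

theorem val_rat_eq_one {q : ℕ} (hq : q.Prime) {A : ValuationSubring Kb} (hA : A.LiesOverPrime q)
    {s : ℚ} (hs : s ≠ 0) (h : padicValRat q s = 0) : A.valuation (algebraMap ℚ Kb s) = 1 := by
  obtain ⟨h1, h2⟩ := val_rat hq hA hs
  exact le_antisymm (h1.mpr h.ge) (not_lt.mp fun hlt => absurd (h2.mp hlt) (by rw [h]; exact lt_irrefl _))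

/-- A root of a monic cubic with coefficients in `A` lies in `A`. -/
theorem root_mem {K : Type*} [Field K] (A : ValuationSubring K) {c₂ c₄ ρ : K} (h2 : c₂ ∈ A)
    (h4 : c₄ ∈ A) (h : ρ ^ 3 + c₂ * ρ ^ 2 + c₄ * ρ = 0) : ρ ∈ A := by
  by_contra hρ
  have hρ0 : ρ ≠ 0 := fun h0 => hρ (h0 ▸ A.zero_mem)
  have hinv : ρ⁻¹ ∈ A := (A.mem_or_inv_mem ρ).resolve_left hρ
  have e : ρ = -(c₂ + c₄ * ρ⁻¹) := by
    have h' : ρ ^ 2 * (ρ + c₂ + c₄ * ρ⁻¹) = 0 := by
      field_simp
      linear_combination h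
    have h'' := (mul_eq_zero.mp h').resolve_left (pow_ne_zero 2 hρ0)
    linear_combination h''
  exact hρ (e ▸ A.neg_mem _ (A.add_mem _ _ h2 (A.mul_mem _ _ h4 hinv)))

/-- The Legendre translate (of `S05.Frey.frey_arith`) of the Frey model at an odd prime `q`: it
is integral at `A`, with good reduction or a node at `(0, 0)`. -/
theorem frey_leg_data (P : FreyPackage) {q : ℕ} (hq : q.Prime) (hq2 : q ≠ 2)
    {A : ValuationSubring Kb} (hA : A.LiesOverPrime q) :
    ∃ r : ℚ, r ^ 3 + (P.freyCurve.a₂ + 1 / 4) * r ^ 2 + P.freyCurve.a₄ * r = 0 ∧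
      A.valuation (algebraMap ℚ Kb r) ≤ 1 ∧
      Kernel.Integral A.valuation ((legOf P.freyCurve r).baseChange Kb) ∧
      ((A.valuation ((legOf P.freyCurve r).baseChange Kb).a₄ = 1 ∧
          A.valuation (((legOf P.freyCurve r).baseChange Kb).a₂ ^ 2 -
            4 * ((legOf P.freyCurve r).baseChange Kb).a₄) = 1) ∨
        (A.valuation ((legOf P.freyCurve r).baseChange Kb).a₄ < 1 ∧
          A.valuation ((legOf P.freyCurve r).baseChange Kb).a₂ = 1)) := by
  have hA' : ((q : ℕ) : Kb) ∈ A.nonunits := hA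
  obtain ⟨r, hr, ha₄0, hdisc0, hcase⟩ := Frey.frey_arith P hq hq2
  have ha₂K : ((legOf P.freyCurve r).baseChange Kb).a₂ =
      algebraMap ℚ Kb (legOf P.freyCurve r).a₂ := rfl
  have ha₄K : ((legOf P.freyCurve r).baseChange Kb).a₄ =
      algebraMap ℚ Kb (legOf P.freyCurve r).a₄ := rfl
  have hdiscK : ((legOf P.freyCurve r).baseChange Kb).a₂ ^ 2 -
      4 * ((legOf P.freyCurve r).baseChange Kb).a₄ =
      algebraMap ℚ Kb ((legOf P.freyCurve r).a₂ ^ 2 - 4 * (legOf P.freyCurve r).a₄) := by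
    rw [map_sub, map_pow, map_mul, map_ofNat, ha₂K, ha₄K]
  have hW := frey_integral P A
  refine ⟨r, hr, ?_, ⟨?_, ?_, ?_, ?_, ?_⟩, ?_⟩
  · -- the root is integral
    rw [A.valuation_le_one_iff]
    have h4 : A.valuation ((4 : ℕ) : Kb) = 1 := by
      refine OrdQbar.valuation_natCast_eq_one A hq hA' ?_
      intro h
      have h2 : q ∣ 2 := (hq.dvd_mul (m := 2) (n := 2)).mp h |>.elim id id
      exact hq2 ((Nat.prime_dvd_prime_iff_eq hq Nat.prime_two).mp h2)
    have h4inv : (4 : Kb)⁻¹ ∈ A := by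
      rw [← A.valuation_le_one_iff, map_inv₀]
      have : A.valuation (4 : Kb) = 1 := by simpa using h4
      rw [this, inv_one]
    have hc₂ : algebraMap ℚ Kb (P.freyCurve.a₂ + 1 / 4) ∈ A := by
      rw [map_add, map_div₀, map_one, map_ofNat, one_div]
      exact A.add_mem _ _ ((A.valuation_le_one_iff _).mp hW.2.1) h4inv
    have hc₄ : algebraMap ℚ Kb P.freyCurve.a₄ ∈ A := (A.valuation_le_one_iff _).mp hW.2.2.2.1
    refine root_mem A hc₂ hc₄ ?_
    have := congrArg (algebraMap ℚ Kb) hr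
    simpa only [map_add, map_mul, map_pow, map_zero] using this
  · change A.valuation (algebraMap ℚ Kb 0) ≤ 1
    rw [map_zero, map_zero]
    exact zero_le_one
  · rw [ha₂K]
    by_cases h0 : (legOf P.freyCurve r).a₂ = 0
    · rw [h0, map_zero, map_zero]
      exact zero_le_one
    · rcases hcase with ⟨h1, -, -⟩ | ⟨-, h1, -, -⟩
      · exact (val_rat hq hA h0).1.mpr h1
      · exact (val_rat hq hA h0).1.mpr h1.ge
  · change A.valuation (algebraMap ℚ Kb 0) ≤ 1
    rw [map_zero, map_zero]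
    exact zero_le_one
  · rw [ha₄K]
    rcases hcase with ⟨-, h1, -⟩ | ⟨-, -, h1, -⟩
    · exact (val_rat hq hA ha₄0).1.mpr h1.ge
    · exact (val_rat hq hA ha₄0).1.mpr h1.le
  · change A.valuation (algebraMap ℚ Kb 0) ≤ 1
    rw [map_zero, map_zero]
    exact zero_le_one
  · rw [hdiscK, ha₂K, ha₄K]
    rcases hcase with ⟨-, h1, h2⟩ | ⟨h0, h1, h2, -⟩
    · exact Or.inl ⟨val_rat_eq_one hq hA ha₄0 h1, val_rat_eq_one hq hA hdisc0 h2⟩
    · exact Or.inr ⟨(val_rat hq hA ha₄0).2.mpr h2, val_rat_eq_one hq hA h0 h1⟩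

/-- Good reduction of a Legendre model: the reduced curve has no singular point. -/
theorem good_nonsing {K : Type*} [Field K] (A : ValuationSubring K) {W : WeierstrassCurve K}
    (hW : IsLeg W) (h2 : A.valuation (2 : K) = 1) (ha₂ : A.valuation W.a₂ ≤ 1)
    (ha₄ : A.valuation W.a₄ = 1) (hdisc : A.valuation (W.a₂ ^ 2 - 4 * W.a₄) = 1) :
    ∀ x y : K, W.toAffine.Equation x y → A.valuation x ≤ 1 → A.valuation y ≤ 1 →
      ¬ (A.valuation (W.a₁ * y - (3 * x ^ 2 + 2 * W.a₂ * x + W.a₄)) < 1 ∧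
        A.valuation (2 * y + W.a₁ * x + W.a₃) < 1) := by
  rintro x y heq hx hy ⟨h1, h3⟩
  rw [hW.a₁, zero_mul, zero_sub, Valuation.map_neg] at h1
  rw [hW.a₁, hW.a₃, zero_mul, add_zero, add_zero, map_mul, h2, one_mul] at h3
  rw [Affine.equation_iff, hW.a₁, hW.a₃, hW.a₆] at heq
  have hf : x ^ 3 + W.a₂ * x ^ 2 + W.a₄ * x = y * y := by linear_combination -heq
  refine Local.hns_good A ((A.valuation_le_one_iff _).mp ha₂) ?_ ?_ ((A.valuation_le_one_iff _).mp hx)
    ⟨?_, (A.mem_nonunits_iff).mpr h1⟩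
  · rw [A.mem_nonunits_iff, ha₄]
    exact lt_irrefl _
  · rw [A.mem_nonunits_iff, hdisc]
    exact lt_irrefl _
  · rw [hf, A.mem_nonunits_iff, map_mul]
    exact mul_lt_one_of_nonneg_of_lt_one_left zero_le h3 hy

/-- Galois-equivariance of the change of model. -/
theorem pointEquiv_smul {W : WeierstrassCurve ℚ} {r : ℚ}
    (hrel : Model.Rel (W⁄Kb) ((legOf W r)⁄Kb) (algebraMap ℚ Kb r)) (σ : Kb ≃ₐ[ℚ] Kb)
    (Q : (W⁄Kb).Point) : Model.pointEquiv hrel (σ • Q) = σ • Model.pointEquiv hrel Q := by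
  rcases Q with _ | ⟨x, y, hxy⟩
  · rfl
  · rw [Point.algEquiv_smul_def, Point.map_some, Model.pointEquiv_some, Model.pointEquiv_some,
      Point.algEquiv_smul_def, Point.map_some]
    refine Model.some_congr _ _ ?_ ?_
    · rw [map_sub, AlgHom.commutes]
    · rw [map_add, map_div₀, map_ofNat]

/-- The change of model reflects the kernel of reduction, when the translation is integral. -/
theorem inKer_of_pointEquiv {A : ValuationSubring Kb} {W₁ W₂ : Affine Kb} {ρ : Kb}
    (hrel : Model.Rel W₁ W₂ ρ) (hρ : A.valuation ρ ≤ 1) {D : W₁.Point}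
    (hD : Kernel.InKer A.valuation (W := W₂) (Model.pointEquiv hrel D)) :
    Kernel.InKer A.valuation (W := W₁) D := by
  cases D with
  | zero => trivial
  | some x y h =>
    rw [Model.pointEquiv_some] at hD
    change 1 < A.valuation (x - ρ) at hD
    change 1 < A.valuation x
    by_contra hx
    rw [not_lt] at hx
    exact absurd (A.valuation.map_sub_le hx hρ) (not_le.mpr hD)

/-- `(σ - 1)²` maps the `p`-torsion of the Frey curve into the kernel of reduction, for `σ` in
an inertia group over `p`. -/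
theorem Up_point (P : FreyPackage) {A : ValuationSubring Kb} (hA : A.LiesOverPrime P.p)
    (hU : UAt A) {σ : Kb ≃ₐ[ℚ] Kb} (hσ : σ ∈ A.inertiaSubgroupIn ℚ)
    (Q : (P.freyCurve⁄Kb).Point) (hQ : P.p • Q = 0) :
    Kernel.InKer A.valuation (W := P.freyCurve.baseChange Kb) (σ • (σ • Q - Q) - (σ • Q - Q)) := by
  have hA' : ((P.p : ℕ) : Kb) ∈ A.nonunits := hA
  have hp2 : P.p ≠ 2 := by have := P.hp5; omega
  have hdec := Inertia.mem_decompositionSubgroup A hσ
  obtain ⟨r, hr, hrA, hW, hcase⟩ := frey_leg_data P P.pp hp2 hA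
  have hrel := Model.rel_legOf Kb P.freyCurve rfl rfl rfl r hr
  have hleg : IsLeg ((legOf P.freyCurve r).baseChange Kb) := ⟨map_zero _, map_zero _, map_zero _⟩
  have h2 : A.valuation (2 : Kb) = 1 := by
    have := OrdQbar.valuation_natCast_eq_one A P.pp hA' (c := 2) (fun h =>
      hp2 ((Nat.prime_dvd_prime_iff_eq P.pp Nat.prime_two).mp h))
    simpa using this
  have hcase' : (∀ x y : Kb, ((legOf P.freyCurve r).baseChange Kb).toAffine.Equation x y →
        A.valuation x ≤ 1 → A.valuation y ≤ 1 →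
        ¬ (A.valuation (((legOf P.freyCurve r).baseChange Kb).a₁ * y -
            (3 * x ^ 2 + 2 * ((legOf P.freyCurve r).baseChange Kb).a₂ * x +
              ((legOf P.freyCurve r).baseChange Kb).a₄)) < 1 ∧
          A.valuation (2 * y + ((legOf P.freyCurve r).baseChange Kb).a₁ * x +
            ((legOf P.freyCurve r).baseChange Kb).a₃) < 1)) ∨
      (A.valuation ((legOf P.freyCurve r).baseChange Kb).a₄ < 1 ∧
        A.valuation (((legOf P.freyCurve r).baseChange Kb).a₁ ^ 2 +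
          4 * ((legOf P.freyCurve r).baseChange Kb).a₂) = 1) := by
    rcases hcase with ⟨h4, hd⟩ | ⟨h4, h2'⟩
    · exact Or.inl (good_nonsing A hleg h2 hW.2.1 h4 hd)
    · refine Or.inr ⟨h4, ?_⟩
      rw [hleg.a₁, zero_pow two_ne_zero, zero_add, map_mul, h2']
      have : A.valuation (4 : Kb) = 1 := by
        have e : (4 : Kb) = 2 * 2 := by norm_num
        rw [e, map_mul, h2, one_mul]
      rw [this, one_mul]
  have hQ' : P.p • Model.pointEquiv hrel Q = 0 := by
    rw [← map_nsmul, hQ, map_zero]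
  have key := hU ((legOf P.freyCurve r).baseChange Kb) (map_zero _) (map_zero _) hW hcase'
    ((σ : Kb ≃+* Kb) : Kb →+* Kb) (fun x => val_map_eq P.pp hA hdec x)
    (fun x hx => val_sub_lt_one_of_mem_inertia hσ hx)
    (Point.map (W' := legOf P.freyCurve r) σ.toAlgHom) (isPointAction_map _ σ) P.p P.pp hp2
    (Model.pointEquiv hrel Q) hQ'
  change Kernel.InKer A.valuation (σ • (σ • Model.pointEquiv hrel Q - Model.pointEquiv hrel Q) -
    (σ • Model.pointEquiv hrel Q - Model.pointEquiv hrel Q)) at key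
  rw [← pointEquiv_smul hrel, ← map_sub, ← pointEquiv_smul hrel, ← map_sub] at key
  exact inKer_of_pointEquiv hrel hrA key

/-- **(Up)**: for `σ` in the inertia group of a valuation subring `A` over `p`, `(σ - 1)²` maps
the `p`-torsion of the Frey curve into the kernel of reduction at `A`. -/
theorem Up (P : FreyPackage) {A : ValuationSubring Kb} (hA : A.LiesOverPrime P.p)
    (hU : UAt A) {σ : Kb ≃ₐ[ℚ] Kb} (hσ : σ ∈ A.inertiaSubgroupIn ℚ)
    (x : Submodule.torsionBy ℤ (P.freyCurve⁄Kb).Point P.p) :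
    Kernel.InKer A.valuation (W := P.freyCurve.baseChange Kb)
      ((σ • (σ • x - x) - (σ • x - x) :
        Submodule.torsionBy ℤ (P.freyCurve⁄Kb).Point P.p) : (P.freyCurve⁄Kb).Point) := by
  have hx : P.p • (x : (P.freyCurve⁄Kb).Point) = 0 := by
    have h := (Submodule.mem_torsionBy_iff _ _).mp x.2
    rwa [natCast_zsmul] at h
  exact Up_point P hA hU hσ x.1 hx

end Up

section Extra

local notation "Kb" => AlgebraicClosure ℚ

/-- The kernel of reduction at `A` is stable under the decomposition group of `A`. -/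
theorem inKer_smul_iff (W : WeierstrassCurve ℚ) {A : ValuationSubring Kb} {σ : Kb ≃ₐ[ℚ] Kb}
    (hσ : σ ∈ A.decompositionSubgroup ℚ) (Q : (W⁄Kb).Point) :
    Kernel.InKer A.valuation (W := W.baseChange Kb) (σ • Q) ↔
      Kernel.InKer A.valuation (W := W.baseChange Kb) Q := by
  cases Q with
  | zero => exact Iff.rfl
  | some x y h =>
    rw [Point.algEquiv_smul_def, Point.map_some]
    change 1 < A.valuation (σ x) ↔ 1 < A.valuation x
    rw [← not_le, ← not_le, A.valuation_le_one_iff, A.valuation_le_one_iff,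
      Inertia.apply_mem_iff_of_mem_decompositionSubgroup A hσ]

/-- **(K)**: on the frozen Frey model the kernel of reduction at any `A` is closed under
addition. -/
theorem frey_inKer_add (P : FreyPackage) (A : ValuationSubring Kb) {Q₁ Q₂ : (P.freyCurve⁄Kb).Point}
    (h₁ : Kernel.InKer A.valuation (W := P.freyCurve.baseChange Kb) Q₁)
    (h₂ : Kernel.InKer A.valuation (W := P.freyCurve.baseChange Kb) Q₂) :
    Kernel.InKer A.valuation (W := P.freyCurve.baseChange Kb) (Q₁ + Q₂) :=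
  inKer_add (frey_integral P A) h₁ h₂

theorem frey_inKer_neg (P : FreyPackage) (A : ValuationSubring Kb) {Q : (P.freyCurve⁄Kb).Point}
    (h : Kernel.InKer A.valuation (W := P.freyCurve.baseChange Kb) Q) :
    Kernel.InKer A.valuation (W := P.freyCurve.baseChange Kb) (-Q) :=
  inKer_neg (frey_integral P A) h

theorem frey_inKer_sub (P : FreyPackage) (A : ValuationSubring Kb) {Q₁ Q₂ : (P.freyCurve⁄Kb).Point}
    (h₁ : Kernel.InKer A.valuation (W := P.freyCurve.baseChange Kb) Q₁)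
    (h₂ : Kernel.InKer A.valuation (W := P.freyCurve.baseChange Kb) Q₂) :
    Kernel.InKer A.valuation (W := P.freyCurve.baseChange Kb) (Q₁ - Q₂) :=
  inKer_sub (frey_integral P A) h₁ h₂

/-- **(Up)**, definition-free form. -/
theorem Up' (P : FreyPackage) {A : ValuationSubring Kb} (hA : A.LiesOverPrime P.p)
    (hU : UAt A) {σ : Kb ≃ₐ[ℚ] Kb} (hσ : σ ∈ A.inertiaSubgroupIn ℚ)
    (x : Submodule.torsionBy ℤ (P.freyCurve⁄Kb).Point P.p) :
    ∀ (x₀ y₀ : Kb) (h : (P.freyCurve⁄Kb).Nonsingular x₀ y₀),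
      ((σ • (σ • x - x) - (σ • x - x) :
        Submodule.torsionBy ℤ (P.freyCurve⁄Kb).Point P.p) : (P.freyCurve⁄Kb).Point) =
        Point.some x₀ y₀ h → x₀ ∉ A :=
  (inKer_iff A _).mp (Up P hA hU hσ x)

/-- No nonzero `p`-torsion point of the Frey curve lies in the kernel of reduction at a
valuation subring over a prime `ℓ ≠ p`. -/
theorem frey_eq_zero_of_inKer (P : FreyPackage) {ℓ : ℕ} (hℓ : ℓ.Prime) (hℓp : ℓ ≠ P.p)
    {A : ValuationSubring Kb} (hA : A.LiesOverPrime ℓ)
    {Q : (P.freyCurve⁄Kb).Point} (hQ : P.p • Q = 0)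
    (h : Kernel.InKer A.valuation (W := P.freyCurve.baseChange Kb) Q) : Q = 0 := by
  have hA' : ((ℓ : ℕ) : Kb) ∈ A.nonunits := hA
  refine eq_zero_of_inKer_of_nsmul (frey_integral P A) ?_ h hQ
  refine OrdQbar.valuation_natCast_eq_one A hℓ hA' ?_
  intro hd
  exact hℓp ((Nat.prime_dvd_prime_iff_eq hℓ P.pp).mp hd)

end Extra

end Fermat.Agent.S13.InstU
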