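/-
S13, package RED, core part (helper28): reduction of points on a Weierstrass curve with integral
coefficients over a valued field, relative to the kernel of reduction `Kernel.InKer` of S05.
General field, general valuation, general Weierstrass coefficients, any residue characteristic.

* `RedCore.val_y_le_one`   : a point with integral `x` has integral `y`.
* `RedCore.sub_inKer`, `RedCore.sub_inKer'` (F2) : two integral points with the same nonsingular
  reduction differ by an element of the kernel of reduction.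
* `RedCore.val_sub_lt_one` (R3) : if `P - Q` lies in the kernel of reduction and `Q` is integral
  then `x P ≡ x Q` modulo the maximal ideal (in particular `P` is integral).
* `RedCore.exists_add_inKer` (R3, existential form) : `Q` integral, `D` in the kernel of reduction
  ⟹ `Q + D` is an affine point whose `x` is congruent to `x Q`.
-/
import Mathlib
import Fermat.Agent.S05.Kernel

set_option autoImplicit false

namespace Fermat.Agent.S13.RedCore

open WeierstrassCurve WeierstrassCurve.Affine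
open Fermat.Agent.S05.Kernel

variable {K : Type*} [Field K] {Γ₀ : Type*} [LinearOrderedCommGroupWithZero Γ₀]
  {v : Valuation K Γ₀} {W : WeierstrassCurve K}

/-! ### Integrality bookkeeping -/

theorem i_add {a b : K} (ha : v a ≤ 1) (hb : v b ≤ 1) : v (a + b) ≤ 1 := v.map_add_le ha hb

theorem i_sub {a b : K} (ha : v a ≤ 1) (hb : v b ≤ 1) : v (a - b) ≤ 1 := v.map_sub_le ha hb

theorem i_neg {a : K} (ha : v a ≤ 1) : v (-a) ≤ 1 := by rwa [Valuation.map_neg]

theorem i_mul {a b : K} (ha : v a ≤ 1) (hb : v b ≤ 1) : v (a * b) ≤ 1 := by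
  rw [map_mul]
  exact mul_le_one' ha hb

theorem i_pow {a : K} (ha : v a ≤ 1) (n : ℕ) : v (a ^ n) ≤ 1 := by
  rw [map_pow]
  exact pow_le_one₀ zero_le ha

theorem i_two : v (2 : K) ≤ 1 := by
  have := val_natCast_le_one (v := v) 2
  simpa using this

theorem i_three : v (3 : K) ≤ 1 := by
  have := val_natCast_le_one (v := v) 3
  simpa using this

theorem m_add {a b : K} (ha : v a < 1) (hb : v b < 1) : v (a + b) < 1 := v.map_add_lt ha hb

theorem m_sub {a b : K} (ha : v a < 1) (hb : v b < 1) : v (a - b) < 1 := v.map_sub_lt ha hb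

theorem m_mul_left {a b : K} (ha : v a ≤ 1) (hb : v b < 1) : v (a * b) < 1 := by
  rw [map_mul]
  exact mul_lt_one_of_nonneg_of_lt_one_right ha zero_le hb

theorem m_mul_right {a b : K} (ha : v a < 1) (hb : v b ≤ 1) : v (a * b) < 1 := by
  rw [mul_comm]
  exact m_mul_left hb ha

/-- a unit plus an element of the maximal ideal is a unit -/
theorem u_of_sub {a b : K} (ha : v a = 1) (hab : v (b - a) < 1) : v b = 1 := by
  rw [← ha]
  exact Valuation.map_eq_of_sub_lt v (by rw [ha]; exact hab)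

/-- an integral element which is not in the maximal ideal is a unit -/
theorem u_of_not_lt {a : K} (ha : v a ≤ 1) (h : ¬ v a < 1) : v a = 1 :=
  le_antisymm ha (not_lt.mp h)

/-! ### Integral points -/

/-- a point with integral `x` has integral `y` -/
theorem val_y_le_one (hW : Integral v W) {x y : K} (h : W.toAffine.Equation x y) (hx : v x ≤ 1) :
    v y ≤ 1 := by
  obtain ⟨h1, h2, h3, h4, h6⟩ := hW
  rw [Affine.equation_iff] at h
  by_contra hy
  rw [not_le] at hy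
  have hb : v (W.a₁ * x + W.a₃) ≤ 1 := i_add (i_mul h1 hx) h3
  have hs : v (y + (W.a₁ * x + W.a₃)) = v y :=
    Valuation.map_add_eq_of_lt_left (v := v) (lt_of_le_of_lt hb hy)
  have hL : v (y ^ 2 + W.a₁ * x * y + W.a₃ * y) = v y ^ 2 := by
    rw [show y ^ 2 + W.a₁ * x * y + W.a₃ * y = y * (y + (W.a₁ * x + W.a₃)) by ring, map_mul, hs,
      pow_two]
  have hR : v (x ^ 3 + W.a₂ * x ^ 2 + W.a₄ * x + W.a₆) ≤ 1 :=
    i_add (i_add (i_add (i_pow hx 3) (i_mul h2 (i_pow hx 2))) (i_mul h4 hx)) h6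
  rw [h] at hL
  rw [hL] at hR
  exact absurd hR (not_le.mpr (one_lt_pow₀ hy two_ne_zero))

/-- an integral point is not in the kernel of reduction -/
theorem not_inKer_of_integral [DecidableEq K] {x y : K} (h : W.toAffine.Nonsingular x y)
    (hx : v x ≤ 1) : ¬ InKer v (Point.some x y h) := fun hk => absurd hx (not_le.mpr hk)

theorem inKer_some_iff [DecidableEq K] {x y : K} (h : W.toAffine.Nonsingular x y) :
    InKer v (Point.some x y h) ↔ 1 < v x := Iff.rfl

theorem inKer_zero [DecidableEq K] : InKer v (0 : W.toAffine.Point) := trivial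

/-- if the slope of the chord/tangent is non-integral, so is the `x`-coordinate of the sum -/
theorem one_lt_val_addX (hW : Integral v W) {x₁ x₂ ℓ : K} (hx₁ : v x₁ ≤ 1) (hx₂ : v x₂ ≤ 1)
    (hℓ : 1 < v ℓ) : 1 < v (W.toAffine.addX x₁ x₂ ℓ) := by
  obtain ⟨h1, h2, h3, h4, h6⟩ := hW
  have hℓ2 : v ℓ < v (ℓ ^ 2) := by
    rw [map_pow, pow_two]
    exact lt_mul_of_one_lt_left (lt_trans zero_lt_one hℓ) hℓ
  have hrest : v (W.a₁ * ℓ - W.a₂ - x₁ - x₂) ≤ v ℓ := by
    refine v.map_sub_le (v.map_sub_le (v.map_sub_le ?_ ?_) ?_) ?_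
    · rw [map_mul]
      exact mul_le_of_le_one_left' h1
    · exact h2.trans hℓ.le
    · exact hx₁.trans hℓ.le
    · exact hx₂.trans hℓ.le
  have key : v (W.toAffine.addX x₁ x₂ ℓ) = v (ℓ ^ 2) := by
    rw [show W.toAffine.addX x₁ x₂ ℓ = ℓ ^ 2 + (W.a₁ * ℓ - W.a₂ - x₁ - x₂) by
      rw [Affine.addX]; ring]
    exact Valuation.map_add_eq_of_lt_left (v := v) (lt_of_le_of_lt hrest hℓ2)
  rw [key]
  exact hℓ.trans hℓ2

/-! ### (F2): same nonsingular reduction ⟹ difference in the kernel of reduction -/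

/-- **(F2)** Two integral points with the same reduction, nonsingular on the reduced curve, differ
by an element of the kernel of reduction. -/
theorem sub_inKer [DecidableEq K] (hW : Integral v W) {x₁ y₁ x₂ y₂ : K}
    (h₁ : W.toAffine.Nonsingular x₁ y₁) (h₂ : W.toAffine.Nonsingular x₂ y₂)
    (hx₁ : v x₁ ≤ 1) (hx₂ : v x₂ ≤ 1) (hx : v (x₁ - x₂) < 1) (hy : v (y₁ - y₂) < 1)
    (hns : ¬ (v (W.a₁ * y₁ - (3 * x₁ ^ 2 + 2 * W.a₂ * x₁ + W.a₄)) < 1 ∧
      v (2 * y₁ + W.a₁ * x₁ + W.a₃) < 1)) :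
    InKer v (Point.some x₁ y₁ h₁ - Point.some x₂ y₂ h₂) := by
  have hW' := hW
  obtain ⟨a1, a2, a3, a4, a6⟩ := hW
  have hy₁ : v y₁ ≤ 1 := val_y_le_one hW' h₁.1 hx₁
  have hy₂ : v y₂ ≤ 1 := val_y_le_one hW' h₂.1 hx₂
  -- integrality of the two partial derivatives at `P`
  have hWx : v (W.a₁ * y₁ - (3 * x₁ ^ 2 + 2 * W.a₂ * x₁ + W.a₄)) ≤ 1 :=
    i_sub (i_mul a1 hy₁) (i_add (i_add (i_mul i_three (i_pow hx₁ 2)) (i_mul (i_mul i_two a2) hx₁)) a4)
  have hWy : v (2 * y₁ + W.a₁ * x₁ + W.a₃) ≤ 1 :=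
    i_add (i_add (i_mul i_two hy₁) (i_mul a1 hx₁)) a3
  rw [sub_eq_add_neg, Point.neg_some]
  by_cases hxy : x₁ = x₂ ∧ y₁ = W.toAffine.negY x₂ (W.toAffine.negY x₂ y₂)
  · rw [Point.add_of_Y_eq hxy.1 hxy.2]
    exact trivial
  rw [Point.add_some hxy]
  change 1 < v (W.toAffine.addX x₁ x₂ (W.toAffine.slope x₁ x₂ y₁ (W.toAffine.negY x₂ y₂)))
  apply one_lt_val_addX hW' hx₁ hx₂
  rw [Affine.negY_negY] at hxy
  by_cases hxx : x₁ = x₂
  · -- doubling case: `P = -Q`
    have hyy : y₁ ≠ y₂ := fun h => hxy ⟨hxx, h⟩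
    have hy₁' : y₁ = W.toAffine.negY x₂ y₂ := by
      rcases Affine.Y_eq_of_X_eq h₁.1 h₂.1 hxx with h | h
      · exact absurd h hyy
      · exact h
    have hne : y₁ ≠ W.toAffine.negY x₂ (W.toAffine.negY x₂ y₂) := by
      rw [Affine.negY_negY]; exact hyy
    rw [Affine.slope_of_Y_ne hxx hne]
    have hden : y₁ - W.toAffine.negY x₁ y₁ = y₁ - y₂ := by
      rw [hxx, hy₁', Affine.negY_negY]
    have hden' : y₁ - y₂ = 2 * y₁ + W.a₁ * x₁ + W.a₃ := by
      rw [hy₁', Affine.negY, hxx]; ring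
    have hWy1 : v (2 * y₁ + W.a₁ * x₁ + W.a₃) < 1 := by rw [← hden']; exact hy
    have hWx1 : v (W.a₁ * y₁ - (3 * x₁ ^ 2 + 2 * W.a₂ * x₁ + W.a₄)) = 1 :=
      u_of_not_lt hWx (fun h => hns ⟨h, hWy1⟩)
    have hnum : v (3 * x₁ ^ 2 + 2 * W.a₂ * x₁ + W.a₄ - W.a₁ * y₁) = 1 := by
      rw [← neg_sub, Valuation.map_neg]; exact hWx1
    rw [hden, map_div₀, hnum]
    have hpos : 0 < v (y₁ - y₂) := by
      rw [Valuation.pos_iff]; exact sub_ne_zero.mpr hyy
    exact (one_lt_div₀ hpos).mpr hy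
  · -- chord case
    rw [Affine.slope_of_X_ne hxx]
    have hxpos : 0 < v (x₁ - x₂) := by
      rw [Valuation.pos_iff]; exact sub_ne_zero.mpr hxx
    -- numerator of the first slope formula
    have hn₁ : y₁ - W.toAffine.negY x₂ y₂ - (2 * y₁ + W.a₁ * x₁ + W.a₃) =
        -(y₁ - y₂) - W.a₁ * (x₁ - x₂) := by
      rw [Affine.negY]; ring
    have hn₁m : v (y₁ - W.toAffine.negY x₂ y₂ - (2 * y₁ + W.a₁ * x₁ + W.a₃)) < 1 := by
      rw [hn₁]
      exact m_sub (by rw [Valuation.map_neg]; exact hy) (m_mul_left a1 hx)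
    by_cases hWy1 : v (2 * y₁ + W.a₁ * x₁ + W.a₃) < 1
    · -- second slope formula
      have hWx1 : v (W.a₁ * y₁ - (3 * x₁ ^ 2 + 2 * W.a₂ * x₁ + W.a₄)) = 1 :=
        u_of_not_lt hWx (fun h => hns ⟨h, hWy1⟩)
      have hn₁' : v (y₁ - W.toAffine.negY x₂ y₂) < 1 := by
        have := m_add hn₁m hWy1
        rwa [sub_add_cancel] at this
      set n₂ := x₁ ^ 2 + x₁ * x₂ + x₂ ^ 2 + W.a₂ * (x₁ + x₂) + W.a₄ -
        W.a₁ * W.toAffine.negY x₂ y₂ with hn₂
      set d₂ := y₁ - y₂ + W.a₁ * (x₁ - x₂) with hd₂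
      have hid : (y₁ - W.toAffine.negY x₂ y₂) * d₂ = (x₁ - x₂) * n₂ := by
        have e₁ := (Affine.equation_iff _ _).mp h₁.1
        have e₂ := (Affine.equation_iff _ _).mp h₂.1
        rw [hn₂, hd₂, Affine.negY]
        linear_combination e₁ - e₂
      have hd₂m : v d₂ < 1 := m_add hy (m_mul_left a1 hx)
      have hn₂u : v n₂ = 1 := by
        have e : n₂ - -(W.a₁ * y₁ - (3 * x₁ ^ 2 + 2 * W.a₂ * x₁ + W.a₄)) =
            (x₁ - x₂) * (-(2 * x₁ + x₂ + W.a₂)) + W.a₁ * (y₁ - W.toAffine.negY x₂ y₂) := by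
          rw [hn₂]; ring
        refine u_of_sub (a := -(W.a₁ * y₁ - (3 * x₁ ^ 2 + 2 * W.a₂ * x₁ + W.a₄))) ?_ ?_
        · rw [Valuation.map_neg]; exact hWx1
        · rw [e]
          refine m_add (m_mul_right hx (i_neg (i_add (i_add (i_mul i_two hx₁) hx₂) a2)))
            (m_mul_left a1 hn₁')
      have hn₂0 : n₂ ≠ 0 := by
        intro h0
        rw [h0, map_zero] at hn₂u
        exact zero_ne_one hn₂u
      have hd₂0 : d₂ ≠ 0 := by
        intro h0
        rw [h0, mul_zero] at hid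
        rcases mul_eq_zero.mp hid.symm with h | h
        · exact hxx (sub_eq_zero.mp h)
        · exact hn₂0 h
      have hslope : (y₁ - W.toAffine.negY x₂ y₂) / (x₁ - x₂) = n₂ / d₂ := by
        rw [div_eq_div_iff (sub_ne_zero.mpr hxx) hd₂0]
        exact hid.trans (mul_comm _ _)
      rw [hslope, map_div₀, hn₂u]
      have hpos : 0 < v d₂ := by
        rw [Valuation.pos_iff]; exact hd₂0
      exact (one_lt_div₀ hpos).mpr hd₂m
    · -- first slope formula
      have hWy1' : v (2 * y₁ + W.a₁ * x₁ + W.a₃) = 1 := u_of_not_lt hWy hWy1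
      have hnum : v (y₁ - W.toAffine.negY x₂ y₂) = 1 := u_of_sub hWy1' hn₁m
      rw [map_div₀, hnum]
      exact (one_lt_div₀ hxpos).mpr hx

/-! ### (R3): difference in the kernel of reduction ⟹ same `x` modulo the maximal ideal -/

/-- the algebraic identity behind (R3) -/
theorem addX_sub_alg {a₁ a₂ a₃ a₄ a₆ x y X Y : K} (hX : X ≠ x)
    (e : y ^ 2 + a₁ * x * y + a₃ * y = x ^ 3 + a₂ * x ^ 2 + a₄ * x + a₆)
    (E : Y ^ 2 + a₁ * X * Y + a₃ * Y = X ^ 3 + a₂ * X ^ 2 + a₄ * X + a₆) :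
    ((y - Y) / (x - X)) ^ 2 + a₁ * ((y - Y) / (x - X)) - a₂ - x - X - x =
      (X * (3 * x ^ 2 + 2 * a₂ * x + a₄ - a₁ * y) - Y * (2 * y + a₁ * x + a₃) +
        (a₄ * x + 2 * a₆ - a₃ * y - x ^ 3)) / (x - X) ^ 2 := by
  have hne : x - X ≠ 0 := sub_ne_zero.mpr (Ne.symm hX)
  field_simp
  linear_combination e + E

/-- **(R3)** If `P - Q` lies in the kernel of reduction and `Q` has integral `x`-coordinate, then
`x P - x Q` lies in the maximal ideal. No nonsingularity of the reduction is needed. -/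
theorem val_sub_lt_one [DecidableEq K] (hW : Integral v W) {x₁ y₁ x₂ y₂ : K}
    (h₁ : W.toAffine.Nonsingular x₁ y₁) (h₂ : W.toAffine.Nonsingular x₂ y₂) (hx₂ : v x₂ ≤ 1)
    (hker : InKer v (Point.some x₁ y₁ h₁ - Point.some x₂ y₂ h₂)) : v (x₁ - x₂) < 1 := by
  have hW' := hW
  obtain ⟨a1, a2, a3, a4, a6⟩ := hW
  have hy₂ : v y₂ ≤ 1 := val_y_le_one hW' h₂.1 hx₂
  have hP : Point.some x₁ y₁ h₁ =
      Point.some x₂ y₂ h₂ + (Point.some x₁ y₁ h₁ - Point.some x₂ y₂ h₂) := by abel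
  generalize hD : Point.some x₁ y₁ h₁ - Point.some x₂ y₂ h₂ = D at hker hP
  cases D with
  | zero =>
    have h0 : Point.some x₁ y₁ h₁ = Point.some x₂ y₂ h₂ := by
      rw [hP]; exact add_zero _
    have hxx : x₁ = x₂ := by
      injection h0
    rw [hxx, sub_self, map_zero]
    exact zero_lt_one
  | some X Y hD' =>
    change 1 < v X at hker
    have hXY : v X < v Y := val_x_lt_val_y hW' hD'.1 hker
    have hne : x₂ ≠ X := by
      rintro rfl
      exact absurd hx₂ (not_le.mpr hker)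
    have hxy : ¬(x₂ = X ∧ y₂ = W.toAffine.negY X Y) := fun h => hne h.1
    rw [Point.add_some hxy] at hP
    have hx₁ : x₁ = W.toAffine.addX x₂ X (W.toAffine.slope x₂ X y₂ Y) := by
      injection hP
    rw [Affine.slope_of_X_ne hne] at hx₁
    have key : x₁ - x₂ =
        (X * (3 * x₂ ^ 2 + 2 * W.a₂ * x₂ + W.a₄ - W.a₁ * y₂) - Y * (2 * y₂ + W.a₁ * x₂ + W.a₃) +
          (W.a₄ * x₂ + 2 * W.a₆ - W.a₃ * y₂ - x₂ ^ 3)) / (x₂ - X) ^ 2 := by
      rw [hx₁, Affine.addX]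
      exact addX_sub_alg (Ne.symm hne) ((Affine.equation_iff _ _).mp h₂.1)
        ((Affine.equation_iff _ _).mp hD'.1)
    -- valuations
    have hX0 : 0 < v X := lt_trans zero_lt_one hker
    have hY1 : 1 < v Y := hker.trans hXY
    have hden : v (x₂ - X) = v X :=
      Valuation.map_sub_eq_of_lt_right (v := v) (lt_of_le_of_lt hx₂ hker)
    have hA : v (3 * x₂ ^ 2 + 2 * W.a₂ * x₂ + W.a₄ - W.a₁ * y₂) ≤ 1 :=
      i_sub (i_add (i_add (i_mul i_three (i_pow hx₂ 2)) (i_mul (i_mul i_two a2) hx₂)) a4)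
        (i_mul a1 hy₂)
    have hB : v (2 * y₂ + W.a₁ * x₂ + W.a₃) ≤ 1 := i_add (i_add (i_mul i_two hy₂) (i_mul a1 hx₂)) a3
    have hC : v (W.a₄ * x₂ + 2 * W.a₆ - W.a₃ * y₂ - x₂ ^ 3) ≤ 1 :=
      i_sub (i_sub (i_add (i_mul a4 hx₂) (i_mul i_two a6)) (i_mul a3 hy₂)) (i_pow hx₂ 3)
    have hnum : v (X * (3 * x₂ ^ 2 + 2 * W.a₂ * x₂ + W.a₄ - W.a₁ * y₂) -
        Y * (2 * y₂ + W.a₁ * x₂ + W.a₃) + (W.a₄ * x₂ + 2 * W.a₆ - W.a₃ * y₂ - x₂ ^ 3)) ≤ v Y := by
      refine v.map_add_le (v.map_sub_le ?_ ?_) (hC.trans hY1.le)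
      · rw [map_mul]
        exact (mul_le_of_le_one_right' hA).trans hXY.le
      · rw [map_mul]
        exact mul_le_of_le_one_right' hB
    -- `v Y ^ 2 = v X ^ 3`, hence `v Y < v X ^ 2`
    obtain ⟨hX0', hY0', -, -, -, hw⟩ := ker_data hW' hD'.1 hker
    have hYX : v Y < v X ^ 2 := by
      by_contra hcon
      rw [not_lt] at hcon
      have hvY0 : v Y ≠ 0 := (Valuation.ne_zero_iff v).mpr hY0'
      have hvX0 : v X ≠ 0 := (Valuation.ne_zero_iff v).mpr hX0'
      rw [map_div₀, map_div₀, Valuation.map_neg, Valuation.map_neg, map_one, div_pow] at hw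
      have h23 : v Y ^ 2 = v X ^ 3 := by
        rw [div_eq_div_iff hvY0 (pow_ne_zero 3 hvY0), one_mul] at hw
        have h3 : v Y ^ 2 * v Y = v X ^ 3 * v Y := by
          rw [← pow_succ]
          exact hw
        exact mul_right_cancel₀ hvY0 h3
      have h4 : v X ^ 4 ≤ v Y ^ 2 := by
        calc v X ^ 4 = (v X ^ 2) ^ 2 := by rw [← pow_mul]
          _ ≤ v Y ^ 2 := pow_le_pow_left₀ zero_le hcon 2
      rw [h23] at h4
      have : v X ^ 3 < v X ^ 4 := pow_lt_pow_right₀ hker (by norm_num)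
      exact absurd h4 (not_le.mpr this)
    rw [key, map_div₀, map_pow, hden]
    rw [div_lt_one₀ (pow_pos hX0 2)]
    exact lt_of_le_of_lt hnum hYX

/-- **(R3)**, existential form: adding an element of the kernel of reduction to an integral point
gives an affine point with congruent `x`-coordinate. -/
theorem exists_add_inKer [DecidableEq K] (hW : Integral v W) {x₂ y₂ : K}
    (h₂ : W.toAffine.Nonsingular x₂ y₂) (hx₂ : v x₂ ≤ 1) {D : W.toAffine.Point}
    (hD : InKer v D) :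
    ∃ (x₃ y₃ : K) (h₃ : W.toAffine.Nonsingular x₃ y₃),
      Point.some x₂ y₂ h₂ + D = Point.some x₃ y₃ h₃ ∧ v (x₃ - x₂) < 1 := by
  generalize hS : Point.some x₂ y₂ h₂ + D = S
  cases S with
  | zero =>
    exfalso
    have hDneg : D = -Point.some x₂ y₂ h₂ := by
      rw [eq_neg_iff_add_eq_zero, add_comm]; exact hS
    rw [hDneg, Point.neg_some] at hD
    exact absurd hx₂ (not_le.mpr hD)
  | some x₃ y₃ h₃ =>
    refine ⟨x₃, y₃, h₃, rfl, ?_⟩
    refine val_sub_lt_one hW h₃ h₂ hx₂ ?_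
    rw [← hS, add_sub_cancel_left]
    exact hD

/-- **(F2)**, variant: only the first point is assumed integral. -/
theorem sub_inKer' [DecidableEq K] (hW : Integral v W) {x₁ y₁ x₂ y₂ : K}
    (h₁ : W.toAffine.Nonsingular x₁ y₁) (h₂ : W.toAffine.Nonsingular x₂ y₂)
    (hx₁ : v x₁ ≤ 1)
    (hns : ¬ (v (W.a₁ * y₁ - (3 * x₁ ^ 2 + 2 * W.a₂ * x₁ + W.a₄)) < 1 ∧
      v (2 * y₁ + W.a₁ * x₁ + W.a₃) < 1))
    (hx : v (x₁ - x₂) < 1) (hy : v (y₁ - y₂) < 1) :
    InKer v (Point.some x₁ y₁ h₁ - Point.some x₂ y₂ h₂) := by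
  have hx₂ : v x₂ ≤ 1 := by
    have e : x₂ = x₁ - (x₁ - x₂) := by ring
    rw [e]
    exact i_sub hx₁ hx.le
  exact sub_inKer hW h₁ h₂ hx₁ hx₂ hx hy hns

end Fermat.Agent.S13.RedCore
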