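/-
S13, package RED, piece RedFar (helper21; cut of helper24): duplication on a model
`y² + a₁ x y = x³ + a₂ x² + a₄ x` (general `a₁`, only `a₃ = a₆ = 0`), and the "far" step:
a point whose `x`-coordinate is at least as divisible as `a₄` (i.e. a point close to the
`2`-torsion point `(0,0)` that reduces to the node) has a double which is `0` or has unit or
non-integral `x`-coordinate.  General valuation, any residue characteristic.

* `two_nsmul_some_eq_zero` : `2y + a₁x = 0 ⟹ 2 • (x,y) = 0`.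
* `two_nsmul_some` : `2y + a₁x ≠ 0 ⟹ x(2P) (2y + a₁x)² = (x² - a₄)²`.
* `sq_eq` : `(2y + a₁x)² = 4x³ + b₂x² + 4a₄x`.
* `far` : `v x ≤ v a₄ < 1 ⟹ 2P = 0 ∨ 1 ≤ v (x(2P))`.
-/
import Mathlib
import Fermat.Agent.S05.Defs
import Fermat.Agent.S05.Kernel
import Fermat.Agent.S13.RedCore

set_option autoImplicit false

namespace Fermat.Agent.S13.RedFar

open WeierstrassCurve WeierstrassCurve.Affine
open Fermat.Agent.S05 Fermat.Agent.S05.Kernel

variable {K : Type*} [Field K] [DecidableEq K] {Γ₀ : Type*} [LinearOrderedCommGroupWithZero Γ₀]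
  {v : Valuation K Γ₀} {W : WeierstrassCurve K}

omit [DecidableEq K] in
/-- the Weierstrass equation of a model with `a₃ = a₆ = 0` -/
theorem eq_of_nonsingular (h₃ : W.a₃ = 0) (h₆ : W.a₆ = 0) {x y : K}
    (h : W.toAffine.Nonsingular x y) :
    y ^ 2 + W.a₁ * x * y = x ^ 3 + W.a₂ * x ^ 2 + W.a₄ * x := by
  have := (Affine.equation_iff x y).mp h.1
  rw [h₃, h₆] at this
  linear_combination this

omit [DecidableEq K] in
/-- the equation of the model (same as `eq_of_nonsingular`, from `Equation`; this is the name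
used in helper24's copy of this file) -/
theorem eqn (h₃ : W.a₃ = 0) (h₆ : W.a₆ = 0) {x y : K} (h : W.toAffine.Equation x y) :
    y ^ 2 + W.a₁ * x * y = x ^ 3 + W.a₂ * x ^ 2 + W.a₄ * x := by
  have := (Affine.equation_iff x y).mp h
  rw [h₃, h₆] at this
  linear_combination this

omit [DecidableEq K] in
/-- `(2y + a₁x)² = 4x³ + b₂x² + 4a₄x` -/
theorem sq_eq (h₃ : W.a₃ = 0) (h₆ : W.a₆ = 0) {x y : K} (h : W.toAffine.Nonsingular x y) :
    (2 * y + W.a₁ * x) ^ 2 = 4 * x ^ 3 + (W.a₁ ^ 2 + 4 * W.a₂) * x ^ 2 + 4 * W.a₄ * x := by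
  have e := eq_of_nonsingular h₃ h₆ h
  linear_combination 4 * e

theorem two_nsmul_some_eq_zero (h₃ : W.a₃ = 0) {x y : K} (h : W.toAffine.Nonsingular x y)
    (hy : 2 * y + W.a₁ * x = 0) : (2 : ℕ) • Point.some x y h = 0 := by
  rw [two_nsmul]
  apply Point.add_of_Y_eq rfl
  rw [Affine.negY, h₃]
  linear_combination hy

/-- duplication formula for the `x`-coordinate, general `a₁` -/
theorem two_nsmul_some (h₃ : W.a₃ = 0) (h₆ : W.a₆ = 0) {x y : K}
    (h : W.toAffine.Nonsingular x y) (hy : 2 * y + W.a₁ * x ≠ 0) :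
    ∃ (x' y' : K) (h' : W.toAffine.Nonsingular x' y'),
      (2 : ℕ) • Point.some x y h = Point.some x' y' h' ∧
        x' * (2 * y + W.a₁ * x) ^ 2 = (x ^ 2 - W.a₄) ^ 2 := by
  have hyne : y ≠ W.toAffine.negY x y := by
    intro e
    apply hy
    rw [Affine.negY, h₃] at e
    linear_combination e
  have hne : ¬(x = x ∧ y = W.toAffine.negY x y) := fun e => hyne e.2
  refine ⟨W.toAffine.addX x x (W.toAffine.slope x x y y),
    W.toAffine.addY x x y (W.toAffine.slope x x y y), Affine.nonsingular_add h h hne,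
    by rw [two_nsmul, Point.add_some hne], ?_⟩
  have hD : y - W.toAffine.negY x y = 2 * y + W.a₁ * x := by
    rw [Affine.negY, h₃]
    ring
  have hℓ : W.toAffine.slope x x y y * (2 * y + W.a₁ * x) =
      3 * x ^ 2 + 2 * W.a₂ * x + W.a₄ - W.a₁ * y := by
    rw [Affine.slope_of_Y_ne rfl hyne, hD, div_mul_cancel₀ _ hy]
  have heq := eq_of_nonsingular h₃ h₆ h
  generalize W.toAffine.slope x x y y = ℓ at hℓ ⊢
  have e : W.toAffine.addX x x ℓ * (2 * y + W.a₁ * x) ^ 2 =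
      (ℓ * (2 * y + W.a₁ * x)) ^ 2 + W.a₁ * (ℓ * (2 * y + W.a₁ * x)) * (2 * y + W.a₁ * x)
        - (W.a₂ + 2 * x) * (2 * y + W.a₁ * x) ^ 2 := by
    rw [Affine.addX]
    ring
  rw [e, hℓ]
  linear_combination (-4 * W.a₂ - 8 * x - W.a₁ ^ 2) * heq

/-- **far step**: a point with `v x ≤ v a₄ < 1` has a double which is `0` or has
unit or non-integral `x`-coordinate. -/
theorem far (hW : Integral v W) (h₃ : W.a₃ = 0) (h₆ : W.a₆ = 0) (ha₄ : v W.a₄ < 1) {x y : K}
    (h : W.toAffine.Nonsingular x y) (hx : v x ≤ v W.a₄) :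
    (2 : ℕ) • Point.some x y h = 0 ∨
      ∃ (x' y' : K) (h' : W.toAffine.Nonsingular x' y'),
        (2 : ℕ) • Point.some x y h = Point.some x' y' h' ∧ 1 ≤ v x' := by
  by_cases hy : 2 * y + W.a₁ * x = 0
  · exact Or.inl (two_nsmul_some_eq_zero h₃ h hy)
  right
  obtain ⟨x', y', h', h2, hx'⟩ := two_nsmul_some h₃ h₆ h hy
  refine ⟨x', y', h', h2, ?_⟩
  obtain ⟨i1, i2, -, -, -⟩ := hW
  have heq := eq_of_nonsingular h₃ h₆ h
  -- `a₄ ≠ 0`
  have ha₄0 : W.a₄ ≠ 0 := by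
    intro h0
    rw [h0, map_zero] at hx
    have hx0 : x = 0 := by
      rw [← Valuation.zero_iff v]
      exact le_antisymm hx zero_le
    rw [hx0] at heq
    have hy0 : y = 0 := by
      have : y ^ 2 = 0 := by linear_combination heq
      exact pow_eq_zero_iff (two_ne_zero) |>.mp this
    apply hy
    rw [hx0, hy0]
    ring
  have hva : 0 < v W.a₄ := by
    rw [Valuation.pos_iff]
    exact ha₄0
  have hva2 : v W.a₄ ^ 2 < v W.a₄ := pow_lt_self_of_lt_one₀ hva ha₄ (by norm_num)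
  have hx1 : v x ≤ 1 := hx.trans ha₄.le
  -- `v (x² - a₄) = v a₄`
  have hnum : v (x ^ 2 - W.a₄) = v W.a₄ := by
    have h1 : v (x ^ 2) < v W.a₄ := by
      rw [map_pow]
      exact lt_of_le_of_lt (pow_le_pow_left₀ zero_le hx 2) hva2
    exact Valuation.map_sub_eq_of_lt_right v h1
  -- `v ((2y + a₁x)²) ≤ (v a₄)²`
  have h4 : v (4 : K) ≤ 1 := by
    have := val_natCast_le_one (v := v) 4
    simpa using this
  have hb2 : v (W.a₁ ^ 2 + 4 * W.a₂) ≤ 1 :=
    RedCore.i_add (RedCore.i_pow i1 2) (RedCore.i_mul h4 i2)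
  have hden : v ((2 * y + W.a₁ * x) ^ 2) ≤ v W.a₄ ^ 2 := by
    rw [sq_eq h₃ h₆ h]
    have hxx : v x ^ 2 ≤ v W.a₄ ^ 2 := pow_le_pow_left₀ zero_le hx 2
    refine v.map_add_le (v.map_add_le ?_ ?_) ?_
    · rw [map_mul, map_pow]
      calc v (4 : K) * v x ^ 3 ≤ 1 * v x ^ 3 := mul_le_mul' h4 le_rfl
        _ = v x ^ 3 := one_mul _
        _ ≤ v x ^ 2 := pow_le_pow_of_le_one zero_le hx1 (by norm_num)
        _ ≤ v W.a₄ ^ 2 := hxx
    · rw [map_mul, map_pow]
      calc v (W.a₁ ^ 2 + 4 * W.a₂) * v x ^ 2 ≤ 1 * v x ^ 2 := mul_le_mul' hb2 le_rfl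
        _ = v x ^ 2 := one_mul _
        _ ≤ v W.a₄ ^ 2 := hxx
    · rw [map_mul, map_mul]
      calc v (4 : K) * v W.a₄ * v x ≤ 1 * v W.a₄ * v W.a₄ :=
            mul_le_mul' (mul_le_mul' h4 le_rfl) hx
        _ = v W.a₄ ^ 2 := by rw [one_mul, sq]
  -- conclude
  have hD0 : 0 < v ((2 * y + W.a₁ * x) ^ 2) := by
    rw [Valuation.pos_iff]
    exact pow_ne_zero 2 hy
  have hval := congrArg v hx'
  rw [map_mul, map_pow v (x ^ 2 - W.a₄), hnum] at hval
  by_contra hlt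
  rw [not_le] at hlt
  have : v x' * v ((2 * y + W.a₁ * x) ^ 2) < v W.a₄ ^ 2 := by
    calc v x' * v ((2 * y + W.a₁ * x) ^ 2) < 1 * v ((2 * y + W.a₁ * x) ^ 2) :=
          mul_lt_mul_of_pos_right hlt hD0
      _ = v ((2 * y + W.a₁ * x) ^ 2) := one_mul _
      _ ≤ v W.a₄ ^ 2 := hden
  rw [hval] at this
  exact lt_irrefl _ this

end Fermat.Agent.S13.RedFar
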