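/-
S13, piece RED, node half (helper8): the inertia step at a node.

`W` is a Weierstrass curve with `a₃ = a₆ = 0` and integral coefficients over a valued field,
with `v a₄ < 1` and `b₂ = a₁² + 4 a₂` a unit: the reduced curve has a node at `(0, 0)` and no other
singular point.  `InE0 v P` says that `P` is `0` or has `x`-coordinate outside the maximal ideal.

* `unit_x_nonsing` (N0): points with unit `x` reduce to nonsingular points;
* `node_sub_inE0` (N1): two points near the node on the same branch differ by an element of `E0`;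
* `two_nsmul_inE0` (N2): points very close to the node have their double in `E0`;
* `node_sq_sub_inKer` (N3): `(σ - 1)² P` lies in the kernel of reduction for `σ` inertial and
  `P` of odd order.
-/
import Mathlib
import Fermat.Agent.S05.Defs
import Fermat.Agent.S05.Kernel
import Fermat.Agent.S13.RedCore

set_option autoImplicit false

namespace Fermat.Agent.S13.RedNode

open WeierstrassCurve WeierstrassCurve.Affine
open Fermat.Agent.S05.Kernel Fermat.Agent.S13.RedCore

variable {K : Type*} [Field K] {Γ₀ : Type*} [LinearOrderedCommGroupWithZero Γ₀]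
  {v : Valuation K Γ₀} {W : WeierstrassCurve K}

/-! ### The kernel of reduction is a subgroup (wrappers around `S05/Kernel.lean`) -/

section wrappers

variable [DecidableEq K]

omit [DecidableEq K] in
theorem inKer_neg (hW : Integral v W) {P : W.toAffine.Point} (hP : InKer v P) : InKer v (-P) :=
  (neg_inKer hW (zc_lt_one hW hP) hP (by simp [Le])).1

theorem inKer_add (hW : Integral v W) {P Q : W.toAffine.Point} (hP : InKer v P)
    (hQ : InKer v Q) : InKer v (P + Q) :=
  (add_inKer hW (max_lt (zc_lt_one hW hP) (zc_lt_one hW hQ)) hP hQ (by simp [Le])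
    (by simp [Le])).1

theorem inKer_sub (hW : Integral v W) {P Q : W.toAffine.Point} (hP : InKer v P)
    (hQ : InKer v Q) : InKer v (P - Q) := by
  rw [sub_eq_add_neg]
  exact inKer_add hW hP (inKer_neg hW hQ)

theorem inKer_nsmul (hW : Integral v W) {P : W.toAffine.Point} (hP : InKer v P) (n : ℕ) :
    InKer v (n • P) :=
  (nsmul_inKer hW hP n).1

end wrappers

/-! ### `E0` -/

variable (v) in
/-- `E0`: the point at infinity and the points whose `x`-coordinate is not in the maximal
ideal (for the node models: the points which do not reduce to the node `(0, 0)`) -/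
def InE0 : W.toAffine.Point → Prop
  | .zero => True
  | .some x _ _ => 1 ≤ v x

theorem inE0_of_inKer {P : W.toAffine.Point} (hP : InKer v P) : InE0 v P := by
  cases P with
  | zero => trivial
  | some x y h => exact le_of_lt hP

/-- **(N0)** in a node model (`a₃ = a₆ = 0`, `a₄` in the maximal ideal), a point with unit
`x`-coordinate reduces to a nonsingular point. -/
theorem unit_x_nonsing (h3 : W.a₃ = 0) (h6 : W.a₆ = 0) (hW : Integral v W) (ha4 : v W.a₄ < 1)
    {x y : K} (h : W.toAffine.Equation x y) (hx : v x = 1) :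
    ¬ (v (W.a₁ * y - (3 * x ^ 2 + 2 * W.a₂ * x + W.a₄)) < 1 ∧
      v (2 * y + W.a₁ * x + W.a₃) < 1) := by
  rintro ⟨hX, hY⟩
  have hy : v y ≤ 1 := val_y_le_one hW h hx.le
  rw [Affine.equation_iff, h3, h6] at h
  have key : x ^ 3 = W.a₄ * x - (y * (2 * y + W.a₁ * x + W.a₃) +
      x * (W.a₁ * y - (3 * x ^ 2 + 2 * W.a₂ * x + W.a₄))) := by
    rw [h3]
    linear_combination 2 * h
  have h1 : v (x ^ 3) = 1 := by rw [map_pow, hx, one_pow]
  have h2 : v (x ^ 3) < 1 := by
    rw [key]
    exact m_sub (m_mul_right ha4 hx.le) (m_add (m_mul_left hy hY) (m_mul_left hx.le hX))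
  rw [h1] at h2
  exact absurd h2 (lt_irrefl _)

theorem i_four : v (4 : K) ≤ 1 := by
  have := val_natCast_le_one (v := v) 4
  simpa using this

theorem val_eq_one_of_sq {a : K} (h : v (a ^ 2) = 1) : v a = 1 := by
  rw [map_pow] at h
  rcases lt_trichotomy (v a) 1 with h1 | h1 | h1
  · exact absurd h (ne_of_lt (pow_lt_one₀ zero_le h1 two_ne_zero))
  · exact h1
  · exact absurd h (ne_of_gt (one_lt_pow₀ h1 two_ne_zero))

/-- near the node, on the branch of a point `(x, y)` with `v a₄ < v x < 1`: the slope `t = y / x`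
is integral, it is a root of `T² + a₁ T - a₂` modulo the maximal ideal, and `2 t + a₁` is a
unit -/
theorem node_slope (h3 : W.a₃ = 0) (h6 : W.a₆ = 0) (hW : Integral v W)
    (hb2 : v (W.a₁ ^ 2 + 4 * W.a₂) = 1) {x y : K} (h : W.toAffine.Equation x y)
    (hx : v x < 1) (hlt : v W.a₄ < v x) :
    v (y / x) ≤ 1 ∧ v (2 * (y / x) + W.a₁) = 1 ∧
      v ((y / x) ^ 2 + W.a₁ * (y / x) - W.a₂) < 1 := by
  have hvx0 : 0 < v x := lt_of_le_of_lt zero_le hlt
  have hx0 : x ≠ 0 := (Valuation.pos_iff v).mp hvx0
  obtain ⟨a1, a2, -, a4, -⟩ := hW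
  rw [Affine.equation_iff, h3, h6] at h
  have key : (y / x) ^ 2 + W.a₁ * (y / x) - W.a₂ = x + W.a₄ / x := by
    field_simp
    linear_combination h
  have hm : v (x + W.a₄ / x) < 1 := by
    refine m_add hx ?_
    rw [map_div₀]
    exact (div_lt_one₀ hvx0).mpr hlt
  have ht : v (y / x) ≤ 1 := by
    by_contra hcon
    rw [not_le] at hcon
    have e : (y / x) ^ 2 + W.a₁ * (y / x) = W.a₂ + (x + W.a₄ / x) := by
      rw [← key]
      ring
    have hL : v ((y / x) ^ 2 + W.a₁ * (y / x)) = v ((y / x) ^ 2) := by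
      apply Valuation.map_add_eq_of_lt_left
      rw [map_pow, map_mul, pow_two]
      exact lt_of_le_of_lt (mul_le_of_le_one_left' a1)
        (lt_mul_of_one_lt_left (lt_trans zero_lt_one hcon) hcon)
    have hR : v (W.a₂ + (x + W.a₄ / x)) ≤ 1 := i_add a2 hm.le
    rw [← e, hL, map_pow] at hR
    exact absurd hR (not_le.mpr (one_lt_pow₀ hcon two_ne_zero))
  refine ⟨ht, ?_, by rw [key]; exact hm⟩
  have e2 : (2 * (y / x) + W.a₁) ^ 2 =
      (W.a₁ ^ 2 + 4 * W.a₂) + 4 * ((y / x) ^ 2 + W.a₁ * (y / x) - W.a₂) := by ring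
  apply val_eq_one_of_sq
  apply u_of_sub hb2
  rw [e2, add_sub_cancel_left, key]
  exact m_mul_left i_four hm

/-- **(N1)** in a node model (`a₃ = a₆ = 0`, `b₂` a unit), two points `(x, y)`, `(x', y')`
near the node with `v a₄ < v x = v x' < 1` and on the same branch (`y' / x' ≡ y / x`) differ by
the point at infinity or by a point whose `x`-coordinate is not in the maximal ideal. -/
theorem node_sub_inE0 [DecidableEq K] (h3 : W.a₃ = 0) (h6 : W.a₆ = 0) (hW : Integral v W)
    (hb2 : v (W.a₁ ^ 2 + 4 * W.a₂) = 1) {x y x' y' : K} (h : W.toAffine.Nonsingular x y)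
    (h' : W.toAffine.Nonsingular x' y') (hx : v x < 1) (hlt : v W.a₄ < v x) (hxx : v x' = v x)
    (ht : v (y' / x' - y / x) < 1) :
    InE0 v (Point.some x' y' h' - Point.some x y h) := by
  obtain ⟨ht1, htu, htm⟩ := node_slope h3 h6 hW hb2 h.1 hx hlt
  have hvx0 : 0 < v x := lt_of_le_of_lt zero_le hlt
  have hx0 : x ≠ 0 := (Valuation.pos_iff v).mp hvx0
  have hx'0 : x' ≠ 0 := by
    rw [← hxx] at hvx0
    exact (Valuation.pos_iff v).mp hvx0
  have hx' : v x' < 1 := by rw [hxx]; exact hx
  have a1 : v W.a₁ ≤ 1 := hW.1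
  have ht'1 : v (y' / x') ≤ 1 := by
    have e : y' / x' = y / x + (y' / x' - y / x) := by ring
    rw [e]
    exact i_add ht1 ht.le
  rw [sub_eq_add_neg, Point.neg_some]
  have hnn : W.toAffine.negY x (W.toAffine.negY x y) = y := Affine.negY_negY x y
  by_cases hxe : x' = x
  · by_cases hye : y' = y
    · rw [Point.add_of_Y_eq hxe (by rw [hnn]; exact hye)]
      trivial
    · exfalso
      have hyn : y' = W.toAffine.negY x y :=
        Affine.Y_eq_of_Y_ne h'.1 ((Affine.equation_neg x y).mpr h.1) hxe (by rw [hnn]; exact hye)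
      have e : y' / x' - y / x = -(2 * (y / x) + W.a₁) := by
        rw [hxe, hyn]
        simp only [Affine.negY]
        rw [h3]
        field_simp
        ring
      rw [e, Valuation.map_neg, htu] at ht
      exact lt_irrefl _ ht
  · have hxy : ¬(x' = x ∧ y' = W.toAffine.negY x (W.toAffine.negY x y)) := fun hh => hxe hh.1
    rw [Point.add_some hxy]
    change 1 ≤ v (W.toAffine.addX x' x (W.toAffine.slope x' x y' (W.toAffine.negY x y)))
    rw [Affine.slope_of_X_ne hxe]
    obtain ⟨ε, hε⟩ : ∃ ε, ε = x' / x := ⟨_, rfl⟩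
    obtain ⟨t, ht_def⟩ : ∃ t, t = y / x := ⟨_, rfl⟩
    obtain ⟨t', ht'_def⟩ : ∃ t', t' = y' / x' := ⟨_, rfl⟩
    rw [← ht_def] at ht1 htu htm ht
    rw [← ht'_def] at ht'1 ht
    have hεv : v ε = 1 := by
      rw [hε, map_div₀, hxx, div_self hvx0.ne']
    have hx'ε : x' = ε * x := by
      rw [hε]
      field_simp
    have hyt : y = t * x := by
      rw [ht_def]
      field_simp
    have hy't : y' = t' * (ε * x) := by
      rw [ht'_def, ← hx'ε]
      field_simp
    have hε1 : ε - 1 ≠ 0 := by
      intro h0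
      apply hxe
      rw [hx'ε, sub_eq_zero.mp h0, one_mul]
    have hslope : (y' - W.toAffine.negY x y) / (x' - x) = (ε * t' + t + W.a₁) / (ε - 1) := by
      simp only [Affine.negY]
      rw [h3, hy't, hyt, hx'ε]
      have hd : ε * x - x ≠ 0 := by
        rw [← hx'ε]
        exact sub_ne_zero.mpr hxe
      field_simp
      ring
    rw [hslope]
    have hN : ε * t' + t + W.a₁ = (2 * t + W.a₁) + ((ε - 1) * t' + (t' - t)) := by ring
    by_cases hcase : v (ε - 1) < 1
    · have hNu : v (ε * t' + t + W.a₁) = 1 := by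
        apply u_of_sub htu
        rw [hN, add_sub_cancel_left]
        exact m_add (m_mul_right hcase ht'1) ht
      refine le_of_lt (one_lt_val_addX hW hx'.le hx.le ?_)
      have hpos : 0 < v (ε - 1) := (Valuation.pos_iff v).mpr hε1
      rw [map_div₀, hNu, one_lt_div₀ hpos]
      exact hcase
    · have hεu : v (ε - 1) = 1 :=
        u_of_not_lt (i_sub hεv.le (by rw [map_one])) hcase
      obtain ⟨lam, hlam⟩ : ∃ lam, lam = (ε * t' + t + W.a₁) / (ε - 1) := ⟨_, rfl⟩
      rw [← hlam]
      have h1 : v (lam - t) = 1 := by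
        have e : lam - t = (ε * (t' - t) + (2 * t + W.a₁)) / (ε - 1) := by
          rw [hlam]
          field_simp
          ring
        rw [e, map_div₀, hεu, div_one]
        apply u_of_sub htu
        rw [add_sub_cancel_right]
        exact m_mul_left hεv.le ht
      have h2 : v (lam + t + W.a₁) = 1 := by
        have e : lam + t + W.a₁ = ε * ((2 * t + W.a₁) + (t' - t)) / (ε - 1) := by
          rw [hlam]
          field_simp
          ring
        rw [e, map_div₀, hεu, div_one, map_mul, hεv, one_mul]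
        apply u_of_sub htu
        rw [add_sub_cancel_left]
        exact ht
      have e : W.toAffine.addX x' x lam =
          (lam - t) * (lam + t + W.a₁) + ((t ^ 2 + W.a₁ * t - W.a₂) - x' - x) := by
        simp only [Affine.addX]
        ring
      have hu : v ((lam - t) * (lam + t + W.a₁)) = 1 := by rw [map_mul, h1, h2, one_mul]
      rw [e]
      refine le_of_eq (u_of_sub hu ?_).symm
      rw [add_sub_cancel_left]
      exact m_sub (m_sub htm hx') hx

/-- **(mid)** the node step of (U) in the range `v a₄ < v x < 1`, for an endomorphism `σ` of `K`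
which preserves the valuation and acts trivially on the residue field: `σ P - P` is the point at
infinity or has `x`-coordinate outside the maximal ideal. -/
theorem mid [DecidableEq K] (hW : Integral v W) (h₃ : W.a₃ = 0) (h₆ : W.a₆ = 0)
    (hb₂ : v (W.a₁ ^ 2 + 4 * W.a₂) = 1) {σ : K →+* K} (hσv : ∀ x, v (σ x) = v x)
    (hσ : ∀ x, v x ≤ 1 → v (σ x - x) < 1) {x y : K} (h : W.toAffine.Nonsingular x y)
    (h' : W.toAffine.Nonsingular (σ x) (σ y)) (hx1 : v x < 1) (hx : v W.a₄ < v x) :
    Point.some (σ x) (σ y) h' - Point.some x y h = 0 ∨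
      ∃ (x₄ y₄ : K) (h₄ : W.toAffine.Nonsingular x₄ y₄),
        Point.some (σ x) (σ y) h' - Point.some x y h = Point.some x₄ y₄ h₄ ∧ 1 ≤ v x₄ := by
  obtain ⟨ht1, -, -⟩ := node_slope h₃ h₆ hW hb₂ h.1 hx1 hx
  have ht : v (σ y / σ x - y / x) < 1 := by
    rw [← map_div₀]
    exact hσ _ ht1
  have key := node_sub_inE0 h₃ h₆ hW hb₂ h h' hx1 hx (hσv x) ht
  generalize Point.some (σ x) (σ y) h' - Point.some x y h = Q at key
  cases Q with
  | zero => exact Or.inl rfl
  | some x₄ y₄ h₄ => exact Or.inr ⟨x₄, y₄, h₄, rfl, key⟩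

end Fermat.Agent.S13.RedNode
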