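/-
S13, package RED, statement (U) (helper24): for an inertial `σ` and a point `P` of odd prime
order `p` on a model `y² + a₁xy = x³ + a₂x² + a₄x` with good or nodal reduction,
`(σ - 1)² P` lies in the kernel of reduction.  General field, general valuation, any residue
characteristic.
-/
import Mathlib
import Fermat.Agent.S05.Defs
import Fermat.Agent.S05.Kernel
import Fermat.Agent.S13.RedCore
import Fermat.Agent.S13.RedFar
import Fermat.Agent.S13.RedNode

set_option autoImplicit false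

namespace Fermat.Agent.S13.Red

open WeierstrassCurve WeierstrassCurve.Affine
open Fermat.Agent.S05 Fermat.Agent.S05.Kernel

variable {K : Type*} [Field K] [DecidableEq K] {Γ₀ : Type*} [LinearOrderedCommGroupWithZero Γ₀]
  {v : Valuation K Γ₀} {W : WeierstrassCurve K}

/-! ### The kernel of reduction is a subgroup -/

omit [DecidableEq K] in
theorem inKer_neg (hW : Integral v W) {P : W.toAffine.Point} (hP : InKer v P) :
    InKer v (-P) :=
  (neg_inKer hW (zc_lt_one hW hP) hP (by simp [Le])).1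

theorem inKer_add (hW : Integral v W) {P Q : W.toAffine.Point} (hP : InKer v P)
    (hQ : InKer v Q) : InKer v (P + Q) :=
  (add_inKer hW (c := max (v (zc P)) (v (zc Q))) (max_lt (zc_lt_one hW hP) (zc_lt_one hW hQ))
    hP hQ (by simp [Le]) (by simp [Le])).1

theorem inKer_sub (hW : Integral v W) {P Q : W.toAffine.Point} (hP : InKer v P)
    (hQ : InKer v Q) : InKer v (P - Q) := by
  rw [sub_eq_add_neg]
  exact inKer_add hW hP (inKer_neg hW hQ)

theorem inKer_nsmul (hW : Integral v W) {P : W.toAffine.Point} (hP : InKer v P) (n : ℕ) :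
    InKer v (n • P) :=
  (nsmul_inKer hW hP n).1

/-- a point of odd order whose double is in the kernel of reduction is in the kernel -/
theorem inKer_of_two_nsmul (hW : Integral v W) {p : ℕ} (hp : p.Prime) (hp2 : p ≠ 2)
    {P : W.toAffine.Point} (hP : p • P = 0) (h2 : InKer v ((2 : ℕ) • P)) : InKer v P := by
  obtain ⟨k, hk⟩ := hp.odd_of_ne_two hp2
  have e : P = (k + 1) • ((2 : ℕ) • P) := by
    rw [← mul_nsmul']
    have e1 : (k + 1) * 2 = p + 1 := by omega
    rw [e1, add_nsmul, hP, zero_add, one_nsmul]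
  rw [e]
  exact inKer_nsmul hW h2 _

/-! ### The action of `σ` -/

omit [DecidableEq K] in
theorem val_map_sub_lt {σ : K →+* K} (hσ : ∀ x, v x ≤ 1 → v (σ x - x) < 1) {x : K}
    (hx : v x ≤ 1) : v (x - σ x) < 1 := by
  rw [Valuation.map_sub_swap]
  exact hσ x hx

theorem map_inKer {σ : K →+* K} (hσv : ∀ x, v (σ x) = v x)
    {Φ : W.toAffine.Point →+ W.toAffine.Point} (hΦ : IsPointAction W σ Φ)
    {P : W.toAffine.Point} (hP : InKer v P) : InKer v (Φ P) := by
  cases P with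
  | zero =>
    have e : Φ (0 : W.toAffine.Point) = 0 := map_zero Φ
    change InKer v (Φ 0)
    rw [e]
    trivial
  | some x y h =>
    obtain ⟨h', e⟩ := hΦ x y h
    rw [e]
    change 1 < v (σ x)
    rw [hσv]
    exact hP

/-- `(σ - 1)` maps the kernel of reduction into itself -/
theorem map_sub_inKer (hW : Integral v W) {σ : K →+* K} (hσv : ∀ x, v (σ x) = v x)
    {Φ : W.toAffine.Point →+ W.toAffine.Point} (hΦ : IsPointAction W σ Φ)
    {P : W.toAffine.Point} (hP : InKer v P) : InKer v (Φ P - P) :=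
  inKer_sub hW (map_inKer hσv hΦ hP) hP

/-- **(F1)** an integral point with nonsingular reduction is moved by an inertial `σ` inside its
coset of the kernel of reduction. -/
theorem sub_map_inKer (hW : Integral v W) {σ : K →+* K}
    (hσ : ∀ x, v x ≤ 1 → v (σ x - x) < 1)
    {Φ : W.toAffine.Point →+ W.toAffine.Point} (hΦ : IsPointAction W σ Φ)
    {x y : K} (h : W.toAffine.Nonsingular x y) (hx : v x ≤ 1)
    (hns : ¬ (v (W.a₁ * y - (3 * x ^ 2 + 2 * W.a₂ * x + W.a₄)) < 1 ∧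
      v (2 * y + W.a₁ * x + W.a₃) < 1)) :
    InKer v (Φ (Point.some x y h) - Point.some x y h) := by
  obtain ⟨h', e⟩ := hΦ x y h
  rw [e]
  have hy : v y ≤ 1 := RedCore.val_y_le_one hW h.1 hx
  have key := RedCore.sub_inKer' hW h h' hx hns (val_map_sub_lt hσ hx) (val_map_sub_lt hσ hy)
  have := inKer_neg hW key
  rwa [neg_sub] at this

/-! ### Points with unit `x` on a nodal model have nonsingular reduction -/

omit [DecidableEq K] in
theorem hns_node (hW : Integral v W) (h₃ : W.a₃ = 0) (h₆ : W.a₆ = 0) (ha₄ : v W.a₄ < 1)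
    (hb₂ : v (W.a₁ ^ 2 + 4 * W.a₂) = 1) {x y : K} (h : W.toAffine.Equation x y)
    (hx : v x = 1) :
    ¬ (v (W.a₁ * y - (3 * x ^ 2 + 2 * W.a₂ * x + W.a₄)) < 1 ∧
      v (2 * y + W.a₁ * x + W.a₃) < 1) := by
  rintro ⟨hFx, hFy⟩
  have hW' := hW
  obtain ⟨a1, a2, -, a4, -⟩ := hW
  have hy : v y ≤ 1 := RedCore.val_y_le_one hW' h hx.le
  have heq : y ^ 2 + W.a₁ * x * y = x ^ 3 + W.a₂ * x ^ 2 + W.a₄ * x := by
    have := (Affine.equation_iff x y).mp h
    rw [h₃, h₆] at this
    linear_combination this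
  have h2 : v (2 : K) ≤ 1 := RedCore.i_two
  have h4 : v (4 : K) ≤ 1 := by
    have : (4 : K) = 2 * 2 := by norm_num
    rw [this]
    exact RedCore.i_mul h2 h2
  -- `x * (6 * x + b₂)` is in the maximal ideal
  have e1 : x * (6 * x + (W.a₁ ^ 2 + 4 * W.a₂)) =
      W.a₁ * (2 * y + W.a₁ * x + W.a₃) - 2 * (W.a₁ * y - (3 * x ^ 2 + 2 * W.a₂ * x + W.a₄))
        - 2 * W.a₄ - W.a₁ * W.a₃ := by ring
  have hm1 : v (x * (6 * x + (W.a₁ ^ 2 + 4 * W.a₂))) < 1 := by
    rw [e1, h₃, mul_zero, sub_zero]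
    exact RedCore.m_sub (RedCore.m_sub (RedCore.m_mul_left a1 (by rwa [h₃] at hFy))
      (RedCore.m_mul_left h2 hFx)) (RedCore.m_mul_left h2 ha₄)
  have hm1' : v (6 * x + (W.a₁ ^ 2 + 4 * W.a₂)) < 1 := by
    rwa [map_mul, hx, one_mul] at hm1
  -- `x ^ 2 * (4 * x + b₂)` is in the maximal ideal
  have e2 : x ^ 2 * (4 * x + (W.a₁ ^ 2 + 4 * W.a₂)) =
      (2 * y + W.a₁ * x) ^ 2 - 4 * W.a₄ * x := by linear_combination (-4) * heq
  have hm2 : v (x ^ 2 * (4 * x + (W.a₁ ^ 2 + 4 * W.a₂))) < 1 := by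
    rw [e2]
    have hFy' : v (2 * y + W.a₁ * x) < 1 := by rwa [h₃, add_zero] at hFy
    refine RedCore.m_sub ?_ (RedCore.m_mul_right (RedCore.m_mul_left h4 ha₄) hx.le)
    rw [pow_two]
    exact RedCore.m_mul_left hFy'.le hFy'
  have hm2' : v (4 * x + (W.a₁ ^ 2 + 4 * W.a₂)) < 1 := by
    rwa [map_mul, map_pow, hx, one_pow, one_mul] at hm2
  -- hence `2 * x`, `4 * x` and finally `b₂` are in the maximal ideal
  have hm3 : v (2 * x) < 1 := by
    have e3 : 2 * x = (6 * x + (W.a₁ ^ 2 + 4 * W.a₂)) - (4 * x + (W.a₁ ^ 2 + 4 * W.a₂)) := by ring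
    rw [e3]
    exact RedCore.m_sub hm1' hm2'
  have hm4 : v (W.a₁ ^ 2 + 4 * W.a₂) < 1 := by
    have e4 : W.a₁ ^ 2 + 4 * W.a₂ = (4 * x + (W.a₁ ^ 2 + 4 * W.a₂)) - 2 * (2 * x) := by ring
    rw [e4]
    exact RedCore.m_sub hm2' (RedCore.m_mul_left h2 hm3)
  rw [hb₂] at hm4
  exact lt_irrefl _ hm4

/-! ### Statement (U) -/

/-- on a nodal model, `(σ - 1)` maps `O`, points with unit `x` and points with non-integral `x`
into the kernel of reduction -/
theorem node_good (hW : Integral v W) (h₃ : W.a₃ = 0) (h₆ : W.a₆ = 0) (ha₄ : v W.a₄ < 1)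
    (hb₂ : v (W.a₁ ^ 2 + 4 * W.a₂) = 1)
    {σ : K →+* K} (hσv : ∀ x, v (σ x) = v x) (hσ : ∀ x, v x ≤ 1 → v (σ x - x) < 1)
    {Φ : W.toAffine.Point →+ W.toAffine.Point} (hΦ : IsPointAction W σ Φ)
    {P : W.toAffine.Point}
    (hP : P = 0 ∨ ∃ (x y : K) (h : W.toAffine.Nonsingular x y), P = Point.some x y h ∧ 1 ≤ v x) :
    InKer v (Φ P - P) := by
  rcases hP with rfl | ⟨x, y, h, rfl, hx⟩
  · exact map_sub_inKer hW hσv hΦ trivial
  · rcases hx.lt_or_eq with hlt | heq
    · exact map_sub_inKer hW hσv hΦ hlt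
    · exact sub_map_inKer hW hσ hΦ h heq.symm.le
        (hns_node hW h₃ h₆ ha₄ hb₂ h.1 heq.symm)

/-- **(U)**: `(σ - 1)² P` lies in the kernel of reduction, for `P` of odd prime order on a model
`y² + a₁xy = x³ + a₂x² + a₄x` with good reduction or with a node at `(0, 0)`, and `σ` acting
trivially on the residue field. -/
theorem sq_sub_inKer (hW : Integral v W) (h₃ : W.a₃ = 0) (h₆ : W.a₆ = 0)
    (hcase : (∀ x y : K, W.toAffine.Equation x y → v x ≤ 1 → v y ≤ 1 →
        ¬ (v (W.a₁ * y - (3 * x ^ 2 + 2 * W.a₂ * x + W.a₄)) < 1 ∧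
          v (2 * y + W.a₁ * x + W.a₃) < 1)) ∨
      (v W.a₄ < 1 ∧ v (W.a₁ ^ 2 + 4 * W.a₂) = 1))
    {σ : K →+* K} (hσv : ∀ x, v (σ x) = v x) (hσ : ∀ x, v x ≤ 1 → v (σ x - x) < 1)
    {Φ : W.toAffine.Point →+ W.toAffine.Point} (hΦ : IsPointAction W σ Φ)
    {p : ℕ} (hp : p.Prime) (hp2 : p ≠ 2) {P : W.toAffine.Point} (hP : p • P = 0) :
    InKer v (Φ (Φ P - P) - (Φ P - P)) := by
  -- it suffices to show that `Φ P - P` is in the kernel, or is `O`/unit/non-integral (node case)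
  rcases hcase with hgood | ⟨ha₄, hb₂⟩
  · -- good reduction: `Φ P - P` is in the kernel of reduction
    refine map_sub_inKer hW hσv hΦ ?_
    cases P with
    | zero => exact map_sub_inKer hW hσv hΦ trivial
    | some x y h =>
      rcases lt_or_ge 1 (v x) with hx | hx
      · exact map_sub_inKer hW hσv hΦ hx
      · exact sub_map_inKer hW hσ hΦ h hx
          (hgood x y h.1 hx (RedCore.val_y_le_one hW h.1 hx))
  · -- nodal reduction
    have hD : p • (Φ P - P) = 0 := by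
      rw [smul_sub, ← map_nsmul, hP, map_zero, sub_zero]
    cases P with
    | zero => exact map_sub_inKer hW hσv hΦ (map_sub_inKer hW hσv hΦ trivial)
    | some x y h =>
      rcases le_or_gt 1 (v x) with hx | hx
      · exact map_sub_inKer hW hσv hΦ
          (node_good hW h₃ h₆ ha₄ hb₂ hσv hσ hΦ (Or.inr ⟨x, y, h, rfl, hx⟩))
      · rcases le_or_gt (v x) (v W.a₄) with hfar | hmid
        · -- `x` very close to the node: use the double
          refine map_sub_inKer hW hσv hΦ (inKer_of_two_nsmul hW hp hp2 hD ?_)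
          have h2 : InKer v (Φ ((2 : ℕ) • Point.some x y h) - (2 : ℕ) • Point.some x y h) := by
            refine node_good hW h₃ h₆ ha₄ hb₂ hσv hσ hΦ ?_
            rcases RedFar.far hW h₃ h₆ ha₄ h hfar with h0 | ⟨x', y', h', e, hx'⟩
            · exact Or.inl h0
            · exact Or.inr ⟨x', y', h', e, hx'⟩
          rwa [map_nsmul, ← smul_sub] at h2
        · -- `0 < ord x < ord a₄`
          obtain ⟨h', e⟩ := hΦ x y h
          refine node_good hW h₃ h₆ ha₄ hb₂ hσv hσ hΦ ?_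
          rw [e]
          rcases RedNode.mid hW h₃ h₆ hb₂ hσv hσ h h' hx hmid with h0 | ⟨x₄, y₄, h₄, e₄, hx₄⟩
          · exact Or.inl h0
          · exact Or.inr ⟨x₄, y₄, h₄, e₄, hx₄⟩

end Fermat.Agent.S13.Red
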