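/-
S13, piece INST-U, final discharge: the generic local statement (U) of package RED
(`S13.Red.sq_sub_inKer`) discharges the hypothesis `InstU.UAt A`; this gives the three local
inputs `hK`, `hU2`, `hUp` of the wiring (`S13.WireFrey.frey_cofixedLine_coord`) on the frozen
Frey model, in exactly the shapes consumed there.
-/
import Fermat.Agent.S13.InstU
import Fermat.Agent.S13.Red

set_option autoImplicit false

namespace Fermat.Agent.S13.InstUFinal

open WeierstrassCurve WeierstrassCurve.Affine WeierstrassCurve.Affine.Point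
open Fermat.Agent.S05

local notation "Kb" => AlgebraicClosure ℚ

/-- The generic statement (U) holds at every valuation subring of `AlgebraicClosure ℚ`. -/
theorem uAt (A : ValuationSubring Kb) : InstU.UAt A :=
  fun _ h3 h6 hW hcase _ hσv hσ _ hΦ _ hp hp2 _ hQ =>
    Red.sq_sub_inKer hW h3 h6 hcase hσv hσ hΦ hp hp2 hQ

/-- **(K)**: the kernel of reduction of the Frey model is closed under addition. -/
theorem hK (P : FreyPackage) :
    ∀ A : ValuationSubring Kb, A.LiesOverPrime P.p → ∀ Q R : (P.freyCurve⁄Kb).Point,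
      Kernel.InKer A.valuation Q → Kernel.InKer A.valuation R →
        Kernel.InKer A.valuation (Q + R) :=
  fun A _ _ _ hQ hR => InstU.frey_inKer_add P A hQ hR

/-- **(U2)**: for `σ` in an inertia group over `2`, `(σ - 1)² = 0` on the `p`-torsion of the Frey
curve. -/
theorem hU2 (P : FreyPackage) :
    ∀ A : ValuationSubring Kb, A.LiesOverPrime 2 → ∀ σ ∈ A.inertiaSubgroupIn ℚ,
      ∀ x : Submodule.torsionBy ℤ (P.freyCurve⁄Kb).Point P.p, σ • (σ • x - x) = σ • x - x :=
  fun A hA _ hσ x => InstU.U2 P hA (uAt A) hσ x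

/-- **(Up)**: for `σ` in an inertia group over `p`, `(σ - 1)²` maps the `p`-torsion of the Frey
curve into the kernel of reduction (coordinate form). -/
theorem hUp (P : FreyPackage) :
    ∀ A : ValuationSubring Kb, A.LiesOverPrime P.p → ∀ σ ∈ A.inertiaSubgroupIn ℚ,
      ∀ x : Submodule.torsionBy ℤ (P.freyCurve⁄Kb).Point P.p,
      ∀ (x₀ y₀ : Kb) (h : (P.freyCurve⁄Kb).Nonsingular x₀ y₀),
        ((σ • (σ • x - x) - (σ • x - x) :
          Submodule.torsionBy ℤ (P.freyCurve⁄Kb).Point P.p) : (P.freyCurve⁄Kb).Point) =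
          Point.some x₀ y₀ h → x₀ ∉ A :=
  fun A hA _ hσ x => InstU.Up' P hA (uAt A) hσ x

/-- **(Up)**, kernel form. -/
theorem hUp_kernel (P : FreyPackage) :
    ∀ A : ValuationSubring Kb, A.LiesOverPrime P.p → ∀ σ ∈ A.inertiaSubgroupIn ℚ,
      ∀ x : Submodule.torsionBy ℤ (P.freyCurve⁄Kb).Point P.p,
        Kernel.InKer A.valuation (W := P.freyCurve.baseChange Kb)
          ((σ • (σ • x - x) - (σ • x - x) :
            Submodule.torsionBy ℤ (P.freyCurve⁄Kb).Point P.p) : (P.freyCurve⁄Kb).Point) :=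
  fun A hA _ hσ x => InstU.Up P hA (uAt A) hσ x

end Fermat.Agent.S13.InstUFinal
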