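/-
S13 (helper23): shared vocabulary for the interface statements of the S13 wave.

Everything is stated for a Weierstrass curve `W` over `ℚ` (in the application: `P.freyCurve`,
the frozen `a₁ = 1` model) and its points over `Kb = AlgebraicClosure ℚ`:
* `xc W Q`      : the `x`-coordinate of a point (`0` at the origin);
* `InKer W A Q` : `Q` lies in the kernel of reduction at the valuation subring `A` of `Kb`
                  (`Q = 0` or the `x`-coordinate of `Q` is not in `A`);
* `Vp W p`      : the `p`-torsion, literally the type of the frozen statement.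
`inKer_iff_kernel` identifies `InKer` with the landed `S05.Kernel.InKer` for `A.valuation`.
-/
import Mathlib
import Fermat.Prelude.Def_FLTPrelim_GaloisRep
import Fermat.Prelude.Def_FLTPrelim_Ramification
import Fermat.Agent.S05.Kernel

set_option autoImplicit false

namespace Fermat.Agent.S13

open WeierstrassCurve WeierstrassCurve.Affine WeierstrassCurve.Affine.Point
open scoped WeierstrassCurve.Affine

/-- the algebraic closure of `ℚ` -/
abbrev Kb : Type := AlgebraicClosure ℚ

/-- the absolute Galois group of `ℚ` -/
abbrev GalQ : Type := Kb ≃ₐ[ℚ] Kb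

variable (W : Affine ℚ)

/-- the `x`-coordinate of a point (`0` at the origin) -/
noncomputable def xc : (W⁄Kb).Point → Kb
  | .zero => 0
  | .some x _ _ => x

/-- the `y`-coordinate of a point (`0` at the origin) -/
noncomputable def yc : (W⁄Kb).Point → Kb
  | .zero => 0
  | .some _ y _ => y

/-- the kernel of reduction at `A`: the origin and the points with non-integral `x` -/
def InKer (A : ValuationSubring Kb) : (W⁄Kb).Point → Prop
  | .zero => True
  | .some x _ _ => x ∉ A

/-- the `p`-torsion of `W` over `Kb`, as in the frozen statements -/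
abbrev Vp (p : ℕ) : Type := Submodule.torsionBy ℤ (W⁄Kb).Point p

variable {W}

theorem xc_smul (σ : GalQ) (Q : (W⁄Kb).Point) : xc W (σ • Q) = σ (xc W Q) := by
  cases Q with
  | zero =>
    change xc W (Point.map (W' := W) σ.toAlgHom 0) = σ 0
    rw [Point.map_zero, _root_.map_zero]
    rfl
  | some x y h =>
    change xc W (Point.map (W' := W) σ.toAlgHom (.some x y h)) = σ x
    rw [Point.map_some]
    rfl

theorem yc_smul (σ : GalQ) (Q : (W⁄Kb).Point) : yc W (σ • Q) = σ (yc W Q) := by
  cases Q with
  | zero =>
    change yc W (Point.map (W' := W) σ.toAlgHom 0) = σ 0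
    rw [Point.map_zero, _root_.map_zero]
    rfl
  | some x y h =>
    change yc W (Point.map (W' := W) σ.toAlgHom (.some x y h)) = σ y
    rw [Point.map_some]
    rfl

/-- a point is determined by its coordinates and whether it is the origin -/
theorem smul_eq_self_of_coords {σ : GalQ} {Q : (W⁄Kb).Point} (hx : σ (xc W Q) = xc W Q)
    (hy : σ (yc W Q) = yc W Q) : σ • Q = Q := by
  cases Q with
  | zero => rfl
  | some x y h =>
    change Point.map (W' := W) σ.toAlgHom (.some x y h) = .some x y h
    rw [Point.map_some]
    change σ x = x at hx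
    change σ y = y at hy
    simp only [Point.some.injEq]
    exact ⟨hx, hy⟩

theorem inKer_zero (A : ValuationSubring Kb) : InKer W A 0 := trivial

theorem inKer_neg {A : ValuationSubring Kb} {Q : (W⁄Kb).Point} (h : InKer W A Q) :
    InKer W A (-Q) := by
  cases Q with
  | zero => exact trivial
  | some x y hxy =>
    rw [Point.neg_some]
    exact h

theorem xc_notMem_of_inKer {A : ValuationSubring Kb} {Q : (W⁄Kb).Point} (h : InKer W A Q)
    (hQ : Q ≠ 0) : xc W Q ∉ A := by
  cases Q with
  | zero => exact absurd rfl hQ
  | some x y hxy => exact h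

theorem inKer_of_xc_notMem {A : ValuationSubring Kb} {Q : (W⁄Kb).Point} (h : xc W Q ∉ A) :
    InKer W A Q := by
  cases Q with
  | zero => exact trivial
  | some x y hxy => exact h

/-- `InKer` is the landed `S05.Kernel.InKer` for the valuation of `A` -/
theorem inKer_iff_kernel (A : ValuationSubring Kb) (Q : (W⁄Kb).Point) :
    InKer W A Q ↔ Fermat.Agent.S05.Kernel.InKer A.valuation Q := by
  cases Q with
  | zero => exact Iff.rfl
  | some x y h =>
    change x ∉ A ↔ 1 < A.valuation x
    rw [← not_le, A.valuation_le_one_iff]

/-- two nonzero points with the same `x`-coordinate are equal or opposite -/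
theorem eq_or_eq_neg_of_xc_eq {Q R : (W⁄Kb).Point} (hQ : Q ≠ 0) (hR : R ≠ 0)
    (h : xc W Q = xc W R) : Q = R ∨ Q = -R := by
  cases Q with
  | zero => exact absurd rfl hQ
  | some x₁ y₁ h₁ =>
    cases R with
    | zero => exact absurd rfl hR
    | some x₂ y₂ h₂ =>
      change x₁ = x₂ at h
      subst h
      rcases Y_eq_of_X_eq h₁.1 h₂.1 rfl with hy | hy
      · left
        subst hy
        rfl
      · right
        rw [Point.neg_some]
        subst hy
        rfl

theorem coe_galSmul {p : ℕ} (σ : GalQ) (Q : Vp W p) :
    ((σ • Q : Vp W p) : (W⁄Kb).Point) = σ • (Q : (W⁄Kb).Point) := rfl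

end Fermat.Agent.S13
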