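/-
S13, piece WIRE (helper23): the pure Galois / linear-algebra assembly.

`cofixedLine_of_pieces`: for a Weierstrass curve `W` over `ℚ` and a prime `p`, the statement
"`W[p]` reducible ⇒ `W[p]` has a Galois-stable cofixed line" follows from the pieces
(T), (K), (U₂), (U_p), (X_p), (R₂), (M) and unramifiedness away from `2p`.
-/
import Mathlib
import Fermat.Prelude.Def_FLTPrelim_GaloisRep
import Fermat.Prelude.Def_FLTPrelim_Ramification
import Fermat.Prelude.Def_FLTPrelim_CofixedLine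
import Fermat.Prelude.Def_EllipticCurve_FrobeniusTrace
import Fermat.Agent.S13.Defs
import Fermat.Agent.S05.Defs
import Fermat.Agent.S05.OrdLib
import Fermat.Agent.S05.OrdQbar

set_option autoImplicit false

namespace Fermat.Agent.S13.Wire

open WeierstrassCurve WeierstrassCurve.Affine WeierstrassCurve.Affine.Point
open scoped WeierstrassCurve.Affine

variable {W : Affine ℚ}

/-! ### Linear algebra over `ZMod p` -/

section linalg

variable {p : ℕ} [Fact p.Prime] {V : Type*} [AddCommGroup V] [Module (ZMod p) V]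

/-- a proper nonzero subspace of a space with fewer than `p ^ 3` elements is a line with
one-dimensional quotient -/
theorem line_data [Finite V] (hcard : Nat.card V < p ^ 3) (N : Submodule (ZMod p) V)
    (hbot : N ≠ ⊥) (htop : N ≠ ⊤) :
    (∀ x ∈ N, x ≠ 0 → ∀ y ∈ N, ∃ c : ZMod p, y = c • x) ∧
      (∀ x : V, x ∉ N → ∀ y : V, ∃ c : ZMod p, y - c • x ∈ N) := by
  have : Fintype V := Fintype.ofFinite V
  have : Module.Finite (ZMod p) V := Module.Finite.of_finite
  have h1 : Nat.card V = p ^ Module.finrank (ZMod p) V := by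
    rw [Nat.card_eq_fintype_card, Module.card_eq_pow_finrank (K := ZMod p), ZMod.card]
  have h2 : Module.finrank (ZMod p) V < 3 := by
    by_contra h
    rw [not_lt] at h
    have := Nat.pow_le_pow_right (Fact.out : p.Prime).pos h
    omega
  have h3 : 0 < Module.finrank (ZMod p) N := by
    rw [Module.finrank_pos_iff]
    exact (Submodule.nontrivial_iff_ne_bot).mpr hbot
  have h4 : Module.finrank (ZMod p) N < Module.finrank (ZMod p) V := Submodule.finrank_lt htop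
  have h5 : Module.finrank (ZMod p) N = 1 := by omega
  have h6 : Module.finrank (ZMod p) (V ⧸ N) = 1 := by
    have := N.finrank_quotient_add_finrank
    omega
  constructor
  · intro x hx hx0 y hy
    have hx0' : (⟨x, hx⟩ : N) ≠ 0 := fun h => hx0 (congrArg Subtype.val h)
    obtain ⟨c, hc⟩ := (finrank_eq_one_iff_of_nonzero' (⟨x, hx⟩ : N) hx0').mp h5 ⟨y, hy⟩
    exact ⟨c, (congrArg Subtype.val hc).symm⟩
  · intro x hx y
    have hx0 : N.mkQ x ≠ 0 := by
      rw [Submodule.mkQ_apply, Ne, Submodule.Quotient.mk_eq_zero]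
      exact hx
    obtain ⟨c, hc⟩ := (finrank_eq_one_iff_of_nonzero' (N.mkQ x) hx0).mp h6 (N.mkQ y)
    refine ⟨c, ?_⟩
    rw [← Submodule.Quotient.mk_eq_zero, ← Submodule.mkQ_apply, map_sub, map_smul, hc, sub_self]

theorem eq_one_of_sub_one_sq {c : ZMod p} (h : (c - 1) * (c - 1) = 0) : c = 1 := by
  rcases mul_self_eq_zero.mp h with h
  exact sub_eq_zero.mp h

variable {G : Type*} [Group G] [DistribMulAction G V] [SMulCommClass G (ZMod p) V]

/-- an element acting unipotently on a stable line fixes it pointwise -/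
theorem fix_of_sq (N : Submodule (ZMod p) V)
    (hline : ∀ x ∈ N, x ≠ 0 → ∀ y ∈ N, ∃ c : ZMod p, y = c • x)
    (hstab : ∀ σ : G, ∀ x ∈ N, σ • x ∈ N) (σ : G)
    (h : ∀ x ∈ N, σ • (σ • x - x) - (σ • x - x) = 0) : ∀ x ∈ N, σ • x = x := by
  intro x hx
  by_cases hx0 : x = 0
  · rw [hx0, smul_zero]
  obtain ⟨c, hc⟩ := hline x hx hx0 (σ • x) (hstab σ x hx)
  have key : ((c - 1) * (c - 1)) • x = 0 := by
    have := h x hx
    rw [smul_sub, hc, smul_comm σ c x, hc] at this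
    rw [← this]
    module
  rcases smul_eq_zero.mp key with h0 | h0
  · rw [hc, eq_one_of_sub_one_sq h0, one_smul]
  · exact absurd h0 hx0

/-- an element acting unipotently modulo a stable hyperplane-line acts trivially on the quotient -/
theorem cofix_of_sq (N : Submodule (ZMod p) V)
    (hquot : ∀ x : V, x ∉ N → ∀ y : V, ∃ c : ZMod p, y - c • x ∈ N) (htop : N ≠ ⊤)
    (hstab : ∀ σ : G, ∀ x ∈ N, σ • x ∈ N) (σ : G)
    (h : ∀ x : V, σ • (σ • x - x) - (σ • x - x) ∈ N) : ∀ x : V, σ • x - x ∈ N := by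
  obtain ⟨x₀, hx₀⟩ : ∃ x₀ : V, x₀ ∉ N := by
    by_contra hcon
    exact htop (eq_top_iff.mpr fun x _ => not_not.mp fun hx => hcon ⟨x, hx⟩)
  obtain ⟨d, hd⟩ := hquot x₀ hx₀ (σ • x₀)
  have hσn : σ • (σ • x₀ - d • x₀) - (σ • x₀ - d • x₀) ∈ N :=
    N.sub_mem (hstab σ _ hd) hd
  have key : ((d - 1) * (d - 1)) • x₀ ∈ N := by
    have e : ((d - 1) * (d - 1)) • x₀ =
        (σ • (σ • x₀ - x₀) - (σ • x₀ - x₀)) - (σ • (σ • x₀ - d • x₀) - (σ • x₀ - d • x₀))
          - (d - 1) • (σ • x₀ - d • x₀) := by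
      rw [smul_sub σ (σ • x₀) x₀, smul_sub σ (σ • x₀) (d • x₀), smul_comm σ d x₀]
      generalize σ • σ • x₀ = b
      generalize σ • x₀ = a
      module
    rw [e]
    exact N.sub_mem (N.sub_mem (h x₀) hσn) (N.smul_mem _ hd)
  have hd1 : d = 1 := by
    by_contra hne
    have hu : (d - 1) * (d - 1) ≠ 0 := fun h0 => hne (eq_one_of_sub_one_sq h0)
    apply hx₀
    have := N.smul_mem ((d - 1) * (d - 1))⁻¹ key
    rwa [smul_smul, inv_mul_cancel₀ hu, one_smul] at this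
  have hx₀' : σ • x₀ - x₀ ∈ N := by
    rw [hd1, one_smul] at hd
    exact hd
  intro x
  obtain ⟨c, hc⟩ := hquot x₀ hx₀ x
  have e : σ • x - x = (σ • (x - c • x₀) - (x - c • x₀)) + c • (σ • x₀ - x₀) := by
    rw [smul_sub σ x (c • x₀), smul_comm σ c x₀]
    generalize σ • x = b
    generalize σ • x₀ = a
    module
  rw [e]
  exact N.add_mem (N.sub_mem (hstab σ _ hc) hc) (N.smul_mem _ hx₀')

end linalg


/-! ### The `p`-torsion and the kernel of reduction -/

theorem zmod_smul_eq_nsmul {p : ℕ} [NeZero p] (c : ZMod p) (Q : Vp W p) :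
    c • Q = c.val • Q := by
  conv_lhs => rw [← ZMod.natCast_zmod_val c]
  exact Nat.cast_smul_eq_nsmul (ZMod p) c.val Q

theorem inKer_nsmul {A : ValuationSubring Kb}
    (hK : ∀ Q R : (W⁄Kb).Point, InKer W A Q → InKer W A R → InKer W A (Q + R))
    {Q : (W⁄Kb).Point} (h : InKer W A Q) (n : ℕ) : InKer W A (n • Q) := by
  induction n with
  | zero => rw [zero_nsmul]; exact inKer_zero A
  | succ n ih => rw [succ_nsmul]; exact hK _ _ ih h

theorem inKer_zmod_smul {p : ℕ} [NeZero p] {A : ValuationSubring Kb}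
    (hK : ∀ Q R : (W⁄Kb).Point, InKer W A Q → InKer W A R → InKer W A (Q + R))
    {Q : Vp W p} (h : InKer W A (Q : (W⁄Kb).Point)) (c : ZMod p) :
    InKer W A ((c • Q : Vp W p) : (W⁄Kb).Point) := by
  rw [zmod_smul_eq_nsmul, Submodule.coe_smul_of_tower]
  exact inKer_nsmul hK h c.val

/-! ### `ord` helpers -/

open Fermat.Agent.S05 in
theorem ord_prod {A : ValuationSubring Kb} {ord : Kb → ℚ} (hord : IsOrd A ord)
    (s : Finset Kb) (hs : ∀ x ∈ s, x ≠ 0) : ord (∏ x ∈ s, x) = ∑ x ∈ s, ord x := by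
  classical
  induction s using Finset.induction_on with
  | empty => rw [Finset.prod_empty, Finset.sum_empty]; exact hord.one
  | insert a s ha ih =>
    rw [Finset.prod_insert ha, Finset.sum_insert ha,
      hord.mul _ _ (hs a (Finset.mem_insert_self a s))
        (Finset.prod_ne_zero_iff.mpr fun x hx => hs x (Finset.mem_insert_of_mem hx)),
      ih fun x hx => hs x (Finset.mem_insert_of_mem hx)]

open Fermat.Agent.S05 in
theorem ord_eq_zero_of_valuation_eq_one {A : ValuationSubring Kb} {ord : Kb → ℚ}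
    (hord : IsOrd A ord) {a : Kb} (h : A.valuation a = 1) : a ≠ 0 ∧ ord a = 0 := by
  have ha0 : a ≠ 0 := by
    rintro rfl
    rw [_root_.map_zero] at h
    exact zero_ne_one h
  have h1 : a ∈ A := (A.valuation_le_one_iff a).mp h.le
  have h2 : a⁻¹ ∈ A := by
    rw [← A.valuation_le_one_iff, map_inv₀, h, inv_one]
  have h3 := (hord.mem_iff a ha0).mp h1
  have h4 := (hord.mem_iff a⁻¹ (inv_ne_zero ha0)).mp h2
  rw [hord.inv ha0] at h4
  exact ⟨ha0, le_antisymm (by linarith) h3⟩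


/-! ### The two local lemmas at `p` -/

section local_p

open Fermat.Agent.S05

variable {p : ℕ} [Fact p.Prime]

/-- if the product of the `x`-coordinates of `N ∖ 0` is not `A`-integral, `N` lies in the kernel
of reduction at `A` -/
theorem inKer_of_prod_notMem {A : ValuationSubring Kb}
    (hK : ∀ Q R : (W⁄Kb).Point, InKer W A Q → InKer W A R → InKer W A (Q + R))
    (N : Submodule (ZMod p) (Vp W p))
    (hline : ∀ x ∈ N, x ≠ 0 → ∀ y ∈ N, ∃ c : ZMod p, y = c • x)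
    (XL : Finset Kb) (hXL : ∀ x ∈ XL, ∃ Q ∈ N, Q ≠ 0 ∧ xc W (Q : (W⁄Kb).Point) = x)
    (hr : ∏ x ∈ XL, x ∉ A) : ∀ Q ∈ N, InKer W A (Q : (W⁄Kb).Point) := by
  by_contra hcon
  obtain ⟨Q, hQN, hQ⟩ : ∃ Q ∈ N, ¬ InKer W A (Q : (W⁄Kb).Point) := by
    by_contra h
    exact hcon fun Q hQN => not_not.mp fun hQ => h ⟨Q, hQN, hQ⟩
  apply hr
  refine Subring.prod_mem A.toSubring fun x hx => ?_
  obtain ⟨Q', hQ'N, hQ'0, rfl⟩ := hXL x hx
  by_contra hx'
  apply hQ
  obtain ⟨c, rfl⟩ := hline Q' hQ'N hQ'0 Q hQN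
  exact inKer_zmod_smul hK (inKer_of_xc_notMem hx') c

/-- if the product of the `x`-coordinates of `N ∖ 0` is `A`-integral, `N` meets the kernel of
reduction at `A` trivially -/
theorem eq_zero_of_prod_mem {A : ValuationSubring Kb} {ord : Kb → ℚ} (hord : IsOrd A ord)
    (hK : ∀ Q R : (W⁄Kb).Point, InKer W A Q → InKer W A R → InKer W A (Q + R))
    (N : Submodule (ZMod p) (Vp W p))
    (hline : ∀ x ∈ N, x ≠ 0 → ∀ y ∈ N, ∃ c : ZMod p, y = c • x)
    (XL : Finset Kb) (hXL : ∀ x ∈ XL, ∃ Q ∈ N, Q ≠ 0 ∧ xc W (Q : (W⁄Kb).Point) = x)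
    (hXL' : ∀ Q ∈ N, Q ≠ 0 → xc W (Q : (W⁄Kb).Point) ∈ XL)
    (hr : ∏ x ∈ XL, x ∈ A) : ∀ Q ∈ N, InKer W A (Q : (W⁄Kb).Point) → Q = 0 := by
  intro Q' hQ'N hQ'
  by_contra hQ'0
  have hall : ∀ x ∈ XL, x ≠ 0 ∧ ord x < 0 := by
    intro x hx
    obtain ⟨Q, hQN, hQ0, rfl⟩ := hXL x hx
    obtain ⟨c, rfl⟩ := hline Q' hQ'N hQ'0 Q hQN
    have h1 : InKer W A ((c • Q' : Vp W p) : (W⁄Kb).Point) := inKer_zmod_smul hK hQ' c
    have h2 : ((c • Q' : Vp W p) : (W⁄Kb).Point) ≠ 0 := fun h => hQ0 (Subtype.ext h)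
    have h3 := xc_notMem_of_inKer h1 h2
    have h4 : xc W ((c • Q' : Vp W p) : (W⁄Kb).Point) ≠ 0 := fun h => h3 (h ▸ A.zero_mem)
    refine ⟨h4, ?_⟩
    by_contra hnn
    exact h3 ((hord.mem_iff _ h4).mpr (not_lt.mp hnn))
  have hne : XL.Nonempty := ⟨_, hXL' Q' hQ'N hQ'0⟩
  have hprod0 : ∏ x ∈ XL, x ≠ 0 := Finset.prod_ne_zero_iff.mpr fun x hx => (hall x hx).1
  have hsum : ord (∏ x ∈ XL, x) < 0 := by
    rw [ord_prod hord XL fun x hx => (hall x hx).1]
    exact Finset.sum_neg (fun x hx => (hall x hx).2) hne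
  have := (hord.mem_iff _ hprod0).mp hr
  linarith

end local_p

/-! ### The assembly -/

section main

open Fermat.Agent.S05

/-- **S13 from its pieces.** -/
theorem cofixedLine_of_pieces (W : Affine ℚ) (p : ℕ) [Fact p.Prime]
    (hT : Nontrivial (Vp W p) ∧ Finite (Vp W p) ∧ Nat.card (Vp W p) < p ^ 3)
    (hK : ∀ A : ValuationSubring Kb, A.LiesOverPrime p → ∀ Q R : (W⁄Kb).Point,
      InKer W A Q → InKer W A R → InKer W A (Q + R))
    (hUnr : ∀ q : ℕ, q.Prime → q ≠ 2 → q ≠ p → GaloisRepUnramifiedAt (K := Kb) ℚ W p q)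
    (hU2 : ∀ A : ValuationSubring Kb, A.LiesOverPrime 2 → ∀ σ ∈ A.inertiaSubgroupIn ℚ,
      ∀ x : Vp W p, σ • (σ • x - x) - (σ • x - x) = 0)
    (hUp : ∀ A : ValuationSubring Kb, A.LiesOverPrime p → ∀ σ ∈ A.inertiaSubgroupIn ℚ,
      ∀ x : Vp W p, InKer W A ((σ • (σ • x - x) - (σ • x - x) : Vp W p) : (W⁄Kb).Point))
    (hXp : ∀ A : ValuationSubring Kb, A.LiesOverPrime p →
      (∀ Q : Vp W p, InKer W A (Q : (W⁄Kb).Point)) →
      ¬ ∃ N : Submodule (ZMod p) (Vp W p), IsGaloisStable ℚ N ∧ N ≠ ⊥ ∧ N ≠ ⊤)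
    (hR2 : ∀ Q : Vp W p, (∀ σ : GalQ, σ • Q = Q) → Q = 0)
    (hM : ∀ E : IntermediateField ℚ Kb, FiniteDimensional ℚ E → ∀ H : Subgroup GalQ, H.Normal →
      E.fixingSubgroup ≤ H →
      (∀ ℓ : ℕ, ℓ.Prime → ∀ A : ValuationSubring Kb, A.LiesOverPrime ℓ →
        A.inertiaSubgroupIn ℚ ≤ H) → H = ⊤)
    (hred : ¬ GaloisRepIsIrreducible (K := Kb) ℚ W p) :
    HasGaloisStableCofixedLine (K := Kb) ℚ W p := by
  classical
  obtain ⟨hnt, hfin, hcard⟩ := hT
  have hp : p.Prime := Fact.out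
  -- the stable line
  obtain ⟨N, hN, hbot, htop⟩ : ∃ N : Submodule (ZMod p) (Vp W p),
      IsGaloisStable ℚ N ∧ N ≠ ⊥ ∧ N ≠ ⊤ := by
    by_contra hcon
    apply hred
    refine ⟨hnt, fun N hN => ?_⟩
    by_contra h
    rw [not_or] at h
    exact hcon ⟨N, hN, h.1, h.2⟩
  obtain ⟨hline, hquot⟩ := line_data hcard N hbot htop
  have : Fintype (Vp W p) := Fintype.ofFinite _
  -- the field of definition of the points of `V`
  let S : Set Kb := Set.range (fun Q : Vp W p => xc W (Q : (W⁄Kb).Point)) ∪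
    Set.range (fun Q : Vp W p => yc W (Q : (W⁄Kb).Point))
  have hSfin : S.Finite := (Set.finite_range _).union (Set.finite_range _)
  have : Finite S := hSfin
  let E : IntermediateField ℚ Kb := IntermediateField.adjoin ℚ S
  have hcl : IsAlgClosure ℚ Kb := AlgebraicClosure.instIsAlgClosure ℚ
  have halg : Algebra.IsAlgebraic ℚ Kb := IsAlgClosure.isAlgebraic
  have hgal : IsGalois ℚ Kb := IsAlgClosure.isGalois ℚ Kb
  have hEfd : FiniteDimensional ℚ E :=
    IntermediateField.finiteDimensional_adjoin fun x _ =>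
      (Algebra.IsAlgebraic.isAlgebraic (R := ℚ) x).isIntegral
  have hEfix : ∀ σ ∈ E.fixingSubgroup, ∀ Q : Vp W p, σ • Q = Q := by
    intro σ hσ Q
    rw [IntermediateField.mem_fixingSubgroup_iff] at hσ
    apply Subtype.ext
    rw [coe_galSmul]
    exact smul_eq_self_of_coords
      (hσ _ (IntermediateField.subset_adjoin ℚ S (Or.inl ⟨Q, rfl⟩)))
      (hσ _ (IntermediateField.subset_adjoin ℚ S (Or.inr ⟨Q, rfl⟩)))
  -- the two subgroups
  let H1 : Subgroup GalQ :=
    { carrier := {σ | ∀ x ∈ N, σ • x = x}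
      one_mem' := fun x _ => one_smul _ x
      mul_mem' := fun {σ τ} hσ hτ x hx => by rw [mul_smul, hτ x hx, hσ x hx]
      inv_mem' := fun {σ} hσ x hx => by
        conv_lhs => rw [← hσ x hx]
        rw [inv_smul_smul] }
  have hH1n : H1.Normal := ⟨fun σ hσ τ x hx => by
    have h1 : τ⁻¹ • x ∈ N := hN τ⁻¹ x hx
    rw [mul_smul, mul_smul, hσ _ h1, smul_inv_smul]⟩
  let H2 : Subgroup GalQ :=
    { carrier := {σ | ∀ x : Vp W p, σ • x - x ∈ N}
      one_mem' := fun x => by rw [one_smul, sub_self]; exact N.zero_mem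
      mul_mem' := fun {σ τ} hσ hτ x => by
        have e : (σ * τ) • x - x = σ • (τ • x - x) + (σ • x - x) := by
          rw [mul_smul, smul_sub]; abel
        rw [e]
        exact N.add_mem (hN σ _ (hτ x)) (hσ x)
      inv_mem' := fun {σ} hσ x => by
        have e : σ⁻¹ • x - x = -(σ⁻¹ • (σ • x - x)) := by
          rw [smul_sub, inv_smul_smul]; abel
        rw [e]
        exact N.neg_mem (hN σ⁻¹ _ (hσ x)) }
  have hH2n : H2.Normal := ⟨fun σ hσ τ x => by
    have e : (τ * σ * τ⁻¹) • x - x = τ • (σ • (τ⁻¹ • x) - τ⁻¹ • x) := by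
      rw [mul_smul, mul_smul, smul_sub, smul_inv_smul]
    rw [e]
    exact hN τ _ (hσ _)⟩
  have hE1 : E.fixingSubgroup ≤ H1 := fun σ hσ x _ => hEfix σ hσ x
  have hE2 : E.fixingSubgroup ≤ H2 := fun σ hσ x => by
    rw [hEfix σ hσ x, sub_self]; exact N.zero_mem
  -- the product of the `x`-coordinates of `N ∖ 0` is rational
  let F : Finset (Vp W p) := Finset.filter (fun Q : Vp W p => Q ∈ N ∧ Q ≠ 0) Finset.univ
  let XL : Finset Kb := Finset.image (fun Q : Vp W p => xc W (Q : (W⁄Kb).Point)) F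
  have hXL : ∀ x ∈ XL, ∃ Q ∈ N, Q ≠ 0 ∧ xc W (Q : (W⁄Kb).Point) = x := by
    intro x hx
    obtain ⟨Q, hQ, rfl⟩ := Finset.mem_image.mp hx
    have hQ' := Finset.mem_filter.mp hQ
    exact ⟨Q, hQ'.2.1, hQ'.2.2, rfl⟩
  have hXL' : ∀ Q ∈ N, Q ≠ 0 → xc W (Q : (W⁄Kb).Point) ∈ XL := fun Q hQN hQ0 =>
    Finset.mem_image.mpr ⟨Q, Finset.mem_filter.mpr ⟨Finset.mem_univ _, hQN, hQ0⟩, rfl⟩
  have hfixed : ∀ σ : GalQ, σ (∏ x ∈ XL, x) = ∏ x ∈ XL, x := by
    intro σ
    have himg : XL.image σ = XL := by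
      apply Finset.eq_of_subset_of_card_le
      · intro y hy
        obtain ⟨x, hx, rfl⟩ := Finset.mem_image.mp hy
        obtain ⟨Q, hQN, hQ0, rfl⟩ := hXL x hx
        rw [← xc_smul, ← coe_galSmul]
        refine hXL' _ (hN σ Q hQN) fun h => hQ0 ?_
        have := congrArg (fun y => σ⁻¹ • y) h
        simpa using this
      · rw [Finset.card_image_of_injective _ σ.injective]
    rw [map_prod]
    conv_rhs => rw [← himg]
    rw [Finset.prod_image fun x _ y _ h => σ.injective h]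
  obtain ⟨r₀, hr₀⟩ : ∃ r₀ : ℚ, algebraMap ℚ Kb r₀ = ∏ x ∈ XL, x :=
    (InfiniteGalois.mem_range_algebraMap_iff_fixed _).mpr hfixed
  have hrA : (r₀ ≠ 0 ∧ padicValRat p r₀ < 0) → ∀ A : ValuationSubring Kb, A.LiesOverPrime p →
      ∏ x ∈ XL, x ∉ A := by
    rintro ⟨h0, hneg⟩ A hA
    obtain ⟨ord, hord, hordQ, -⟩ := exists_ord hp A hA
    have hne : (∏ x ∈ XL, x) ≠ 0 := by
      rw [← hr₀]
      exact (map_ne_zero_iff _ (algebraMap ℚ Kb).injective).mpr h0
    rw [hord.mem_iff _ hne, ← hr₀, hordQ r₀ h0, not_le]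
    exact_mod_cast hneg
  have hrB : ¬ (r₀ ≠ 0 ∧ padicValRat p r₀ < 0) → ∀ A : ValuationSubring Kb,
      A.LiesOverPrime p → ∏ x ∈ XL, x ∈ A := by
    intro hcase A hA
    by_cases h0 : r₀ = 0
    · rw [← hr₀, h0, _root_.map_zero]
      exact A.zero_mem
    obtain ⟨ord, hord, hordQ, -⟩ := exists_ord hp A hA
    have hne : (∏ x ∈ XL, x) ≠ 0 := by
      rw [← hr₀]
      exact (map_ne_zero_iff _ (algebraMap ℚ Kb).injective).mpr h0
    rw [hord.mem_iff _ hne, ← hr₀, hordQ r₀ h0]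
    have : ¬ padicValRat p r₀ < 0 := fun h => hcase ⟨h0, h⟩
    exact_mod_cast not_lt.mp this
  by_cases hcase : r₀ ≠ 0 ∧ padicValRat p r₀ < 0
  · -- `N` is the kernel of reduction at every place over `p`: `N` is a cofixed line
    have hall : ∀ ℓ : ℕ, ℓ.Prime → ∀ A : ValuationSubring Kb, A.LiesOverPrime ℓ →
        A.inertiaSubgroupIn ℚ ≤ H2 := by
      intro ℓ hℓ A hA σ hσ
      refine cofix_of_sq N hquot htop hN σ fun x => ?_
      by_cases hℓp : ℓ = p
      · have hA : A.LiesOverPrime p := hℓp ▸ hA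
        have hNker := inKer_of_prod_notMem (hK A hA) N hline XL hXL (hrA hcase A hA)
        have hkerN : ∀ Q : Vp W p, InKer W A (Q : (W⁄Kb).Point) → Q ∈ N := by
          intro Q hQ
          by_contra hQN
          refine hXp A hA (fun y => ?_) ⟨N, hN, hbot, htop⟩
          obtain ⟨c, hc⟩ := hquot Q hQN y
          have e : y = c • Q + (y - c • Q) := (add_sub_cancel _ _).symm
          rw [e, Submodule.coe_add]
          exact hK A hA _ _ (inKer_zmod_smul (hK A hA) hQ c) (hNker _ hc)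
        exact hkerN _ (hUp A hA σ hσ x)
      · by_cases hℓ2 : ℓ = 2
        · subst hℓ2
          rw [hU2 A hA σ hσ x]
          exact N.zero_mem
        · have h1 : ∀ y : Vp W p, σ • y = y := hUnr ℓ hℓ hℓ2 hℓp A hA σ hσ
          rw [h1 x, sub_self, smul_zero, sub_self]
          exact N.zero_mem
    have htop2 : H2 = ⊤ := hM E hEfd H2 hH2n hE2 hall
    refine ⟨N, hN, hbot, htop, fun σ x => ?_⟩
    have : σ ∈ H2 := htop2 ▸ Subgroup.mem_top σ
    exact this x
  · -- `N` meets the kernel of reduction trivially at every place over `p`: impossible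
    exfalso
    have hall : ∀ ℓ : ℕ, ℓ.Prime → ∀ A : ValuationSubring Kb, A.LiesOverPrime ℓ →
        A.inertiaSubgroupIn ℚ ≤ H1 := by
      intro ℓ hℓ A hA σ hσ
      refine fix_of_sq N hline hN σ fun x hx => ?_
      by_cases hℓp : ℓ = p
      · have hA : A.LiesOverPrime p := hℓp ▸ hA
        obtain ⟨ord, hord, -, -⟩ := exists_ord hp A hA
        have hy : σ • (σ • x - x) - (σ • x - x) ∈ N :=
          N.sub_mem (hN σ _ (N.sub_mem (hN σ x hx) hx)) (N.sub_mem (hN σ x hx) hx)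
        exact eq_zero_of_prod_mem hord (hK A hA) N hline XL hXL hXL' (hrB hcase A hA) _ hy
          (hUp A hA σ hσ x)
      · by_cases hℓ2 : ℓ = 2
        · subst hℓ2
          exact hU2 A hA σ hσ x
        · have h1 : ∀ y : Vp W p, σ • y = y := hUnr ℓ hℓ hℓ2 hℓp A hA σ hσ
          rw [h1 x, sub_self, smul_zero, sub_self]
    have htop1 : H1 = ⊤ := hM E hEfd H1 hH1n hE1 hall
    obtain ⟨Q, hQN, hQ0⟩ := (Submodule.ne_bot_iff N).mp hbot
    refine hQ0 (hR2 Q fun σ => ?_)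
    have : σ ∈ H1 := htop1 ▸ Subgroup.mem_top σ
    exact this Q hQN

end main

end Fermat.Agent.S13.Wire
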