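/-
S13, piece WIRE (helper23): `Wire.cofixedLine_of_pieces` on the frozen Frey model, with the
hypotheses in the vocabulary of the other packages:
* `frey_cofixedLine_kernel` : kernel of reduction as S05 `Kernel.InKer A.valuation`;
* `frey_cofixedLine_coord`  : kernel of reduction in coordinates (`x ∉ A`), no predicate at all;
* `minkAll_of_minkSome`     : the (M) hypothesis of the wiring (all places over every prime) follows
  from the statement with one place over every prime;
* converters between the three ways of saying "in the kernel of reduction".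
-/
import Mathlib
import Fermat.Prelude.Def_FLTPrelim_GaloisRep
import Fermat.Prelude.Def_FLTPrelim_Ramification
import Fermat.Prelude.Def_FLTPrelim_CofixedLine
import Fermat.Prelude.Def_FLTPrelim_FreyPackage
import Fermat.Agent.S13.Wire
import Fermat.Agent.S05.Frey
import Fermat.Agent.S54.Frobenius

set_option autoImplicit false

namespace Fermat.Agent.S13.WireFrey

open WeierstrassCurve WeierstrassCurve.Affine WeierstrassCurve.Affine.Point
open scoped WeierstrassCurve.Affine

/-! ### Three ways of saying "in the kernel of reduction" -/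

section conv

variable {W : Affine ℚ}

theorem inKer_iff_coord (A : ValuationSubring Kb) (Q : (W⁄Kb).Point) :
    InKer W A Q ↔ ∀ (x y : Kb) (h : (W⁄Kb).Nonsingular x y), Q = Point.some x y h → x ∉ A := by
  cases Q with
  | zero => exact ⟨fun _ x y h h0 => absurd h0 (by simp), fun _ => trivial⟩
  | some x y h =>
    constructor
    · intro hx x' y' h' he
      simp only [Point.some.injEq] at he
      rw [← he.1]
      exact hx
    · intro hall
      exact hall x y h rfl

theorem kernel_iff_coord (A : ValuationSubring Kb) (Q : (W⁄Kb).Point) :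
    Fermat.Agent.S05.Kernel.InKer A.valuation Q ↔
      ∀ (x y : Kb) (h : (W⁄Kb).Nonsingular x y), Q = Point.some x y h → x ∉ A := by
  rw [← inKer_iff_kernel, inKer_iff_coord]

/-- "the whole `p`-torsion lies in the kernel of reduction", in coordinates -/
theorem forall_inKer_iff_coord (A : ValuationSubring Kb) (p : ℕ) :
    (∀ Q : Vp W p, InKer W A (Q : (W⁄Kb).Point)) ↔
      ∀ (x y : Kb) (h : (W⁄Kb).Nonsingular x y), (p : ℤ) • Point.some x y h = 0 → x ∉ A := by
  constructor
  · intro hall x y h hp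
    exact hall ⟨Point.some x y h, (Submodule.mem_torsionBy_iff _ _).mpr hp⟩
  · intro hall Q
    rw [inKer_iff_coord]
    intro x y h he
    refine hall x y h ?_
    rw [← he]
    exact (Submodule.mem_torsionBy_iff _ _).mp Q.2

end conv

/-! ### The two forms of (M) -/

/-- the (M) hypothesis of the wiring follows from the (stronger) statement with only one place
over every prime -/
theorem minkAll_of_minkSome
    (hM : ∀ E : IntermediateField ℚ Kb, FiniteDimensional ℚ E → ∀ H : Subgroup GalQ, H.Normal →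
      E.fixingSubgroup ≤ H →
      (∀ ℓ : ℕ, ℓ.Prime → ∃ A : ValuationSubring Kb, A.LiesOverPrime ℓ ∧
        A.inertiaSubgroupIn ℚ ≤ H) → H = ⊤) :
    ∀ E : IntermediateField ℚ Kb, FiniteDimensional ℚ E → ∀ H : Subgroup GalQ, H.Normal →
      E.fixingSubgroup ≤ H →
      (∀ ℓ : ℕ, ℓ.Prime → ∀ A : ValuationSubring Kb, A.LiesOverPrime ℓ →
        A.inertiaSubgroupIn ℚ ≤ H) → H = ⊤ := by
  intro E hE H hH hEH hall
  refine hM E hE H hH hEH fun ℓ hℓ => ?_
  obtain ⟨A, hA⟩ := Fermat.Agent.S54.exists_liesOverPrime Kb hℓ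
  exact ⟨A, hA, hall ℓ hℓ A hA⟩

/-! ### The frozen Frey model -/

/-- **S13 from its pieces**, kernel of reduction as S05 `Kernel.InKer A.valuation`. -/
theorem frey_cofixedLine_kernel (P : FreyPackage)
    (hT : Nontrivial (Vp P.freyCurve P.p) ∧ Finite (Vp P.freyCurve P.p) ∧
      Nat.card (Vp P.freyCurve P.p) < P.p ^ 3)
    (hK : ∀ A : ValuationSubring Kb, A.LiesOverPrime P.p → ∀ Q R : (P.freyCurve⁄Kb).Point,
      Fermat.Agent.S05.Kernel.InKer A.valuation Q → Fermat.Agent.S05.Kernel.InKer A.valuation R →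
        Fermat.Agent.S05.Kernel.InKer A.valuation (Q + R))
    (hU2 : ∀ A : ValuationSubring Kb, A.LiesOverPrime 2 → ∀ σ ∈ A.inertiaSubgroupIn ℚ,
      ∀ x : Vp P.freyCurve P.p, σ • (σ • x - x) = σ • x - x)
    (hUp : ∀ A : ValuationSubring Kb, A.LiesOverPrime P.p → ∀ σ ∈ A.inertiaSubgroupIn ℚ,
      ∀ x : Vp P.freyCurve P.p, Fermat.Agent.S05.Kernel.InKer A.valuation
        ((σ • (σ • x - x) - (σ • x - x) : Vp P.freyCurve P.p) : (P.freyCurve⁄Kb).Point))
    (hXp : ∀ A : ValuationSubring Kb, A.LiesOverPrime P.p →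
      (∀ Q : Vp P.freyCurve P.p,
        Fermat.Agent.S05.Kernel.InKer A.valuation (Q : (P.freyCurve⁄Kb).Point)) →
      ¬ ∃ N : Submodule (ZMod P.p) (Vp P.freyCurve P.p), IsGaloisStable ℚ N ∧ N ≠ ⊥ ∧ N ≠ ⊤)
    (hR2 : ∀ Q : Vp P.freyCurve P.p, (∀ σ : GalQ, σ • Q = Q) → Q = 0)
    (hM : ∀ E : IntermediateField ℚ Kb, FiniteDimensional ℚ E → ∀ H : Subgroup GalQ, H.Normal →
      E.fixingSubgroup ≤ H →
      (∀ ℓ : ℕ, ℓ.Prime → ∀ A : ValuationSubring Kb, A.LiesOverPrime ℓ →
        A.inertiaSubgroupIn ℚ ≤ H) → H = ⊤)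
    (hred : ¬ GaloisRepIsIrreducible (K := Kb) ℚ P.freyCurve P.p) :
    HasGaloisStableCofixedLine (K := Kb) ℚ P.freyCurve P.p := by
  have : Fact P.p.Prime := ⟨P.pp⟩
  refine Wire.cofixedLine_of_pieces P.freyCurve P.p hT ?_
    (fun q hq hq2 hqp => Fermat.Agent.S05.Frey.frey_unramified P hq hq2 hqp) ?_ ?_ ?_ hR2 hM hred
  · intro A hA Q R hQ hR
    rw [inKer_iff_kernel] at hQ hR ⊢
    exact hK A hA Q R hQ hR
  · intro A hA σ hσ x
    rw [hU2 A hA σ hσ x, sub_self]
  · intro A hA σ hσ x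
    rw [inKer_iff_kernel]
    exact hUp A hA σ hσ x
  · intro A hA hall
    exact hXp A hA fun Q => (inKer_iff_kernel A _).mp (hall Q)

/-- **S13 from its pieces**, kernel of reduction in coordinates. -/
theorem frey_cofixedLine_coord (P : FreyPackage)
    (hT : Nontrivial (Vp P.freyCurve P.p) ∧ Finite (Vp P.freyCurve P.p) ∧
      Nat.card (Vp P.freyCurve P.p) < P.p ^ 3)
    (hK : ∀ A : ValuationSubring Kb, A.LiesOverPrime P.p → ∀ Q R : (P.freyCurve⁄Kb).Point,
      Fermat.Agent.S05.Kernel.InKer A.valuation Q → Fermat.Agent.S05.Kernel.InKer A.valuation R →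
        Fermat.Agent.S05.Kernel.InKer A.valuation (Q + R))
    (hU2 : ∀ A : ValuationSubring Kb, A.LiesOverPrime 2 → ∀ σ ∈ A.inertiaSubgroupIn ℚ,
      ∀ x : Vp P.freyCurve P.p, σ • (σ • x - x) = σ • x - x)
    (hUp : ∀ A : ValuationSubring Kb, A.LiesOverPrime P.p → ∀ σ ∈ A.inertiaSubgroupIn ℚ,
      ∀ x : Vp P.freyCurve P.p, ∀ (x₀ y₀ : Kb) (h : (P.freyCurve⁄Kb).Nonsingular x₀ y₀),
        ((σ • (σ • x - x) - (σ • x - x) : Vp P.freyCurve P.p) : (P.freyCurve⁄Kb).Point) =
          Point.some x₀ y₀ h → x₀ ∉ A)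
    (hXp : ∀ A : ValuationSubring Kb, A.LiesOverPrime P.p →
      (∀ (x y : Kb) (h : (P.freyCurve⁄Kb).Nonsingular x y),
        (P.p : ℤ) • Point.some x y h = 0 → x ∉ A) →
      ¬ ∃ N : Submodule (ZMod P.p) (Vp P.freyCurve P.p), IsGaloisStable ℚ N ∧ N ≠ ⊥ ∧ N ≠ ⊤)
    (hR2 : ∀ Q : Vp P.freyCurve P.p, (∀ σ : GalQ, σ • Q = Q) → Q = 0)
    (hM : ∀ E : IntermediateField ℚ Kb, FiniteDimensional ℚ E → ∀ H : Subgroup GalQ, H.Normal →
      E.fixingSubgroup ≤ H →
      (∀ ℓ : ℕ, ℓ.Prime → ∀ A : ValuationSubring Kb, A.LiesOverPrime ℓ →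
        A.inertiaSubgroupIn ℚ ≤ H) → H = ⊤)
    (hred : ¬ GaloisRepIsIrreducible (K := Kb) ℚ P.freyCurve P.p) :
    HasGaloisStableCofixedLine (K := Kb) ℚ P.freyCurve P.p := by
  refine frey_cofixedLine_kernel P hT hK hU2 ?_ ?_ hR2 hM hred
  · intro A hA σ hσ x
    rw [kernel_iff_coord]
    exact hUp A hA σ hσ x
  · intro A hA hall
    refine hXp A hA ((forall_inKer_iff_coord A P.p).mp fun Q => ?_)
    exact (inKer_iff_kernel A _).mpr (hall Q)

end Fermat.Agent.S13.WireFrey
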