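import Fermat.Agent.S13.Mink
import Fermat.Agent.S13.WireFrey

/-!
# The Minkowski input `hM` of the S13 wiring

`MinkWire.hM` is the hypothesis `hM` of `WireFrey.frey_cofixedLine_coord` /
`WireFrey.frey_cofixedLine_kernel`, verbatim, discharged by `Mink.eq_top_of_forall`.
-/

set_option autoImplicit false

namespace Fermat.Agent.S13.MinkWire

open Fermat.Agent.S13

/-- The Minkowski hypothesis of the S13 wiring (`∀ A` form), exactly as consumed by
`WireFrey.frey_cofixedLine_coord`. -/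
theorem hM : ∀ E : IntermediateField ℚ Kb, FiniteDimensional ℚ E → ∀ H : Subgroup GalQ,
    H.Normal → E.fixingSubgroup ≤ H →
    (∀ ℓ : ℕ, ℓ.Prime → ∀ A : ValuationSubring Kb, A.LiesOverPrime ℓ →
      A.inertiaSubgroupIn ℚ ≤ H) → H = ⊤ := by
  intro E hE H hH hEH hall
  have : IsAlgClosure ℚ (AlgebraicClosure ℚ) := AlgebraicClosure.instIsAlgClosure ℚ
  exact Mink.eq_top_of_forall E H hEH hall

/-- The Minkowski hypothesis of the S13 wiring, `∃ A` form (the input of
`WireFrey.minkAll_of_minkSome`). -/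
theorem hM_some : ∀ E : IntermediateField ℚ Kb, FiniteDimensional ℚ E → ∀ H : Subgroup GalQ,
    H.Normal → E.fixingSubgroup ≤ H →
    (∀ ℓ : ℕ, ℓ.Prime → ∃ A : ValuationSubring Kb, A.LiesOverPrime ℓ ∧
      A.inertiaSubgroupIn ℚ ≤ H) → H = ⊤ := by
  intro E hE H hH hEH hsome
  have : IsAlgClosure ℚ (AlgebraicClosure ℚ) := AlgebraicClosure.instIsAlgClosure ℚ
  exact Mink.eq_top E H hEH hsome

end Fermat.Agent.S13.MinkWire
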