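import Mathlib
import Fermat.Prelude.Def_FLTPrelim_GaloisRep

/-!
# S13, piece R2: rational descent of a Galois-fixed point

A point of `W` over `AlgebraicClosure ℚ` which is fixed by the whole Galois group comes from a
point over `ℚ`.
-/

set_option autoImplicit false

namespace Fermat.Agent.S13.R2

open WeierstrassCurve WeierstrassCurve.Affine

/-- (a) rational descent -/
theorem exists_rat_point (W : WeierstrassCurve ℚ)
    (Q : (W⁄(AlgebraicClosure ℚ)).Point)
    (hQ : ∀ σ : AlgebraicClosure ℚ ≃ₐ[ℚ] AlgebraicClosure ℚ, σ • Q = Q) :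
    ∃ Q₀ : (W⁄ℚ).Point, Point.map (W' := W) (Algebra.ofId ℚ (AlgebraicClosure ℚ)) Q₀ = Q := by
  rcases Q with _ | ⟨x, y, h⟩
  · exact ⟨0, rfl⟩
  · have hxy : ∀ σ : AlgebraicClosure ℚ ≃ₐ[ℚ] AlgebraicClosure ℚ, σ x = x ∧ σ y = y := by
      intro σ
      have h1 := hQ σ
      rw [Point.algEquiv_smul_def, Point.map_some] at h1
      rw [Point.some.injEq] at h1
      exact h1
    have hcl : IsAlgClosure ℚ (AlgebraicClosure ℚ) := AlgebraicClosure.instIsAlgClosure ℚ
    have hgal : IsGalois ℚ (AlgebraicClosure ℚ) := IsAlgClosure.isGalois ℚ (AlgebraicClosure ℚ)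
    obtain ⟨x₀, rfl⟩ :=
      (InfiniteGalois.mem_range_algebraMap_iff_fixed (k := ℚ) x).mpr fun σ => (hxy σ).1
    obtain ⟨y₀, rfl⟩ :=
      (InfiniteGalois.mem_range_algebraMap_iff_fixed (k := ℚ) y).mpr fun σ => (hxy σ).2
    have h₀ : (W⁄ℚ).Nonsingular x₀ y₀ :=
      (WeierstrassCurve.Affine.baseChange_nonsingular W (f := Algebra.ofId ℚ (AlgebraicClosure ℚ))
        (Algebra.ofId ℚ (AlgebraicClosure ℚ)).injective x₀ y₀).mp h
    exact ⟨Point.some x₀ y₀ h₀, rfl⟩

end Fermat.Agent.S13.R2
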