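import Mathlib
import Fermat.Prelude.Def_FLTPrelim_FreyPackage

/-!
# S13, piece R2 (c): the `2`-adic arithmetic of the Frey curve

`a ≡ 3 (mod 4)`, `b` even, `p ≥ 5` prime.  Then `a₂ = (b^p − 1 − a^p)/4` and
`a₄ = −a^p b^p/16` are integers, `4 a₂ + 1 = b^p − a^p` is odd, and
`ord₂ a₄ = p · ord₂ b − 4 ≥ 1` with `p ∤ 2 · ord₂ a₄`.
-/

set_option autoImplicit false

namespace Fermat.Agent.S13.R2

/-- `a ^ p ≡ 3 (mod 4)` for the Frey package. -/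
theorem frey_a_pow_emod (P : FreyPackage) : P.a ^ P.p % 4 = 3 := by
  obtain ⟨t, ht⟩ := P.hp_odd
  have h1 : ((P.a ^ P.p : ℤ) : ZMod 4) = ((3 : ℤ) : ZMod 4) := by
    push_cast
    rw [P.ha4, ht, pow_succ, pow_mul]
    have h9 : (3 : ZMod 4) ^ 2 = 1 := by decide
    rw [h9, one_pow, one_mul]
  have h2 := (ZMod.intCast_eq_intCast_iff _ _ _).mp h1
  have h3 : P.a ^ P.p % 4 = 3 % 4 := h2
  omega

/-- `2 ∣ b` for the Frey package. -/
theorem frey_two_dvd_b (P : FreyPackage) : (2 : ℤ) ∣ P.b :=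
  (ZMod.intCast_zmod_eq_zero_iff_dvd P.b 2).1 P.hb2

/-- `16 ∣ b ^ p` for the Frey package. -/
theorem frey_b_pow_emod (P : FreyPackage) : P.b ^ P.p % 16 = 0 := by
  have hp5 := P.hp5
  have h16 : (2 : ℤ) ^ 4 ∣ P.b ^ P.p :=
    (pow_dvd_pow 2 (by omega)).trans (pow_dvd_pow_of_dvd (frey_two_dvd_b P) _)
  have h16' : (16 : ℤ) ∣ P.b ^ P.p := by
    have e : (2 : ℤ) ^ 4 = 16 := by norm_num
    rwa [e] at h16
  omega

/-- The `2`-adic valuation of `a₄` of the Frey curve is `p · ord₂ b − 4`. -/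
theorem frey_padicValRat_a₄ (P : FreyPackage) :
    padicValRat 2 P.freyCurve.a₄ = P.p * padicValRat 2 (P.b : ℚ) - 4 := by
  have : Fact (Nat.Prime 2) := ⟨Nat.prime_two⟩
  have ha0 : (P.a : ℚ) ≠ 0 := by exact_mod_cast P.ha0
  have hb0 : (P.b : ℚ) ≠ 0 := by exact_mod_cast P.hb0
  have hap : (P.a : ℚ) ^ P.p ≠ 0 := pow_ne_zero _ ha0
  have hbp : (P.b : ℚ) ^ P.p ≠ 0 := pow_ne_zero _ hb0
  have haodd : ¬ (2 : ℤ) ∣ P.a ^ P.p := by
    have := frey_a_pow_emod P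
    omega
  have hva : padicValRat 2 ((P.a : ℚ) ^ P.p) = 0 := by
    have e : ((P.a : ℚ) ^ P.p) = ((P.a ^ P.p : ℤ) : ℚ) := by push_cast; rfl
    rw [e, padicValRat.of_int]
    exact_mod_cast padicValInt.eq_zero_of_not_dvd haodd
  have h16 : padicValRat 2 (16 : ℚ) = 4 := by
    have e : (16 : ℚ) = 2 ^ 4 := by norm_num
    have h2 : padicValRat 2 (2 : ℚ) = 1 := by
      have := padicValRat.self (p := 2) (by norm_num)
      exact_mod_cast this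
    rw [e, padicValRat.pow, h2]
    norm_num
  have e4 : P.freyCurve.a₄ = -((P.a : ℚ) ^ P.p) * ((P.b : ℚ) ^ P.p) / 16 := rfl
  rw [e4, padicValRat.div (mul_ne_zero (neg_ne_zero.mpr hap) hbp) (by norm_num),
    padicValRat.mul (neg_ne_zero.mpr hap) hbp, padicValRat.neg, hva, h16,
    padicValRat.pow]
  ring

/-- **(R2)(c)**: the `2`-adic arithmetic of the Frey curve. -/
theorem frey_arith2 (P : FreyPackage) :
    (∃ n : ℤ, P.freyCurve.a₂ = n) ∧ (∃ n : ℤ, P.freyCurve.a₄ = n) ∧ P.freyCurve.a₄ ≠ 0 ∧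
      P.freyCurve.a₂ + 1 / 4 ≠ 0 ∧ padicValRat 2 (4 * (P.freyCurve.a₂ + 1 / 4)) = 0 ∧
      0 < padicValRat 2 P.freyCurve.a₄ ∧ ¬ (P.p : ℤ) ∣ 2 * padicValRat 2 P.freyCurve.a₄ := by
  have : Fact (Nat.Prime 2) := ⟨Nat.prime_two⟩
  have hp5 := P.hp5
  have hA := frey_a_pow_emod P
  have hB := frey_b_pow_emod P
  have ha0 : (P.a : ℚ) ≠ 0 := by exact_mod_cast P.ha0
  have hb0 : (P.b : ℚ) ≠ 0 := by exact_mod_cast P.hb0
  have hap : (P.a : ℚ) ^ P.p ≠ 0 := pow_ne_zero _ ha0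
  have hbp : (P.b : ℚ) ^ P.p ≠ 0 := pow_ne_zero _ hb0
  have e2 : P.freyCurve.a₂ = ((P.b : ℚ) ^ P.p - 1 - (P.a : ℚ) ^ P.p) / 4 := rfl
  have e4 : P.freyCurve.a₄ = -((P.a : ℚ) ^ P.p) * ((P.b : ℚ) ^ P.p) / 16 := rfl
  -- the odd integer `b ^ p - a ^ p`
  have hodd : ¬ (2 : ℤ) ∣ P.b ^ P.p - P.a ^ P.p := by omega
  have hne : (P.b : ℚ) ^ P.p - (P.a : ℚ) ^ P.p ≠ 0 := by
    intro h
    apply hodd
    have h' : P.b ^ P.p - P.a ^ P.p = 0 := by exact_mod_cast h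
    rw [h']
    exact dvd_zero _
  -- the valuation of `b`
  have hvb : (1 : ℤ) ≤ padicValRat 2 (P.b : ℚ) := by
    rw [padicValRat.of_int]
    have h1 : 1 ≤ padicValInt 2 P.b := by
      have := (padicValInt_dvd_iff (p := 2) 1 P.b).mp (by simpa using frey_two_dvd_b P)
      rcases this with h | h
      · exact absurd h P.hb0
      · exact h
    exact_mod_cast h1
  have hv4 := frey_padicValRat_a₄ P
  refine ⟨?_, ?_, ?_, ?_, ?_, ?_, ?_⟩
  · obtain ⟨n, hn⟩ : (4 : ℤ) ∣ P.b ^ P.p - 1 - P.a ^ P.p := by omega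
    refine ⟨n, ?_⟩
    have hn' : (P.b : ℚ) ^ P.p - 1 - (P.a : ℚ) ^ P.p = 4 * n := by exact_mod_cast hn
    rw [e2, hn']
    field_simp
  · obtain ⟨n, hn⟩ : (16 : ℤ) ∣ P.b ^ P.p := by omega
    refine ⟨-(P.a ^ P.p) * n, ?_⟩
    have hn' : (P.b : ℚ) ^ P.p = 16 * n := by exact_mod_cast hn
    rw [e4, hn']
    push_cast
    field_simp
  · rw [e4]
    exact div_ne_zero (mul_ne_zero (neg_ne_zero.mpr hap) hbp) (by norm_num)
  · rw [e2]
    intro h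
    apply hne
    linear_combination 4 * h
  · have e : 4 * (P.freyCurve.a₂ + 1 / 4) = ((P.b ^ P.p - P.a ^ P.p : ℤ) : ℚ) := by
      rw [e2]
      push_cast
      ring
    rw [e, padicValRat.of_int]
    exact_mod_cast padicValInt.eq_zero_of_not_dvd hodd
  · rw [hv4]
    have h5 : (5 : ℤ) ≤ (P.p : ℤ) := by exact_mod_cast hp5
    nlinarith
  · rw [hv4]
    intro hdvd
    have h8 : (P.p : ℤ) ∣ 8 := by
      have h1 : (P.p : ℤ) ∣ 2 * ((P.p : ℤ) * padicValRat 2 (P.b : ℚ)) :=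
        Dvd.dvd.mul_left (dvd_mul_right _ _) _
      have h2 := dvd_sub h1 hdvd
      have e : 2 * ((P.p : ℤ) * padicValRat 2 (P.b : ℚ)) -
          2 * ((P.p : ℤ) * padicValRat 2 (P.b : ℚ) - 4) = 8 := by ring
      rwa [e] at h2
    have h8' : P.p ∣ 8 := by exact_mod_cast h8
    have h8'' : P.p ∣ 2 ^ 3 := by
      have e : (2 : ℕ) ^ 3 = 8 := by norm_num
      rwa [e]
    have h2 : P.p ∣ 2 := P.pp.dvd_of_dvd_pow h8''
    have hle : P.p ≤ 2 := Nat.le_of_dvd (by norm_num) h2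
    omega

end Fermat.Agent.S13.R2
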