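/-
S13, piece R2 (b) (helper23): the `2`-adic order on `ℚ` as an `IsOrd`, and its residue field
`𝔽₂` (a `2`-adic unit is `1` or congruent to `1`).
-/
import Mathlib
import Fermat.Prelude.Def_FLTPrelim_FreyPackage
import Fermat.Prelude.Def_FLTPrelim_GaloisRep
import Fermat.Agent.S05.Defs

set_option autoImplicit false

namespace Fermat.Agent.S13.R2

open Fermat.Agent.S05

/-- the valuation subring `ℤ_(p) ⊆ ℚ` -/
def padicSubring (p : ℕ) [Fact p.Prime] : ValuationSubring ℚ where
  carrier := {x | 0 ≤ padicValRat p x}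
  mul_mem' := by
    intro x y hx hy
    by_cases hx0 : x = 0
    · simp [hx0]
    by_cases hy0 : y = 0
    · simp [hy0]
    change 0 ≤ padicValRat p (x * y)
    rw [padicValRat.mul hx0 hy0]
    exact add_nonneg hx hy
  one_mem' := by simp
  add_mem' := by
    intro x y hx hy
    by_cases hxy : x + y = 0
    · simp [hxy]
    exact le_trans (le_min hx hy) (padicValRat.min_le_padicValRat_add hxy)
  zero_mem' := by simp
  neg_mem' := by
    intro x hx
    change 0 ≤ padicValRat p (-x)
    rw [padicValRat.neg]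
    exact hx
  mem_or_inv_mem' := by
    intro x
    change 0 ≤ padicValRat p x ∨ 0 ≤ padicValRat p x⁻¹
    rw [padicValRat.inv]
    omega

theorem mem_padicSubring {p : ℕ} [Fact p.Prime] (x : ℚ) :
    x ∈ padicSubring p ↔ 0 ≤ padicValRat p x := Iff.rfl

/-- the `p`-adic order on `ℚ` is an `IsOrd` -/
theorem isOrd_padicSubring (p : ℕ) [Fact p.Prime] :
    IsOrd (padicSubring p) (fun x => (padicValRat p x : ℚ)) where
  mul := by
    intro x y hx hy
    change ((padicValRat p (x * y) : ℤ) : ℚ) = padicValRat p x + padicValRat p y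
    rw [padicValRat.mul hx hy]
    push_cast
    rfl
  mem_iff := by
    intro x _
    rw [mem_padicSubring]
    constructor
    · intro h
      exact_mod_cast h
    · intro h
      exact_mod_cast h

theorem exists_ord2 : ∃ A : ValuationSubring ℚ, IsOrd A (fun x => (padicValRat 2 x : ℚ)) :=
  have : Fact (Nat.Prime 2) := ⟨Nat.prime_two⟩
  ⟨padicSubring 2, isOrd_padicSubring 2⟩

/-- the residue field at `2` is `𝔽₂`: a `2`-adic unit is `1` or congruent to `1` -/
theorem ord2_res (u : ℚ) (hu : u ≠ 0) (h : padicValRat 2 u = 0) :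
    u = 1 ∨ 0 < padicValRat 2 (u - 1) := by
  have : Fact (Nat.Prime 2) := ⟨Nat.prime_two⟩
  by_cases h1 : u = 1
  · exact Or.inl h1
  right
  have hnum : u.num ≠ 0 := Rat.num_ne_zero.mpr hu
  have hden : u.den ≠ 0 := u.den_nz
  rw [padicValRat_def] at h
  have hcop : Nat.Coprime u.num.natAbs u.den := u.reduced
  -- the denominator is odd
  have hdodd : ¬ (2 : ℕ) ∣ u.den := by
    intro hd
    have h2 : 1 ≤ padicValNat 2 u.den := one_le_padicValNat_of_dvd hden hd
    have h3 : 1 ≤ padicValInt 2 u.num := by omega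
    have h4 : (2 : ℤ) ∣ u.num := by
      have := (padicValInt_dvd_iff (p := 2) 1 u.num).mpr (Or.inr h3)
      simpa using this
    have h5 : (2 : ℕ) ∣ u.num.natAbs := Int.natCast_dvd.mp h4
    have := Nat.dvd_gcd h5 hd
    rw [hcop.gcd_eq_one] at this
    omega
  have hd0 : padicValNat 2 u.den = 0 := padicValNat.eq_zero_of_not_dvd hdodd
  -- the numerator is odd
  have hnodd : ¬ (2 : ℤ) ∣ u.num := by
    intro hn
    have := (padicValInt_dvd_iff (p := 2) 1 u.num).mp (by simpa using hn)
    rcases this with h0 | h0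
    · exact hnum h0
    · omega
  -- `u - 1 = (num - den) / den`
  have hne : u.num - (u.den : ℤ) ≠ 0 := by
    intro h0
    apply h1
    have h2 : u.num = (u.den : ℤ) := sub_eq_zero.mp h0
    have h3 := Rat.num_div_den u
    rw [h2] at h3
    rw [← h3]
    push_cast
    exact div_self (Nat.cast_ne_zero.mpr hden)
  have hsub : u - 1 = ((u.num - (u.den : ℤ) : ℤ) : ℚ) / ((u.den : ℤ) : ℚ) := by
    have hd' : ((u.den : ℤ) : ℚ) ≠ 0 := by exact_mod_cast hden
    rw [eq_div_iff hd']
    have h3 := Rat.num_div_den u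
    have h4 : (u.num : ℚ) = u * (u.den : ℚ) := by
      rw [eq_comm, ← eq_div_iff (Nat.cast_ne_zero.mpr hden)]
      exact h3.symm
    push_cast
    rw [h4]
    ring
  have heven : (2 : ℤ) ∣ u.num - (u.den : ℤ) := by
    have hn' : u.num % 2 = 1 := by omega
    have hd' : (u.den : ℤ) % 2 = 1 := by omega
    omega
  have hval : 1 ≤ padicValInt 2 (u.num - (u.den : ℤ)) := by
    have := (padicValInt_dvd_iff (p := 2) 1 (u.num - (u.den : ℤ))).mp (by simpa using heven)
    rcases this with h0 | h0
    · exact absurd h0 hne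
    · exact h0
  rw [hsub, padicValRat.div (by exact_mod_cast hne) (by exact_mod_cast hden), padicValRat.of_int,
    padicValRat.of_int]
  have hd1 : padicValInt 2 (u.den : ℤ) = 0 := by
    rw [padicValInt.of_nat]
    exact hd0
  rw [hd1]
  omega

end Fermat.Agent.S13.R2
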