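import Mathlib
import Fermat.Agent.S05.Defs
import Fermat.Agent.S05.OrdLib
import Fermat.Agent.S05.XForm
import Fermat.Agent.S05.Recursion

/-!
# S13, piece R2 (abstract part): no `p`-torsion at a place of residue characteristic `2`

`W : Y² = x³ + a₂ x² + a₄ x` over a field `K` with an additive valuation `ord`
(`IsOrd A ord`) such that `0 < ord 2`, `ord (4 a₂) = 0`, `0 < κ := ord a₄`.  This is the
shape of the Frey curve at `2` (after `Y = y + x/2`).  We redo the node recursion of S05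
(which assumed `ord 2 = 0 = ord a₂`) with `4 y²` in place of `y²`, and add the analysis of
the points with unit `x` (which uses that the residue field has two elements).

Main result: `no_torsion`.
-/

set_option autoImplicit false

namespace Fermat.Agent.S13.R2Rec

open WeierstrassCurve WeierstrassCurve.Affine
open Fermat.Agent.S05

section curve
variable {K : Type*} [Field K] [DecidableEq K] [CharZero K] {W : WeierstrassCurve K}
  {A : ValuationSubring K} {ord : K → ℚ}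

omit [DecidableEq K] in
theorem four_ne : (4 : K) ≠ 0 := by norm_num

omit [DecidableEq K] in
theorem ord_four (hord : IsOrd A ord) : ord (4 : K) = 2 * ord (2 : K) := by
  have e : (4 : K) = 2 * 2 := by norm_num
  rw [e, hord.mul _ _ two_ne_zero two_ne_zero]
  ring

omit [DecidableEq K] [CharZero K] in
/-- key identity: `4 y² = x (4 a₂ x + 4 x² + 4 a₄)` -/
theorem four_y_sq (hW : IsLeg W) {x y : K} (h : W.toAffine.Nonsingular x y) :
    4 * y ^ 2 = x * (4 * W.a₂ * x + 4 * x ^ 2 + 4 * W.a₄) := by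
  have e := eq_of_nonsingular hW h
  rw [e]
  ring

omit [DecidableEq K] in
/-- `ord (4 y²) = 2 ord x` for `0 < ord x < ord a₄`. -/
theorem four_y_sq_of_mid (hord : IsOrd A ord) (hW : IsLeg W) (ha₂0 : W.a₂ ≠ 0)
    (ha₂ : ord (4 * W.a₂) = 0) (h2 : 0 ≤ ord (2 : K))
    (ha₄0 : W.a₄ ≠ 0) {x y : K} (h : W.toAffine.Nonsingular x y) (hx0 : x ≠ 0)
    (hpos : 0 < ord x) (hlt : ord x < ord W.a₄) : y ≠ 0 ∧ ord (4 * y ^ 2) = 2 * ord x := by
  have e := four_y_sq hW h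
  have h40 : (4 : K) ≠ 0 := four_ne
  have h4o := ord_four hord
  have hb0 : 4 * W.a₂ ≠ 0 := mul_ne_zero h40 ha₂0
  have h1 : 4 * W.a₂ * x ≠ 0 := mul_ne_zero hb0 hx0
  have h1o : ord (4 * W.a₂ * x) = ord x := by rw [hord.mul _ _ hb0 hx0, ha₂, zero_add]
  have hx2 : x ^ 2 ≠ 0 := pow_ne_zero 2 hx0
  have h2' : 4 * x ^ 2 ≠ 0 := mul_ne_zero h40 hx2
  have h2o : ord (4 * x ^ 2) = ord (4 : K) + 2 * ord x := by
    rw [hord.mul _ _ h40 hx2, Recursion.ord_sq hord hx0]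
  obtain ⟨h3, h3o⟩ := hord.add_eq_of_lt h1 h2' (by rw [h1o, h2o]; linarith)
  have h5 : 4 * W.a₄ ≠ 0 := mul_ne_zero h40 ha₄0
  have h5o : ord (4 * W.a₄) = ord (4 : K) + ord W.a₄ := hord.mul _ _ h40 ha₄0
  obtain ⟨h4, h4o'⟩ := hord.add_eq_of_lt h3 h5 (by rw [h3o, h1o, h5o]; linarith)
  have hy2 : 4 * y ^ 2 ≠ 0 := by rw [e]; exact mul_ne_zero hx0 h4
  refine ⟨fun hy => hy2 (by rw [hy]; ring), ?_⟩
  rw [e, hord.mul _ _ hx0 h4, h4o', h3o, h1o]
  ring

omit [DecidableEq K] in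
/-- `ord (4 y²) ≥ ord x + ord a₄` for `ord x ≥ ord a₄ > 0`, `y ≠ 0`. -/
theorem four_y_sq_of_far (hord : IsOrd A ord) (hW : IsLeg W) (ha₂0 : W.a₂ ≠ 0)
    (ha₂ : ord (4 * W.a₂) = 0) (h2 : 0 ≤ ord (2 : K))
    (ha₄0 : W.a₄ ≠ 0) (ha₄ : 0 < ord W.a₄) {x y : K} (h : W.toAffine.Nonsingular x y)
    (hx0 : x ≠ 0) (hy : y ≠ 0) (hge : ord W.a₄ ≤ ord x) :
    ord x + ord W.a₄ ≤ ord (4 * y ^ 2) := by
  have e := four_y_sq hW h
  have e' : 4 * y ^ 2 = x * (x * (4 * W.a₂ + 4 * x) + 4 * W.a₄) := by rw [e]; ring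
  have h40 : (4 : K) ≠ 0 := four_ne
  have h4o := ord_four hord
  have hb0 : 4 * W.a₂ ≠ 0 := mul_ne_zero h40 ha₂0
  have hy2 : 4 * y ^ 2 ≠ 0 := mul_ne_zero h40 (pow_ne_zero 2 hy)
  obtain ⟨-, hc, hsum⟩ := Recursion.ord_of_mul_eq hord e'.symm hy2
  have h4x : 4 * x ≠ 0 := mul_ne_zero h40 hx0
  have h4xo : ord (4 * x) = ord (4 : K) + ord x := hord.mul _ _ h40 hx0
  obtain ⟨h1, h1o⟩ := hord.add_eq_of_lt hb0 h4x (by rw [ha₂, h4xo]; linarith)
  have h2' : x * (4 * W.a₂ + 4 * x) ≠ 0 := mul_ne_zero hx0 h1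
  have h2o : ord (x * (4 * W.a₂ + 4 * x)) = ord x := by
    rw [hord.mul _ _ hx0 h1, h1o, ha₂, add_zero]
  have h5 : 4 * W.a₄ ≠ 0 := mul_ne_zero h40 ha₄0
  have h5o : ord (4 * W.a₄) = ord (4 : K) + ord W.a₄ := hord.mul _ _ h40 ha₄0
  have h3 := hord.add_ge h2' h5 hc
  rw [h2o, h5o] at h3
  have h6 : ord W.a₄ ≤ min (ord x) (ord (4 : K) + ord W.a₄) := le_min hge (by linarith)
  linarith

/-- generic duplication -/
theorem dup_gen (hord : IsOrd A ord) (hW : IsLeg W) (ha₂0 : W.a₂ ≠ 0) (ha₂ : ord (4 * W.a₂) = 0)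
    (ha₄0 : W.a₄ ≠ 0) (h2 : 0 ≤ ord (2 : K)) {x y : K} (h : W.toAffine.Nonsingular x y)
    (hx0 : x ≠ 0) (hpos : 0 < ord x) (hlt : ord x < ord W.a₄)
    (hneκ : 2 * ord x ≠ ord W.a₄) :
    ∃ (x' y' : K) (h' : W.toAffine.Nonsingular x' y'),
      (2 : ℕ) • Point.some x y h = Point.some x' y' h' ∧ x' ≠ 0 ∧
      ord x' = 2 * min (2 * ord x) (ord W.a₄) - 2 * ord x := by
  obtain ⟨hy, hyo⟩ := four_y_sq_of_mid hord hW ha₂0 ha₂ h2 ha₄0 h hx0 hpos hlt
  obtain ⟨x', y', h', e2, eq⟩ := two_nsmul_some hW h hy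
  have hx2 : x ^ 2 ≠ 0 := pow_ne_zero 2 hx0
  obtain ⟨hn, hno⟩ := Recursion.ord_sub_of_ne hord hx2 ha₄0
    (by rw [Recursion.ord_sq hord hx0]; exact hneκ)
  rw [Recursion.ord_sq hord hx0] at hno
  have hn2 : (x ^ 2 - W.a₄) ^ 2 ≠ 0 := pow_ne_zero 2 hn
  obtain ⟨hx'0, -, hsum⟩ := Recursion.ord_of_mul_eq hord eq hn2
  rw [hyo, Recursion.ord_sq hord hn, hno] at hsum
  exact ⟨x', y', h', e2, hx'0, by linarith⟩

/-- duplication when `2 ord x = ord a₄` -/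
theorem dup_kappa (hord : IsOrd A ord) (hW : IsLeg W) (ha₂0 : W.a₂ ≠ 0)
    (ha₂ : ord (4 * W.a₂) = 0)
    (ha₄0 : W.a₄ ≠ 0) (h2 : 0 ≤ ord (2 : K)) {x y : K} (h : W.toAffine.Nonsingular x y)
    (hx0 : x ≠ 0) (hpos : 0 < ord x) (hlt : ord x < ord W.a₄)
    (heqκ : 2 * ord x = ord W.a₄) :
    ∃ (x' y' : K) (h' : W.toAffine.Nonsingular x' y'),
      (2 : ℕ) • Point.some x y h = Point.some x' y' h' ∧ (x' = 0 ∨ ord W.a₄ ≤ ord x') := by
  obtain ⟨hy, hyo⟩ := four_y_sq_of_mid hord hW ha₂0 ha₂ h2 ha₄0 h hx0 hpos hlt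
  obtain ⟨x', y', h', e2, eq⟩ := two_nsmul_some hW h hy
  refine ⟨x', y', h', e2, ?_⟩
  by_cases hx' : x' = 0
  · left; exact hx'
  right
  have hy2 : 4 * y ^ 2 ≠ 0 := mul_ne_zero four_ne (pow_ne_zero 2 hy)
  have hn2 : (x ^ 2 - W.a₄) ^ 2 ≠ 0 := by
    rw [← eq]; exact mul_ne_zero hx' hy2
  have hn : x ^ 2 - W.a₄ ≠ 0 := fun h => hn2 (by rw [h]; ring)
  have hx2 : x ^ 2 ≠ 0 := pow_ne_zero 2 hx0
  have hno := hord.sub_ge hx2 ha₄0 hn
  rw [Recursion.ord_sq hord hx0, heqκ, min_self] at hno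
  obtain ⟨-, -, hsum⟩ := Recursion.ord_of_mul_eq hord eq hn2
  rw [hyo, Recursion.ord_sq hord hn] at hsum
  linarith

/-- points very close to the 2-torsion point `(0,0)`: their double has unit `x`. -/
theorem node_torsion_far (A : ValuationSubring K) (ord : K → ℚ) (hord : IsOrd A ord)
    (hW : IsLeg W) (ha₂0 : W.a₂ ≠ 0) (ha₂ : ord (4 * W.a₂) = 0) (ha₄0 : W.a₄ ≠ 0)
    (ha₄ : 0 < ord W.a₄) (h2 : 0 ≤ ord (2 : K))
    {p : ℕ} (hp : p.Prime) (hp2 : p ≠ 2)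
    (hA : ∀ (x y : K) (h : W.toAffine.Nonsingular x y), p • Point.some x y h = 0 → x ∈ A)
    {x y : K} (h : W.toAffine.Nonsingular x y) (hP : p • Point.some x y h = 0)
    (hx : x = 0 ∨ ord W.a₄ ≤ ord x) :
    ∃ (x' y' : K) (h' : W.toAffine.Nonsingular x' y'),
      (2 : ℕ) • Point.some x y h = Point.some x' y' h' ∧ x' ≠ 0 ∧ ord x' = 0 := by
  have hP0 : Point.some x y h ≠ 0 := Point.some_ne_zero h
  have hy : y ≠ 0 := by
    intro hy
    have h2P := two_nsmul_some_eq_zero hW h hy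
    have hdvd := Recursion.dvd_of_nsmul_eq_zero hp hP hP0 h2P
    exact hp2 ((Nat.prime_dvd_prime_iff_eq hp Nat.prime_two).mp hdvd)
  have e := eq_of_nonsingular hW h
  have hx0 : x ≠ 0 := by
    rintro rfl
    apply hy
    have : y ^ 2 = 0 := by rw [e]; ring
    exact pow_eq_zero_iff two_ne_zero |>.mp this
  have hge : ord W.a₄ ≤ ord x := hx.resolve_left hx0
  obtain ⟨x', y', h', e2, eq⟩ := two_nsmul_some hW h hy
  have hx2 : x ^ 2 ≠ 0 := pow_ne_zero 2 hx0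
  have hx2o : ord (x ^ 2) = 2 * ord x := Recursion.ord_sq hord hx0
  obtain ⟨hn, hno⟩ := hord.sub_eq_of_gt hx2 ha₄0 (by rw [hx2o]; linarith)
  have hn2 : (x ^ 2 - W.a₄) ^ 2 ≠ 0 := pow_ne_zero 2 hn
  have hn2o : ord ((x ^ 2 - W.a₄) ^ 2) = 2 * ord W.a₄ := by
    rw [Recursion.ord_sq hord hn, hno]
  obtain ⟨hx'0, -, hsum⟩ := Recursion.ord_of_mul_eq hord eq hn2
  have hyge := four_y_sq_of_far hord hW ha₂0 ha₂ h2 ha₄0 ha₄ h hx0 hy hge
  have hmem : x' ∈ A := hA x' y' h' (by rw [← e2, nsmul_left_comm, hP, nsmul_zero])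
  have hnn : 0 ≤ ord x' := (hord.mem_iff _ hx'0).mp hmem
  refine ⟨x', y', h', e2, hx'0, ?_⟩
  rw [hn2o] at hsum
  linarith

/-- a multiple of `P` very close to `(0,0)` gives a multiple with unit `x`. -/
theorem far_finish (A : ValuationSubring K) (ord : K → ℚ) (hord : IsOrd A ord)
    (hW : IsLeg W) (ha₂0 : W.a₂ ≠ 0) (ha₂ : ord (4 * W.a₂) = 0) (ha₄0 : W.a₄ ≠ 0)
    (ha₄ : 0 < ord W.a₄) (h2 : 0 ≤ ord (2 : K))
    {p : ℕ} (hp : p.Prime) (hp2 : p ≠ 2)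
    (hA : ∀ (x y : K) (h : W.toAffine.Nonsingular x y), p • Point.some x y h = 0 → x ∈ A)
    {x y : K} (h : W.toAffine.Nonsingular x y) (hP : p • Point.some x y h = 0)
    {n : ℕ} (hn : 0 < n) (hnp : n ≤ p) {x₃ y₃ : K} (h₃ : W.toAffine.Nonsingular x₃ y₃)
    (e₃ : n • Point.some x y h = Point.some x₃ y₃ h₃) (hx₃ : x₃ = 0 ∨ ord W.a₄ ≤ ord x₃) :
    ∃ m : ℕ, ¬ p ∣ m ∧ ∃ (x' y' : K) (h' : W.toAffine.Nonsingular x' y'),
        m • Point.some x y h = Point.some x' y' h' ∧ x' ≠ 0 ∧ ord x' = 0 := by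
  have hnp' : n < p := by
    rcases Nat.eq_or_lt_of_le hnp with h' | h'
    · rw [h', hP] at e₃
      exact absurd e₃.symm (Point.some_ne_zero h₃)
    · exact h'
  have hP₃ : p • Point.some x₃ y₃ h₃ = 0 := by rw [← e₃, nsmul_left_comm, hP, nsmul_zero]
  obtain ⟨x', y', h', e', hx', ho'⟩ :=
    node_torsion_far A ord hord hW ha₂0 ha₂ ha₄0 ha₄ h2 hp hp2 hA h₃ hP₃ hx₃
  refine ⟨2 * n, ?_, x', y', h', by rw [mul_nsmul', e₃, e'], hx', ho'⟩
  intro hdvd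
  rcases (hp.dvd_mul).mp hdvd with h | h
  · exact hp2 ((Nat.prime_dvd_prime_iff_eq hp Nat.prime_two).mp h)
  · exact Nat.not_dvd_of_pos_of_lt hn hnp' h

/-- the first step `1 → 2` of the recursion -/
theorem step_one (A : ValuationSubring K) (ord : K → ℚ) (hord : IsOrd A ord)
    (hW : IsLeg W) (ha₂0 : W.a₂ ≠ 0) (ha₂ : ord (4 * W.a₂) = 0) (ha₄0 : W.a₄ ≠ 0)
    (h2 : 0 ≤ ord (2 : K))
    {p : ℕ} (hp : p.Prime) (hp2 : p ≠ 2)
    (hA : ∀ (x y : K) (h : W.toAffine.Nonsingular x y), p • Point.some x y h = 0 → x ∈ A)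
    {x y : K} (h : W.toAffine.Nonsingular x y) (hP : p • Point.some x y h = 0)
    (hx0 : x ≠ 0) (hpos : 0 < ord x) (hlt : ord x < ord W.a₄)
    (hjp : 1 + 1 ≤ p) (hS : Recursion.St ord h 1) :
    (∃ m : ℕ, ¬ p ∣ m ∧ ∃ (x' y' : K) (h' : W.toAffine.Nonsingular x' y'),
        m • Point.some x y h = Point.some x' y' h' ∧ x' ≠ 0 ∧ ord x' = 0) ∨
      Recursion.St ord h (1 + 1) := by
  have hκpos : 0 < ord W.a₄ := lt_trans hpos hlt
  have hsucc := Recursion.eSeq_succ_cases (ord x) (ord W.a₄) 1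
  rw [Recursion.eSeq_one hlt] at hsucc
  by_cases hk : 2 * ord x = ord W.a₄
  · left
    obtain ⟨x', y', h', e', hx'⟩ := dup_kappa hord hW ha₂0 ha₂ ha₄0 h2 h hx0 hpos hlt hk
    exact far_finish A ord hord hW ha₂0 ha₂ ha₄0 hκpos h2 hp hp2 hA h hP
      (by norm_num) hjp h' e' hx'
  · right
    obtain ⟨x', y', h', e', hx', ho'⟩ := dup_gen hord hW ha₂0 ha₂ ha₄0 h2 h hx0 hpos hlt hk
    apply Recursion.St_succ hS
    · rcases hsucc with ⟨h1, h2⟩ | ⟨h1, h2⟩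
      · rw [h1]
        exact ⟨by linarith, fun h => hk (by linarith)⟩
      · rw [h1]
        exact ⟨by linarith, by linarith⟩
    · refine ⟨x', y', h', e', hx', ?_⟩
      rw [ho']
      rcases hsucc with ⟨h1, h2⟩ | ⟨h1, h2⟩
      · rw [h1, abs_of_pos (by linarith), min_eq_left (by linarith)]
        ring
      · rw [h1, abs_of_neg (by linarith), min_eq_right (by linarith)]
        ring

/-- the step `k + 1 → k + 2` of the recursion -/
theorem step_succ (A : ValuationSubring K) (ord : K → ℚ) (hord : IsOrd A ord)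
    (hW : IsLeg W) (ha₂0 : W.a₂ ≠ 0) (ha₂ : ord (4 * W.a₂) = 0) (ha₄0 : W.a₄ ≠ 0)
    (h2 : 0 ≤ ord (2 : K))
    {p : ℕ} (hp : p.Prime) (hp2 : p ≠ 2)
    (hA : ∀ (x y : K) (h : W.toAffine.Nonsingular x y), p • Point.some x y h = 0 → x ∈ A)
    {x y : K} (h : W.toAffine.Nonsingular x y) (hP : p • Point.some x y h = 0)
    (hx0 : x ≠ 0) (hpos : 0 < ord x) (hlt : ord x < ord W.a₄)
    {k : ℕ} (hk1 : 1 ≤ k) (hjp : k + 1 + 1 ≤ p) (hS : Recursion.St ord h (k + 1)) :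
    ((∃ m : ℕ, ¬ p ∣ m ∧ ∃ (x' y' : K) (h' : W.toAffine.Nonsingular x' y'),
        m • Point.some x y h = Point.some x' y' h' ∧ x' ≠ 0 ∧ ord x' = 0) ∨
      (∃ m : ℕ, (p : ℚ) * ord x = 2 * m * ord W.a₄)) ∨
      Recursion.St ord h (k + 1 + 1) := by
  have hκpos : 0 < ord W.a₄ := lt_trans hpos hlt
  obtain ⟨xj, yj, hj', ej, hxj0, hxjo⟩ := hS.2 (k + 1) (by omega) le_rfl
  obtain ⟨xk, yk, hk', ek, hxk0, hxko⟩ := hS.2 k hk1 (by omega)
  have hsub : Point.some xj yj hj' - Point.some x y h = Point.some xk yk hk' := by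
    rw [← ej, ← ek, succ_nsmul, add_sub_cancel_right]
  have hbk := Recursion.eSeq_bounds hpos hlt k
  have hbj := Recursion.eSeq_bounds hpos hlt (k + 1)
  have hsucck := Recursion.eSeq_succ_cases (ord x) (ord W.a₄) k
  have hsucc := Recursion.eSeq_succ_cases (ord x) (ord W.a₄) (k + 1)
  obtain ⟨hk0, hkκ⟩ := hS.1 k hk1 (by omega)
  obtain ⟨hj0, hjκ⟩ := hS.1 (k + 1) (by omega) le_rfl
  by_cases hz : Recursion.eSeq (ord x) (ord W.a₄) (k + 1 + 1) = 0
  · -- the recursion reaches `0`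
    left
    obtain ⟨m, hm⟩ := Recursion.eSeq_eq (ord x) (ord W.a₄) (k + 1 + 1)
    rw [hz] at hm hsucc
    obtain ⟨z1, z2, z3⟩ := Recursion.arith_zero hpos hlt hbk hbj hsucck hsucc hkκ
    rcases Nat.eq_or_lt_of_le hjp with hjp' | hjp'
    · right
      refine ⟨m, ?_⟩
      rw [← hjp']
      linarith
    · left
      have hnd : ¬ p ∣ (k + 1 + 1) := Nat.not_dvd_of_pos_of_lt (by omega) hjp'
      have hP0 : Point.some x y h ≠ 0 := Point.some_ne_zero h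
      have hne0 : (k + 1 + 1) • Point.some x y h ≠ 0 := fun h0 =>
        hnd (Recursion.dvd_of_nsmul_eq_zero hp hP hP0 h0)
      have hx : xj ≠ x := by
        intro hxx
        subst hxx
        rcases eq_or_eq_neg_of_x_eq hW hj' h with hy | hy
        · subst hy
          have hk0' : k • Point.some xj yj h = 0 := by
            have e1 := ej
            rw [succ_nsmul] at e1
            exact add_eq_right.mp e1
          rw [ek] at hk0'
          exact Point.some_ne_zero hk' hk0'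
        · subst hy
          apply hne0
          rw [succ_nsmul, ej]
          exact add_some_eq_zero hW hj' h ⟨rfl, rfl⟩
      obtain ⟨x₃, y₃, h₃, e₃, hx₃, ho₃⟩ :=
        Recursion.add_eqord hord hW ha₄0 hj' h hk' hsub hxj0 hx0 hxk0 hx
          (by rw [hxjo]; exact z1) z2
      have e₃' : (k + 1 + 1) • Point.some x y h = Point.some x₃ y₃ h₃ := by
        rw [succ_nsmul, ej, e₃]
      have hmem : x₃ ∈ A := hA x₃ y₃ h₃ (by rw [← e₃', nsmul_left_comm, hP, nsmul_zero])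
      have hnn : 0 ≤ ord x₃ := (hord.mem_iff _ hx₃).mp hmem
      refine ⟨k + 1 + 1, hnd, x₃, y₃, h₃, e₃', hx₃, ?_⟩
      rw [hxko] at ho₃
      linarith
  by_cases hκ : Recursion.eSeq (ord x) (ord W.a₄) (k + 1 + 1) = ord W.a₄
  · -- the recursion reaches `κ`
    left; left
    rw [hκ] at hsucc
    obtain ⟨k1, k2, k3⟩ := Recursion.arith_kappa hpos hlt hbk hbj hsucck hsucc hk0
    obtain ⟨x₃, y₃, h₃, e₃, hx₃⟩ :=
      Recursion.add_kappa hord hW ha₄0 hj' h hk' hsub hxj0 hx0 hxk0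
        (by rw [hxjo]; exact k1) (by rw [hxjo]; exact k2)
    have e₃' : (k + 1 + 1) • Point.some x y h = Point.some x₃ y₃ h₃ := by
      rw [succ_nsmul, ej, e₃]
    have hx₃' : x₃ = 0 ∨ ord W.a₄ ≤ ord x₃ := by
      rcases hx₃ with h0 | hge
      · left; exact h0
      · right
        rw [hxjo, hxko] at hge
        linarith
    exact far_finish A ord hord hW ha₂0 ha₂ ha₄0 hκpos h2 hp hp2 hA h hP
      (by omega) hjp h₃ e₃' hx₃'
  · -- generic step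
    right
    obtain ⟨g1, g2, g3⟩ :=
      Recursion.arith_gen hpos hlt hbk hbj hsucck hsucc hk0 hkκ hj0 hz hκ
    obtain ⟨x₃, y₃, h₃, e₃, hx₃, ho₃⟩ :=
      Recursion.add_gen hord hW ha₄0 hj' h hk' hsub hxj0 hx0 hxk0
        (by rw [hxjo]; exact g1) (by rw [hxjo]; exact g2)
    apply Recursion.St_succ hS ⟨hz, hκ⟩
    refine ⟨x₃, y₃, h₃, ?_, hx₃, ?_⟩
    · rw [succ_nsmul, ej, e₃]
    · rw [ho₃, hxjo, hxko]
      exact g3

/-- valuations of the `x`-coordinates of the multiples of a `p`-torsion point reducing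
to the node (version allowing `0 ≤ ord 2`). -/
theorem node_torsion_dichotomy (A : ValuationSubring K) (ord : K → ℚ) (hord : IsOrd A ord)
    (hW : IsLeg W) (ha₂0 : W.a₂ ≠ 0) (ha₂ : ord (4 * W.a₂) = 0) (ha₄0 : W.a₄ ≠ 0)
    (h2 : 0 ≤ ord (2 : K))
    {p : ℕ} (hp : p.Prime) (hp2 : p ≠ 2)
    (hA : ∀ (x y : K) (h : W.toAffine.Nonsingular x y), p • Point.some x y h = 0 → x ∈ A)
    {x y : K} (h : W.toAffine.Nonsingular x y) (hP : p • Point.some x y h = 0)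
    (hx0 : x ≠ 0) (hpos : 0 < ord x) (hlt : ord x < ord W.a₄) :
    (∃ m : ℕ, ¬ p ∣ m ∧ ∃ (x' y' : K) (h' : W.toAffine.Nonsingular x' y'),
        m • Point.some x y h = Point.some x' y' h' ∧ x' ≠ 0 ∧ ord x' = 0) ∨
      (∃ m : ℕ, (p : ℚ) * ord x = 2 * m * ord W.a₄) := by
  have key : ∀ j : ℕ, 1 ≤ j → j ≤ p →
      ((∃ m : ℕ, ¬ p ∣ m ∧ ∃ (x' y' : K) (h' : W.toAffine.Nonsingular x' y'),
        m • Point.some x y h = Point.some x' y' h' ∧ x' ≠ 0 ∧ ord x' = 0) ∨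
      (∃ m : ℕ, (p : ℚ) * ord x = 2 * m * ord W.a₄)) ∨ Recursion.St ord h j := by
    intro j hj
    induction j, hj using Nat.le_induction with
    | base =>
      intro _
      right
      have e1 : Recursion.eSeq (ord x) (ord W.a₄) 1 = ord x := Recursion.eSeq_one hlt
      refine ⟨fun l hl hl1 => ?_, fun l hl hl1 => ?_⟩
      · obtain rfl : l = 1 := le_antisymm hl1 hl
        rw [e1]
        exact ⟨hpos.ne', hlt.ne⟩
      · obtain rfl : l = 1 := le_antisymm hl1 hl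
        exact ⟨x, y, h, one_nsmul _, hx0, by rw [e1, abs_of_pos hpos]⟩
    | succ j hj ih =>
      intro hjp
      rcases ih (by omega) with hc | hS
      · left; exact hc
      · rcases Nat.eq_or_lt_of_le hj with hj1 | hj2
        · subst hj1
          rcases step_one A ord hord hW ha₂0 ha₂ ha₄0 h2 hp hp2 hA h hP hx0
            hpos hlt hjp hS with hc | hS'
          · left; left; exact hc
          · right; exact hS'
        · obtain ⟨k, rfl⟩ : ∃ k, j = k + 1 := ⟨j - 1, by omega⟩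
          exact step_succ A ord hord hW ha₂0 ha₂ ha₄0 h2 hp hp2 hA h hP hx0
            hpos hlt (by omega) hjp hS
  rcases key p hp.one_le le_rfl with hc | hS
  · exact hc
  · obtain ⟨x', y', h', e, -⟩ := hS.2 p hp.one_le le_rfl
    rw [hP] at e
    exact absurd e.symm (Point.some_ne_zero h')

end curve

end Fermat.Agent.S13.R2Rec
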