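import Mathlib
import Fermat.Agent.S13.R2Rec

/-!
# S13, piece R2 (abstract part, continued): the unit case and the abstract theorem

Same setting as `R2Rec`: `W : Y² = x³ + a₂ x² + a₄ x`, `0 < ord 2`, `ord (4 a₂) = 0`,
`0 < κ := ord a₄`.  If moreover units are congruent to `1` (`hres`: residue field `𝔽₂`),
`ord` is integer valued, and `p ∤ 2κ`, `p ≥ 5`, then `W` has no nonzero `p`-torsion point
provided all `p`-torsion points have integral `x` (`hA`).
-/

set_option autoImplicit false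

namespace Fermat.Agent.S13.R2Rec

open WeierstrassCurve WeierstrassCurve.Affine
open Fermat.Agent.S05

section curve
variable {K : Type*} [Field K] [DecidableEq K] [CharZero K] {W : WeierstrassCurve K}

/-- A `p`-torsion point (`p ≥ 5`) cannot have a unit `x`-coordinate: `P` and `2P` would both
reduce to the unique point with `x = 1` of the reduction, so `3P` would be in the kernel of
reduction. -/
theorem no_unit_torsion (A : ValuationSubring K) (ord : K → ℚ) (hord : IsOrd A ord)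
    (hW : IsLeg W) (ha₂0 : W.a₂ ≠ 0) (ha₂ : ord (4 * W.a₂) = 0) (ha₄0 : W.a₄ ≠ 0)
    (ha₄ : 0 < ord W.a₄) (h2 : 0 < ord (2 : K))
    (hres : ∀ u : K, u ≠ 0 → ord u = 0 → u = 1 ∨ 0 < ord (u - 1))
    {p : ℕ} (hp : p.Prime) (hp5 : 5 ≤ p)
    (hA : ∀ (x y : K) (h : W.toAffine.Nonsingular x y), p • Point.some x y h = 0 → x ∈ A)
    {x y : K} (h : W.toAffine.Nonsingular x y) (hP : p • Point.some x y h = 0)
    (hx0 : x ≠ 0) (hxo : ord x = 0) : False := by
  have hP0 : Point.some x y h ≠ 0 := Point.some_ne_zero h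
  have hy : y ≠ 0 := by
    intro hy
    have h2P := two_nsmul_some_eq_zero hW h hy
    have hdvd := Recursion.dvd_of_nsmul_eq_zero hp hP hP0 h2P
    have := Nat.le_of_dvd (by norm_num) hdvd
    omega
  -- `ord (4 y²) = 0`
  have e := four_y_sq hW h
  have h40 : (4 : K) ≠ 0 := four_ne
  have h4o := ord_four hord
  have hb0 : 4 * W.a₂ ≠ 0 := mul_ne_zero h40 ha₂0
  have h1 : 4 * W.a₂ * x ≠ 0 := mul_ne_zero hb0 hx0
  have h1o : ord (4 * W.a₂ * x) = 0 := by rw [hord.mul _ _ hb0 hx0, ha₂, hxo, zero_add]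
  have hx2 : x ^ 2 ≠ 0 := pow_ne_zero 2 hx0
  have hx2o : ord (x ^ 2) = 0 := by rw [Recursion.ord_sq hord hx0, hxo, mul_zero]
  have h2' : 4 * x ^ 2 ≠ 0 := mul_ne_zero h40 hx2
  have h2o : ord (4 * x ^ 2) = ord (4 : K) := by
    rw [hord.mul _ _ h40 hx2, hx2o, add_zero]
  obtain ⟨h3, h3o⟩ := hord.add_eq_of_lt h1 h2' (by rw [h1o, h2o]; linarith)
  have h5 : 4 * W.a₄ ≠ 0 := mul_ne_zero h40 ha₄0
  have h5o : ord (4 * W.a₄) = ord (4 : K) + ord W.a₄ := hord.mul _ _ h40 ha₄0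
  obtain ⟨h4, h4o'⟩ := hord.add_eq_of_lt h3 h5 (by rw [h3o, h1o, h5o]; linarith)
  have hy2 : 4 * y ^ 2 ≠ 0 := mul_ne_zero h40 (pow_ne_zero 2 hy)
  have hy2o : ord (4 * y ^ 2) = 0 := by
    rw [e, hord.mul _ _ hx0 h4, h4o', h3o, h1o, hxo, add_zero]
  -- the double
  obtain ⟨x₂, y₂, h₂, e2, eq⟩ := two_nsmul_some hW h hy
  obtain ⟨hn, hno⟩ := hord.sub_eq_of_lt hx2 ha₄0 (by rw [hx2o]; exact ha₄)
  have hn2 : (x ^ 2 - W.a₄) ^ 2 ≠ 0 := pow_ne_zero 2 hn
  obtain ⟨hx₂0, -, hsum⟩ := Recursion.ord_of_mul_eq hord eq hn2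
  rw [hy2o, Recursion.ord_sq hord hn, hno, hx2o, add_zero, mul_zero] at hsum
  -- `x(2P) ≠ x(P)`
  have hx₂x : x₂ ≠ x := by
    intro hxx
    subst hxx
    rcases eq_or_eq_neg_of_x_eq hW h₂ h with hy' | hy'
    · subst hy'
      apply hP0
      have e1 := e2
      rw [two_nsmul] at e1
      exact add_eq_right.mp e1
    · subst hy'
      have h3P : 3 • Point.some x₂ y h = 0 := by
        rw [succ_nsmul, e2]
        exact add_some_eq_zero hW h₂ h ⟨rfl, rfl⟩
      have hdvd := Recursion.dvd_of_nsmul_eq_zero hp hP hP0 h3P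
      have := Nat.le_of_dvd (by norm_num) hdvd
      omega
  have hsub : Point.some x₂ y₂ h₂ - Point.some x y h = Point.some x y h := by
    rw [← e2, two_nsmul, add_sub_cancel_right]
  obtain ⟨x₃, y₃, h₃, e₃, eq₃⟩ := Recursion.add_core hW h₂ h h hsub hx₂x
  -- `ord (x₂ x - a₄) = 0`
  have hm : x₂ * x ≠ 0 := mul_ne_zero hx₂0 hx0
  have hmo : ord (x₂ * x) = 0 := by rw [hord.mul _ _ hx₂0 hx0, hsum, hxo, add_zero]
  obtain ⟨hn', hno'⟩ := hord.sub_eq_of_lt hm ha₄0 (by rw [hmo]; exact ha₄)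
  have hn'2 : (x₂ * x - W.a₄) ^ 2 ≠ 0 := pow_ne_zero 2 hn'
  -- `0 < ord (x₂ - x)`
  have hd : x₂ - x ≠ 0 := sub_ne_zero.mpr hx₂x
  have hdo : 0 < ord (x₂ - x) := by
    have hu0 : x₂ / x ≠ 0 := div_ne_zero hx₂0 hx0
    have huo : ord (x₂ / x) = 0 := by rw [hord.div hx₂0 hx0, hsum, hxo, sub_zero]
    rcases hres _ hu0 huo with h1' | h1'
    · exfalso
      apply hx₂x
      field_simp at h1'
      exact h1'
    · have e4 : x₂ - x = x * (x₂ / x - 1) := by field_simp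
      have hu1 : x₂ / x - 1 ≠ 0 := by
        intro h0
        apply hd
        rw [e4, h0, mul_zero]
      rw [e4, hord.mul _ _ hx0 hu1, hxo, zero_add]
      exact h1'
  -- `3P` is a torsion point with non-integral `x`
  have e₃' : 3 • Point.some x y h = Point.some x₃ y₃ h₃ := by
    rw [succ_nsmul, e2, e₃]
  obtain ⟨hx₃0, -, hsum₃⟩ := Recursion.ord_of_mul_eq hord eq₃ hn'2
  have hd2 : (x₂ - x) ^ 2 ≠ 0 := pow_ne_zero 2 hd
  rw [hord.mul _ _ hx0 hd2, Recursion.ord_sq hord hd, Recursion.ord_sq hord hn', hno', hmo, hxo]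
    at hsum₃
  have hmem : x₃ ∈ A := hA x₃ y₃ h₃ (by rw [← e₃', nsmul_left_comm, hP, nsmul_zero])
  have hnn : 0 ≤ ord x₃ := (hord.mem_iff _ hx₃0).mp hmem
  linarith

/-- **Abstract form of (R2).** -/
theorem no_torsion (A : ValuationSubring K) (ord : K → ℚ) (hord : IsOrd A ord)
    (hW : IsLeg W) (ha₂0 : W.a₂ ≠ 0) (ha₂ : ord (4 * W.a₂) = 0) (ha₄0 : W.a₄ ≠ 0)
    (h2 : 0 < ord (2 : K))
    (hres : ∀ u : K, u ≠ 0 → ord u = 0 → u = 1 ∨ 0 < ord (u - 1))
    (hint : ∀ u : K, u ≠ 0 → ∃ n : ℤ, ord u = n)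
    {p : ℕ} (hp : p.Prime) (hp5 : 5 ≤ p)
    {k : ℤ} (hk : ord W.a₄ = k) (hk0 : 0 < k) (hpk : ¬ (p : ℤ) ∣ 2 * k)
    (hA : ∀ (x y : K) (h : W.toAffine.Nonsingular x y), p • Point.some x y h = 0 → x ∈ A)
    (P : W.toAffine.Point) (hP : p • P = 0) : P = 0 := by
  rcases P with _ | ⟨x, y, h⟩
  · rfl
  exfalso
  have hp2 : p ≠ 2 := by omega
  have ha₄ : 0 < ord W.a₄ := by rw [hk]; exact_mod_cast hk0
  have hunit : ∀ {x y : K} (h : W.toAffine.Nonsingular x y), p • Point.some x y h = 0 →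
      x ≠ 0 → ord x = 0 → False := fun h hP hx0 hxo =>
    no_unit_torsion A ord hord hW ha₂0 ha₂ ha₄0 ha₄ h2 hres hp hp5 hA h hP hx0 hxo
  by_cases hfar : x = 0 ∨ ord W.a₄ ≤ ord x
  · obtain ⟨x', y', h', e', hx', ho'⟩ :=
      node_torsion_far A ord hord hW ha₂0 ha₂ ha₄0 ha₄ h2.le hp hp2 hA h hP hfar
    exact hunit h' (by rw [← e', nsmul_left_comm, hP, nsmul_zero]) hx' ho'
  · rw [not_or, not_le] at hfar
    obtain ⟨hx0, hlt⟩ := hfar
    have hnn : 0 ≤ ord x := (hord.mem_iff _ hx0).mp (hA x y h hP)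
    rcases hnn.lt_or_eq with hpos | h0
    · rcases node_torsion_dichotomy A ord hord hW ha₂0 ha₂ ha₄0 h2.le hp hp2 hA h hP hx0 hpos hlt
        with ⟨m, -, x', y', h', e', hx', ho'⟩ | ⟨m, hm⟩
      · exact hunit h' (by rw [← e', nsmul_left_comm, hP, nsmul_zero]) hx' ho'
      · obtain ⟨n, hn⟩ := hint x hx0
        rw [hn, hk] at hm
        rw [hn] at hpos
        rw [hn, hk] at hlt
        have hm' : (p : ℤ) * n = 2 * m * k := by exact_mod_cast hm
        have hpos' : 0 < n := by exact_mod_cast hpos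
        have hlt' : n < k := by exact_mod_cast hlt
        have hpp : Prime (p : ℤ) := Nat.prime_iff_prime_int.mp hp
        have hdvd : (p : ℤ) ∣ (m : ℤ) * (2 * k) := ⟨n, by rw [hm']; ring⟩
        rcases hpp.dvd_or_dvd hdvd with h1 | h1
        · obtain ⟨m', hm''⟩ := h1
          rw [hm''] at hm'
          have hp0 : (p : ℤ) ≠ 0 := by exact_mod_cast hp.ne_zero
          have hn' : n = 2 * m' * k := by
            apply mul_left_cancel₀ hp0
            rw [hm']
            ring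
          have hm'pos : 0 < m' := by
            by_contra hcon
            rw [not_lt] at hcon
            have : 2 * m' * k ≤ 0 := by
              have : m' * k ≤ 0 := mul_nonpos_of_nonpos_of_nonneg hcon hk0.le
              linarith
            linarith
          have : k ≤ m' * k := le_mul_of_one_le_left hk0.le hm'pos
          linarith
        · exact hpk h1
    · exact hunit h hP hx0 h0.symm

end curve

end Fermat.Agent.S13.R2Rec
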