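import Mathlib
import Fermat.Prelude.Def_FLTPrelim_FreyPackage
import Fermat.Prelude.Def_FLTPrelim_GaloisRep
import Fermat.Agent.S05.Defs
import Fermat.Agent.S05.OrdLib
import Fermat.Agent.S05.Fixed
import Fermat.Agent.S05.Kernel
import Fermat.Agent.S05.Model
import Fermat.Agent.S13.R2Unit
import Fermat.Agent.S13.R2Desc
import Fermat.Agent.S13.R2Ord2
import Fermat.Agent.S13.R2Frey

/-!
# S13, piece R2: the Frey curve has no rational point of order `p`

`result`: an element of `E[p](ℚ̄)` fixed by the whole Galois group is `0`.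

Proof: such a point is defined over `ℚ` (`exists_rat_point`).  At the prime `2` the Frey
curve `y² + xy = x³ + a₂ x² + a₄ x` has integral coefficients and, in the model
`Y² = x³ + (a₂ + 1/4) x² + a₄ x` (`Y = y + x/2`, same `x`), `4 (a₂ + 1/4) = bᵖ - aᵖ` is a
`2`-adic unit and `κ := ord₂ a₄ = p · ord₂ b - 4 > 0` with `p ∤ 2κ`.  So the abstract theorem
`R2Rec.no_torsion` applies; its integrality hypothesis is
`S05.Kernel.no_torsion_of_val_gt_one` for the integral model.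
-/

set_option autoImplicit false

namespace Fermat.Agent.S13.R2

open WeierstrassCurve WeierstrassCurve.Affine
open Fermat.Agent.S05

/-- no rational `p`-torsion on the Frey curve -/
theorem frey_no_rat_torsion (P : FreyPackage) (Q₀ : (P.freyCurve⁄ℚ).Point)
    (hQ₀ : P.p • Q₀ = 0) : Q₀ = 0 := by
  obtain ⟨A, hord⟩ := exists_ord2
  obtain ⟨⟨n₂, hn₂⟩, ⟨n₄, hn₄⟩, ha₄0, ha₂0, ha₂, ha₄pos, hpk⟩ := frey_arith2 P
  have hrel := Model.rel_legOf ℚ P.freyCurve rfl rfl rfl 0 (by ring)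
  have hρ : algebraMap ℚ ℚ 0 = 0 := map_zero _
  have hinj : Function.Injective (Model.pointEquiv hrel) := (Model.pointEquiv hrel).injective
  have hz : Model.pointEquiv hrel (0 : (P.freyCurve⁄ℚ).Point) = 0 := Model.pointEquiv_zero hrel
  apply hinj
  rw [hz]
  have hW : IsLeg ((legOf P.freyCurve 0)⁄ℚ) := ⟨map_zero _, map_zero _, map_zero _⟩
  have hWa₂ : ((legOf P.freyCurve 0)⁄ℚ).a₂ = P.freyCurve.a₂ + 1 / 4 := by
    show algebraMap ℚ ℚ (3 * 0 + P.freyCurve.a₂ + 1 / 4) = _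
    simp
  have hWa₄ : ((legOf P.freyCurve 0)⁄ℚ).a₄ = P.freyCurve.a₄ := by
    show algebraMap ℚ ℚ (3 * 0 ^ 2 + 2 * (P.freyCurve.a₂ + 1 / 4) * 0 + P.freyCurve.a₄) = _
    simp
  have hfp : Fact P.p.Prime := ⟨P.pp⟩
  refine R2Rec.no_torsion (W := (legOf P.freyCurve 0)⁄ℚ) A _ hord hW ?_ ?_ ?_ ?_ ?_ ?_ P.pp P.hp5
    (k := padicValRat 2 P.freyCurve.a₄) ?_ ha₄pos hpk ?_ (Model.pointEquiv hrel Q₀) ?_
  · rw [hWa₂]
    exact ha₂0
  · rw [hWa₂]
    show ((padicValRat 2 (4 * (P.freyCurve.a₂ + 1 / 4)) : ℤ) : ℚ) = 0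
    rw [ha₂]
    rfl
  · rw [hWa₄]
    exact ha₄0
  · show (0 : ℚ) < ((padicValRat 2 (2 : ℚ) : ℤ) : ℚ)
    have h : padicValRat 2 ((2 : ℕ) : ℚ) = 1 := padicValRat.self (by norm_num)
    have h' : padicValRat 2 (2 : ℚ) = 1 := by exact_mod_cast h
    rw [h']
    norm_num
  · intro u hu h0
    have h0' : padicValRat 2 u = 0 := by exact_mod_cast h0
    rcases ord2_res u hu h0' with h1 | h1
    · left
      exact h1
    · right
      show (0 : ℚ) < ((padicValRat 2 (u - 1) : ℤ) : ℚ)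
      exact_mod_cast h1
  · intro u _
    exact ⟨padicValRat 2 u, rfl⟩
  · rw [hWa₄]
  · intro x y h hxy
    have hb : (Model.pointEquiv hrel).symm (Point.some x y h) =
        Point.some (x + algebraMap ℚ ℚ 0) (y - (x + algebraMap ℚ ℚ 0) / 2)
          (hrel.nonsingular_inv h) := rfl
    have hp0 : P.p • (Model.pointEquiv hrel).symm (Point.some x y h) = 0 := by
      rw [← map_nsmul (Model.pointEquiv hrel).symm, hxy]
      exact map_zero (Model.pointEquiv hrel).symm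
    rw [hb] at hp0
    by_contra hxA
    have hv : 1 < A.valuation (x + algebraMap ℚ ℚ 0) := by
      rw [← not_le, A.valuation_le_one_iff, hρ, add_zero]
      exact hxA
    have hpQ : (P.p : ℚ) ≠ 0 := Nat.cast_ne_zero.mpr P.hp0
    have hpo : ((padicValRat 2 ((P.p : ℕ) : ℚ) : ℤ) : ℚ) = 0 := by
      have hne : (2 : ℕ) ≠ P.p := by have := P.hp5; omega
      rw [padicValRat.of_nat, padicValNat_primes hne]
      rfl
    refine Kernel.no_torsion_of_val_gt_one A.valuation (P.freyCurve⁄ℚ) ?_ ?_ ?_ ?_ ?_ P.p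
      (Fixed.val_eq_one hord hpQ hpo) (hrel.nonsingular_inv h) hv hp0
    · rw [A.valuation_le_one_iff]
      show algebraMap ℚ ℚ (1 : ℚ) ∈ A
      rw [map_one]
      exact A.one_mem
    · rw [A.valuation_le_one_iff]
      show algebraMap ℚ ℚ P.freyCurve.a₂ ∈ A
      rw [hn₂]
      rw [map_intCast]
      exact intCast_mem A n₂
    · rw [A.valuation_le_one_iff]
      show algebraMap ℚ ℚ (0 : ℚ) ∈ A
      rw [map_zero]
      exact A.zero_mem
    · rw [A.valuation_le_one_iff]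
      show algebraMap ℚ ℚ P.freyCurve.a₄ ∈ A
      rw [hn₄]
      rw [map_intCast]
      exact intCast_mem A n₄
    · rw [A.valuation_le_one_iff]
      show algebraMap ℚ ℚ (0 : ℚ) ∈ A
      rw [map_zero]
      exact A.zero_mem
  · rw [← map_nsmul (Model.pointEquiv hrel), hQ₀]
    exact hz

/-- **(R2)** A point of `E[p](ℚ̄)` of the Frey curve fixed by the whole Galois group is `0`. -/
theorem result (P : FreyPackage)
    (Q : Submodule.torsionBy ℤ (P.freyCurve⁄(AlgebraicClosure ℚ)).Point P.p)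
    (hQ : ∀ σ : AlgebraicClosure ℚ ≃ₐ[ℚ] AlgebraicClosure ℚ, σ • Q = Q) : Q = 0 := by
  have hQ' : ∀ σ : AlgebraicClosure ℚ ≃ₐ[ℚ] AlgebraicClosure ℚ,
      σ • (Q : (P.freyCurve⁄(AlgebraicClosure ℚ)).Point) = Q :=
    fun σ => congrArg Subtype.val (hQ σ)
  obtain ⟨Q₀, hQ₀⟩ := exists_rat_point P.freyCurve Q.1 hQ'
  have hp : P.p • Q₀ = 0 := by
    apply Point.map_injective (W' := P.freyCurve) (Algebra.ofId ℚ (AlgebraicClosure ℚ))
    rw [map_nsmul, hQ₀, map_zero]
    have h := (Submodule.mem_torsionBy_iff _ _).mp Q.2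
    rw [natCast_zsmul] at h
    exact h
  have h0 := frey_no_rat_torsion P Q₀ hp
  apply Subtype.ext
  rw [← hQ₀, h0]
  rfl

end Fermat.Agent.S13.R2
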