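import Mathlib

/-!
# S13, piece CONTENT

A polynomial with coefficients in a valuation subring `A` of a field `K`: the leading coefficient
times any finite product of distinct roots lying outside `A` is again in `A`.
-/

set_option autoImplicit false

namespace Fermat.Agent.S13.Content

open Polynomial

variable {K : Type*} [Field K]

/-- If `(X - r) * g` has coefficients in `A` and `r ∉ A`, then `r * g` has coefficients in `A`. -/
theorem coeff_mul_mem (A : ValuationSubring K) {r : K} (hr : r ∉ A) (g : K[X])
    (hf : ∀ i, (g * (X - C r)).coeff i ∈ A) (i : ℕ) : r * g.coeff i ∈ A := by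
  have hr0 : r ≠ 0 := fun h => hr (h ▸ A.zero_mem)
  have hinv : r⁻¹ ∈ A := (A.mem_or_inv_mem r).resolve_left hr
  induction i with
  | zero =>
    have h0 := hf 0
    rw [mul_coeff_zero, coeff_sub, coeff_X_zero, coeff_C_zero, zero_sub, mul_neg] at h0
    have := A.neg_mem _ h0
    rwa [neg_neg, mul_comm] at this
  | succ n ih =>
    have h1 := hf (n + 1)
    rw [coeff_mul_X_sub_C] at h1
    have e : r * g.coeff (n + 1) = r⁻¹ * (r * g.coeff n) - (g.coeff n - g.coeff (n + 1) * r) := by
      field_simp
      ring
    rw [e]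
    exact sub_mem (A.mul_mem _ _ hinv ih) h1

/-- **Content lemma.** -/
theorem leadingCoeff_mul_prod_mem (A : ValuationSubring K) (f : K[X])
    (hf : ∀ i, f.coeff i ∈ A) (s : Finset K) (hs : ∀ r ∈ s, f.eval r = 0 ∧ r ∉ A) :
    f.leadingCoeff * ∏ r ∈ s, r ∈ A := by
  classical
  induction s using Finset.induction_on generalizing f with
  | empty =>
    rw [Finset.prod_empty, mul_one]
    exact hf _
  | insert r s hrs ih =>
    obtain ⟨hr0, hrA⟩ := hs r (Finset.mem_insert_self r s)
    obtain ⟨g, hg⟩ : (X - C r) ∣ f := dvd_iff_isRoot.mpr hr0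
    have hg' : f = g * (X - C r) := by rw [hg, mul_comm]
    have hcoef : ∀ i, (C r * g).coeff i ∈ A := by
      intro i
      rw [coeff_C_mul]
      exact coeff_mul_mem A hrA g (fun j => hg' ▸ hf j) i
    have hroots : ∀ r' ∈ s, (C r * g).eval r' = 0 ∧ r' ∉ A := by
      intro r' hr'
      obtain ⟨h0, hA⟩ := hs r' (Finset.mem_insert_of_mem hr')
      refine ⟨?_, hA⟩
      have hne : r' ≠ r := fun h => hrs (h ▸ hr')
      rw [hg', eval_mul, eval_sub, eval_X, eval_C] at h0
      rcases mul_eq_zero.mp h0 with h | h
      · rw [eval_mul, eval_C, h, mul_zero]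
      · exact absurd (sub_eq_zero.mp h) hne
    have key := ih (C r * g) hcoef hroots
    have hlc : f.leadingCoeff = g.leadingCoeff := by
      rw [hg', leadingCoeff_mul, leadingCoeff_X_sub_C, mul_one]
    rw [Finset.prod_insert hrs, hlc]
    rw [leadingCoeff_mul, leadingCoeff_C] at key
    have e : g.leadingCoeff * (r * ∏ x ∈ s, x) = r * g.leadingCoeff * ∏ x ∈ s, x := by ring
    rw [e]
    exact key

end Fermat.Agent.S13.Content
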