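/-
S13, route DP, pieces A-EVEN / A-ODD (helper16): the field identities consumed by the strong
induction proving `x (n • P) = x - ψ_{n+1} ψ_{n-1} / ψ_n ^ 2` on a curve
`Y² = X³ + a₂ X² + a₄ X`.

Everything here is pure algebra in a field `K`: no curve objects, no division polynomials.
Notation of the comments: `f X = X³ + a₂ X² + a₄ X`, `F = 4 f x` (`= ψ₂² = 4 y²`),
`D = f' x = 3 x² + 2 a₂ x + a₄`, `T = 3 x⁴ + 4 a₂ x³ + 6 a₄ x² - a₄²` (`= Ψ₃ x`),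
and `u_j = ψ_{j+1} ψ_{j-1} / ψ_j ^ 2`, so that `x (j • P) = x - u_j`.
-/
import Mathlib

set_option autoImplicit false

namespace Fermat.Agent.S13.DPAlg

variable {K : Type*} [Field K]

/-! ### the geometric relations in terms of the `u`'s -/

/-- The sum formula for `x ((j+1) P) + x ((j-1) P)` in terms of `u`:
`(u_{j-1} + u_{j+1}) u_j² = 2 D u_j - F`. -/
theorem sum_rel {x a2 a4 Xa Xu Xb : K}
    (gS : (Xb + Xa) * (Xu - x) ^ 2 = 2 * ((Xu + x) * (Xu * x + a4) + 2 * a2 * Xu * x)) :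
    ((x - Xa) + (x - Xb)) * (x - Xu) ^ 2 =
      2 * (3 * x ^ 2 + 2 * a2 * x + a4) * (x - Xu) - 4 * (x ^ 3 + a2 * x ^ 2 + a4 * x) := by
  linear_combination -gS

/-- The product formula for `x ((j+1) P) x ((j-1) P)` in terms of `u`:
`u_{j-1} u_{j+1} u_j² = F u_j - T`. -/
theorem prod_rel {x a2 a4 Xa Xu Xb : K}
    (gS : (Xb + Xa) * (Xu - x) ^ 2 = 2 * ((Xu + x) * (Xu * x + a4) + 2 * a2 * Xu * x))
    (gP : Xb * Xa * (Xu - x) ^ 2 = (Xu * x - a4) ^ 2) :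
    (x - Xa) * (x - Xb) * (x - Xu) ^ 2 =
      4 * (x ^ 3 + a2 * x ^ 2 + a4 * x) * (x - Xu) -
        (3 * x ^ 4 + 4 * a2 * x ^ 3 + 6 * a4 * x ^ 2 - a4 ^ 2) := by
  linear_combination gP - x * gS

/-! ### the three identities -/

/-- (1) discriminant identity: `(2 D u - F)² - 4 u² (F u - T) = F * 4 f (x - u)`. -/
theorem disc_eq (x a2 a4 u : K) :
    (2 * (3 * x ^ 2 + 2 * a2 * x + a4) * u - 4 * (x ^ 3 + a2 * x ^ 2 + a4 * x)) ^ 2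
      - 4 * u ^ 2 * (4 * (x ^ 3 + a2 * x ^ 2 + a4 * x) * u
        - (3 * x ^ 4 + 4 * a2 * x ^ 3 + 6 * a4 * x ^ 2 - a4 ^ 2)) =
    4 * (x ^ 3 + a2 * x ^ 2 + a4 * x) *
      (4 * ((x - u) ^ 3 + a2 * (x - u) ^ 2 + a4 * (x - u))) := by
  ring

/-- consequence of (1): `(b - a)² u⁴ = F * 4 f (x - u)` for `a = u_{m-1}`, `u = u_m`,
`b = u_{m+1}`. -/
theorem sq_sub_mul {x a2 a4 a u b : K}
    (hS : (a + b) * u ^ 2 =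
      2 * (3 * x ^ 2 + 2 * a2 * x + a4) * u - 4 * (x ^ 3 + a2 * x ^ 2 + a4 * x))
    (hP : a * b * u ^ 2 = 4 * (x ^ 3 + a2 * x ^ 2 + a4 * x) * u -
      (3 * x ^ 4 + 4 * a2 * x ^ 3 + 6 * a4 * x ^ 2 - a4 ^ 2)) :
    (b - a) ^ 2 * u ^ 4 = 4 * (x ^ 3 + a2 * x ^ 2 + a4 * x) *
      (4 * ((x - u) ^ 3 + a2 * (x - u) ^ 2 + a4 * (x - u))) := by
  rw [← disc_eq]
  linear_combination ((a + b) * u ^ 2 + (2 * (3 * x ^ 2 + 2 * a2 * x + a4) * u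
    - 4 * (x ^ 3 + a2 * x ^ 2 + a4 * x))) * hS - 4 * u ^ 2 * hP

/-- (2) even step (`n = 2m`; `a = u_{m-1}`, `u = u_m`, `b = u_{m+1}`, `X2 = x (2 m P)` given by
the duplication formula at `x (m P) = x - u`). -/
theorem even_step {x a2 a4 a u b X2 : K}
    (hS : (a + b) * u ^ 2 =
      2 * (3 * x ^ 2 + 2 * a2 * x + a4) * u - 4 * (x ^ 3 + a2 * x ^ 2 + a4 * x))
    (hP : a * b * u ^ 2 = 4 * (x ^ 3 + a2 * x ^ 2 + a4 * x) * u -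
      (3 * x ^ 4 + 4 * a2 * x ^ 3 + 6 * a4 * x ^ 2 - a4 ^ 2))
    (hu : u ≠ 0)
    (hX2 : X2 * (4 * ((x - u) ^ 3 + a2 * (x - u) ^ 2 + a4 * (x - u))) = ((x - u) ^ 2 - a4) ^ 2) :
    (x - X2) * ((b - a) ^ 2 * u ^ 2) =
      4 * (x ^ 3 + a2 * x ^ 2 + a4 * x) * (b - u) * (u - a) := by
  apply mul_left_cancel₀ (pow_ne_zero 2 hu)
  linear_combination ((x - X2) * ((a + b) * u ^ 2 + (2 * (3 * x ^ 2 + 2 * a2 * x + a4) * u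
      - 4 * (x ^ 3 + a2 * x ^ 2 + a4 * x))) - 4 * (x ^ 3 + a2 * x ^ 2 + a4 * x) * u) * hS
    + (-4 * (x - X2) * u ^ 2 + 4 * (x ^ 3 + a2 * x ^ 2 + a4 * x)) * hP
    - 4 * (x ^ 3 + a2 * x ^ 2 + a4 * x) * hX2

/-- the symmetric relation between consecutive `u`'s:
`a² b² - 2 D a b + F (a + b) - T = 0` for `a = u_m`, `b = u_{m+1}`. -/
theorem consec_rel {x a2 a4 c a b : K}
    (hS : (c + b) * a ^ 2 =
      2 * (3 * x ^ 2 + 2 * a2 * x + a4) * a - 4 * (x ^ 3 + a2 * x ^ 2 + a4 * x))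
    (hP : c * b * a ^ 2 = 4 * (x ^ 3 + a2 * x ^ 2 + a4 * x) * a -
      (3 * x ^ 4 + 4 * a2 * x ^ 3 + 6 * a4 * x ^ 2 - a4 ^ 2)) :
    a ^ 2 * b ^ 2 - 2 * (3 * x ^ 2 + 2 * a2 * x + a4) * a * b
      + 4 * (x ^ 3 + a2 * x ^ 2 + a4 * x) * (a + b)
      - (3 * x ^ 4 + 4 * a2 * x ^ 3 + 6 * a4 * x ^ 2 - a4 ^ 2) = 0 := by
  linear_combination b * hS - hP

/-- (3) odd step (`n = 2m+1`; `c = u_{m-1}`, `a = u_m`, `b = u_{m+1}`, `d = u_{m+2}`,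
`X3 = x ((2m+1) P)` given by the sum formula for `(m+1) P + m P`, whose difference is `P`). -/
theorem odd_step {x a2 a4 c a b d X3 : K}
    (hS1 : (c + b) * a ^ 2 =
      2 * (3 * x ^ 2 + 2 * a2 * x + a4) * a - 4 * (x ^ 3 + a2 * x ^ 2 + a4 * x))
    (hP1 : c * b * a ^ 2 = 4 * (x ^ 3 + a2 * x ^ 2 + a4 * x) * a -
      (3 * x ^ 4 + 4 * a2 * x ^ 3 + 6 * a4 * x ^ 2 - a4 ^ 2))
    (hS2 : (a + d) * b ^ 2 =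
      2 * (3 * x ^ 2 + 2 * a2 * x + a4) * b - 4 * (x ^ 3 + a2 * x ^ 2 + a4 * x))
    (hX3 : (X3 + x) * (a - b) ^ 2 =
      2 * (((x - b) * (x - a) + a4) * ((x - b) + (x - a)) + 2 * a2 * (x - b) * (x - a))) :
    (x - X3) * (4 * (x ^ 3 + a2 * x ^ 2 + a4 * x) * (b - a) ^ 2) =
      (d - a) * (b - c) * (a * b) ^ 2 := by
  linear_combination (2 * a * b ^ 2 + 2 * (3 * x ^ 2 + 2 * a2 * x + a4) * b
      - 4 * (x ^ 3 + a2 * x ^ 2 + a4 * x)) * hS1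
    - 4 * a * b * hP1 - (b - c) * a ^ 2 * hS2 - 4 * (x ^ 3 + a2 * x ^ 2 + a4 * x) * hX3

/-! ### the `ψ`-side: identities between values of a normalised EDS

`p0 … p5` stand for `ψ_{m-2} … ψ_{m+3}`, `b` for `ψ₂`; the hypotheses `hq…` are instances of
Mathlib's `normEDS_even` / `normEDS_odd`. -/

/-- `ψ`-side of the even step: `q0 = ψ_{2m}`, `qm = ψ_{2m-1}`, `qp = ψ_{2m+1}`. -/
theorem psi_even {b p0 p1 p2 p3 p4 q0 qm qp : K}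
    (hq0 : q0 * b = p1 ^ 2 * p2 * p4 - p0 * p2 * p3 ^ 2)
    (hqp : qp = p4 * p2 ^ 3 - p1 * p3 ^ 3)
    (hqm : qm = p3 * p1 ^ 3 - p0 * p2 ^ 3)
    (h1 : p1 ≠ 0) (h2 : p2 ≠ 0) (h3 : p3 ≠ 0) :
    qp * qm * ((p4 * p2 / p3 ^ 2 - p2 * p0 / p1 ^ 2) ^ 2 * (p3 * p1 / p2 ^ 2) ^ 2) =
      b ^ 2 * (p4 * p2 / p3 ^ 2 - p3 * p1 / p2 ^ 2) * (p3 * p1 / p2 ^ 2 - p2 * p0 / p1 ^ 2)
        * q0 ^ 2 := by
  have e1 : p4 * p2 / p3 ^ 2 - p2 * p0 / p1 ^ 2 = q0 * b / (p1 ^ 2 * p3 ^ 2) := by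
    rw [hq0]; field_simp
  have e2 : p4 * p2 / p3 ^ 2 - p3 * p1 / p2 ^ 2 = qp / (p2 ^ 2 * p3 ^ 2) := by
    rw [hqp]; field_simp
  have e3 : p3 * p1 / p2 ^ 2 - p2 * p0 / p1 ^ 2 = qm / (p1 ^ 2 * p2 ^ 2) := by
    rw [hqm]; field_simp
  rw [e1, e2, e3]
  field_simp

/-- `ψ`-side of the odd step: `q0 = ψ_{2m}`, `q1 = ψ_{2m+1}`, `q2 = ψ_{2m+2}`. -/
theorem psi_odd {b p0 p1 p2 p3 p4 p5 q0 q1 q2 : K}
    (hq0 : q0 * b = p1 ^ 2 * p2 * p4 - p0 * p2 * p3 ^ 2)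
    (hq1 : q1 = p4 * p2 ^ 3 - p1 * p3 ^ 3)
    (hq2 : q2 * b = p2 ^ 2 * p3 * p5 - p1 * p3 * p4 ^ 2)
    (h1 : p1 ≠ 0) (h2 : p2 ≠ 0) (h3 : p3 ≠ 0) (h4 : p4 ≠ 0) :
    q2 * q0 * (b ^ 2 * (p4 * p2 / p3 ^ 2 - p3 * p1 / p2 ^ 2) ^ 2) =
      (p5 * p3 / p4 ^ 2 - p3 * p1 / p2 ^ 2) * (p4 * p2 / p3 ^ 2 - p2 * p0 / p1 ^ 2)
        * (p3 * p1 / p2 ^ 2 * (p4 * p2 / p3 ^ 2)) ^ 2 * q1 ^ 2 := by
  have e1 : p4 * p2 / p3 ^ 2 - p2 * p0 / p1 ^ 2 = q0 * b / (p1 ^ 2 * p3 ^ 2) := by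
    rw [hq0]; field_simp
  have e2 : p4 * p2 / p3 ^ 2 - p3 * p1 / p2 ^ 2 = q1 / (p2 ^ 2 * p3 ^ 2) := by
    rw [hq1]; field_simp
  have e3 : p5 * p3 / p4 ^ 2 - p3 * p1 / p2 ^ 2 = q2 * b / (p2 ^ 2 * p4 ^ 2) := by
    rw [hq2]; field_simp
  rw [e1, e2, e3]
  field_simp

/-- `x - X = ψ_{j+1} ψ_{j-1} / ψ_j²` from the multiplicative form. -/
theorem u_eq {x X pm p pp : K} (hp : p ≠ 0) (hX : X * p ^ 2 = x * p ^ 2 - pp * pm) :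
    x - X = pp * pm / p ^ 2 := by
  field_simp
  linear_combination -hX

/-! ### combined steps, in the multiplicative form `X_j ψ_j² = x ψ_j² - ψ_{j+1} ψ_{j-1}`

`Xa, Xu, Xb, …` are the `x`-coordinates of consecutive multiples of `P = (x, y)`; the
hypotheses `gS…`, `gP…` are the sum and product formulas of `XForm.add_sub_some_aux` applied to
`j • P` and `P`, `dup` is the duplication formula, `gX3` the sum formula applied to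
`(m+1) • P` and `m • P`. -/

/-- In the even step, `ψ_{2m} ≠ 0` forces `u_{m+1} ≠ u_{m-1}`. -/
theorem even_sub_ne {b p0 p1 p2 p3 p4 q0 : K}
    (hq0 : q0 * b = p1 ^ 2 * p2 * p4 - p0 * p2 * p3 ^ 2)
    (h1 : p1 ≠ 0) (h3 : p3 ≠ 0) (hq : q0 ≠ 0) (hb0 : b ≠ 0) :
    p4 * p2 / p3 ^ 2 - p2 * p0 / p1 ^ 2 ≠ 0 := by
  have e1 : p4 * p2 / p3 ^ 2 - p2 * p0 / p1 ^ 2 = q0 * b / (p1 ^ 2 * p3 ^ 2) := by
    rw [hq0]; field_simp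
  rw [e1]
  exact div_ne_zero (mul_ne_zero hq hb0) (mul_ne_zero (pow_ne_zero 2 h1) (pow_ne_zero 2 h3))

/-- Even step, nonvanishing: if `ψ_{2m} ≠ 0` then `m • P` is not a 2-torsion point, i.e.
`f (x (m P)) ≠ 0`. -/
theorem even_ne {x a2 a4 b p0 p1 p2 p3 p4 q0 Xa Xu Xb : K}
    (hq0 : q0 * b = p1 ^ 2 * p2 * p4 - p0 * p2 * p3 ^ 2)
    (h1 : p1 ≠ 0) (h2 : p2 ≠ 0) (h3 : p3 ≠ 0) (hq : q0 ≠ 0) (hb0 : b ≠ 0)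
    (hXa : Xa * p1 ^ 2 = x * p1 ^ 2 - p2 * p0) (hXu : Xu * p2 ^ 2 = x * p2 ^ 2 - p3 * p1)
    (hXb : Xb * p3 ^ 2 = x * p3 ^ 2 - p4 * p2)
    (gS : (Xb + Xa) * (Xu - x) ^ 2 = 2 * ((Xu + x) * (Xu * x + a4) + 2 * a2 * Xu * x))
    (gP : Xb * Xa * (Xu - x) ^ 2 = (Xu * x - a4) ^ 2) :
    Xu ^ 3 + a2 * Xu ^ 2 + a4 * Xu ≠ 0 := by
  have ea := u_eq h1 hXa
  have eu := u_eq h2 hXu
  have eb := u_eq h3 hXb
  have hS := sum_rel gS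
  have hP := prod_rel gS gP
  have hne : (x - Xb) - (x - Xa) ≠ 0 := by
    rw [ea, eb]; exact even_sub_ne hq0 h1 h3 hq hb0
  have hu : x - Xu ≠ 0 := by
    rw [eu]; exact div_ne_zero (mul_ne_zero h3 h1) (pow_ne_zero 2 h2)
  have key := sq_sub_mul hS hP
  have hlhs : ((x - Xb) - (x - Xa)) ^ 2 * (x - Xu) ^ 4 ≠ 0 :=
    mul_ne_zero (pow_ne_zero 2 hne) (pow_ne_zero 4 hu)
  rw [key] at hlhs
  intro h0
  apply hlhs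
  have e : (x - (x - Xu)) ^ 3 + a2 * (x - (x - Xu)) ^ 2 + a4 * (x - (x - Xu)) =
      Xu ^ 3 + a2 * Xu ^ 2 + a4 * Xu := by ring
  rw [e, h0]
  ring

/-- **Even step** (`n = 2m`): from the claim at `m - 1`, `m`, `m + 1`, the geometric relations
at `m` and the duplication formula for `m • P`, the claim at `2m`. -/
theorem even_combined {x a2 a4 b p0 p1 p2 p3 p4 q0 qm qp Xa Xu Xb X2 : K}
    (hb : b ^ 2 = 4 * (x ^ 3 + a2 * x ^ 2 + a4 * x))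
    (hq0 : q0 * b = p1 ^ 2 * p2 * p4 - p0 * p2 * p3 ^ 2)
    (hqp : qp = p4 * p2 ^ 3 - p1 * p3 ^ 3)
    (hqm : qm = p3 * p1 ^ 3 - p0 * p2 ^ 3)
    (h1 : p1 ≠ 0) (h2 : p2 ≠ 0) (h3 : p3 ≠ 0) (hq : q0 ≠ 0) (hb0 : b ≠ 0)
    (hXa : Xa * p1 ^ 2 = x * p1 ^ 2 - p2 * p0) (hXu : Xu * p2 ^ 2 = x * p2 ^ 2 - p3 * p1)
    (hXb : Xb * p3 ^ 2 = x * p3 ^ 2 - p4 * p2)
    (gS : (Xb + Xa) * (Xu - x) ^ 2 = 2 * ((Xu + x) * (Xu * x + a4) + 2 * a2 * Xu * x))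
    (gP : Xb * Xa * (Xu - x) ^ 2 = (Xu * x - a4) ^ 2)
    (dup : X2 * (4 * (Xu ^ 3 + a2 * Xu ^ 2 + a4 * Xu)) = (Xu ^ 2 - a4) ^ 2) :
    X2 * q0 ^ 2 = x * q0 ^ 2 - qp * qm := by
  have ea := u_eq h1 hXa
  have eu := u_eq h2 hXu
  have eb := u_eq h3 hXb
  have hS := sum_rel gS
  have hP := prod_rel gS gP
  have hne : (x - Xb) - (x - Xa) ≠ 0 := by
    rw [ea, eb]; exact even_sub_ne hq0 h1 h3 hq hb0
  have hu : x - Xu ≠ 0 := by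
    rw [eu]; exact div_ne_zero (mul_ne_zero h3 h1) (pow_ne_zero 2 h2)
  have hX2 : X2 * (4 * ((x - (x - Xu)) ^ 3 + a2 * (x - (x - Xu)) ^ 2 + a4 * (x - (x - Xu)))) =
      ((x - (x - Xu)) ^ 2 - a4) ^ 2 := by
    rw [sub_sub_cancel]; exact dup
  have hS' : ((x - Xa) + (x - Xb)) * (x - Xu) ^ 2 =
      2 * (3 * x ^ 2 + 2 * a2 * x + a4) * (x - Xu) - 4 * (x ^ 3 + a2 * x ^ 2 + a4 * x) := hS
  have hP' : (x - Xa) * (x - Xb) * (x - Xu) ^ 2 =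
      4 * (x ^ 3 + a2 * x ^ 2 + a4 * x) * (x - Xu) -
        (3 * x ^ 4 + 4 * a2 * x ^ 3 + 6 * a4 * x ^ 2 - a4 ^ 2) := hP
  have key1 := even_step hS' hP' hu hX2
  have key2 := psi_even hq0 hqp hqm h1 h2 h3
  rw [← ea, ← eu, ← eb, hb] at key2
  have hc : ((x - Xb) - (x - Xa)) ^ 2 * (x - Xu) ^ 2 ≠ 0 :=
    mul_ne_zero (pow_ne_zero 2 hne) (pow_ne_zero 2 hu)
  have key3 : (x - X2) * q0 ^ 2 = qp * qm := by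
    apply mul_right_cancel₀ hc
    linear_combination q0 ^ 2 * key1 - key2
  linear_combination -key3

/-- In the odd step, `u_{m+1} - u_m = ψ_{2m+1} / (ψ_m² ψ_{m+1}²)`. -/
theorem odd_sub_eq {p1 p2 p3 p4 q1 : K}
    (hq1 : q1 = p4 * p2 ^ 3 - p1 * p3 ^ 3) (h2 : p2 ≠ 0) (h3 : p3 ≠ 0) :
    p4 * p2 / p3 ^ 2 - p3 * p1 / p2 ^ 2 = q1 / (p2 ^ 2 * p3 ^ 2) := by
  rw [hq1]; field_simp

/-- Odd step, nonvanishing: if `ψ_{2m+1} ≠ 0` then `x ((m+1) P) ≠ x (m P)`. -/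
theorem odd_ne {x p1 p2 p3 p4 q1 Xa Xb : K}
    (hq1 : q1 = p4 * p2 ^ 3 - p1 * p3 ^ 3) (h2 : p2 ≠ 0) (h3 : p3 ≠ 0) (hq : q1 ≠ 0)
    (hXa : Xa * p2 ^ 2 = x * p2 ^ 2 - p3 * p1) (hXb : Xb * p3 ^ 2 = x * p3 ^ 2 - p4 * p2) :
    Xb ≠ Xa := by
  have ea := u_eq h2 hXa
  have eb := u_eq h3 hXb
  have e := odd_sub_eq hq1 h2 h3
  rw [← ea, ← eb] at e
  intro h
  rw [h, sub_self] at e
  exact div_ne_zero hq (mul_ne_zero (pow_ne_zero 2 h2) (pow_ne_zero 2 h3)) e.symm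

/-- Odd step, vanishing: if `ψ_{2m+1} = 0` then `x ((m+1) P) = x (m P)`. -/
theorem odd_eq {x p1 p2 p3 p4 q1 Xa Xb : K}
    (hq1 : q1 = p4 * p2 ^ 3 - p1 * p3 ^ 3) (h2 : p2 ≠ 0) (h3 : p3 ≠ 0) (hq : q1 = 0)
    (hXa : Xa * p2 ^ 2 = x * p2 ^ 2 - p3 * p1) (hXb : Xb * p3 ^ 2 = x * p3 ^ 2 - p4 * p2) :
    Xb = Xa := by
  have ea := u_eq h2 hXa
  have eb := u_eq h3 hXb
  have e := odd_sub_eq hq1 h2 h3
  rw [← ea, ← eb, hq, zero_div] at e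
  linear_combination -e

/-- Even step, vanishing: if `ψ_{2m} = 0` then `x ((m+1) P) = x ((m-1) P)`. -/
theorem even_eq {x b p0 p1 p2 p3 p4 q0 Xa Xb : K}
    (hq0 : q0 * b = p1 ^ 2 * p2 * p4 - p0 * p2 * p3 ^ 2)
    (h1 : p1 ≠ 0) (h3 : p3 ≠ 0) (hq : q0 = 0)
    (hXa : Xa * p1 ^ 2 = x * p1 ^ 2 - p2 * p0) (hXb : Xb * p3 ^ 2 = x * p3 ^ 2 - p4 * p2) :
    Xb = Xa := by
  have ea := u_eq h1 hXa
  have eb := u_eq h3 hXb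
  have e1 : p4 * p2 / p3 ^ 2 - p2 * p0 / p1 ^ 2 = q0 * b / (p1 ^ 2 * p3 ^ 2) := by
    rw [hq0]; field_simp
  rw [← ea, ← eb, hq, zero_mul, zero_div] at e1
  linear_combination -e1

/-- **Odd step** (`n = 2m+1`): from the claim at `m - 1`, `m`, `m + 1`, `m + 2`, the geometric
relations at `m` and `m + 1` and the sum formula for `(m+1) • P + m • P`, the claim at
`2m + 1`. -/
theorem odd_combined {x a2 a4 b p0 p1 p2 p3 p4 p5 q0 q1 q2 Xc Xa Xb Xd X3 : K}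
    (hb : b ^ 2 = 4 * (x ^ 3 + a2 * x ^ 2 + a4 * x))
    (hq0 : q0 * b = p1 ^ 2 * p2 * p4 - p0 * p2 * p3 ^ 2)
    (hq1 : q1 = p4 * p2 ^ 3 - p1 * p3 ^ 3)
    (hq2 : q2 * b = p2 ^ 2 * p3 * p5 - p1 * p3 * p4 ^ 2)
    (h1 : p1 ≠ 0) (h2 : p2 ≠ 0) (h3 : p3 ≠ 0) (h4 : p4 ≠ 0) (hq : q1 ≠ 0) (hb0 : b ≠ 0)
    (hXc : Xc * p1 ^ 2 = x * p1 ^ 2 - p2 * p0) (hXa : Xa * p2 ^ 2 = x * p2 ^ 2 - p3 * p1)
    (hXb : Xb * p3 ^ 2 = x * p3 ^ 2 - p4 * p2) (hXd : Xd * p4 ^ 2 = x * p4 ^ 2 - p5 * p3)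
    (gS1 : (Xb + Xc) * (Xa - x) ^ 2 = 2 * ((Xa + x) * (Xa * x + a4) + 2 * a2 * Xa * x))
    (gP1 : Xb * Xc * (Xa - x) ^ 2 = (Xa * x - a4) ^ 2)
    (gS2 : (Xd + Xa) * (Xb - x) ^ 2 = 2 * ((Xb + x) * (Xb * x + a4) + 2 * a2 * Xb * x))
    (gX3 : (X3 + x) * (Xb - Xa) ^ 2 = 2 * ((Xb + Xa) * (Xb * Xa + a4) + 2 * a2 * Xb * Xa)) :
    X3 * q1 ^ 2 = x * q1 ^ 2 - q2 * q0 := by
  have ec := u_eq h1 hXc
  have ea := u_eq h2 hXa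
  have eb := u_eq h3 hXb
  have ed := u_eq h4 hXd
  have hS1 : ((x - Xc) + (x - Xb)) * (x - Xa) ^ 2 =
      2 * (3 * x ^ 2 + 2 * a2 * x + a4) * (x - Xa) - 4 * (x ^ 3 + a2 * x ^ 2 + a4 * x) :=
    sum_rel gS1
  have hP1 : (x - Xc) * (x - Xb) * (x - Xa) ^ 2 =
      4 * (x ^ 3 + a2 * x ^ 2 + a4 * x) * (x - Xa) -
        (3 * x ^ 4 + 4 * a2 * x ^ 3 + 6 * a4 * x ^ 2 - a4 ^ 2) := prod_rel gS1 gP1
  have hS2 : ((x - Xa) + (x - Xd)) * (x - Xb) ^ 2 =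
      2 * (3 * x ^ 2 + 2 * a2 * x + a4) * (x - Xb) - 4 * (x ^ 3 + a2 * x ^ 2 + a4 * x) :=
    sum_rel gS2
  have hX3 : (X3 + x) * ((x - Xa) - (x - Xb)) ^ 2 =
      2 * (((x - (x - Xb)) * (x - (x - Xa)) + a4) * ((x - (x - Xb)) + (x - (x - Xa)))
        + 2 * a2 * (x - (x - Xb)) * (x - (x - Xa))) := by
    linear_combination gX3
  have key1 := odd_step hS1 hP1 hS2 hX3
  have key2 := psi_odd hq0 hq1 hq2 h1 h2 h3 h4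
  rw [← ec, ← ea, ← eb, ← ed, hb] at key2
  have hne : (x - Xb) - (x - Xa) ≠ 0 := by
    have := odd_ne hq1 h2 h3 hq hXa hXb
    intro h
    apply this
    linear_combination -h
  have hF : 4 * (x ^ 3 + a2 * x ^ 2 + a4 * x) ≠ 0 := by
    rw [← hb]; exact pow_ne_zero 2 hb0
  have hc : 4 * (x ^ 3 + a2 * x ^ 2 + a4 * x) * ((x - Xb) - (x - Xa)) ^ 2 ≠ 0 :=
    mul_ne_zero hF (pow_ne_zero 2 hne)
  have key3 : (x - X3) * q1 ^ 2 = q2 * q0 := by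
    apply mul_right_cancel₀ hc
    linear_combination q1 ^ 2 * key1 - key2
  linear_combination -key3

/-! ### base cases -/

/-- base case `n = 2`: `X2 ψ₂² = x ψ₂² - ψ₃ ψ₁` with `ψ₃ = Ψ₃ x`. -/
theorem base_two {x a2 a4 b X2 : K}
    (hb : b ^ 2 = 4 * (x ^ 3 + a2 * x ^ 2 + a4 * x))
    (dup : X2 * (4 * (x ^ 3 + a2 * x ^ 2 + a4 * x)) = (x ^ 2 - a4) ^ 2) :
    X2 * b ^ 2 = x * b ^ 2 - (3 * x ^ 4 + 4 * a2 * x ^ 3 + 6 * a4 * x ^ 2 - a4 ^ 2) * 1 := by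
  rw [hb]
  linear_combination dup

/-- base case `n = 3`: `X3 ψ₃² = x ψ₃² - ψ₄ ψ₂` with `ψ₃ = Ψ₃ x`, `ψ₄ = preΨ₄ x * ψ₂`; here
`gX3` is the sum formula for `2 • P + P` (difference `P`) and `hX2` is the case `n = 2`. -/
theorem base_three {x a2 a4 b X2 X3 : K}
    (hb : b ^ 2 = 4 * (x ^ 3 + a2 * x ^ 2 + a4 * x))
    (hX2 : X2 * b ^ 2 = x * b ^ 2 - (3 * x ^ 4 + 4 * a2 * x ^ 3 + 6 * a4 * x ^ 2 - a4 ^ 2) * 1)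
    (hb0 : b ≠ 0)
    (gX3 : (X3 + x) * (X2 - x) ^ 2 = 2 * ((X2 + x) * (X2 * x + a4) + 2 * a2 * X2 * x)) :
    X3 * (3 * x ^ 4 + 4 * a2 * x ^ 3 + 6 * a4 * x ^ 2 - a4 ^ 2) ^ 2 =
      x * (3 * x ^ 4 + 4 * a2 * x ^ 3 + 6 * a4 * x ^ 2 - a4 ^ 2) ^ 2 -
        (2 * x ^ 6 + 4 * a2 * x ^ 5 + 10 * a4 * x ^ 4 - 10 * a4 ^ 2 * x ^ 2
          - 4 * a2 * a4 ^ 2 * x - 2 * a4 ^ 3) * b * b := by
  have hF : b ^ 2 ≠ 0 := pow_ne_zero 2 hb0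
  -- `u = x - X2 = T / F`
  have hu : (x - X2) * b ^ 2 = 3 * x ^ 4 + 4 * a2 * x ^ 3 + 6 * a4 * x ^ 2 - a4 ^ 2 := by
    linear_combination -hX2
  have hS := sum_rel (Xa := x) gX3
  -- `(x - X3) u² = 2 D u - F`
  have hS' : (x - X3) * (x - X2) ^ 2 =
      2 * (3 * x ^ 2 + 2 * a2 * x + a4) * (x - X2) - 4 * (x ^ 3 + a2 * x ^ 2 + a4 * x) := by
    linear_combination hS
  apply mul_left_cancel₀ (pow_ne_zero 2 hF)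
  have e1 : (b ^ 2) ^ 2 * (x - X3) * (x - X2) ^ 2 =
      (x - X3) * (3 * x ^ 4 + 4 * a2 * x ^ 3 + 6 * a4 * x ^ 2 - a4 ^ 2) ^ 2 := by
    rw [← hu]; ring
  have e2 : (b ^ 2) ^ 2 * (2 * (3 * x ^ 2 + 2 * a2 * x + a4) * (x - X2)
      - 4 * (x ^ 3 + a2 * x ^ 2 + a4 * x)) =
      b ^ 2 * (2 * (3 * x ^ 2 + 2 * a2 * x + a4)
        * (3 * x ^ 4 + 4 * a2 * x ^ 3 + 6 * a4 * x ^ 2 - a4 ^ 2)
      - (4 * (x ^ 3 + a2 * x ^ 2 + a4 * x)) ^ 2) := by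
    rw [← hu, ← hb]; ring
  have e3 : (b ^ 2) ^ 2 * ((x - X3) * (x - X2) ^ 2) = (b ^ 2) ^ 2 * (2 * (3 * x ^ 2 + 2 * a2 * x + a4) * (x - X2)
      - 4 * (x ^ 3 + a2 * x ^ 2 + a4 * x)) := by rw [hS']
  rw [e2] at e3
  have e4 : (x - X3) * (3 * x ^ 4 + 4 * a2 * x ^ 3 + 6 * a4 * x ^ 2 - a4 ^ 2) ^ 2 =
      b ^ 2 * (2 * (3 * x ^ 2 + 2 * a2 * x + a4)
        * (3 * x ^ 4 + 4 * a2 * x ^ 3 + 6 * a4 * x ^ 2 - a4 ^ 2)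
      - (4 * (x ^ 3 + a2 * x ^ 2 + a4 * x)) ^ 2) := by
    rw [← e1, ← e3]; ring
  linear_combination (-(b ^ 2) ^ 2) * e4

end Fermat.Agent.S13.DPAlg
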