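/-
S13, route DP, piece A-IND (helper16, hedge): CLAIM A and CLAIM B for the division polynomials
of a curve `Y² = X³ + a₂ X² + a₄ X`, by strong induction fed by the chord/tangent formulas of
`S05/XForm` and the field identities of `S13/DPAlg`.

* `evalEval_ψ` : the values `ψ_n (x, y)` of Mathlib's division polynomials form a normalised EDS;
* `claimA` : if `ψ_j (P) ≠ 0` for `1 ≤ j ≤ n` then `n • P` is affine with
  `x (n • P) = x - ψ_{n+1} ψ_{n-1} / ψ_n²`;
* `claimB` : if moreover `ψ_{n+1} (P) = 0` then `(n + 1) • P = 0`;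
* `exists_psi_eq_zero` : a point killed by `n ≥ 1` is killed by some `2 ≤ r ≤ n` with
  `ψ_r (P) = 0`;
* `preΨ_eval_eq_zero` : (N2) for an odd prime `p`, the `x`-coordinate of a point of order `p` is
  a root of `W.preΨ p`.
-/
import Mathlib
import Fermat.Agent.S05.Defs
import Fermat.Agent.S05.XForm
import Fermat.Agent.S13.DPAlg

set_option autoImplicit false

namespace Fermat.Agent.S13.DPClaim

open WeierstrassCurve WeierstrassCurve.Affine Polynomial
open Fermat.Agent.S05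

/-! ### the normalised EDS indexed by `ℕ` -/

section EDS

variable {R : Type*} [CommRing R] (b c d : R)

/-- the normalised EDS with parameters `b c d`, indexed by `ℕ` -/
def eds (n : ℕ) : R := normEDS b c d (n : ℤ)

theorem eds_zero : eds b c d 0 = 0 := by simp [eds]

theorem eds_one : eds b c d 1 = 1 := by simp [eds]

theorem eds_two : eds b c d 2 = b := by simp [eds]

theorem eds_three : eds b c d 3 = c := by simp [eds]

theorem eds_four : eds b c d 4 = d * b := by simp [eds]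

theorem eds_even (k : ℕ) : eds b c d (2 * k + 4) * b =
    eds b c d (k + 1) ^ 2 * eds b c d (k + 2) * eds b c d (k + 4)
      - eds b c d k * eds b c d (k + 2) * eds b c d (k + 3) ^ 2 := by
  have h := normEDS_even b c d ((k : ℤ) + 2)
  have e0 : ((2 * k + 4 : ℕ) : ℤ) = 2 * ((k : ℤ) + 2) := by push_cast; ring
  have e1 : ((k + 1 : ℕ) : ℤ) = (k : ℤ) + 2 - 1 := by push_cast; ring
  have e2 : ((k + 2 : ℕ) : ℤ) = (k : ℤ) + 2 := by push_cast; ring
  have e3 : ((k + 4 : ℕ) : ℤ) = (k : ℤ) + 2 + 2 := by push_cast; ring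
  have e4 : normEDS b c d (k : ℤ) = normEDS b c d ((k : ℤ) + 2 - 2) := by
    congr 1; ring
  have e5 : ((k + 3 : ℕ) : ℤ) = (k : ℤ) + 2 + 1 := by push_cast; ring
  unfold eds
  rw [e0, e1, e2, e3, e5, e4]
  exact h

theorem eds_odd (k : ℕ) : eds b c d (2 * k + 3) =
    eds b c d (k + 3) * eds b c d (k + 1) ^ 3 - eds b c d k * eds b c d (k + 2) ^ 3 := by
  have h := normEDS_odd b c d ((k : ℤ) + 1)
  have e0 : ((2 * k + 3 : ℕ) : ℤ) = 2 * ((k : ℤ) + 1) + 1 := by push_cast; ring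
  have e1 : ((k + 3 : ℕ) : ℤ) = (k : ℤ) + 1 + 2 := by push_cast; ring
  have e2 : ((k + 1 : ℕ) : ℤ) = (k : ℤ) + 1 := by push_cast; ring
  have e3 : normEDS b c d (k : ℤ) = normEDS b c d ((k : ℤ) + 1 - 1) := by
    congr 1; ring
  have e4 : ((k + 2 : ℕ) : ℤ) = (k : ℤ) + 1 + 1 := by push_cast; ring
  unfold eds
  rw [e0, e1, e2, e4, e3]
  exact h

end EDS

/-! ### division polynomial values on a curve `Y² = X³ + a₂ X² + a₄ X` -/

section Curve

variable {K : Type*} [Field K]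

/-- The values of Mathlib's division polynomials at a point form a normalised EDS. -/
theorem evalEval_ψ (W : WeierstrassCurve K) (x y : K) (n : ℤ) :
    (W.ψ n).evalEval x y =
      normEDS (W.ψ₂.evalEval x y) (W.Ψ₃.eval x) (W.preΨ₄.eval x) n := by
  rw [WeierstrassCurve.ψ, ← coe_evalEvalRingHom, map_normEDS]
  simp only [coe_evalEvalRingHom, evalEval_C]

theorem evalEval_ψ₂ {W : WeierstrassCurve K} (hW : IsLeg W) (x y : K) :
    W.ψ₂.evalEval x y = 2 * y := by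
  rw [ψ₂, evalEval_polynomialY, hW.a₁, hW.a₃]; ring

theorem eval_Ψ₃ {W : WeierstrassCurve K} (hW : IsLeg W) (x : K) :
    W.Ψ₃.eval x = 3 * x ^ 4 + 4 * W.a₂ * x ^ 3 + 6 * W.a₄ * x ^ 2 - W.a₄ ^ 2 := by
  simp only [Ψ₃, b₂, b₄, b₆, b₈, hW.a₁, hW.a₃, hW.a₆, eval_add, eval_mul, eval_pow, eval_X,
    eval_C, eval_ofNat]
  ring

theorem eval_preΨ₄ {W : WeierstrassCurve K} (hW : IsLeg W) (x : K) :
    W.preΨ₄.eval x = 2 * x ^ 6 + 4 * W.a₂ * x ^ 5 + 10 * W.a₄ * x ^ 4 - 10 * W.a₄ ^ 2 * x ^ 2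
      - 4 * W.a₂ * W.a₄ ^ 2 * x - 2 * W.a₄ ^ 3 := by
  simp only [preΨ₄, b₂, b₄, b₆, b₈, hW.a₁, hW.a₃, hW.a₆, eval_add, eval_mul, eval_pow, eval_X,
    eval_C, eval_ofNat]
  ring

/-- the sequence `ψ_n (x, y)`, `n : ℕ`, on a curve `Y² = X³ + a₂ X² + a₄ X` -/
def E (W : WeierstrassCurve K) (x y : K) (n : ℕ) : K :=
  eds (2 * y) (3 * x ^ 4 + 4 * W.a₂ * x ^ 3 + 6 * W.a₄ * x ^ 2 - W.a₄ ^ 2)
    (2 * x ^ 6 + 4 * W.a₂ * x ^ 5 + 10 * W.a₄ * x ^ 4 - 10 * W.a₄ ^ 2 * x ^ 2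
      - 4 * W.a₂ * W.a₄ ^ 2 * x - 2 * W.a₄ ^ 3) n

theorem E_eq {W : WeierstrassCurve K} (hW : IsLeg W) (x y : K) (n : ℕ) :
    E W x y n = (W.ψ (n : ℤ)).evalEval x y := by
  rw [evalEval_ψ, evalEval_ψ₂ hW, eval_Ψ₃ hW, eval_preΨ₄ hW]
  rfl

end Curve

/-! ### the recurrences for `E` -/

section Rec

variable {K : Type*} [Field K] (W : WeierstrassCurve K) (x y : K)

theorem E_zero : E W x y 0 = 0 := eds_zero _ _ _

theorem E_one : E W x y 1 = 1 := eds_one _ _ _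

theorem E_two : E W x y 2 = 2 * y := eds_two _ _ _

theorem E_three : E W x y 3 =
    3 * x ^ 4 + 4 * W.a₂ * x ^ 3 + 6 * W.a₄ * x ^ 2 - W.a₄ ^ 2 := eds_three _ _ _

theorem E_four : E W x y 4 = (2 * x ^ 6 + 4 * W.a₂ * x ^ 5 + 10 * W.a₄ * x ^ 4
    - 10 * W.a₄ ^ 2 * x ^ 2 - 4 * W.a₂ * W.a₄ ^ 2 * x - 2 * W.a₄ ^ 3) * (2 * y) := eds_four _ _ _

theorem E_even (k : ℕ) : E W x y (2 * k + 4) * (2 * y) =
    E W x y (k + 1) ^ 2 * E W x y (k + 2) * E W x y (k + 4)
      - E W x y k * E W x y (k + 2) * E W x y (k + 3) ^ 2 := eds_even _ _ _ k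

theorem E_odd (k : ℕ) : E W x y (2 * k + 3) =
    E W x y (k + 3) * E W x y (k + 1) ^ 3 - E W x y k * E W x y (k + 2) ^ 3 := eds_odd _ _ _ k

end Rec

/-! ### the induction -/

section Claim

variable {K : Type*} [Field K] [DecidableEq K] [CharZero K] {W : WeierstrassCurve K}

omit [CharZero K] in
/-- the sum and product formulas for `P₁ + P₂` when `P₁ - P₂` is known -/
theorem geom (hW : IsLeg W) {x₁ y₁ x₂ y₂ x₄ y₄ : K} (h₁ : W.toAffine.Nonsingular x₁ y₁)
    (h₂ : W.toAffine.Nonsingular x₂ y₂) (h₄ : W.toAffine.Nonsingular x₄ y₄) (hx : x₁ ≠ x₂)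
    (hsub : Point.some x₁ y₁ h₁ - Point.some x₂ y₂ h₂ = Point.some x₄ y₄ h₄) :
    ∃ (x₃ y₃ : K) (h₃ : W.toAffine.Nonsingular x₃ y₃),
      Point.some x₁ y₁ h₁ + Point.some x₂ y₂ h₂ = Point.some x₃ y₃ h₃ ∧
      (x₃ + x₄) * (x₁ - x₂) ^ 2 = 2 * ((x₁ + x₂) * (x₁ * x₂ + W.a₄) + 2 * W.a₂ * x₁ * x₂) ∧
      x₃ * x₄ * (x₁ - x₂) ^ 2 = (x₁ * x₂ - W.a₄) ^ 2 := by
  obtain ⟨x₃, y₃, h₃, x₄', y₄', h₄', e₃, e₄, hp, -, -, hs⟩ := add_sub_some_aux hW h₁ h₂ hx
  have e := e₄.symm.trans hsub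
  rw [Point.some.injEq] at e
  obtain ⟨e1, -⟩ := e
  subst e1
  exact ⟨x₃, y₃, h₃, e₃, hs, hp⟩

/-- CLAIM A at `n = j + 1`, in multiplicative form. -/
def ClaimAt (W : WeierstrassCurve K) {x y : K} (h : W.toAffine.Nonsingular x y) (j : ℕ) : Prop :=
  ∃ (X Y : K) (h' : W.toAffine.Nonsingular X Y),
    (j + 1) • Point.some x y h = Point.some X Y h' ∧
      X * E W x y (j + 1) ^ 2 = x * E W x y (j + 1) ^ 2 - E W x y (j + 2) * E W x y j

omit [DecidableEq K] [CharZero K] in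
theorem sq_two_mul (hW : IsLeg W) {x y : K} (h : W.toAffine.Nonsingular x y) :
    (2 * y) ^ 2 = 4 * (x ^ 3 + W.a₂ * x ^ 2 + W.a₄ * x) := by
  have e := eq_of_nonsingular hW h
  linear_combination 4 * e

omit [CharZero K] in
theorem claim_zero {x y : K} (h : W.toAffine.Nonsingular x y) : ClaimAt W h 0 := by
  refine ⟨x, y, h, one_nsmul _, ?_⟩
  rw [E_zero]
  ring

theorem claim_one (hW : IsLeg W) {x y : K} (h : W.toAffine.Nonsingular x y)
    (hne : E W x y 2 ≠ 0) : ClaimAt W h 1 := by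
  rw [E_two] at hne
  have hy : y ≠ 0 := fun e => hne (by rw [e, mul_zero])
  obtain ⟨X2, Y2, h2, e2, hdup⟩ := two_nsmul_some hW h hy
  refine ⟨X2, Y2, h2, e2, ?_⟩
  have dup : X2 * (4 * (x ^ 3 + W.a₂ * x ^ 2 + W.a₄ * x)) = (x ^ 2 - W.a₄) ^ 2 := by
    rw [← eq_of_nonsingular hW h]; exact hdup
  have := DPAlg.base_two (sq_two_mul hW h) dup
  rw [show (1 : ℕ) + 1 = 2 from rfl, show (1 : ℕ) + 2 = 3 from rfl, E_two, E_three, E_one]
  exact this

theorem claim_two (hW : IsLeg W) {x y : K} (h : W.toAffine.Nonsingular x y)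
    (hne2 : E W x y 2 ≠ 0) (hne3 : E W x y 3 ≠ 0) : ClaimAt W h 2 := by
  obtain ⟨X2, Y2, h2, e2, hX2⟩ := claim_one hW h hne2
  rw [show (1 : ℕ) + 1 = 2 from rfl, show (1 : ℕ) + 2 = 3 from rfl, E_two, E_three, E_one] at hX2
  rw [E_two] at hne2
  rw [E_three] at hne3
  have hx : X2 ≠ x := by
    intro e
    rw [e] at hX2
    apply hne3
    linear_combination hX2
  have hsub : Point.some X2 Y2 h2 - Point.some x y h = Point.some x y h := by
    rw [← e2, succ_nsmul, one_nsmul, add_sub_cancel_right]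
  obtain ⟨x₃, y₃, h₃, hadd, gS, -⟩ := geom hW h2 h h hx hsub
  refine ⟨x₃, y₃, h₃, ?_, ?_⟩
  · rw [← hadd, ← e2, ← succ_nsmul]
  · have := DPAlg.base_three (sq_two_mul hW h) hX2 hne2 gS
    rw [show (2 : ℕ) + 1 = 3 from rfl, show (2 : ℕ) + 2 = 4 from rfl, E_three, E_four, E_two]
    exact this

theorem step_even (hW : IsLeg W) {x y : K} (h : W.toAffine.Nonsingular x y) (k : ℕ)
    (hne : ∀ i, 1 ≤ i → i ≤ 2 * k + 4 → E W x y i ≠ 0)
    (ca : ClaimAt W h k) (cu : ClaimAt W h (k + 1)) (cb : ClaimAt W h (k + 2)) :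
    ClaimAt W h (2 * k + 3) := by
  obtain ⟨Xa, Ya, ha, ea, hXa⟩ := ca
  obtain ⟨Xu, Yu, hu, eu, hXu⟩ := cu
  obtain ⟨Xb, Yb, hb, eb, hXb⟩ := cb
  have hXu' : Xu * E W x y (k + 2) ^ 2 = x * E W x y (k + 2) ^ 2
      - E W x y (k + 3) * E W x y (k + 1) := hXu
  have hXb' : Xb * E W x y (k + 3) ^ 2 = x * E W x y (k + 3) ^ 2
      - E W x y (k + 4) * E W x y (k + 2) := hXb
  have h1 : E W x y (k + 1) ≠ 0 := hne _ (by omega) (by omega)
  have h2 : E W x y (k + 2) ≠ 0 := hne _ (by omega) (by omega)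
  have h3 : E W x y (k + 3) ≠ 0 := hne _ (by omega) (by omega)
  have hq : E W x y (2 * k + 4) ≠ 0 := hne _ (by omega) (by omega)
  have hb0 : 2 * y ≠ 0 := by
    have := hne 2 (by omega) (by omega)
    rwa [E_two] at this
  have hq0 := E_even W x y k
  have hqp : E W x y (2 * k + 5) = E W x y (k + 4) * E W x y (k + 2) ^ 3
      - E W x y (k + 1) * E W x y (k + 3) ^ 3 := E_odd W x y (k + 1)
  have hqm := E_odd W x y k
  have hux : Xu ≠ x := by
    intro e
    rw [e] at hXu'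
    exact mul_ne_zero h3 h1 (by linear_combination hXu')
  have hsub : Point.some Xu Yu hu - Point.some x y h = Point.some Xa Ya ha := by
    rw [← eu, ← ea, succ_nsmul, add_sub_cancel_right]
  obtain ⟨x₃, y₃, h₃, hadd, gS, gP⟩ := geom hW hu h ha hux hsub
  have e3 : Point.some x₃ y₃ h₃ = Point.some Xb Yb hb := by
    rw [← hadd, ← eu, ← eb, ← succ_nsmul]
  rw [Point.some.injEq] at e3
  obtain ⟨e3x, -⟩ := e3
  subst e3x
  have hf := DPAlg.even_ne hq0 h1 h2 h3 hq hb0 hXa hXu' hXb' gS gP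
  have eqn := eq_of_nonsingular hW hu
  have hYu : Yu ≠ 0 := by
    intro e
    apply hf
    rw [e] at eqn
    linear_combination -eqn
  obtain ⟨X2, Y2, h2', e2, hdup⟩ := two_nsmul_some hW hu hYu
  have dup : X2 * (4 * (Xu ^ 3 + W.a₂ * Xu ^ 2 + W.a₄ * Xu)) = (Xu ^ 2 - W.a₄) ^ 2 := by
    rw [← eqn]; exact hdup
  refine ⟨X2, Y2, h2', ?_, ?_⟩
  · have e : 2 * k + 3 + 1 = 2 * (k + 1 + 1) := by ring
    rw [e, mul_nsmul', eu, e2]
  · exact DPAlg.even_combined (sq_two_mul hW h) hq0 hqp hqm h1 h2 h3 hq hb0 hXa hXu' hXb' gS gP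
      dup

omit [CharZero K] in
theorem step_odd (hW : IsLeg W) {x y : K} (h : W.toAffine.Nonsingular x y) (k : ℕ)
    (hne : ∀ i, 1 ≤ i → i ≤ 2 * k + 5 → E W x y i ≠ 0)
    (cc : ClaimAt W h k) (ca : ClaimAt W h (k + 1)) (cb : ClaimAt W h (k + 2))
    (cd : ClaimAt W h (k + 3)) :
    ClaimAt W h (2 * k + 4) := by
  obtain ⟨Xc, Yc, hc, ec, hXc⟩ := cc
  obtain ⟨Xa, Ya, ha, ea, hXa⟩ := ca
  obtain ⟨Xb, Yb, hb, eb, hXb⟩ := cb
  obtain ⟨Xd, Yd, hd, ed, hXd⟩ := cd
  have hXa' : Xa * E W x y (k + 2) ^ 2 = x * E W x y (k + 2) ^ 2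
      - E W x y (k + 3) * E W x y (k + 1) := hXa
  have hXb' : Xb * E W x y (k + 3) ^ 2 = x * E W x y (k + 3) ^ 2
      - E W x y (k + 4) * E W x y (k + 2) := hXb
  have hXd' : Xd * E W x y (k + 4) ^ 2 = x * E W x y (k + 4) ^ 2
      - E W x y (k + 5) * E W x y (k + 3) := hXd
  have h1 : E W x y (k + 1) ≠ 0 := hne _ (by omega) (by omega)
  have h2 : E W x y (k + 2) ≠ 0 := hne _ (by omega) (by omega)
  have h3 : E W x y (k + 3) ≠ 0 := hne _ (by omega) (by omega)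
  have h4 : E W x y (k + 4) ≠ 0 := hne _ (by omega) (by omega)
  have hq : E W x y (2 * k + 5) ≠ 0 := hne _ (by omega) (by omega)
  have hb0 : 2 * y ≠ 0 := by
    have := hne 2 (by omega) (by omega)
    rwa [E_two] at this
  have hq0 := E_even W x y k
  have hq1 : E W x y (2 * k + 5) = E W x y (k + 4) * E W x y (k + 2) ^ 3
      - E W x y (k + 1) * E W x y (k + 3) ^ 3 := E_odd W x y (k + 1)
  have hq2 : E W x y (2 * k + 6) * (2 * y) =
      E W x y (k + 2) ^ 2 * E W x y (k + 3) * E W x y (k + 5)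
        - E W x y (k + 1) * E W x y (k + 3) * E W x y (k + 4) ^ 2 := E_even W x y (k + 1)
  -- relations at `m = k + 2`
  have hax : Xa ≠ x := by
    intro e
    rw [e] at hXa'
    exact mul_ne_zero h3 h1 (by linear_combination hXa')
  have hsub1 : Point.some Xa Ya ha - Point.some x y h = Point.some Xc Yc hc := by
    rw [← ea, ← ec, succ_nsmul, add_sub_cancel_right]
  obtain ⟨x₃, y₃, h₃, hadd1, gS1, gP1⟩ := geom hW ha h hc hax hsub1
  have e3 : Point.some x₃ y₃ h₃ = Point.some Xb Yb hb := by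
    rw [← hadd1, ← ea, ← eb, ← succ_nsmul]
  rw [Point.some.injEq] at e3
  obtain ⟨e3x, -⟩ := e3
  subst e3x
  -- relations at `m + 1 = k + 3`
  have hbx : x₃ ≠ x := by
    intro e
    rw [e] at hXb'
    exact mul_ne_zero h4 h2 (by linear_combination hXb')
  have hsub2 : Point.some x₃ Yb hb - Point.some x y h = Point.some Xa Ya ha := by
    rw [← eb, ← ea, succ_nsmul, add_sub_cancel_right]
  obtain ⟨x₅, y₅, h₅, hadd2, gS2, -⟩ := geom hW hb h ha hbx hsub2
  have e5 : Point.some x₅ y₅ h₅ = Point.some Xd Yd hd := by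
    rw [← hadd2, ← eb, ← ed, ← succ_nsmul]
  rw [Point.some.injEq] at e5
  obtain ⟨e5x, -⟩ := e5
  subst e5x
  -- the sum `(m + 1) P + m P`
  have hba : x₃ ≠ Xa := DPAlg.odd_ne hq1 h2 h3 hq hXa' hXb'
  have hsub3 : Point.some x₃ Yb hb - Point.some Xa Ya ha = Point.some x y h := by
    rw [← eb, ← ea, succ_nsmul, add_sub_cancel_left]
  obtain ⟨X3, Y3, h3', hadd3, gX3, -⟩ := geom hW hb ha h hba hsub3
  refine ⟨X3, Y3, h3', ?_, ?_⟩
  · have e : 2 * k + 4 + 1 = (k + 2 + 1) + (k + 1 + 1) := by ring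
    rw [e, add_nsmul, eb, ea, hadd3]
  · exact DPAlg.odd_combined (sq_two_mul hW h) hq0 hq1 hq2 h1 h2 h3 h4 hq hb0 hXc hXa' hXb' hXd'
      gS1 gP1 gS2 gX3

/-- CLAIM A in multiplicative form, for all `n = j + 1`. -/
theorem claim_all (hW : IsLeg W) {x y : K} (h : W.toAffine.Nonsingular x y) :
    ∀ j : ℕ, (∀ i, 1 ≤ i → i ≤ j + 1 → E W x y i ≠ 0) → ClaimAt W h j := by
  intro j
  induction j using Nat.strong_induction_on with
  | _ j ih =>
    intro hne
    rcases j with _ | _ | _ | j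
    · exact claim_zero h
    · exact claim_one hW h (hne 2 (by omega) (by omega))
    · exact claim_two hW h (hne 2 (by omega) (by omega)) (hne 3 (by omega) (by omega))
    · obtain ⟨k, rfl | rfl⟩ := Nat.even_or_odd' j
      · exact step_even hW h k (fun i hi hi' => hne i hi (by omega))
          (ih k (by omega) (fun i hi hi' => hne i hi (by omega)))
          (ih (k + 1) (by omega) (fun i hi hi' => hne i hi (by omega)))
          (ih (k + 2) (by omega) (fun i hi hi' => hne i hi (by omega)))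
      · exact step_odd hW h k (fun i hi hi' => hne i hi (by omega))
          (ih k (by omega) (fun i hi hi' => hne i hi (by omega)))
          (ih (k + 1) (by omega) (fun i hi hi' => hne i hi (by omega)))
          (ih (k + 2) (by omega) (fun i hi hi' => hne i hi (by omega)))
          (ih (k + 3) (by omega) (fun i hi hi' => hne i hi (by omega)))

/-- CLAIM B in terms of `E`. -/
theorem claimB_E (hW : IsLeg W) {x y : K} (h : W.toAffine.Nonsingular x y) {n : ℕ} (hn : 1 ≤ n)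
    (hne : ∀ i, 1 ≤ i → i ≤ n → E W x y i ≠ 0) (h0 : E W x y (n + 1) = 0) :
    (n + 1) • Point.some x y h = 0 := by
  have hP0 : Point.some x y h ≠ 0 := Point.some_ne_zero h
  rcases n with _ | _ | n
  · omega
  · -- `n + 1 = 2`
    rw [show (0 : ℕ) + 1 + 1 = 2 from rfl, E_two] at h0
    have hy : y = 0 := by
      rcases mul_eq_zero.mp h0 with h' | h'
      · exact absurd h' two_ne_zero
      · exact h'
    exact two_nsmul_some_eq_zero hW h hy
  · obtain ⟨k, rfl | rfl⟩ := Nat.even_or_odd' n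
    · -- `n + 1 = 2 k + 3`
      have h0' : E W x y (2 * k + 3) = 0 := h0
      obtain ⟨Xa, Ya, ha, ea, hXa⟩ := claim_all hW h k (fun i hi hi' => hne i hi (by omega))
      obtain ⟨Xb, Yb, hb, eb, hXb⟩ :=
        claim_all hW h (k + 1) (fun i hi hi' => hne i hi (by omega))
      have hXb' : Xb * E W x y (k + 2) ^ 2 = x * E W x y (k + 2) ^ 2
          - E W x y (k + 3) * E W x y (k + 1) := hXb
      have h2 : E W x y (k + 1) ≠ 0 := hne _ (by omega) (by omega)
      have h3 : E W x y (k + 2) ≠ 0 := hne _ (by omega) (by omega)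
      have hx := DPAlg.odd_eq (E_odd W x y k) h2 h3 h0' hXa hXb'
      subst hx
      have e : 2 * k + 1 + 1 + 1 = (k + 1 + 1) + (k + 1) := by ring
      rw [e, add_nsmul, eb, ea]
      rcases eq_or_eq_neg_of_x_eq hW hb ha with hy | hy
      · exfalso
        subst hy
        apply hP0
        have e1 : (k + 1 + 1) • Point.some x y h = (k + 1) • Point.some x y h := by rw [eb, ea]
        rw [succ_nsmul] at e1
        exact add_eq_left.mp e1
      · exact add_some_eq_zero hW hb ha ⟨rfl, hy⟩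
    · -- `n + 1 = 2 k + 4`
      have h0' : E W x y (2 * k + 4) = 0 := h0
      obtain ⟨Xa, Ya, ha, ea, hXa⟩ := claim_all hW h k (fun i hi hi' => hne i hi (by omega))
      obtain ⟨Xb, Yb, hb, eb, hXb⟩ :=
        claim_all hW h (k + 2) (fun i hi hi' => hne i hi (by omega))
      have hXb' : Xb * E W x y (k + 3) ^ 2 = x * E W x y (k + 3) ^ 2
          - E W x y (k + 4) * E W x y (k + 2) := hXb
      have h1 : E W x y (k + 1) ≠ 0 := hne _ (by omega) (by omega)
      have h3 : E W x y (k + 3) ≠ 0 := hne _ (by omega) (by omega)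
      have hx := DPAlg.even_eq (E_even W x y k) h1 h3 h0' hXa hXb'
      subst hx
      have e : 2 * k + 1 + 1 + 1 + 1 = (k + 2 + 1) + (k + 1) := by ring
      rw [e, add_nsmul, eb, ea]
      rcases eq_or_eq_neg_of_x_eq hW hb ha with hy | hy
      · exfalso
        subst hy
        have e1 : (k + 2 + 1) • Point.some x y h = (k + 1) • Point.some x y h := by rw [eb, ea]
        have e2 : (2 : ℕ) • Point.some x y h = 0 := by
          have e3 : k + 2 + 1 = (k + 1) + 2 := by ring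
          rw [e3, add_nsmul] at e1
          exact add_eq_left.mp e1
        have hy2 : E W x y 2 ≠ 0 := hne 2 (by omega) (by omega)
        rw [E_two] at hy2
        have hy : y ≠ 0 := fun e => hy2 (by rw [e, mul_zero])
        obtain ⟨x', y', h', e', -⟩ := two_nsmul_some hW h hy
        rw [e2] at e'
        exact Point.some_ne_zero h' e'.symm
      · exact add_some_eq_zero hW hb ha ⟨rfl, hy⟩

/-- a point killed by `n ≥ 1` is killed by some `2 ≤ r ≤ n` with `E r = 0` -/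
theorem exists_E_eq_zero (hW : IsLeg W) {x y : K} (h : W.toAffine.Nonsingular x y) {n : ℕ}
    (hn : 1 ≤ n) (hP : n • Point.some x y h = 0) :
    ∃ r : ℕ, 2 ≤ r ∧ r ≤ n ∧ E W x y r = 0 ∧ r • Point.some x y h = 0 := by
  classical
  have hex : ∃ i, 1 ≤ i ∧ i ≤ n ∧ E W x y i = 0 := by
    by_contra hcon
    have hcon' : ∀ i, 1 ≤ i → i ≤ n → E W x y i ≠ 0 := fun i hi hi' h0 => hcon ⟨i, hi, hi', h0⟩
    obtain ⟨j, rfl⟩ : ∃ j, n = j + 1 := ⟨n - 1, by omega⟩
    obtain ⟨X, Y, h', e, -⟩ := claim_all hW h j hcon'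
    rw [hP] at e
    exact Point.some_ne_zero h' e.symm
  obtain ⟨r, ⟨hr1, hrn, hr0⟩, hrmin⟩ : ∃ r, (1 ≤ r ∧ r ≤ n ∧ E W x y r = 0) ∧
      ∀ i, (1 ≤ i ∧ i ≤ n ∧ E W x y i = 0) → r ≤ i :=
    ⟨Nat.find hex, Nat.find_spec hex, fun i hi => Nat.find_min' hex hi⟩
  have hr2 : 2 ≤ r := by
    rcases Nat.lt_or_ge r 2 with hlt | hge
    · have : r = 1 := by omega
      rw [this, E_one] at hr0
      exact absurd hr0 one_ne_zero
    · exact hge
  refine ⟨r, hr2, hrn, hr0, ?_⟩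
  obtain ⟨m, rfl⟩ : ∃ m, r = m + 1 := ⟨r - 1, by omega⟩
  have hmin : ∀ i, 1 ≤ i → i ≤ m → E W x y i ≠ 0 := by
    intro i hi him h0
    have : m + 1 ≤ i := hrmin i ⟨hi, by omega, h0⟩
    omega
  exact claimB_E hW h (by omega) hmin hr0

end Claim

/-! ### final statements, in terms of Mathlib's `W.ψ` -/

section Final

/-- the value of the `n`-th division polynomial at `(x, y)` -/
noncomputable def psi {K : Type*} [Field K] (W : WeierstrassCurve K) (x y : K) (n : ℤ) : K :=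
  (W.ψ n).evalEval x y

theorem psi_eq_normEDS {K : Type*} [Field K] (W : WeierstrassCurve K) (x y : K) (n : ℤ) :
    psi W x y n = normEDS (W.ψ₂.evalEval x y) (W.Ψ₃.eval x) (W.preΨ₄.eval x) n :=
  evalEval_ψ W x y n

/-- On the curve, `ψ_n (x, y) = preΨ_n (x) * (ψ₂ (x, y) if n is even, 1 otherwise)`. -/
theorem psi_of_equation {K : Type*} [Field K] {W : WeierstrassCurve K} {x y : K}
    (heq : W.toAffine.Equation x y) (n : ℤ) :
    psi W x y n = (W.preΨ n).eval x * (if Even n then W.ψ₂.evalEval x y else 1) := by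
  have hsq : W.ψ₂.evalEval x y ^ 2 = W.Ψ₂Sq.eval x := by
    have h1 : (evalEvalRingHom x y) (W.ψ₂ ^ 2) =
        (evalEvalRingHom x y) (C W.Ψ₂Sq + 4 * W.toAffine.polynomial) := by rw [W.ψ₂_sq]
    have h2 : W.toAffine.polynomial.evalEval x y = 0 := heq
    rw [map_pow, map_add, map_mul] at h1
    simp only [coe_evalEvalRingHom, evalEval_C] at h1
    rw [h2, mul_zero, add_zero] at h1
    exact h1
  have h4 : W.ψ₂.evalEval x y ^ 4 = W.Ψ₂Sq.eval x ^ 2 := by
    rw [← hsq]; ring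
  rw [psi_eq_normEDS, normEDS, h4, WeierstrassCurve.preΨ, ← coe_evalRingHom, map_preNormEDS]
  simp only [coe_evalRingHom, eval_pow]

variable {K : Type*} [Field K] [DecidableEq K] [CharZero K] {W : WeierstrassCurve K}

omit [DecidableEq K] [CharZero K] in
theorem psi_natCast (hW : IsLeg W) (x y : K) (n : ℕ) : psi W x y (n : ℤ) = E W x y n :=
  (E_eq hW x y n).symm

/-- **CLAIM A.** If `ψ_j (P) ≠ 0` for `1 ≤ j ≤ n` then `n • P` is an affine point with
`x (n • P) = x - ψ_{n+1} ψ_{n-1} / ψ_n²`. -/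
theorem claimA (hW : IsLeg W) {x y : K} (h : W.toAffine.Nonsingular x y) {n : ℕ} (hn : 1 ≤ n)
    (hψ : ∀ j : ℕ, 1 ≤ j → j ≤ n → psi W x y j ≠ 0) :
    ∃ (xn yn : K) (h' : W.toAffine.Nonsingular xn yn),
      n • Point.some x y h = Point.some xn yn h' ∧
        xn = x - psi W x y (n + 1) * psi W x y (n - 1) / psi W x y n ^ 2 := by
  obtain ⟨j, rfl⟩ : ∃ j, n = j + 1 := ⟨n - 1, by omega⟩
  have hne : ∀ i, 1 ≤ i → i ≤ j + 1 → E W x y i ≠ 0 := fun i hi hi' => by
    rw [← psi_natCast hW]; exact hψ i hi hi'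
  obtain ⟨X, Y, h', e, hX⟩ := claim_all hW h j hne
  refine ⟨X, Y, h', e, ?_⟩
  have e1 : psi W x y (((j + 1 : ℕ) : ℤ) + 1) = E W x y (j + 2) := by
    rw [← psi_natCast hW]; congr 1
  have e2 : psi W x y (((j + 1 : ℕ) : ℤ) - 1) = E W x y j := by
    rw [← psi_natCast hW]; congr 1; push_cast; ring
  rw [e1, e2, psi_natCast hW]
  have h1 : E W x y (j + 1) ≠ 0 := hne _ (by omega) le_rfl
  field_simp
  linear_combination hX

/-- **CLAIM B.** If `ψ_j (P) ≠ 0` for `1 ≤ j ≤ n` and `ψ_{n+1} (P) = 0` then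
`(n + 1) • P = 0`. -/
theorem claimB (hW : IsLeg W) {x y : K} (h : W.toAffine.Nonsingular x y) {n : ℕ} (hn : 1 ≤ n)
    (hψ : ∀ j : ℕ, 1 ≤ j → j ≤ n → psi W x y j ≠ 0) (h0 : psi W x y (n + 1) = 0) :
    (n + 1) • Point.some x y h = 0 := by
  have hne : ∀ i, 1 ≤ i → i ≤ n → E W x y i ≠ 0 := fun i hi hi' => by
    rw [← psi_natCast hW]; exact hψ i hi hi'
  have h0' : E W x y (n + 1) = 0 := by
    rw [← psi_natCast hW]
    have e : (((n + 1 : ℕ)) : ℤ) = (n : ℤ) + 1 := by push_cast; ring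
    rw [e]; exact h0
  exact claimB_E hW h hn hne h0'

/-- A point killed by `n ≥ 1` is killed by some `2 ≤ r ≤ n` with `ψ_r (P) = 0`. -/
theorem exists_psi_eq_zero (hW : IsLeg W) {x y : K} (h : W.toAffine.Nonsingular x y) {n : ℕ}
    (hn : 1 ≤ n) (hP : n • Point.some x y h = 0) :
    ∃ r : ℕ, 2 ≤ r ∧ r ≤ n ∧ psi W x y r = 0 ∧ r • Point.some x y h = 0 := by
  obtain ⟨r, hr2, hrn, hr0, hrP⟩ := exists_E_eq_zero hW h hn hP
  exact ⟨r, hr2, hrn, by rw [psi_natCast hW]; exact hr0, hrP⟩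

/-- **(N2).** For an odd prime `p`, the `x`-coordinate of a point of order `p` is a root of
`W.preΨ p`. -/
theorem preΨ_eval_eq_zero (hW : IsLeg W) {p : ℕ} (hp : p.Prime) (hp2 : p ≠ 2) {x y : K}
    (h : W.toAffine.Nonsingular x y) (hP : p • Point.some x y h = 0) :
    (W.preΨ (p : ℤ)).eval x = 0 := by
  obtain ⟨r, hr2, hrp, hr0, hrP⟩ := exists_psi_eq_zero hW h hp.one_le hP
  have hP0 : Point.some x y h ≠ 0 := Point.some_ne_zero h
  have hdvd : p ∣ r := by
    have h1 : addOrderOf (Point.some x y h) ∣ p := addOrderOf_dvd_of_nsmul_eq_zero hP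
    have h2 : addOrderOf (Point.some x y h) ∣ r := addOrderOf_dvd_of_nsmul_eq_zero hrP
    rcases (Nat.dvd_prime hp).mp h1 with h' | h'
    · exact absurd (AddMonoid.addOrderOf_eq_one_iff.mp h') hP0
    · rwa [h'] at h2
  have hrp' : r = p := le_antisymm hrp (Nat.le_of_dvd (by omega) hdvd)
  subst hrp'
  rw [psi_of_equation h.1] at hr0
  have hodd : ¬ Even ((r : ℕ) : ℤ) := by
    rw [Int.even_coe_nat]
    exact Nat.not_even_iff_odd.mpr (hp.odd_of_ne_two hp2)
  rwa [if_neg hodd, mul_one] at hr0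

/-- (N2) with the integer scalar action. -/
theorem preΨ_eval_eq_zero' (hW : IsLeg W) {p : ℕ} (hp : p.Prime) (hp2 : p ≠ 2) {x y : K}
    (h : W.toAffine.Nonsingular x y) (hP : (p : ℤ) • Point.some x y h = 0) :
    (W.preΨ (p : ℤ)).eval x = 0 :=
  preΨ_eval_eq_zero hW hp hp2 h (by rwa [natCast_zsmul] at hP)

end Final

end Fermat.Agent.S13.DPClaim
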