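import Mathlib
import Fermat.Agent.S05.Model
import Fermat.Agent.S05.Frey
import Fermat.Agent.S13.Defs
import Fermat.Prelude.Def_FLTPrelim_GaloisRep

/-!
# S13, route DP, piece A-MODEL

Transport of the `n`-torsion Galois module between a curve `y² + xy = x³ + a₂ x² + a₄ x` over `ℚ`
and its Legendre-type translates `legOf W r` (`Y² = X³ + a₂' X² + a₄' X`), via the landed
`Fermat.Agent.S05.Model.pointEquiv` (`(x, y) ↦ (x - r, y + x/2)`).
-/

set_option autoImplicit false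

namespace Fermat.Agent.S13.DPModel

open WeierstrassCurve WeierstrassCurve.Affine WeierstrassCurve.Affine.Point
open Fermat.Agent.S05

section General

variable (K : Type*) [Field K] [DecidableEq K] [Algebra ℚ K]
variable (W : WeierstrassCurve ℚ) (h1 : W.a₁ = 1) (h3 : W.a₃ = 0) (h6 : W.a₆ = 0) (r : ℚ)
  (hr : r ^ 3 + (W.a₂ + 1 / 4) * r ^ 2 + W.a₄ * r = 0) (n : ℕ)

/-- The additive equivalence between the groups of points of the two models. -/
noncomputable def ptEquiv [CharZero K] : (W⁄K).Point ≃+ ((legOf W r)⁄K).Point :=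
  Model.pointEquiv (Model.rel_legOf K W h1 h3 h6 r hr)

theorem ptEquiv_some [CharZero K] {x y : K} (hxy : (W⁄K).Nonsingular x y) :
    ∃ h' : ((legOf W r)⁄K).Nonsingular (x - algebraMap ℚ K r) (y + x / 2),
      ptEquiv K W h1 h3 h6 r hr (Point.some x y hxy)
        = Point.some (x - algebraMap ℚ K r) (y + x / 2) h' :=
  ⟨_, Model.pointEquiv_some (Model.rel_legOf K W h1 h3 h6 r hr) hxy⟩

theorem ptEquiv_smul [CharZero K] (σ : K ≃ₐ[ℚ] K) (P : (W⁄K).Point) :
    ptEquiv K W h1 h3 h6 r hr (σ • P) = σ • ptEquiv K W h1 h3 h6 r hr P := by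
  rcases P with _ | ⟨x, y, hxy⟩
  · rfl
  · rw [Point.algEquiv_smul_def, Point.map_some]
    unfold ptEquiv
    rw [Model.pointEquiv_some, Model.pointEquiv_some, Point.algEquiv_smul_def, Point.map_some]
    refine Model.some_congr _ _ ?_ ?_
    · rw [map_sub, AlgHom.commutes]
    · rw [map_add, map_div₀, map_ofNat]

/-- (MD1) the `ZMod n`-linear equivalence between the `n`-torsion modules of the two models. -/
noncomputable def torsEquiv [CharZero K] :
    Submodule.torsionBy ℤ (W⁄K).Point n ≃ₗ[ZMod n]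
      Submodule.torsionBy ℤ ((legOf W r)⁄K).Point n :=
  { AddMonoidHom.toZModLinearMap n
      ({ toFun := fun Q => ⟨ptEquiv K W h1 h3 h6 r hr Q.1, by
            have hQ := (Submodule.mem_torsionBy_iff _ _).mp Q.2
            rw [Submodule.mem_torsionBy_iff, ← map_zsmul, hQ, _root_.map_zero]⟩
         map_zero' := Subtype.ext (_root_.map_zero (ptEquiv K W h1 h3 h6 r hr))
         map_add' := fun P Q => Subtype.ext (map_add (ptEquiv K W h1 h3 h6 r hr) P.1 Q.1) } :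
        Submodule.torsionBy ℤ (W⁄K).Point n →+
          Submodule.torsionBy ℤ ((legOf W r)⁄K).Point n) with
    invFun := fun Q => ⟨(ptEquiv K W h1 h3 h6 r hr).symm Q.1, by
      have hQ := (Submodule.mem_torsionBy_iff _ _).mp Q.2
      rw [Submodule.mem_torsionBy_iff, ← map_zsmul, hQ, _root_.map_zero]⟩
    left_inv := fun Q => Subtype.ext ((ptEquiv K W h1 h3 h6 r hr).symm_apply_apply Q.1)
    right_inv := fun Q => Subtype.ext ((ptEquiv K W h1 h3 h6 r hr).apply_symm_apply Q.1) }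

theorem torsEquiv_coe [CharZero K] (Q : Submodule.torsionBy ℤ (W⁄K).Point n) :
    ((torsEquiv K W h1 h3 h6 r hr n Q : Submodule.torsionBy ℤ ((legOf W r)⁄K).Point n) :
      ((legOf W r)⁄K).Point) = ptEquiv K W h1 h3 h6 r hr Q.1 := rfl

theorem torsEquiv_smul [CharZero K] (σ : K ≃ₐ[ℚ] K)
    (Q : Submodule.torsionBy ℤ (W⁄K).Point n) :
    torsEquiv K W h1 h3 h6 r hr n (σ • Q) = σ • torsEquiv K W h1 h3 h6 r hr n Q :=
  Subtype.ext (ptEquiv_smul K W h1 h3 h6 r hr σ Q.1)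

theorem torsEquiv_symm_smul [CharZero K] (σ : K ≃ₐ[ℚ] K)
    (Q : Submodule.torsionBy ℤ ((legOf W r)⁄K).Point n) :
    (torsEquiv K W h1 h3 h6 r hr n).symm (σ • Q)
      = σ • (torsEquiv K W h1 h3 h6 r hr n).symm Q := by
  apply (torsEquiv K W h1 h3 h6 r hr n).injective
  rw [torsEquiv_smul, LinearEquiv.apply_symm_apply, LinearEquiv.apply_symm_apply]

theorem torsEquiv_some [CharZero K] (Q : Submodule.torsionBy ℤ (W⁄K).Point n) {x y : K}
    (hxy : (W⁄K).Nonsingular x y) (hQ : (Q : (W⁄K).Point) = Point.some x y hxy) :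
    ∃ h' : ((legOf W r)⁄K).Nonsingular (x - algebraMap ℚ K r) (y + x / 2),
      ((torsEquiv K W h1 h3 h6 r hr n Q : Submodule.torsionBy ℤ ((legOf W r)⁄K).Point n) :
        ((legOf W r)⁄K).Point) = Point.some (x - algebraMap ℚ K r) (y + x / 2) h' := by
  obtain ⟨h', e⟩ := ptEquiv_some K W h1 h3 h6 r hr hxy
  exact ⟨h', by rw [torsEquiv_coe, hQ, e]⟩

theorem torsEquiv_eq_zero_iff [CharZero K] (Q : Submodule.torsionBy ℤ (W⁄K).Point n) :
    torsEquiv K W h1 h3 h6 r hr n Q = 0 ↔ Q = 0 :=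
  (torsEquiv K W h1 h3 h6 r hr n).map_eq_zero_iff

/-! ### (MD2) transfer lemmas -/

include h1 h3 h6 hr

theorem nontrivial_iff [CharZero K] :
    Nontrivial (Submodule.torsionBy ℤ (W⁄K).Point n) ↔
      Nontrivial (Submodule.torsionBy ℤ ((legOf W r)⁄K).Point n) :=
  (torsEquiv K W h1 h3 h6 r hr n).toEquiv.nontrivial_congr

theorem finite_iff [CharZero K] :
    Finite (Submodule.torsionBy ℤ (W⁄K).Point n) ↔
      Finite (Submodule.torsionBy ℤ ((legOf W r)⁄K).Point n) :=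
  (torsEquiv K W h1 h3 h6 r hr n).toEquiv.finite_iff

theorem card_eq [CharZero K] :
    Nat.card (Submodule.torsionBy ℤ (W⁄K).Point n) =
      Nat.card (Submodule.torsionBy ℤ ((legOf W r)⁄K).Point n) :=
  Nat.card_congr (torsEquiv K W h1 h3 h6 r hr n).toEquiv

theorem isGaloisStable_map [CharZero K]
    {N : Submodule (ZMod n) (Submodule.torsionBy ℤ (W⁄K).Point n)}
    (hN : IsGaloisStable ℚ N) :
    IsGaloisStable ℚ (N.map (torsEquiv K W h1 h3 h6 r hr n).toLinearMap) := by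
  rintro σ _ ⟨x, hx, rfl⟩
  refine ⟨σ • x, hN σ x hx, ?_⟩
  exact torsEquiv_smul K W h1 h3 h6 r hr n σ x

theorem isGaloisStable_map_symm [CharZero K]
    {N : Submodule (ZMod n) (Submodule.torsionBy ℤ ((legOf W r)⁄K).Point n)}
    (hN : IsGaloisStable ℚ N) :
    IsGaloisStable ℚ (N.map (torsEquiv K W h1 h3 h6 r hr n).symm.toLinearMap) := by
  rintro σ _ ⟨x, hx, rfl⟩
  refine ⟨σ • x, hN σ x hx, ?_⟩
  exact torsEquiv_symm_smul K W h1 h3 h6 r hr n σ x

/-- (MD2) a proper nonzero Galois-stable submodule exists for `W` iff one exists for the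
translate `legOf W r`. -/
theorem exists_stable_iff [CharZero K] :
    (∃ N : Submodule (ZMod n) (Submodule.torsionBy ℤ (W⁄K).Point n),
        IsGaloisStable ℚ N ∧ N ≠ ⊥ ∧ N ≠ ⊤) ↔
      ∃ N : Submodule (ZMod n) (Submodule.torsionBy ℤ ((legOf W r)⁄K).Point n),
        IsGaloisStable ℚ N ∧ N ≠ ⊥ ∧ N ≠ ⊤ := by
  constructor
  · rintro ⟨N, hN, hbot, htop⟩
    refine ⟨N.map (torsEquiv K W h1 h3 h6 r hr n).toLinearMap,
      isGaloisStable_map K W h1 h3 h6 r hr n hN, ?_, ?_⟩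
    · intro h
      exact hbot ((Submodule.map_eq_bot_iff (e := torsEquiv K W h1 h3 h6 r hr n) (p := N)).mp h)
    · intro h
      apply htop
      have := (Submodule.map_eq_top_iff (e := torsEquiv K W h1 h3 h6 r hr n) (p := N)).mp h
      exact this
  · rintro ⟨N, hN, hbot, htop⟩
    refine ⟨N.map (torsEquiv K W h1 h3 h6 r hr n).symm.toLinearMap,
      isGaloisStable_map_symm K W h1 h3 h6 r hr n hN, ?_, ?_⟩
    · intro h
      exact hbot ((Submodule.map_eq_bot_iff (e := (torsEquiv K W h1 h3 h6 r hr n).symm) (p := N)).mp h)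
    · intro h
      apply htop
      have := (Submodule.map_eq_top_iff (e := (torsEquiv K W h1 h3 h6 r hr n).symm) (p := N)).mp h
      exact this

/-! ### (MD4) generic transfers of `(T)` and `(Xp)` -/

/-- the `(T)` statement transfers from the translate `legOf W r` to `W` -/
theorem T_of_leg [CharZero K] {B : ℕ}
    (hleg : Nontrivial (Submodule.torsionBy ℤ ((legOf W r)⁄K).Point n) ∧
      Finite (Submodule.torsionBy ℤ ((legOf W r)⁄K).Point n) ∧
      Nat.card (Submodule.torsionBy ℤ ((legOf W r)⁄K).Point n) < B) :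
    Nontrivial (Submodule.torsionBy ℤ (W⁄K).Point n) ∧
      Finite (Submodule.torsionBy ℤ (W⁄K).Point n) ∧
      Nat.card (Submodule.torsionBy ℤ (W⁄K).Point n) < B :=
  ⟨(nontrivial_iff K W h1 h3 h6 r hr n).mpr hleg.1, (finite_iff K W h1 h3 h6 r hr n).mpr hleg.2.1,
    by rw [card_eq K W h1 h3 h6 r hr n]; exact hleg.2.2⟩

/-- If all nonzero `n`-torsion points of `W` have `x ∉ A` and `r ∈ A`, the same holds on the
translate `legOf W r` (in the definition-free form used by the Legendre-side statements). -/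
theorem ker_leg_of_ker [CharZero K] (A : ValuationSubring K) (hrA : algebraMap ℚ K r ∈ A)
    (hker : ∀ (Q : Submodule.torsionBy ℤ (W⁄K).Point n) (x y : K) (h : (W⁄K).Nonsingular x y),
      (Q : (W⁄K).Point) = Point.some x y h → x ∉ A) :
    ∀ (x y : K) (h : ((legOf W r)⁄K).Nonsingular x y),
      (n : ℤ) • Point.some x y h = 0 → x ∉ A := by
  intro x y h hn
  set QL : Submodule.torsionBy ℤ ((legOf W r)⁄K).Point n :=
    ⟨Point.some x y h, (Submodule.mem_torsionBy_iff _ _).mpr hn⟩ with hQL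
  set Q := (torsEquiv K W h1 h3 h6 r hr n).symm QL with hQ
  have hback : torsEquiv K W h1 h3 h6 r hr n Q = QL := by
    rw [hQ, LinearEquiv.apply_symm_apply]
  rcases hQ1 : (Q : (W⁄K).Point) with _ | ⟨x', y', h'⟩
  · exfalso
    have hQ0 : Q = 0 := Subtype.ext hQ1
    rw [hQ0, _root_.map_zero] at hback
    have h0 : (0 : ((legOf W r)⁄K).Point) = Point.some x y h := congrArg Subtype.val hback
    exact Point.some_ne_zero h h0.symm
  · obtain ⟨h'', e⟩ := torsEquiv_some K W h1 h3 h6 r hr n Q h' hQ1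
    rw [hback] at e
    have hx : x = x' - algebraMap ℚ K r := by
      have e' : Point.some x y h = Point.some (x' - algebraMap ℚ K r) (y' + x' / 2) h'' := e
      injection e'
    have hx' : x' ∉ A := hker Q x' y' h' hQ1
    intro hxA
    apply hx'
    have : x' = x + algebraMap ℚ K r := by rw [hx]; ring
    rw [this]
    exact A.add_mem _ _ hxA hrA

/-- the `(Xp)` statement transfers from the translate `legOf W r` (with `r ∈ A`) to `W` -/
theorem Xp_of_leg [CharZero K] (A : ValuationSubring K) (hrA : algebraMap ℚ K r ∈ A)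
    (hleg : (∀ (x y : K) (h : ((legOf W r)⁄K).Nonsingular x y),
        (n : ℤ) • Point.some x y h = 0 → x ∉ A) →
      ¬ ∃ N : Submodule (ZMod n) (Submodule.torsionBy ℤ ((legOf W r)⁄K).Point n),
        IsGaloisStable ℚ N ∧ N ≠ ⊥ ∧ N ≠ ⊤)
    (hker : ∀ (Q : Submodule.torsionBy ℤ (W⁄K).Point n) (x y : K) (h : (W⁄K).Nonsingular x y),
      (Q : (W⁄K).Point) = Point.some x y h → x ∉ A) :
    ¬ ∃ N : Submodule (ZMod n) (Submodule.torsionBy ℤ (W⁄K).Point n),
      IsGaloisStable ℚ N ∧ N ≠ ⊥ ∧ N ≠ ⊤ := by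
  intro hN
  exact hleg (ker_leg_of_ker K W h1 h3 h6 r hr n A hrA hker)
    ((exists_stable_iff K W h1 h3 h6 r hr n).mp hN)

end General

/-! ### (MD3) a translate of the Frey curve whose `a₄` is a `q`-unit -/

section Frey

variable {q : ℕ}

theorem legOf_Δ (W : WeierstrassCurve ℚ) (r : ℚ) :
    (legOf W r).Δ = 16 * (legOf W r).a₄ ^ 2 * ((legOf W r).a₂ ^ 2 - 4 * (legOf W r).a₄) := by
  simp only [WeierstrassCurve.Δ, WeierstrassCurve.b₂, WeierstrassCurve.b₄, WeierstrassCurve.b₆,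
    WeierstrassCurve.b₈, legOf]
  ring

theorem val_quarter_nonneg (hq : q.Prime) (hq2 : q ≠ 2) (u : ℤ) :
    0 ≤ padicValRat q ((u : ℚ) / 4) := by
  have : Fact q.Prime := ⟨hq⟩
  by_cases hu : (u : ℚ) = 0
  · rw [hu, zero_div, padicValRat.zero]
  · rw [padicValRat.div hu (by norm_num), Frey.val_four hq hq2, sub_zero]
    exact Frey.val_int_nonneg u

/-- (MD3) For an odd prime `q` there is a rational root `r` of the `2`-torsion cubic of the Frey
curve such that `r` and the coefficient `a₂` of the translate `legOf P.freyCurve r` are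
`q`-integral and its coefficient `a₄` is a `q`-unit. (The translate is centred at a `2`-torsion
point which does not reduce to the node.) -/
theorem frey_unit_translate (P : FreyPackage) (hq : q.Prime) (hq2 : q ≠ 2) :
    ∃ r : ℚ, r ^ 3 + (P.freyCurve.a₂ + 1 / 4) * r ^ 2 + P.freyCurve.a₄ * r = 0 ∧
      0 ≤ padicValRat q r ∧
      0 ≤ padicValRat q (legOf P.freyCurve r).a₂ ∧
      (legOf P.freyCurve r).a₄ ≠ 0 ∧ padicValRat q (legOf P.freyCurve r).a₄ = 0 ∧
      (legOf P.freyCurve r).a₂ ^ 2 - 4 * (legOf P.freyCurve r).a₄ ≠ 0 := by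
  have hfq : Fact q.Prime := ⟨hq⟩
  have ha0 : (P.a : ℚ) ^ P.p ≠ 0 := pow_ne_zero _ (by exact_mod_cast P.ha0)
  have hb0 : (P.b : ℚ) ^ P.p ≠ 0 := pow_ne_zero _ (by exact_mod_cast P.hb0)
  have hc0 : (P.c : ℚ) ^ P.p ≠ 0 := pow_ne_zero _ (by exact_mod_cast P.hc0)
  have hqZ : Prime (q : ℤ) := Nat.prime_iff_prime_int.mp hq
  have hFLT : (P.a : ℚ) ^ P.p + (P.b : ℚ) ^ P.p = (P.c : ℚ) ^ P.p := by exact_mod_cast P.hFLT
  have hab : ¬ ((q : ℤ) ∣ P.a ∧ (q : ℤ) ∣ P.b) := fun ⟨h1, h2⟩ =>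
    hqZ.not_dvd_one (P.hgcdab ▸ dvd_gcd h1 h2)
  have hac : ¬ ((q : ℤ) ∣ P.a ∧ (q : ℤ) ∣ P.c) := fun ⟨h1, h2⟩ =>
    hqZ.not_dvd_one (P.hgcdac ▸ dvd_gcd h1 h2)
  have hbc : ¬ ((q : ℤ) ∣ P.b ∧ (q : ℤ) ∣ P.c) := fun ⟨h1, h2⟩ =>
    hqZ.not_dvd_one (P.hgcdbc ▸ dvd_gcd h1 h2)
  have hpow : ∀ {z : ℤ}, ¬ (q : ℤ) ∣ z → ¬ (q : ℤ) ∣ z ^ P.p := fun hz h =>
    hz (hqZ.dvd_of_dvd_pow h)
  have hmul : ∀ {z w : ℤ}, ¬ (q : ℤ) ∣ z → ¬ (q : ℤ) ∣ w → ¬ (q : ℤ) ∣ z ^ P.p * w ^ P.p :=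
    fun hz hw h => (hqZ.dvd_or_dvd h).elim (hpow hz) (hpow hw)
  have hne : ∀ {v : ℤ}, ¬ (q : ℤ) ∣ v → ((v : ℚ) / 16) ≠ 0 := by
    intro v hv
    have hv0 : (v : ℚ) ≠ 0 := by
      intro h
      apply hv
      have : v = 0 := by exact_mod_cast h
      rw [this]
      exact dvd_zero _
    exact div_ne_zero hv0 (by norm_num)
  have hval : ∀ {v : ℤ}, ¬ (q : ℤ) ∣ v → padicValRat q ((v : ℚ) / 16) = 0 := by
    intro v hv
    have hv0 : (v : ℚ) ≠ 0 := by
      intro h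
      apply hv
      have : v = 0 := by exact_mod_cast h
      rw [this]
      exact dvd_zero _
    rw [padicValRat.div hv0 (by norm_num), Frey.val_int_of_not_dvd hv, Frey.val_sixteen hq hq2]
    rfl
  by_cases ha : (q : ℤ) ∣ P.a
  · -- `q ∣ a`: translate by `r = -b ^ p / 4`, `a₄' = b ^ p c ^ p / 16`
    have hqb : ¬ (q : ℤ) ∣ P.b := fun h => hab ⟨ha, h⟩
    have hqc : ¬ (q : ℤ) ∣ P.c := fun h => hac ⟨ha, h⟩
    have hr : (-(P.b : ℚ) ^ P.p / 4) = ((-(P.b ^ P.p) : ℤ) : ℚ) / 4 := by push_cast; ring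
    have h₂ : (legOf P.freyCurve (-(P.b : ℚ) ^ P.p / 4)).a₂ =
        ((-(P.b ^ P.p + P.c ^ P.p) : ℤ) : ℚ) / 4 := by
      simp only [legOf, FreyPackage.freyCurve]
      push_cast
      rw [← hFLT]
      ring
    have h₄ : (legOf P.freyCurve (-(P.b : ℚ) ^ P.p / 4)).a₄ =
        ((P.b ^ P.p * P.c ^ P.p : ℤ) : ℚ) / 16 := by
      simp only [legOf, FreyPackage.freyCurve]
      push_cast
      rw [← hFLT]
      ring
    have hdisc : (legOf P.freyCurve (-(P.b : ℚ) ^ P.p / 4)).a₂ ^ 2 -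
        4 * (legOf P.freyCurve (-(P.b : ℚ) ^ P.p / 4)).a₄ = ((P.a : ℚ) ^ P.p) ^ 2 / 16 := by
      rw [h₂, h₄]
      push_cast
      rw [← hFLT]
      ring
    refine ⟨-(P.b : ℚ) ^ P.p / 4, ?_, ?_, ?_, ?_, ?_, ?_⟩
    · simp only [FreyPackage.freyCurve]
      ring
    · rw [hr]; exact val_quarter_nonneg hq hq2 _
    · rw [h₂]; exact val_quarter_nonneg hq hq2 _
    · rw [h₄]; exact hne (hmul hqb hqc)
    · rw [h₄]; exact hval (hmul hqb hqc)
    · rw [hdisc]; exact div_ne_zero (pow_ne_zero _ ha0) (by norm_num)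
  by_cases hb : (q : ℤ) ∣ P.b
  · -- `q ∣ b`: translate by `r = a ^ p / 4`, `a₄' = a ^ p c ^ p / 16`
    have hqc : ¬ (q : ℤ) ∣ P.c := fun h => hbc ⟨hb, h⟩
    have hr : ((P.a : ℚ) ^ P.p / 4) = ((P.a ^ P.p : ℤ) : ℚ) / 4 := by push_cast; ring
    have h₂ : (legOf P.freyCurve ((P.a : ℚ) ^ P.p / 4)).a₂ =
        ((P.a ^ P.p + P.c ^ P.p : ℤ) : ℚ) / 4 := by
      simp only [legOf, FreyPackage.freyCurve]
      push_cast
      rw [← hFLT]
      ring
    have h₄ : (legOf P.freyCurve ((P.a : ℚ) ^ P.p / 4)).a₄ =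
        ((P.a ^ P.p * P.c ^ P.p : ℤ) : ℚ) / 16 := by
      simp only [legOf, FreyPackage.freyCurve]
      push_cast
      rw [← hFLT]
      ring
    have hdisc : (legOf P.freyCurve ((P.a : ℚ) ^ P.p / 4)).a₂ ^ 2 -
        4 * (legOf P.freyCurve ((P.a : ℚ) ^ P.p / 4)).a₄ = ((P.b : ℚ) ^ P.p) ^ 2 / 16 := by
      rw [h₂, h₄]
      push_cast
      rw [← hFLT]
      ring
    refine ⟨(P.a : ℚ) ^ P.p / 4, ?_, ?_, ?_, ?_, ?_, ?_⟩
    · simp only [FreyPackage.freyCurve]
      ring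
    · rw [hr]; exact val_quarter_nonneg hq hq2 _
    · rw [h₂]; exact val_quarter_nonneg hq hq2 _
    · rw [h₄]; exact hne (hmul ha hqc)
    · rw [h₄]; exact hval (hmul ha hqc)
    · rw [hdisc]; exact div_ne_zero (pow_ne_zero _ hb0) (by norm_num)
  · -- `q ∤ a b`: no translation, `a₄' = -a ^ p b ^ p / 16`
    have h₂ : (legOf P.freyCurve 0).a₂ = ((P.b ^ P.p - P.a ^ P.p : ℤ) : ℚ) / 4 := by
      simp only [legOf, FreyPackage.freyCurve]
      push_cast
      ring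
    have h₄ : (legOf P.freyCurve 0).a₄ = ((-(P.a ^ P.p * P.b ^ P.p) : ℤ) : ℚ) / 16 := by
      simp only [legOf, FreyPackage.freyCurve]
      push_cast
      ring
    have hnd : ¬ (q : ℤ) ∣ -(P.a ^ P.p * P.b ^ P.p) := fun h => hmul ha hb ((dvd_neg).mp h)
    have hdisc : (legOf P.freyCurve 0).a₂ ^ 2 - 4 * (legOf P.freyCurve 0).a₄ =
        ((P.c : ℚ) ^ P.p) ^ 2 / 16 := by
      rw [h₂, h₄]
      push_cast
      rw [← hFLT]
      ring
    refine ⟨0, by ring, by rw [padicValRat.zero], ?_, ?_, ?_, ?_⟩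
    · rw [h₂]; exact val_quarter_nonneg hq hq2 _
    · rw [h₄]; exact hne hnd
    · rw [h₄]; exact hval hnd
    · rw [hdisc]; exact div_ne_zero (pow_ne_zero _ hc0) (by norm_num)

/-- a `q`-integral rational number lies in every valuation subring of `ℚ̄` over `q` -/
theorem algebraMap_mem_of_padicValRat_nonneg (hq : q.Prime)
    (A : ValuationSubring (AlgebraicClosure ℚ)) (hA : A.LiesOverPrime q) {x : ℚ}
    (hx : 0 ≤ padicValRat q x) : algebraMap ℚ (AlgebraicClosure ℚ) x ∈ A := by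
  obtain ⟨ord, hord, hordQ, -⟩ := exists_ord hq A hA
  by_cases h0 : x = 0
  · rw [h0, _root_.map_zero]
    exact A.zero_mem
  · have hinj : Function.Injective (algebraMap ℚ (AlgebraicClosure ℚ)) :=
      (algebraMap ℚ (AlgebraicClosure ℚ)).injective
    rw [hord.mem_iff _ ((map_ne_zero_iff _ hinj).mpr h0), hordQ _ h0]
    exact_mod_cast hx

/-- a rational `q`-unit is a unit of every valuation subring of `ℚ̄` over `q` -/
theorem algebraMap_not_mem_nonunits_of_padicValRat_eq_zero (hq : q.Prime)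
    (A : ValuationSubring (AlgebraicClosure ℚ)) (hA : A.LiesOverPrime q) {x : ℚ}
    (hx0 : x ≠ 0) (hx : padicValRat q x = 0) :
    algebraMap ℚ (AlgebraicClosure ℚ) x ∉ A.nonunits := by
  obtain ⟨ord, hord, hordQ, -⟩ := exists_ord hq A hA
  have hinj : Function.Injective (algebraMap ℚ (AlgebraicClosure ℚ)) :=
    (algebraMap ℚ (AlgebraicClosure ℚ)).injective
  rw [hord.mem_nonunits_iff ((map_ne_zero_iff _ hinj).mpr hx0), hordQ _ hx0, hx]
  simp

/-- a rational number lying in the maximal ideal of a valuation subring of `ℚ̄` over `q` has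
positive `q`-adic valuation (or is zero) -/
theorem padicValRat_pos_of_algebraMap_mem_nonunits (hq : q.Prime)
    (A : ValuationSubring (AlgebraicClosure ℚ)) (hA : A.LiesOverPrime q) {x : ℚ}
    (hx0 : x ≠ 0) (hx : algebraMap ℚ (AlgebraicClosure ℚ) x ∈ A.nonunits) :
    0 < padicValRat q x := by
  obtain ⟨ord, hord, hordQ, -⟩ := exists_ord hq A hA
  have hinj : Function.Injective (algebraMap ℚ (AlgebraicClosure ℚ)) :=
    (algebraMap ℚ (AlgebraicClosure ℚ)).injective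
  rw [hord.mem_nonunits_iff ((map_ne_zero_iff _ hinj).mpr hx0), hordQ _ hx0] at hx
  exact_mod_cast hx

/-- (MD3, valuation-subring form) the translate of `frey_unit_translate` at every valuation
subring `A` of `ℚ̄` over the odd prime `q`: `r, a₂' ∈ A` and `a₄'` is a unit of `A`. -/
theorem frey_unit_translate_at (P : FreyPackage) (hq : q.Prime) (hq2 : q ≠ 2) :
    ∃ r : ℚ, r ^ 3 + (P.freyCurve.a₂ + 1 / 4) * r ^ 2 + P.freyCurve.a₄ * r = 0 ∧
      (legOf P.freyCurve r).a₄ ≠ 0 ∧ (legOf P.freyCurve r).Δ ≠ 0 ∧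
      ∀ A : ValuationSubring (AlgebraicClosure ℚ), A.LiesOverPrime q →
        algebraMap ℚ (AlgebraicClosure ℚ) r ∈ A ∧
        algebraMap ℚ (AlgebraicClosure ℚ) (legOf P.freyCurve r).a₂ ∈ A ∧
        algebraMap ℚ (AlgebraicClosure ℚ) (legOf P.freyCurve r).a₄ ∈ A ∧
        algebraMap ℚ (AlgebraicClosure ℚ) (legOf P.freyCurve r).a₄ ∉ A.nonunits := by
  obtain ⟨r, hr, hr0, h2, h40, h4, hd⟩ := frey_unit_translate P hq hq2
  refine ⟨r, hr, h40, ?_, fun A hA => ⟨?_, ?_, ?_, ?_⟩⟩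
  · rw [legOf_Δ]
    exact mul_ne_zero (mul_ne_zero (by norm_num) (pow_ne_zero _ h40)) hd
  · exact algebraMap_mem_of_padicValRat_nonneg hq A hA hr0
  · exact algebraMap_mem_of_padicValRat_nonneg hq A hA h2
  · exact algebraMap_mem_of_padicValRat_nonneg hq A hA (le_of_eq h4.symm)
  · exact algebraMap_not_mem_nonunits_of_padicValRat_eq_zero hq A hA h40 h4

/-- the untranslated model `legOf P.freyCurve 0` (`Y = y + x/2`, same `x`) has `q`-integral
coefficients at every odd prime `q` -/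
theorem frey_leg_zero_integral (P : FreyPackage) (hq : q.Prime) (hq2 : q ≠ 2) :
    0 ≤ padicValRat q (legOf P.freyCurve 0).a₂ ∧ 0 ≤ padicValRat q (legOf P.freyCurve 0).a₄ := by
  have hfq : Fact q.Prime := ⟨hq⟩
  have h₂ : (legOf P.freyCurve 0).a₂ = ((P.b ^ P.p - P.a ^ P.p : ℤ) : ℚ) / 4 := by
    simp only [legOf, FreyPackage.freyCurve]
    push_cast
    ring
  have h₄ : (legOf P.freyCurve 0).a₄ = ((-(P.a ^ P.p * P.b ^ P.p) : ℤ) : ℚ) / 16 := by
    simp only [legOf, FreyPackage.freyCurve]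
    push_cast
    ring
  refine ⟨by rw [h₂]; exact val_quarter_nonneg hq hq2 _, ?_⟩
  rw [h₄]
  by_cases hu : ((-(P.a ^ P.p * P.b ^ P.p) : ℤ) : ℚ) = 0
  · rw [hu, zero_div, padicValRat.zero]
  · rw [padicValRat.div hu (by norm_num), Frey.val_sixteen hq hq2, sub_zero]
    exact Frey.val_int_nonneg _

/-! ### (MD4) the two final transfers on the frozen Frey model -/

/-- **(T) on the frozen model from (T) on a Legendre translate.** `hleg` is the Legendre-side
statement (A-NZ + A-TORS) for the translates `legOf P.freyCurve r` whose `a₄` is a unit at `A`. -/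
theorem frey_T (P : FreyPackage) (A : ValuationSubring (AlgebraicClosure ℚ))
    (hA : A.LiesOverPrime P.p)
    (hleg : ∀ r : ℚ, r ^ 3 + (P.freyCurve.a₂ + 1 / 4) * r ^ 2 + P.freyCurve.a₄ * r = 0 →
      (legOf P.freyCurve r).Δ ≠ 0 →
      algebraMap ℚ (AlgebraicClosure ℚ) (legOf P.freyCurve r).a₂ ∈ A →
      algebraMap ℚ (AlgebraicClosure ℚ) (legOf P.freyCurve r).a₄ ∈ A →
      algebraMap ℚ (AlgebraicClosure ℚ) (legOf P.freyCurve r).a₄ ∉ A.nonunits →
      Nontrivial (Submodule.torsionBy ℤ ((legOf P.freyCurve r)⁄(AlgebraicClosure ℚ)).Point P.p) ∧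
      Finite (Submodule.torsionBy ℤ ((legOf P.freyCurve r)⁄(AlgebraicClosure ℚ)).Point P.p) ∧
      Nat.card (Submodule.torsionBy ℤ ((legOf P.freyCurve r)⁄(AlgebraicClosure ℚ)).Point P.p)
        < P.p ^ 3) :
    Nontrivial (Submodule.torsionBy ℤ (P.freyCurve⁄(AlgebraicClosure ℚ)).Point P.p) ∧
      Finite (Submodule.torsionBy ℤ (P.freyCurve⁄(AlgebraicClosure ℚ)).Point P.p) ∧
      Nat.card (Submodule.torsionBy ℤ (P.freyCurve⁄(AlgebraicClosure ℚ)).Point P.p)
        < P.p ^ 3 := by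
  have hp2 : P.p ≠ 2 := by have := P.hp5; omega
  obtain ⟨r, hr, -, hΔ, hAr⟩ := frey_unit_translate_at P P.pp hp2
  obtain ⟨-, h2, h4, h4u⟩ := hAr A hA
  exact T_of_leg (AlgebraicClosure ℚ) P.freyCurve rfl rfl rfl r hr P.p (hleg r hr hΔ h2 h4 h4u)

/-- **(Xp) on the frozen model from (Xp) on the Legendre model `legOf P.freyCurve 0`**
(`Y = y + x/2`, same `x`-coordinates; its coefficients are integral at `A`). -/
theorem frey_Xp (P : FreyPackage) (A : ValuationSubring (AlgebraicClosure ℚ))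
    (hA : A.LiesOverPrime P.p)
    (hleg : algebraMap ℚ (AlgebraicClosure ℚ) (legOf P.freyCurve 0).a₂ ∈ A →
      algebraMap ℚ (AlgebraicClosure ℚ) (legOf P.freyCurve 0).a₄ ∈ A →
      (∀ (x y : AlgebraicClosure ℚ)
        (h : ((legOf P.freyCurve 0)⁄(AlgebraicClosure ℚ)).Nonsingular x y),
        (P.p : ℤ) • Point.some x y h = 0 → x ∉ A) →
      ¬ ∃ N : Submodule (ZMod P.p)
          (Submodule.torsionBy ℤ ((legOf P.freyCurve 0)⁄(AlgebraicClosure ℚ)).Point P.p),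
        IsGaloisStable ℚ N ∧ N ≠ ⊥ ∧ N ≠ ⊤)
    (hker : ∀ (Q : Submodule.torsionBy ℤ (P.freyCurve⁄(AlgebraicClosure ℚ)).Point P.p)
      (x y : AlgebraicClosure ℚ) (h : (P.freyCurve⁄(AlgebraicClosure ℚ)).Nonsingular x y),
      (Q : (P.freyCurve⁄(AlgebraicClosure ℚ)).Point) = Point.some x y h → x ∉ A) :
    ¬ ∃ N : Submodule (ZMod P.p)
        (Submodule.torsionBy ℤ (P.freyCurve⁄(AlgebraicClosure ℚ)).Point P.p),
      IsGaloisStable ℚ N ∧ N ≠ ⊥ ∧ N ≠ ⊤ := by
  have hp2 : P.p ≠ 2 := by have := P.hp5; omega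
  obtain ⟨h2, h4⟩ := frey_leg_zero_integral P P.pp hp2
  have hr : (0 : ℚ) ^ 3 + (P.freyCurve.a₂ + 1 / 4) * (0 : ℚ) ^ 2 + P.freyCurve.a₄ * 0 = 0 := by
    ring
  have hrA : algebraMap ℚ (AlgebraicClosure ℚ) 0 ∈ A := by
    rw [_root_.map_zero]
    exact A.zero_mem
  exact Xp_of_leg (AlgebraicClosure ℚ) P.freyCurve rfl rfl rfl 0 hr P.p A hrA
    (hleg (algebraMap_mem_of_padicValRat_nonneg P.pp A hA h2)
      (algebraMap_mem_of_padicValRat_nonneg P.pp A hA h4)) hker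

/-- **(Xp) on the frozen model, in the exact shape of the `hXp` hypothesis of
`Fermat.Agent.S13.Wire.cofixedLine_of_pieces`** (with `W := P.freyCurve`, `p := P.p`), from the
Legendre-side statement on `legOf P.freyCurve 0`. -/
theorem frey_Xp_wire (P : FreyPackage) (A : ValuationSubring Kb) (hA : A.LiesOverPrime P.p)
    (hleg : algebraMap ℚ Kb (legOf P.freyCurve 0).a₂ ∈ A →
      algebraMap ℚ Kb (legOf P.freyCurve 0).a₄ ∈ A →
      (∀ (x y : Kb) (h : ((legOf P.freyCurve 0)⁄Kb).Nonsingular x y),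
        (P.p : ℤ) • Point.some x y h = 0 → x ∉ A) →
      ¬ ∃ N : Submodule (ZMod P.p) (Submodule.torsionBy ℤ ((legOf P.freyCurve 0)⁄Kb).Point P.p),
        IsGaloisStable ℚ N ∧ N ≠ ⊥ ∧ N ≠ ⊤)
    (hker : ∀ Q : Vp P.freyCurve P.p, InKer P.freyCurve A (Q : (P.freyCurve⁄Kb).Point)) :
    ¬ ∃ N : Submodule (ZMod P.p) (Vp P.freyCurve P.p), IsGaloisStable ℚ N ∧ N ≠ ⊥ ∧ N ≠ ⊤ := by
  refine frey_Xp P A hA hleg ?_
  intro Q x y h hQ
  have := hker Q
  rw [hQ] at this
  exact this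

/-- **(T) on the frozen model, in the exact shape of the `hT` hypothesis of
`Fermat.Agent.S13.Wire.cofixedLine_of_pieces`** (restatement of `frey_T`). -/
theorem frey_T_wire (P : FreyPackage) (A : ValuationSubring Kb) (hA : A.LiesOverPrime P.p)
    (hleg : ∀ r : ℚ, r ^ 3 + (P.freyCurve.a₂ + 1 / 4) * r ^ 2 + P.freyCurve.a₄ * r = 0 →
      (legOf P.freyCurve r).Δ ≠ 0 →
      algebraMap ℚ Kb (legOf P.freyCurve r).a₂ ∈ A →
      algebraMap ℚ Kb (legOf P.freyCurve r).a₄ ∈ A →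
      algebraMap ℚ Kb (legOf P.freyCurve r).a₄ ∉ A.nonunits →
      Nontrivial (Submodule.torsionBy ℤ ((legOf P.freyCurve r)⁄Kb).Point P.p) ∧
      Finite (Submodule.torsionBy ℤ ((legOf P.freyCurve r)⁄Kb).Point P.p) ∧
      Nat.card (Submodule.torsionBy ℤ ((legOf P.freyCurve r)⁄Kb).Point P.p) < P.p ^ 3) :
    Nontrivial (Vp P.freyCurve P.p) ∧ Finite (Vp P.freyCurve P.p) ∧
      Nat.card (Vp P.freyCurve P.p) < P.p ^ 3 :=
  frey_T P A hA hleg

end Frey

end Fermat.Agent.S13.DPModel
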