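/-
S13, route DP, final glue (helper5): the two wiring inputs `(T)` and `(Xp)` on the frozen Frey
model, in the exact shapes of the hypotheses `hT` and `hXp` of
`Fermat.Agent.S13.WireFrey.frey_cofixedLine_coord`.

Inputs (all landed): `DPInd` (claim B and (N2) for Legendre models), `DPNZ` (a point of exact
order `p` in the kernel of reduction), `DPTors` (the count `#E[p] ≤ p ^ 2` and the product of the
`x`-coordinates), `XpCurve` (the product argument), `DPModel` (transfer between the frozen model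
and its Legendre translates), `S54` (existence of a place over `p`).
-/
import Mathlib
import Fermat.Prelude.Def_FLTPrelim_GaloisRep
import Fermat.Prelude.Def_FLTPrelim_Ramification
import Fermat.Prelude.Def_FLTPrelim_CofixedLine
import Fermat.Prelude.Def_FLTPrelim_FreyPackage
import Fermat.Agent.S05.Defs
import Fermat.Agent.S13.Defs
import Fermat.Agent.S13.DPInd
import Fermat.Agent.S13.DPNZ
import Fermat.Agent.S13.DPTors
import Fermat.Agent.S13.DPModel
import Fermat.Agent.S13.XpCurve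
import Fermat.Agent.S54.Frobenius

set_option autoImplicit false

namespace Fermat.Agent.S13.DPFinal

open WeierstrassCurve WeierstrassCurve.Affine WeierstrassCurve.Affine.Point
open Fermat.Agent.S05

/-- the base change of a Legendre model is a Legendre model -/
theorem isLeg_baseChange (WL : WeierstrassCurve ℚ) (hWL : IsLeg WL) :
    IsLeg (WL.baseChange Kb) := by
  refine ⟨?_, ?_, ?_⟩
  · change algebraMap ℚ Kb WL.a₁ = 0
    rw [hWL.a₁, _root_.map_zero]
  · change algebraMap ℚ Kb WL.a₃ = 0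
    rw [hWL.a₃, _root_.map_zero]
  · change algebraMap ℚ Kb WL.a₆ = 0
    rw [hWL.a₆, _root_.map_zero]

/-- (N2) for the base change of a Legendre model over `ℚ` -/
theorem eval_preΨ_eq_zero (WL : WeierstrassCurve ℚ) (hWL : IsLeg WL) {p : ℕ} (hp : p.Prime)
    (hp2 : p ≠ 2) :
    ∀ (x y : Kb) (h : (WL⁄Kb).Nonsingular x y),
      (p : ℤ) • Point.some x y h = 0 → ((WL⁄Kb).preΨ (p : ℤ)).eval x = 0 :=
  fun _ _ h hP =>
    DPInd.eval_preΨ_eq_zero (isLeg_baseChange WL hWL) h hp hp2 (by rwa [natCast_zsmul] at hP)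

/-- claim B for the base change of a Legendre model over `ℚ` -/
theorem claimB (WL : WeierstrassCurve ℚ) (hWL : IsLeg WL) : DPNZ.ClaimB (WL.baseChange Kb) :=
  fun _ _ h _ hn hψ h0 => DPInd.claimB (isLeg_baseChange WL hWL) h hn hψ h0

/-- **(T) on a Legendre model** whose `a₄` is a unit at some place over the odd prime `p`. -/
theorem T_leg (WL : WeierstrassCurve ℚ) (hWL : IsLeg WL) (hΔ : WL.Δ ≠ 0) {p : ℕ} (hp : p.Prime)
    (hp2 : p ≠ 2) (A : ValuationSubring Kb) (hA : A.LiesOverPrime p)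
    (ha2 : algebraMap ℚ Kb WL.a₂ ∈ A) (ha4 : algebraMap ℚ Kb WL.a₄ ∈ A)
    (ha4' : algebraMap ℚ Kb WL.a₄ ∉ A.nonunits) :
    Nontrivial (Submodule.torsionBy ℤ (WL⁄Kb).Point p) ∧
      Finite (Submodule.torsionBy ℤ (WL⁄Kb).Point p) ∧
      Nat.card (Submodule.torsionBy ℤ (WL⁄Kb).Point p) < p ^ 3 := by
  have hell : WL.IsElliptic := ⟨isUnit_iff_ne_zero.mpr hΔ⟩
  have ha1 : algebraMap ℚ Kb WL.a₁ ∈ A := by
    rw [hWL.a₁, _root_.map_zero]
    exact A.zero_mem
  have hodd : Odd p := hp.odd_of_ne_two hp2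
  obtain ⟨hfin, hle⟩ :=
    DPTors.finite_card_le (W := WL⁄Kb) hodd (eval_preΨ_eq_zero WL hWL hp hp2)
  refine ⟨DPNZ.nontrivial_torsionBy WL hWL.a₃ hWL.a₆ A hp hp2 hA ha1 ha2 ha4 ha4'
    (claimB WL hWL), hfin, lt_of_le_of_lt hle ?_⟩
  exact Nat.pow_lt_pow_right hp.one_lt (by norm_num)

/-- **(Xp) on a Legendre model** with `a₄` integral at the place `A` over the odd prime `p`. -/
theorem Xp_leg (WL : WeierstrassCurve ℚ) (hWL : IsLeg WL) {p : ℕ} (hp : p.Prime) (hp2 : p ≠ 2)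
    (A : ValuationSubring Kb) (hA : A.LiesOverPrime p) (ha4 : algebraMap ℚ Kb WL.a₄ ∈ A)
    (hker : ∀ (x y : Kb) (h : (WL⁄Kb).Nonsingular x y),
      (p : ℤ) • Point.some x y h = 0 → x ∉ A) :
    ¬ ∃ N : Submodule (ZMod p) (Submodule.torsionBy ℤ (WL⁄Kb).Point p),
      IsGaloisStable ℚ N ∧ N ≠ ⊥ ∧ N ≠ ⊤ := by
  have hodd : Odd p := hp.odd_of_ne_two hp2
  have hN2 := eval_preΨ_eq_zero WL hWL hp hp2
  have := (DPTors.finite_card_le (W := WL⁄Kb) hodd hN2).1
  exact XpCurve.no_stable WL hp A hA hker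
    (DPTors.natCast_mul_prod_mem_of_submodule WL hp hodd hWL.a₃ hWL.a₆ A ha4 hN2)

/-- **(T) on the frozen Frey model**: the hypothesis `hT` of
`WireFrey.frey_cofixedLine_coord`. -/
theorem hT (P : FreyPackage) :
    Nontrivial (Vp P.freyCurve P.p) ∧ Finite (Vp P.freyCurve P.p) ∧
      Nat.card (Vp P.freyCurve P.p) < P.p ^ 3 := by
  have hp2 : P.p ≠ 2 := by have := P.hp5; omega
  obtain ⟨A, hA⟩ := Fermat.Agent.S54.exists_liesOverPrime Kb P.pp
  exact DPModel.frey_T_wire P A hA fun r _ hΔ h2 h4 h4u =>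
    T_leg (legOf P.freyCurve r) (isLeg_legOf _ _) hΔ P.pp hp2 A hA h2 h4 h4u

/-- **(Xp) on the frozen Frey model**: the hypothesis `hXp` of
`WireFrey.frey_cofixedLine_coord`. -/
theorem hXp (P : FreyPackage) :
    ∀ A : ValuationSubring Kb, A.LiesOverPrime P.p →
      (∀ (x y : Kb) (h : (P.freyCurve⁄Kb).Nonsingular x y),
        (P.p : ℤ) • Point.some x y h = 0 → x ∉ A) →
      ¬ ∃ N : Submodule (ZMod P.p) (Vp P.freyCurve P.p),
        IsGaloisStable ℚ N ∧ N ≠ ⊥ ∧ N ≠ ⊤ := by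
  intro A hA hker
  have hp2 : P.p ≠ 2 := by have := P.hp5; omega
  refine DPModel.frey_Xp P A hA (fun _ h4 hk =>
    Xp_leg (legOf P.freyCurve 0) (isLeg_legOf _ _) P.pp hp2 A hA h4 hk) ?_
  intro Q x y h hQ
  refine hker x y h ?_
  rw [← hQ]
  exact (Submodule.mem_torsionBy_iff _ _).mp Q.2

end Fermat.Agent.S13.DPFinal
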