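/-
S13, piece A-EIS (abstract form): "Eisenstein at infinity".

Let `f ∈ ℤ[X]` have positive degree and leading coefficient a prime `p`, and let `A` be a
valuation subring of `ℚ̄` lying over `p`.  If no root of `f` in `ℚ̄` lies in `A`, then the
reversed polynomial of `f` is Eisenstein at `p`; hence `f` is irreducible over `ℚ` and
`Gal(ℚ̄/ℚ)` acts transitively on the roots of `f`.
-/
import Mathlib
import Fermat.Prelude.Def_FLTPrelim_Ramification

set_option autoImplicit false

namespace Fermat.Agent.S13.Eis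

open Polynomial

/-- an integer lying in the maximal ideal of a valuation subring over `p` is divisible by `p` -/
theorem int_dvd_of_mem_nonunits {p : ℕ} (hp : p.Prime)
    (A : ValuationSubring (AlgebraicClosure ℚ)) (hA : A.LiesOverPrime p) {n : ℤ}
    (hn : (n : AlgebraicClosure ℚ) ∈ A.nonunits) : (p : ℤ) ∣ n := by
  by_contra h
  have hcop : IsCoprime (p : ℤ) n := by
    rw [Int.isCoprime_iff_gcd_eq_one]
    have h1 : Nat.Coprime p n.natAbs := by
      rw [Nat.Prime.coprime_iff_not_dvd hp]
      intro h2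
      exact h (Int.natCast_dvd.mpr h2)
    simpa [Int.gcd] using h1
  obtain ⟨a, b, hab⟩ := hcop
  have hpA : (p : AlgebraicClosure ℚ) ∈ A.nonunits := hA
  have hmem : ∀ m : ℤ, (m : AlgebraicClosure ℚ) ∈ A := fun m => intCast_mem A m
  have h1 : A.valuation ((a : AlgebraicClosure ℚ) * p) < 1 := by
    rw [map_mul]
    exact mul_lt_one_of_nonneg_of_lt_one_right ((A.valuation_le_one_iff _).mpr (hmem a))
      zero_le (A.mem_nonunits_iff.mp hpA)
  have h2 : A.valuation ((b : AlgebraicClosure ℚ) * n) < 1 := by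
    rw [map_mul]
    exact mul_lt_one_of_nonneg_of_lt_one_right ((A.valuation_le_one_iff _).mpr (hmem b))
      zero_le (A.mem_nonunits_iff.mp hn)
  have h3 : ((a : AlgebraicClosure ℚ) * p) + ((b : AlgebraicClosure ℚ) * n) = 1 := by
    have := congrArg (fun z : ℤ => (z : AlgebraicClosure ℚ)) hab
    push_cast at this
    exact this
  have h4 : A.valuation (1 : AlgebraicClosure ℚ) < 1 := by
    rw [← h3]
    exact lt_of_le_of_lt (A.valuation.map_add _ _) (max_lt h1 h2)
  rw [map_one] at h4
  exact lt_irrefl _ h4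

section coeff

variable {K : Type*} [Field K] {Γ₀ : Type*} [LinearOrderedCommGroupWithZero Γ₀]
  (v : Valuation K Γ₀)

/-- a product of linear factors `X - r` with all `v r > 1` has constant coefficient of strictly
larger valuation than all its other coefficients -/
theorem coeff_lt_coeff_zero (s : Multiset K) (hs : ∀ r ∈ s, 1 < v r) :
    (s.map (fun r => X - C r)).prod.coeff 0 ≠ 0 ∧
      ∀ k : ℕ, 1 ≤ k → v ((s.map (fun r => X - C r)).prod.coeff k) <
        v ((s.map (fun r => X - C r)).prod.coeff 0) := by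
  induction s using Multiset.induction_on with
  | empty =>
    refine ⟨by simp, fun k hk => ?_⟩
    have : ((1 : K[X]).coeff k) = 0 := by
      rw [Polynomial.coeff_one]
      simp only [ite_eq_right_iff]
      omega
    simp [this]
  | cons r s ih =>
    have hr : 1 < v r := hs r (Multiset.mem_cons_self r s)
    obtain ⟨ih0, ih1⟩ := ih (fun t ht => hs t (Multiset.mem_cons_of_mem ht))
    rw [Multiset.map_cons, Multiset.prod_cons]
    set M := (s.map (fun r => X - C r)).prod with hM
    have hr0 : r ≠ 0 := by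
      rintro rfl
      simp at hr
    have h0 : ((X - C r) * M).coeff 0 = -r * M.coeff 0 := by
      simp [sub_mul]
    have hk : ∀ k : ℕ, ((X - C r) * M).coeff (k + 1) = M.coeff k - r * M.coeff (k + 1) := by
      intro k
      simp [sub_mul, Polynomial.coeff_X_mul]
    have hv0 : v (((X - C r) * M).coeff 0) = v r * v (M.coeff 0) := by
      rw [h0, map_mul, Valuation.map_neg]
    have hpos : 0 < v (M.coeff 0) := by
      rw [Valuation.pos_iff]
      exact ih0
    have hrpos : 0 < v r := lt_trans zero_lt_one hr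
    refine ⟨?_, fun k hk1 => ?_⟩
    · rw [h0]
      exact mul_ne_zero (neg_ne_zero.mpr hr0) ih0
    · obtain ⟨k, rfl⟩ : ∃ j, k = j + 1 := ⟨k - 1, by omega⟩
      rw [hk, hv0]
      refine lt_of_le_of_lt (v.map_sub _ _) (max_lt ?_ ?_)
      · have h1 : v (M.coeff k) ≤ v (M.coeff 0) := by
          rcases Nat.eq_zero_or_pos k with rfl | hkpos
          · exact le_rfl
          · exact (ih1 k hkpos).le
        calc v (M.coeff k) ≤ v (M.coeff 0) := h1
          _ = 1 * v (M.coeff 0) := (one_mul _).symm
          _ < v r * v (M.coeff 0) := by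
            exact mul_lt_mul_of_pos_right hr hpos
      · rw [map_mul]
        exact mul_lt_mul_of_pos_left (ih1 (k + 1) (by omega)) hrpos

end coeff

/-- the coefficient estimates behind "Eisenstein at infinity" -/
theorem coeff_data {p : ℕ} (hp : p.Prime) (A : ValuationSubring (AlgebraicClosure ℚ))
    (hA : A.LiesOverPrime p) (f : ℤ[X]) (hd : 0 < f.natDegree) (hlc : f.leadingCoeff = p)
    (hroots : ∀ α : AlgebraicClosure ℚ, aeval α f = 0 → α ∉ A) :
    ¬ (p : ℤ) ∣ f.coeff 0 ∧ ∀ k : ℕ, 1 ≤ k → (p : ℤ) ∣ f.coeff k := by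
  set F : (AlgebraicClosure ℚ)[X] := f.map (algebraMap ℤ (AlgebraicClosure ℚ)) with hF
  have hinj : Function.Injective (algebraMap ℤ (AlgebraicClosure ℚ)) :=
    (algebraMap ℤ (AlgebraicClosure ℚ)).injective_int
  have hFlc : F.leadingCoeff = (p : AlgebraicClosure ℚ) := by
    rw [hF, Polynomial.leadingCoeff_map_of_injective hinj, hlc]
    simp
  have hFsplit : F.Splits := IsAlgClosed.splits F
  have hFprod := hFsplit.eq_prod_roots
  rw [hFlc] at hFprod
  have hFroots : ∀ r ∈ F.roots, 1 < A.valuation r := by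
    intro r hr
    have h1 : aeval r f = 0 := by
      have := (Polynomial.mem_roots'.mp hr).2
      rwa [Polynomial.IsRoot, hF, Polynomial.eval_map, ← Polynomial.aeval_def] at this
    have h2 := hroots r h1
    rw [← A.valuation_le_one_iff, not_le] at h2
    exact h2
  obtain ⟨hM0, hMk⟩ := coeff_lt_coeff_zero A.valuation F.roots hFroots
  set M := (F.roots.map (fun r => X - C r)).prod with hM
  have hcoeff : ∀ k : ℕ, ((f.coeff k : ℤ) : AlgebraicClosure ℚ) = (p : AlgebraicClosure ℚ) * M.coeff k := by
    intro k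
    have h1 : F.coeff k = ((f.coeff k : ℤ) : AlgebraicClosure ℚ) := by
      rw [hF, Polynomial.coeff_map]
      simp
    rw [← h1, hFprod, Polynomial.coeff_C_mul]
  have hp0 : (p : AlgebraicClosure ℚ) ≠ 0 := by
    exact_mod_cast hp.ne_zero
  have hvp : 0 < A.valuation (p : AlgebraicClosure ℚ) := by
    rw [Valuation.pos_iff]
    exact hp0
  have hmemZ : ∀ m : ℤ, A.valuation (m : AlgebraicClosure ℚ) ≤ 1 := fun m => by
    rw [A.valuation_le_one_iff]
    exact intCast_mem A m
  -- valuation of the constant coefficient is bigger than that of all others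
  have hlt : ∀ k : ℕ, 1 ≤ k → A.valuation ((f.coeff k : ℤ) : AlgebraicClosure ℚ) <
      A.valuation ((f.coeff 0 : ℤ) : AlgebraicClosure ℚ) := by
    intro k hk
    rw [hcoeff k, hcoeff 0, map_mul, map_mul]
    exact mul_lt_mul_of_pos_left (hMk k hk) hvp
  refine ⟨?_, fun k hk => ?_⟩
  · rintro ⟨c, hc⟩
    have h1 := hlt f.natDegree hd
    have h2 : ((f.coeff f.natDegree : ℤ) : AlgebraicClosure ℚ) = (p : AlgebraicClosure ℚ) := by
      have : f.coeff f.natDegree = (p : ℤ) := hlc
      rw [this]
      simp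
    rw [h2, hc] at h1
    push_cast at h1
    rw [map_mul] at h1
    have h3 : A.valuation (p : AlgebraicClosure ℚ) * A.valuation (c : AlgebraicClosure ℚ) ≤
        A.valuation (p : AlgebraicClosure ℚ) := by
      calc A.valuation (p : AlgebraicClosure ℚ) * A.valuation (c : AlgebraicClosure ℚ)
          ≤ A.valuation (p : AlgebraicClosure ℚ) * 1 := mul_le_mul' le_rfl (hmemZ c)
        _ = A.valuation (p : AlgebraicClosure ℚ) := mul_one _
    exact absurd h1 (not_lt.mpr h3)
  · apply int_dvd_of_mem_nonunits hp A hA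
    rw [A.mem_nonunits_iff]
    exact lt_of_lt_of_le (hlt k hk) (hmemZ _)

/-- "Eisenstein at infinity": the reversed polynomial is irreducible over `ℤ`. -/
theorem irreducible_reverse {p : ℕ} (hp : p.Prime) (A : ValuationSubring (AlgebraicClosure ℚ))
    (hA : A.LiesOverPrime p) (f : ℤ[X]) (hd : 0 < f.natDegree) (hlc : f.leadingCoeff = p)
    (hroots : ∀ α : AlgebraicClosure ℚ, aeval α f = 0 → α ∉ A) :
    Irreducible f.reverse := by
  obtain ⟨h0, hk⟩ := coeff_data hp A hA f hd hlc hroots
  have hc0 : f.coeff 0 ≠ 0 := by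
    intro h
    rw [h] at h0
    exact h0 (dvd_zero _)
  have htr : f.natTrailingDegree = 0 := by
    rw [Polynomial.natTrailingDegree_eq_zero]
    exact Or.inr hc0
  have hdeg : f.reverse.natDegree = f.natDegree := by
    rw [Polynomial.reverse_natDegree, htr, Nat.sub_zero]
  have hlead : f.reverse.leadingCoeff = f.coeff 0 := by
    rw [Polynomial.reverse_leadingCoeff, Polynomial.trailingCoeff, htr]
  have hcoeff0 : f.reverse.coeff 0 = (p : ℤ) := by
    rw [Polynomial.coeff_zero_reverse, hlc]
  have hpprime : Prime (p : ℤ) := Nat.prime_iff_prime_int.mp hp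
  have hP : (Ideal.span {(p : ℤ)}).IsPrime := by
    rw [Ideal.span_singleton_prime]
    · exact hpprime
    · exact_mod_cast hp.ne_zero
  have hne : f.reverse ≠ 0 := by
    intro h
    rw [h] at hdeg
    simp at hdeg
    omega
  apply Polynomial.irreducible_of_eisenstein_criterion hP
  · rw [hlead, Ideal.mem_span_singleton]
    exact h0
  · intro n hn
    rw [Polynomial.degree_eq_natDegree hne, Nat.cast_lt, hdeg] at hn
    rw [Polynomial.coeff_reverse, Polynomial.revAt_le hn.le, Ideal.mem_span_singleton]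
    exact hk _ (by omega)
  · rw [Polynomial.degree_eq_natDegree hne, hdeg]
    exact_mod_cast hd
  · rw [hcoeff0, Ideal.span_singleton_pow, Ideal.mem_span_singleton]
    intro h
    have h1 : (p : ℤ) ^ 2 ∣ (p : ℤ) ^ 1 := by simpa using h
    have h2 := (pow_dvd_pow_iff (by exact_mod_cast hp.ne_zero : (p : ℤ) ≠ 0)
      hpprime.not_isUnit).mp h1
    omega
  · rw [Polynomial.isPrimitive_iff_isUnit_of_C_dvd]
    intro r hr
    have h1 : r ∣ f.reverse.coeff 0 := (Polynomial.C_dvd_iff_dvd_coeff r _).mp hr 0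
    have h2 : r ∣ f.reverse.leadingCoeff := (Polynomial.C_dvd_iff_dvd_coeff r _).mp hr _
    rw [hcoeff0] at h1
    rw [hlead] at h2
    rcases (hpprime.irreducible.dvd_iff.mp h1) with h3 | h3
    · exact h3
    · exact absurd (h3.dvd.trans h2) h0

/-- **Eisenstein at infinity**: if `f ∈ ℤ[X]` has prime leading coefficient `p`, positive degree,
and no root of `f` lies in a valuation subring `A` of `ℚ̄` over `p`, then the absolute Galois
group permutes the roots of `f` transitively. -/
theorem exists_galois_of_roots {p : ℕ} (hp : p.Prime) (A : ValuationSubring (AlgebraicClosure ℚ))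
    (hA : A.LiesOverPrime p) (f : ℤ[X]) (hd : 0 < f.natDegree) (hlc : f.leadingCoeff = p)
    (hroots : ∀ α : AlgebraicClosure ℚ, aeval α f = 0 → α ∉ A)
    {α β : AlgebraicClosure ℚ} (hα : aeval α f = 0) (hβ : aeval β f = 0) :
    ∃ σ : AlgebraicClosure ℚ ≃ₐ[ℚ] AlgebraicClosure ℚ, σ α = β := by
  have hirr := irreducible_reverse hp A hA f hd hlc hroots
  have hprim : f.reverse.IsPrimitive := hirr.isPrimitive (by
    intro h
    have h0 := (coeff_data hp A hA f hd hlc hroots).1
    have hc0 : f.coeff 0 ≠ 0 := by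
      intro h'
      rw [h'] at h0
      exact h0 (dvd_zero _)
    have htr : f.natTrailingDegree = 0 := by
      rw [Polynomial.natTrailingDegree_eq_zero]
      exact Or.inr hc0
    rw [Polynomial.reverse_natDegree, htr, Nat.sub_zero] at h
    omega)
  have hirrQ : Irreducible (f.reverse.map (Int.castRingHom ℚ)) :=
    (Polynomial.IsPrimitive.Int.irreducible_iff_irreducible_map_cast hprim).mp hirr
  have hα0 : α ≠ 0 := fun h => hroots α hα (h ▸ A.zero_mem)
  have hβ0 : β ≠ 0 := fun h => hroots β hβ (h ▸ A.zero_mem)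
  have key : ∀ γ : AlgebraicClosure ℚ, γ ≠ 0 → aeval γ f = 0 →
      aeval γ⁻¹ (f.reverse.map (Int.castRingHom ℚ)) = 0 := by
    intro γ hγ0 hγ
    let _ : Invertible γ := invertibleOfNonzero hγ0
    have h1 := (Polynomial.eval₂_reverse_eq_zero_iff (algebraMap ℤ (AlgebraicClosure ℚ)) γ f).mpr
      (by rwa [← Polynomial.aeval_def])
    rw [invOf_eq_inv] at h1
    rw [Polynomial.aeval_def, Polynomial.eval₂_map]
    have h2 : (algebraMap ℚ (AlgebraicClosure ℚ)).comp (Int.castRingHom ℚ) =
        algebraMap ℤ (AlgebraicClosure ℚ) := RingHom.ext_int _ _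
    rw [h2]
    exact h1
  have hαr := key α hα0 hα
  have hβr := key β hβ0 hβ
  have hmin := minpoly.eq_of_irreducible hirrQ hβr
  have hαmin : aeval α⁻¹ (minpoly ℚ β⁻¹) = 0 := by
    rw [← hmin, map_mul, hαr, zero_mul]
  have hcl : IsAlgClosure ℚ (AlgebraicClosure ℚ) := AlgebraicClosure.instIsAlgClosure ℚ
  have halg' : Algebra.IsAlgebraic ℚ (AlgebraicClosure ℚ) := IsAlgClosure.isAlgebraic
  have hnormal : Normal ℚ (AlgebraicClosure ℚ) := IsAlgClosure.normal ℚ (AlgebraicClosure ℚ)
  have halg : IsAlgebraic ℚ β⁻¹ := Algebra.IsAlgebraic.isAlgebraic _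
  obtain ⟨σ, hσ⟩ := minpoly.exists_algEquiv_of_root halg hαmin
  refine ⟨σ, ?_⟩
  rw [map_inv₀] at hσ
  exact inv_injective hσ

/-- the reversed polynomial being irreducible, `f` itself is irreducible over `ℚ` in the sense
that is actually used: the Galois orbit of any root is the whole root set; here in `Finset`
form, for a set `s` of `natDegree f` roots. -/
theorem exists_galois_of_mem {p : ℕ} (hp : p.Prime) (A : ValuationSubring (AlgebraicClosure ℚ))
    (hA : A.LiesOverPrime p) (f : ℤ[X]) (hd : 0 < f.natDegree) (hlc : f.leadingCoeff = p)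
    (s : Finset (AlgebraicClosure ℚ)) (hcard : f.natDegree ≤ s.card)
    (hs : ∀ x ∈ s, aeval x f = 0) (hsA : ∀ x ∈ s, x ∉ A)
    {α β : AlgebraicClosure ℚ} (hα : α ∈ s) (hβ : β ∈ s) :
    ∃ σ : AlgebraicClosure ℚ ≃ₐ[ℚ] AlgebraicClosure ℚ, σ α = β := by
  have hinj : Function.Injective (algebraMap ℤ (AlgebraicClosure ℚ)) :=
    (algebraMap ℤ (AlgebraicClosure ℚ)).injective_int
  set F : (AlgebraicClosure ℚ)[X] := f.map (algebraMap ℤ (AlgebraicClosure ℚ)) with hF
  have hF0 : F ≠ 0 := by
    rw [hF, Ne, Polynomial.map_eq_zero_iff hinj]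
    intro h
    rw [h] at hd
    simp at hd
  have hFdeg : F.natDegree = f.natDegree := Polynomial.natDegree_map_eq_of_injective hinj f
  have hsub : s ⊆ F.roots.toFinset := by
    intro x hx
    rw [Multiset.mem_toFinset, Polynomial.mem_roots hF0, Polynomial.IsRoot, hF,
      Polynomial.eval_map, ← Polynomial.aeval_def]
    exact hs x hx
  have hcard' : F.roots.toFinset.card ≤ s.card :=
    le_trans (Multiset.toFinset_card_le _) (le_trans (Polynomial.card_roots' F)
      (hFdeg ▸ hcard))
  have heq : s = F.roots.toFinset := Finset.eq_of_subset_of_card_le hsub hcard'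
  have hroots : ∀ γ : AlgebraicClosure ℚ, aeval γ f = 0 → γ ∉ A := by
    intro γ hγ
    apply hsA
    rw [heq, Multiset.mem_toFinset, Polynomial.mem_roots hF0, Polynomial.IsRoot, hF,
      Polynomial.eval_map, ← Polynomial.aeval_def]
    exact hγ
  exact exists_galois_of_roots hp A hA f hd hlc hroots (hs α hα) (hs β hβ)

end Fermat.Agent.S13.Eis
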