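/-
S13, piece A-EIS on a curve: "all of `E[p]` in the kernel of reduction at `p` ⟹ `E[p]` has no
Galois-stable line".

Input: a polynomial `f ∈ ℤ[X]` of degree `(p² - 1) / 2` with leading coefficient `p` vanishing at
the `x`-coordinates of all nonzero `p`-torsion points (in the application: the `p`-th division
polynomial of an integral model).  If a Galois-stable `N ≠ ⊥, ⊤` exists then `#E[p] ≥ p²`, so the
`x`-coordinates of the nonzero `p`-torsion points are *all* the roots of `f`; if none of them lies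
in the valuation subring `A` over `p`, then `f` is "Eisenstein at infinity", the Galois group is
transitive on these `x`-coordinates, and no stable `N` can exist.
-/
import Mathlib
import Fermat.Prelude.Def_FLTPrelim_GaloisRep
import Fermat.Prelude.Def_FLTPrelim_Ramification
import Fermat.Agent.S13.Eis

set_option autoImplicit false

namespace Fermat.Agent.S13.Eis

open WeierstrassCurve WeierstrassCurve.Affine WeierstrassCurve.Affine.Point Polynomial

section general

variable {K : Type*} [Field K]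

/-- the `x`-coordinate of a point (junk value `0` at the origin) -/
def xc {W : WeierstrassCurve K} : W.toAffine.Point → K
  | .zero => 0
  | .some x _ _ => x

theorem eq_or_eq_neg_of_xc_eq {W : WeierstrassCurve K} {P Q : W.toAffine.Point} (hP : P ≠ 0)
    (hQ : Q ≠ 0) (h : xc P = xc Q) : P = Q ∨ P = -Q := by
  cases P with
  | zero => exact absurd rfl hP
  | some x y hxy =>
    cases Q with
    | zero => exact absurd rfl hQ
    | some x' y' hxy' =>
      change x = x' at h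
      subst h
      rcases Affine.Y_eq_of_X_eq hxy.1 hxy'.1 rfl with hy | hy
      · left
        subst hy
        rfl
      · right
        rw [Affine.Point.neg_some]
        subst hy
        rfl

end general

local notation "Qb" => AlgebraicClosure ℚ

theorem xc_smul {W : WeierstrassCurve ℚ} (σ : Qb ≃ₐ[ℚ] Qb) (Q : (W⁄Qb).Point) :
    xc (σ • Q) = σ (xc Q) := by
  cases Q with
  | zero =>
    change (0 : Qb) = σ 0
    rw [_root_.map_zero]
  | some x y h => rfl

theorem smul_ne_zero' {W : WeierstrassCurve ℚ} (σ : Qb ≃ₐ[ℚ] Qb) {Q : (W⁄Qb).Point}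
    (hQ : Q ≠ 0) : σ • Q ≠ 0 := by
  cases Q with
  | zero => exact absurd rfl hQ
  | some x y h =>
    intro h0
    exact Affine.Point.some_ne_zero _ h0

/-- **(Xp), abstract form.** -/
theorem no_stable_of_forall_notMem {p : ℕ} (hp : p.Prime) (hp2 : p ≠ 2)
    (W : WeierstrassCurve ℚ) (f : ℤ[X]) (hfdeg : f.natDegree = (p ^ 2 - 1) / 2)
    (hflc : f.leadingCoeff = p)
    (hfin : Finite (Submodule.torsionBy ℤ (W⁄Qb).Point p))
    (hN2 : ∀ (Q : Submodule.torsionBy ℤ (W⁄Qb).Point p) (x y : Qb)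
      (h : (W⁄Qb).Nonsingular x y), (Q : (W⁄Qb).Point) = Point.some x y h → aeval x f = 0)
    (A : ValuationSubring Qb) (hA : A.LiesOverPrime p)
    (hker : ∀ (Q : Submodule.torsionBy ℤ (W⁄Qb).Point p) (x y : Qb)
      (h : (W⁄Qb).Nonsingular x y), (Q : (W⁄Qb).Point) = Point.some x y h → x ∉ A) :
    ¬ ∃ N : Submodule (ZMod p) (Submodule.torsionBy ℤ (W⁄Qb).Point p),
      IsGaloisStable ℚ N ∧ N ≠ ⊥ ∧ N ≠ ⊤ := by
  rintro ⟨N, hstab, hbot, htop⟩
  classical
  have : Fact p.Prime := ⟨hp⟩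
  let _ := Fintype.ofFinite (Submodule.torsionBy ℤ (W⁄Qb).Point p)
  have hp3 : 3 ≤ p := by
    have := hp.two_le
    omega
  -- the dimension is at least two
  have hfr : 2 ≤ Module.finrank (ZMod p) (Submodule.torsionBy ℤ (W⁄Qb).Point p) := by
    have h1 : Module.finrank (ZMod p) N < Module.finrank (ZMod p)
        (Submodule.torsionBy ℤ (W⁄Qb).Point p) := Submodule.finrank_lt htop
    have h2 : 0 < Module.finrank (ZMod p) N := by
      rw [Module.finrank_pos_iff]
      exact (Submodule.nontrivial_iff_ne_bot).mpr hbot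
    omega
  have hcard : p ^ 2 ≤ Fintype.card (Submodule.torsionBy ℤ (W⁄Qb).Point p) := by
    rw [← Nat.card_eq_fintype_card, Module.natCard_eq_pow_finrank (K := ZMod p), Nat.card_zmod]
    exact Nat.pow_le_pow_right hp.pos hfr
  -- the set of `x`-coordinates of the nonzero points
  set xV : Submodule.torsionBy ℤ (W⁄Qb).Point p → Qb := fun Q => xc (Q : (W⁄Qb).Point) with hxV
  set T : Finset (Submodule.torsionBy ℤ (W⁄Qb).Point p) :=
    Finset.univ.filter (fun Q => Q ≠ 0) with hT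
  have hTcard : p ^ 2 - 1 ≤ T.card := by
    have h1 : T = Finset.univ.erase 0 := by
      rw [hT]
      ext Q
      simp
    rw [h1, Finset.card_erase_of_mem (Finset.mem_univ _), Finset.card_univ]
    omega
  set s : Finset Qb := T.image xV with hs
  have hcoe0 : ∀ Q : Submodule.torsionBy ℤ (W⁄Qb).Point p, Q ≠ 0 → (Q : (W⁄Qb).Point) ≠ 0 := by
    intro Q hQ h0
    exact hQ (Subtype.ext h0)
  have hfib : ∀ a ∈ s, (T.filter fun Q => xV Q = a).card ≤ 2 := by
    intro a ha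
    obtain ⟨Q₀, hQ₀T, rfl⟩ := Finset.mem_image.mp ha
    have hQ₀ : Q₀ ≠ 0 := (Finset.mem_filter.mp hQ₀T).2
    refine le_trans (Finset.card_le_card (t := {Q₀, -Q₀}) ?_) Finset.card_le_two
    intro Q hQ
    obtain ⟨hQT, hx⟩ := Finset.mem_filter.mp hQ
    have hQ0 : Q ≠ 0 := (Finset.mem_filter.mp hQT).2
    rcases eq_or_eq_neg_of_xc_eq (hcoe0 Q hQ0) (hcoe0 Q₀ hQ₀) hx with h | h
    · rw [Finset.mem_insert]
      exact Or.inl (Subtype.ext h)
    · rw [Finset.mem_insert, Finset.mem_singleton]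
      exact Or.inr (Subtype.ext (by rw [h]; rfl))
  have hscard : (p ^ 2 - 1) / 2 ≤ s.card := by
    have h1 : T.card ≤ 2 * s.card := Finset.card_le_mul_card_image (f := xV) T 2 hfib
    omega
  have hsdata : ∀ x ∈ s, aeval x f = 0 ∧ x ∉ A := by
    intro x hx
    obtain ⟨Q, hQT, rfl⟩ := Finset.mem_image.mp hx
    have hQ0 : Q ≠ 0 := (Finset.mem_filter.mp hQT).2
    have hQ0' := hcoe0 Q hQ0
    rcases hQ : (Q : (W⁄Qb).Point) with _ | ⟨x, y, h⟩
    · exact absurd hQ hQ0'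
    · have hx : xV Q = x := by
        rw [hxV]
        simp only
        rw [hQ]
        rfl
      rw [hx]
      exact ⟨hN2 Q x y h hQ, hker Q x y h hQ⟩
  have hd : 0 < f.natDegree := by
    rw [hfdeg]
    have : 9 ≤ p ^ 2 := by nlinarith
    omega
  -- a nonzero point in `N` and a point outside `N`
  obtain ⟨Q₁, hQ₁N, hQ₁0⟩ := (Submodule.ne_bot_iff N).mp hbot
  obtain ⟨Q₂, hQ₂⟩ : ∃ Q₂, Q₂ ∉ N := by
    by_contra hall
    exact htop ((Submodule.eq_top_iff').mpr fun Q => by_contra fun hQ => hall ⟨Q, hQ⟩)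
  have hQ₂0 : Q₂ ≠ 0 := fun h => hQ₂ (h ▸ N.zero_mem)
  have hQ₁T : Q₁ ∈ T := Finset.mem_filter.mpr ⟨Finset.mem_univ _, hQ₁0⟩
  have hQ₂T : Q₂ ∈ T := Finset.mem_filter.mpr ⟨Finset.mem_univ _, hQ₂0⟩
  obtain ⟨σ, hσ⟩ := exists_galois_of_mem hp A hA f hd hflc s (hfdeg ▸ hscard)
    (fun x hx => (hsdata x hx).1) (fun x hx => (hsdata x hx).2)
    (Finset.mem_image_of_mem xV hQ₁T) (Finset.mem_image_of_mem xV hQ₂T)
  have hσx : xc ((σ • Q₁ : Submodule.torsionBy ℤ (W⁄Qb).Point p) : (W⁄Qb).Point) =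
      xc (Q₂ : (W⁄Qb).Point) := by
    have : ((σ • Q₁ : Submodule.torsionBy ℤ (W⁄Qb).Point p) : (W⁄Qb).Point) =
        σ • (Q₁ : (W⁄Qb).Point) := rfl
    rw [this, xc_smul]
    exact hσ
  have hσ0 : ((σ • Q₁ : Submodule.torsionBy ℤ (W⁄Qb).Point p) : (W⁄Qb).Point) ≠ 0 :=
    smul_ne_zero' σ (hcoe0 Q₁ hQ₁0)
  have hσN : σ • Q₁ ∈ N := hstab σ Q₁ hQ₁N
  rcases eq_or_eq_neg_of_xc_eq hσ0 (hcoe0 Q₂ hQ₂0) hσx with h | h
  · have : σ • Q₁ = Q₂ := Subtype.ext h
    exact hQ₂ (this ▸ hσN)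
  · have h' : σ • Q₁ = -Q₂ := Subtype.ext (by rw [h]; rfl)
    have : Q₂ = -(σ • Q₁) := by rw [h', neg_neg]
    exact hQ₂ (this ▸ N.neg_mem hσN)

/-- **(Xp) for a curve with an integral model**, in terms of Mathlib's division polynomial
`preΨ p` of the curve over `ℚ̄`. -/
theorem no_stable_of_preΨ {p : ℕ} (hp : p.Prime) (hp2 : p ≠ 2)
    (Wint : WeierstrassCurve ℤ) (W : WeierstrassCurve ℚ)
    (hW : W = Wint.map (Int.castRingHom ℚ))
    (hfin : Finite (Submodule.torsionBy ℤ (W⁄Qb).Point p))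
    (hN2 : ∀ (Q : Submodule.torsionBy ℤ (W⁄Qb).Point p) (x y : Qb)
      (h : (W⁄Qb).Nonsingular x y), (Q : (W⁄Qb).Point) = Point.some x y h →
        ((W⁄Qb).preΨ (p : ℤ)).eval x = 0)
    (A : ValuationSubring Qb) (hA : A.LiesOverPrime p)
    (hker : ∀ (Q : Submodule.torsionBy ℤ (W⁄Qb).Point p) (x y : Qb)
      (h : (W⁄Qb).Nonsingular x y), (Q : (W⁄Qb).Point) = Point.some x y h → x ∉ A) :
    ¬ ∃ N : Submodule (ZMod p) (Submodule.torsionBy ℤ (W⁄Qb).Point p),
      IsGaloisStable ℚ N ∧ N ≠ ⊥ ∧ N ≠ ⊤ := by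
  have hodd : ¬ Even (p : ℤ) := by
    rw [Int.even_coe_nat, Nat.not_even_iff_odd]
    exact hp.odd_of_ne_two hp2
  have hp0 : (Int.cast (p : ℤ) : ℤ) ≠ 0 := by
    simpa using hp.ne_zero
  have hdeg : (Wint.preΨ (p : ℤ)).natDegree = (p ^ 2 - 1) / 2 := by
    rw [Wint.natDegree_preΨ (n := (p : ℤ)) hp0, if_neg hodd, Int.natAbs_natCast]
  have hlc : (Wint.preΨ (p : ℤ)).leadingCoeff = (p : ℤ) := by
    rw [Wint.leadingCoeff_preΨ (n := (p : ℤ)) hp0, if_neg hodd, Int.cast_id]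
  have hmap : (W⁄Qb).preΨ (p : ℤ) = (Wint.preΨ (p : ℤ)).map (algebraMap ℤ Qb) := by
    have h1 : (W⁄Qb) = Wint.map (algebraMap ℤ Qb) := by
      change W.map (algebraMap ℚ Qb) = Wint.map (algebraMap ℤ Qb)
      rw [hW, WeierstrassCurve.map_map]
      exact congrArg Wint.map (RingHom.ext_int _ _)
    rw [h1, WeierstrassCurve.map_preΨ]
  refine no_stable_of_forall_notMem hp hp2 W (Wint.preΨ (p : ℤ)) hdeg hlc hfin ?_ A hA hker
  intro Q x y h hQ
  have := hN2 Q x y h hQ
  rwa [hmap, Polynomial.eval_map, ← Polynomial.aeval_def] at this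

end Fermat.Agent.S13.Eis
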