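/-
S13 route LAD (helper3): the Montgomery ladder of polynomial pairs `(N_n, D_n)` computing the
`x`-coordinate of `n • S` on a curve `Y² = X³ + a₂ X² + a₄ X`, with
* exact leading terms (`N_n` monic, `D_n` of degree one less with leading coefficient `n²`),
* a projective evaluation relation `Val` which is closed under doubling and addition in all
  cases (so no exceptional-case bookkeeping is needed).
-/
import Mathlib
import Fermat.Agent.S05.XForm

set_option autoImplicit false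

namespace Fermat.Agent.S13.Ladder

open Polynomial

/-! ### Leading-term calculus -/

section Top

variable {R : Type*} [CommRing R]

/-- `Top p d c`: `p` has degree at most `d` and its coefficient of degree `d` is `c`. -/
def Top (p : R[X]) (d : ℕ) (c : R) : Prop := p.natDegree ≤ d ∧ p.coeff d = c

theorem Top.cast {p : R[X]} {d d' : ℕ} {c c' : R} (h : Top p d c) (hd : d = d') (hc : c = c') :
    Top p d' c' := by
  subst hd; subst hc; exact h

theorem Top.mul {p q : R[X]} {d e : ℕ} {c c' : R} (hp : Top p d c) (hq : Top q e c') :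
    Top (p * q) (d + e) (c * c') :=
  ⟨natDegree_mul_le_of_le hp.1 hq.1, by
    rw [coeff_mul_add_eq_of_natDegree_le hp.1 hq.1, hp.2, hq.2]⟩

theorem Top.pow {p : R[X]} {d : ℕ} {c : R} (hp : Top p d c) (m : ℕ) :
    Top (p ^ m) (m * d) (c ^ m) :=
  ⟨natDegree_pow_le_of_le m hp.1, by rw [coeff_pow_of_natDegree_le hp.1, hp.2]⟩

theorem Top.add {p q : R[X]} {d : ℕ} {c c' : R} (hp : Top p d c) (hq : Top q d c') :
    Top (p + q) d (c + c') :=
  ⟨natDegree_add_le_of_degree_le hp.1 hq.1, by rw [coeff_add, hp.2, hq.2]⟩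

theorem Top.sub {p q : R[X]} {d : ℕ} {c c' : R} (hp : Top p d c) (hq : Top q d c') :
    Top (p - q) d (c - c') :=
  ⟨(natDegree_sub_le_of_le hp.1 hq.1).trans (by simp), by rw [coeff_sub, hp.2, hq.2]⟩

theorem Top.lower {p : R[X]} {d d' : ℕ} {c : R} (hp : Top p d c) (h : d < d') : Top p d' 0 :=
  ⟨hp.1.trans h.le, coeff_eq_zero_of_natDegree_lt (lt_of_le_of_lt hp.1 h)⟩

theorem Top.C_mul {p : R[X]} {d : ℕ} {c : R} (a : R) (hp : Top p d c) :
    Top (C a * p) d (a * c) :=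
  ⟨(natDegree_C_mul_le a p).trans hp.1, by rw [coeff_C_mul, hp.2]⟩

theorem Top.X_mul {p : R[X]} {d : ℕ} {c : R} (hp : Top p d c) : Top (X * p) (d + 1) c :=
  ⟨by
    refine (natDegree_mul_le_of_le (natDegree_X_le) hp.1).trans ?_
    omega, by rw [coeff_X_mul, hp.2]⟩

theorem top_X : Top (X : R[X]) 1 1 := ⟨natDegree_X_le, coeff_X_one⟩

theorem top_one : Top (1 : R[X]) 0 1 := ⟨by simp, coeff_one_zero⟩

theorem Top.natDegree_eq {p : R[X]} {d : ℕ} {c : R} (hp : Top p d c) (hc : c ≠ 0) :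
    p.natDegree = d :=
  le_antisymm hp.1 (le_natDegree_of_ne_zero (by rw [hp.2]; exact hc))

theorem Top.leadingCoeff_eq {p : R[X]} {d : ℕ} {c : R} (hp : Top p d c) (hc : c ≠ 0) :
    p.leadingCoeff = c := by
  rw [leadingCoeff, hp.natDegree_eq hc, hp.2]

theorem Top.ne_zero {p : R[X]} {d : ℕ} {c : R} (hp : Top p d c) (hc : c ≠ 0) : p ≠ 0 := by
  rintro rfl
  exact hc (by rw [← hp.2, coeff_zero])

end Top

/-! ### The ladder -/

section Lad

variable {R : Type*} [CommRing R]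

/-- numerator of the doubling step -/
noncomputable def dupN (a₄ : R) (N D : R[X]) : R[X] := (N ^ 2 - C a₄ * D ^ 2) ^ 2

/-- denominator of the doubling step -/
noncomputable def dupD (a₂ a₄ : R) (N D : R[X]) : R[X] :=
  N * D * (C 4 * N ^ 2 + C (4 * a₂) * (N * D) + C (4 * a₄) * D ^ 2)

/-- numerator of the addition step (difference `S`) -/
noncomputable def addN (a₄ : R) (N₁ D₁ N₂ D₂ : R[X]) : R[X] := (N₂ * N₁ - C a₄ * (D₂ * D₁)) ^ 2

/-- the polynomial `G = N₂ D₁ - N₁ D₂` -/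
noncomputable def gPol (N₁ D₁ N₂ D₂ : R[X]) : R[X] := N₂ * D₁ - N₁ * D₂

/-- denominator of the addition step (difference `S`) -/
noncomputable def addD (N₁ D₁ N₂ D₂ : R[X]) : R[X] := X * gPol N₁ D₁ N₂ D₂ ^ 2

/-- the ladder: `lad n = (N_n, D_n)` with `x(n • S) = N_n(x) / D_n(x)` -/
noncomputable def lad (a₂ a₄ : R) : ℕ → R[X] × R[X]
  | 0 => (1, 0)
  | 1 => (X, 1)
  | (n + 2) =>
    if (n + 2) % 2 = 0 then
      (dupN a₄ (lad a₂ a₄ ((n + 2) / 2)).1 (lad a₂ a₄ ((n + 2) / 2)).2,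
        dupD a₂ a₄ (lad a₂ a₄ ((n + 2) / 2)).1 (lad a₂ a₄ ((n + 2) / 2)).2)
    else
      (addN a₄ (lad a₂ a₄ ((n + 2) / 2)).1 (lad a₂ a₄ ((n + 2) / 2)).2
          (lad a₂ a₄ ((n + 2) / 2 + 1)).1 (lad a₂ a₄ ((n + 2) / 2 + 1)).2,
        addD (lad a₂ a₄ ((n + 2) / 2)).1 (lad a₂ a₄ ((n + 2) / 2)).2
          (lad a₂ a₄ ((n + 2) / 2 + 1)).1 (lad a₂ a₄ ((n + 2) / 2 + 1)).2)
  termination_by n => n
  decreasing_by all_goals omega

theorem lad_one (a₂ a₄ : R) : lad a₂ a₄ 1 = (X, 1) := by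
  rw [lad]

theorem lad_two_mul (a₂ a₄ : R) {n : ℕ} (hn : 1 ≤ n) :
    lad a₂ a₄ (2 * n) = (dupN a₄ (lad a₂ a₄ n).1 (lad a₂ a₄ n).2,
      dupD a₂ a₄ (lad a₂ a₄ n).1 (lad a₂ a₄ n).2) := by
  obtain ⟨k, rfl⟩ : ∃ k, n = k + 1 := ⟨n - 1, by omega⟩
  have e : 2 * (k + 1) = 2 * k + 2 := by ring
  rw [e, lad]
  have h1 : (2 * k + 2) % 2 = 0 := by omega
  have h2 : (2 * k + 2) / 2 = k + 1 := by omega
  rw [if_pos h1, h2]

theorem lad_two_mul_add_one (a₂ a₄ : R) {n : ℕ} (hn : 1 ≤ n) :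
    lad a₂ a₄ (2 * n + 1) = (addN a₄ (lad a₂ a₄ n).1 (lad a₂ a₄ n).2
        (lad a₂ a₄ (n + 1)).1 (lad a₂ a₄ (n + 1)).2,
      addD (lad a₂ a₄ n).1 (lad a₂ a₄ n).2 (lad a₂ a₄ (n + 1)).1 (lad a₂ a₄ (n + 1)).2) := by
  obtain ⟨k, rfl⟩ : ∃ k, n = k + 1 := ⟨n - 1, by omega⟩
  have e : 2 * (k + 1) + 1 = (2 * k + 1) + 2 := by ring
  rw [e, lad]
  have h1 : ¬ (2 * k + 1 + 2) % 2 = 0 := by omega
  have h2 : (2 * k + 1 + 2) / 2 = k + 1 := by omega
  rw [if_neg h1, h2]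

/-- induction along the ladder -/
theorem ladder_induction {P : ℕ → Prop} (h1 : P 1) (hd : ∀ n, 1 ≤ n → P n → P (2 * n))
    (ha : ∀ n, 1 ≤ n → P n → P (n + 1) → P (2 * n + 1)) : ∀ n, 1 ≤ n → P n := by
  intro n
  induction n using Nat.strong_induction_on with
  | _ n ih =>
    intro hn
    rcases Nat.even_or_odd' n with ⟨m, rfl | rfl⟩
    · exact hd m (by omega) (ih m (by omega) (by omega))
    · rcases Nat.eq_zero_or_pos m with rfl | hm
      · exact h1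
      · exact ha m hm (ih m (by omega) (by omega)) (ih (m + 1) (by omega) (by omega))

/-- the leading terms of the ladder -/
theorem lad_top (a₂ a₄ : R) : ∀ n, 1 ≤ n → ∃ e : ℕ, Top (lad a₂ a₄ n).1 (e + 1) 1 ∧
    Top (lad a₂ a₄ n).2 e ((n : R) ^ 2) ∧ e + 2 ≤ 2 * n ^ 2 := by
  refine ladder_induction ?_ ?_ ?_
  · refine ⟨0, ?_, ?_, by norm_num⟩
    · rw [lad_one]; exact top_X
    · rw [lad_one]; exact top_one.cast rfl (by simp)
  · rintro n hn ⟨e, hN, hD, he⟩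
    refine ⟨4 * e + 3, ?_, ?_, by nlinarith⟩
    · rw [lad_two_mul a₂ a₄ hn]
      have h1 : Top ((lad a₂ a₄ n).1 ^ 2) (2 * e + 2) 1 := (hN.pow 2).cast (by ring) (by ring)
      have h2 : Top (C a₄ * (lad a₂ a₄ n).2 ^ 2) (2 * e + 2) 0 :=
        (((hD.pow 2).C_mul a₄).lower (by omega : 2 * e < 2 * e + 2))
      exact ((h1.sub h2).pow 2).cast (by ring) (by ring)
    · rw [lad_two_mul a₂ a₄ hn]
      have h1 : Top (C 4 * (lad a₂ a₄ n).1 ^ 2) (2 * e + 2) 4 :=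
        ((hN.pow 2).C_mul 4).cast (by ring) (by ring)
      have h2 : Top (C (4 * a₂) * ((lad a₂ a₄ n).1 * (lad a₂ a₄ n).2)) (2 * e + 2) 0 :=
        ((hN.mul hD).C_mul (4 * a₂)).lower (by omega)
      have h3 : Top (C (4 * a₄) * (lad a₂ a₄ n).2 ^ 2) (2 * e + 2) 0 :=
        ((hD.pow 2).C_mul (4 * a₄)).lower (by omega)
      have h4 := (h1.add h2).add h3
      exact ((hN.mul hD).mul h4).cast (by ring) (by push_cast; ring)
  · rintro n hn ⟨e₁, hN₁, hD₁, he₁⟩ ⟨e₂, hN₂, hD₂, he₂⟩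
    refine ⟨2 * e₁ + 2 * e₂ + 3, ?_, ?_, by nlinarith⟩
    · rw [lad_two_mul_add_one a₂ a₄ hn]
      have h1 : Top ((lad a₂ a₄ (n + 1)).1 * (lad a₂ a₄ n).1) (e₁ + e₂ + 2) 1 :=
        (hN₂.mul hN₁).cast (by ring) (by ring)
      have h2 : Top (C a₄ * ((lad a₂ a₄ (n + 1)).2 * (lad a₂ a₄ n).2)) (e₁ + e₂ + 2) 0 :=
        ((hD₂.mul hD₁).C_mul a₄).lower (by omega)
      exact ((h1.sub h2).pow 2).cast (by ring) (by ring)
    · rw [lad_two_mul_add_one a₂ a₄ hn]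
      have h1 : Top ((lad a₂ a₄ (n + 1)).1 * (lad a₂ a₄ n).2) (e₁ + e₂ + 1) ((n : R) ^ 2) :=
        (hN₂.mul hD₁).cast (by ring) (by ring)
      have h2 : Top ((lad a₂ a₄ n).1 * (lad a₂ a₄ (n + 1)).2) (e₁ + e₂ + 1)
          (((n + 1 : ℕ) : R) ^ 2) := (hN₁.mul hD₂).cast (by ring) (by ring)
      exact ((h1.sub h2).pow 2).X_mul.cast (by ring) (by push_cast; ring)

end Lad


/-! ### The projective evaluation relation -/

section Val

open WeierstrassCurve WeierstrassCurve.Affine Fermat.Agent.S05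

variable {K : Type*} [Field K] [DecidableEq K] [CharZero K] {W : WeierstrassCurve K}

/-- `Val Q N D`: the projective point `[N : D]` is the `x`-coordinate of `Q`. -/
def Val (Q : W.toAffine.Point) (N D : K) : Prop :=
  (N ≠ 0 ∨ D ≠ 0) ∧ ((Q = 0 ∧ D = 0) ∨
    ∃ (x y : K) (h : W.toAffine.Nonsingular x y), Q = Point.some x y h ∧ N = x * D)

omit [DecidableEq K] [CharZero K] in
theorem val_den_ne_zero {x D : K} (h : x * D ≠ 0 ∨ D ≠ 0) : D ≠ 0 := by
  rcases h with h | h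
  · intro h0
    apply h
    rw [h0, mul_zero]
  · exact h

omit [DecidableEq K] [CharZero K] in
/-- the algebraic heart of nondegeneracy for doubling -/
theorem sq_ne_of_y_eq_zero (ha₄ : W.a₄ ≠ 0) (hdisc : W.a₂ ^ 2 - 4 * W.a₄ ≠ 0) {x : K}
    (e : x ^ 3 + W.a₂ * x ^ 2 + W.a₄ * x = 0) : x ^ 2 - W.a₄ ≠ 0 := by
  intro h0
  have hx : x ≠ 0 := by
    rintro rfl
    apply ha₄
    linear_combination -h0
  have e1 : x ^ 2 + W.a₂ * x + W.a₄ = 0 := by
    have : x * (x ^ 2 + W.a₂ * x + W.a₄) = 0 := by linear_combination e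
    rcases mul_eq_zero.mp this with h | h
    · exact absurd h hx
    · exact h
  have e2 : W.a₄ * (W.a₂ ^ 2 - 4 * W.a₄) = 0 := by
    linear_combination (W.a₂ * x - 2 * W.a₄) * e1 - (W.a₂ ^ 2 + W.a₂ * x - 2 * W.a₄) * h0
  rcases mul_eq_zero.mp e2 with h | h
  · exact ha₄ h
  · exact hdisc h

theorem val_dup (hW : IsLeg W) (ha₄ : W.a₄ ≠ 0) (hdisc : W.a₂ ^ 2 - 4 * W.a₄ ≠ 0)
    {Q : W.toAffine.Point} {N D : K} (h : Val Q N D) :
    Val ((2 : ℕ) • Q) ((N ^ 2 - W.a₄ * D ^ 2) ^ 2)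
      (N * D * (4 * N ^ 2 + 4 * W.a₂ * (N * D) + 4 * W.a₄ * D ^ 2)) := by
  obtain ⟨hnd, hcase⟩ := h
  rcases hcase with ⟨rfl, rfl⟩ | ⟨x, y, hxy, rfl, rfl⟩
  · have hN : N ≠ 0 := by
      rcases hnd with h | h
      · exact h
      · exact absurd rfl h
    refine ⟨Or.inl ?_, Or.inl ⟨by simp, by ring⟩⟩
    have : (N ^ 2 - W.a₄ * (0 : K) ^ 2) ^ 2 = N ^ 4 := by ring
    rw [this]
    exact pow_ne_zero 4 hN
  · have hD : D ≠ 0 := val_den_ne_zero hnd
    have e := eq_of_nonsingular hW hxy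
    have hN' : ((x * D) ^ 2 - W.a₄ * D ^ 2) ^ 2 = D ^ 4 * (x ^ 2 - W.a₄) ^ 2 := by ring
    have hD' : x * D * D * (4 * (x * D) ^ 2 + 4 * W.a₂ * (x * D * D) + 4 * W.a₄ * D ^ 2)
        = D ^ 4 * (4 * y ^ 2) := by
      rw [e]; ring
    rw [hN', hD']
    by_cases hy : y = 0
    · refine ⟨Or.inl ?_, Or.inl ⟨two_nsmul_some_eq_zero hW hxy hy, by rw [hy]; ring⟩⟩
      have hx2 : x ^ 2 - W.a₄ ≠ 0 := by
        apply sq_ne_of_y_eq_zero ha₄ hdisc
        rw [← e, hy]; ring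
      exact mul_ne_zero (pow_ne_zero 4 hD) (pow_ne_zero 2 hx2)
    · obtain ⟨x', y', h', e2, eq2⟩ := two_nsmul_some hW hxy hy
      refine ⟨Or.inr ?_, Or.inr ⟨x', y', h', e2, ?_⟩⟩
      · exact mul_ne_zero (pow_ne_zero 4 hD)
          (mul_ne_zero (by norm_num : (4 : K) ≠ 0) (pow_ne_zero 2 hy))
      · linear_combination (-D ^ 4) * eq2

theorem val_add (hW : IsLeg W) {x y : K} (h : W.toAffine.Nonsingular x y)
    (hx : x ≠ 0) {Q₁ Q₂ : W.toAffine.Point} (hQ : Q₂ = Q₁ + Point.some x y h) {N₁ D₁ N₂ D₂ : K}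
    (h₁ : Val Q₁ N₁ D₁) (h₂ : Val Q₂ N₂ D₂) :
    Val (Q₁ + Q₂) ((N₂ * N₁ - W.a₄ * (D₂ * D₁)) ^ 2) (x * (N₂ * D₁ - N₁ * D₂) ^ 2) := by
  obtain ⟨hnd₁, hc₁⟩ := h₁
  obtain ⟨hnd₂, hc₂⟩ := h₂
  have hSne : Point.some x y h ≠ 0 := Point.some_ne_zero _
  rcases hc₁ with ⟨rfl, rfl⟩ | ⟨x₁, y₁, hxy₁, rfl, rfl⟩
  · -- `Q₁ = 0`
    have hN₁ : N₁ ≠ 0 := by
      rcases hnd₁ with h | h
      · exact h
      · exact absurd rfl h
    rw [zero_add] at hQ
    subst hQ
    rcases hc₂ with ⟨h0, -⟩ | ⟨x₂, y₂, hxy₂, e, rfl⟩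
    · exact absurd h0 hSne
    · have hxe : x = x₂ := by
        simp only [Point.some.injEq] at e
        exact e.1
      subst hxe
      have hD₂ : D₂ ≠ 0 := val_den_ne_zero hnd₂
      rw [zero_add]
      refine ⟨Or.inr ?_, Or.inr ⟨x, y, h, rfl, by ring⟩⟩
      have : x * (x * D₂ * 0 - N₁ * D₂) ^ 2 = x * (N₁ * D₂) ^ 2 := by ring
      rw [this]
      exact mul_ne_zero hx (pow_ne_zero 2 (mul_ne_zero hN₁ hD₂))
  · have hD₁ : D₁ ≠ 0 := val_den_ne_zero hnd₁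
    rcases hc₂ with ⟨rfl, rfl⟩ | ⟨x₂, y₂, hxy₂, rfl, rfl⟩
    · -- `Q₂ = 0`, so `Q₁ = -S`
      have hN₂ : N₂ ≠ 0 := by
        rcases hnd₂ with h | h
        · exact h
        · exact absurd rfl h
      obtain ⟨hneg, eneg⟩ := neg_some hW h
      have e1 : Point.some x₁ y₁ hxy₁ = Point.some x (-y) hneg := by
        rw [← eneg]
        exact eq_neg_of_add_eq_zero_left hQ.symm
      have hxe : x₁ = x := by
        simp only [Point.some.injEq] at e1
        exact e1.1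
      subst hxe
      rw [add_zero]
      refine ⟨Or.inr ?_, Or.inr ⟨x₁, y₁, hxy₁, rfl, by ring⟩⟩
      have : x₁ * (N₂ * D₁ - x₁ * D₁ * 0) ^ 2 = x₁ * (N₂ * D₁) ^ 2 := by ring
      rw [this]
      exact mul_ne_zero hx (pow_ne_zero 2 (mul_ne_zero hN₂ hD₁))
    · have hD₂ : D₂ ≠ 0 := val_den_ne_zero hnd₂
      by_cases hxx : x₁ = x₂
      · subst hxx
        have hne : y₁ ≠ y₂ := by
          intro hy
          subst hy
          exact hSne (left_eq_add.mp hQ)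
        have hy : y₁ = -y₂ := by
          rcases eq_or_eq_neg_of_x_eq hW hxy₁ hxy₂ with hy | hy
          · exact absurd hy hne
          · exact hy
        have hsum : Point.some x₁ y₁ hxy₁ + Point.some x₁ y₂ hxy₂ = 0 :=
          add_some_eq_zero hW hxy₁ hxy₂ ⟨rfl, hy⟩
        refine ⟨Or.inl ?_, Or.inl ⟨hsum, by ring⟩⟩
        have hx2 : x₁ ^ 2 - W.a₄ ≠ 0 := by
          intro h0
          have hy₁ : y₁ ≠ 0 := by
            intro hy0
            apply hne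
            rw [hy0] at hy ⊢
            linear_combination -hy
          obtain ⟨x', y', h', e2, eq2⟩ := two_nsmul_some hW hxy₁ hy₁
          have hx' : x' = 0 := by
            have h4 : x' * (4 * y₁ ^ 2) = 0 := by rw [eq2, h0]; ring
            rcases mul_eq_zero.mp h4 with h | h
            · exact h
            · exact absurd h (mul_ne_zero (by norm_num : (4 : K) ≠ 0) (pow_ne_zero 2 hy₁))
          have hQ2 : Point.some x₁ y₂ hxy₂ = -Point.some x₁ y₁ hxy₁ :=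
            eq_neg_of_add_eq_zero_right hsum
          have hS : Point.some x y h = -((2 : ℕ) • Point.some x₁ y₁ hxy₁) := by
            rw [hQ2] at hQ
            calc Point.some x y h
                = (Point.some x₁ y₁ hxy₁ + Point.some x y h) - Point.some x₁ y₁ hxy₁ := by abel
              _ = -Point.some x₁ y₁ hxy₁ - Point.some x₁ y₁ hxy₁ := by rw [← hQ]
              _ = -((2 : ℕ) • Point.some x₁ y₁ hxy₁) := by rw [two_nsmul]; abel
          rw [e2] at hS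
          obtain ⟨hneg', eneg'⟩ := neg_some hW h'
          rw [eneg'] at hS
          simp only [Point.some.injEq] at hS
          exact hx (hS.1.trans hx')
        have : (x₁ * D₂ * (x₁ * D₁) - W.a₄ * (D₂ * D₁)) ^ 2
            = (D₁ * D₂) ^ 2 * (x₁ ^ 2 - W.a₄) ^ 2 := by ring
        rw [this]
        exact mul_ne_zero (pow_ne_zero 2 (mul_ne_zero hD₁ hD₂)) (pow_ne_zero 2 hx2)
      · obtain ⟨x₃, y₃, h₃, x₄, y₄, h₄, ea, es, ep, -, -⟩ :=
          add_sub_some hW hxy₂ hxy₁ (Ne.symm hxx)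
        have hx4 : x₄ = x := by
          have e4 : Point.some x₄ y₄ h₄ = Point.some x y h := by
            rw [← es, hQ]; abel
          simp only [Point.some.injEq] at e4
          exact e4.1
        subst hx4
        refine ⟨Or.inr ?_, Or.inr ⟨x₃, y₃, h₃, by rw [add_comm]; exact ea, ?_⟩⟩
        · have : x₄ * (x₂ * D₂ * D₁ - x₁ * D₁ * D₂) ^ 2
              = x₄ * ((D₁ * D₂) ^ 2 * (x₂ - x₁) ^ 2) := by ring
          rw [this]
          exact mul_ne_zero hx (mul_ne_zero (pow_ne_zero 2 (mul_ne_zero hD₁ hD₂))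
            (pow_ne_zero 2 (sub_ne_zero.mpr (Ne.symm hxx))))
        · linear_combination (-(D₁ * D₂) ^ 2) * ep

/-- the ladder computes the `x`-coordinates of the multiples of `S` (projectively) -/
theorem val_lad (hW : IsLeg W) (ha₄ : W.a₄ ≠ 0) (hdisc : W.a₂ ^ 2 - 4 * W.a₄ ≠ 0) {x y : K}
    (h : W.toAffine.Nonsingular x y) (hx : x ≠ 0) : ∀ n, 1 ≤ n →
    Val (n • Point.some x y h) ((lad W.a₂ W.a₄ n).1.eval x) ((lad W.a₂ W.a₄ n).2.eval x) := by
  refine ladder_induction ?_ ?_ ?_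
  · rw [one_smul, lad_one]
    exact ⟨Or.inr (by simp), Or.inr ⟨x, y, h, rfl, by simp⟩⟩
  · intro n hn ih
    have := val_dup hW ha₄ hdisc ih
    rw [mul_smul, lad_two_mul _ _ hn]
    simpa [dupN, dupD] using this
  · intro n hn ih₁ ih₂
    have e : (2 * n + 1) • Point.some x y h
        = n • Point.some x y h + (n + 1) • Point.some x y h := by
      rw [← add_nsmul]; congr 1; ring
    have := val_add hW h hx (succ_nsmul (Point.some x y h) n) ih₁ ih₂
    rw [e, lad_two_mul_add_one _ _ hn]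
    simpa [addN, addD, gPol] using this

end Val

end Fermat.Agent.S13.Ladder
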