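/-
S13 route LAD (helper3), part 2: the torsion polynomial `torsPol` (leading coefficient `-p`,
integral coefficients, vanishing at the `x`-coordinates of all nonzero `p`-torsion points),
existence of `p`-torsion over an algebraically closed field, and the statement (T) for curves
`Y² = X³ + a₂ X² + a₄ X`.
-/
import Mathlib
import Fermat.Agent.S05.XForm
import Fermat.Agent.S13.Ladder
import Fermat.Agent.S13.DPTors

set_option autoImplicit false

namespace Fermat.Agent.S13.Ladder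

open Polynomial

/-! ### The torsion polynomial -/

section TorsPol

variable {R : Type*} [CommRing R]

/-- the torsion polynomial `N_{m+1} D_m - N_m D_{m+1}` for `p = 2m + 1` -/
noncomputable def torsPol (a₂ a₄ : R) (m : ℕ) : R[X] :=
  gPol (lad a₂ a₄ m).1 (lad a₂ a₄ m).2 (lad a₂ a₄ (m + 1)).1 (lad a₂ a₄ (m + 1)).2

theorem torsPol_top (a₂ a₄ : R) {m : ℕ} (hm : 1 ≤ m) :
    ∃ e : ℕ, Top (torsPol a₂ a₄ m) e (-((2 * m + 1 : ℕ) : R)) ∧ e + 2 ≤ (2 * m + 1) ^ 2 := by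
  obtain ⟨e₁, hN₁, hD₁, he₁⟩ := lad_top a₂ a₄ m hm
  obtain ⟨e₂, hN₂, hD₂, he₂⟩ := lad_top a₂ a₄ (m + 1) (by omega)
  refine ⟨e₁ + e₂ + 1, ?_, by nlinarith⟩
  have h1 : Top ((lad a₂ a₄ (m + 1)).1 * (lad a₂ a₄ m).2) (e₁ + e₂ + 1) ((m : R) ^ 2) :=
    (hN₂.mul hD₁).cast (by ring) (by ring)
  have h2 : Top ((lad a₂ a₄ m).1 * (lad a₂ a₄ (m + 1)).2) (e₁ + e₂ + 1)
      (((m + 1 : ℕ) : R) ^ 2) := (hN₁.mul hD₂).cast (by ring) (by ring)
  exact (h1.sub h2).cast rfl (by push_cast; ring)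

theorem lad_map {S : Type*} [CommRing S] (f : R →+* S) (a₂ a₄ : R) : ∀ n, 1 ≤ n →
    lad (f a₂) (f a₄) n = ((lad a₂ a₄ n).1.map f, (lad a₂ a₄ n).2.map f) := by
  refine ladder_induction ?_ ?_ ?_
  · rw [lad_one, lad_one]; simp
  · intro n hn ih
    have h4 : f 4 = 4 := map_ofNat f 4
    rw [lad_two_mul _ _ hn, lad_two_mul _ _ hn, ih]
    simp [dupN, dupD, Polynomial.map_pow, Polynomial.map_sub, Polynomial.map_mul,
      Polynomial.map_add, h4]
  · intro n hn ih₁ ih₂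
    rw [lad_two_mul_add_one _ _ hn, lad_two_mul_add_one _ _ hn, ih₁, ih₂]
    simp [addN, addD, gPol, Polynomial.map_pow, Polynomial.map_sub, Polynomial.map_mul]

theorem torsPol_map {S : Type*} [CommRing S] (f : R →+* S) (a₂ a₄ : R) {m : ℕ} (hm : 1 ≤ m) :
    torsPol (f a₂) (f a₄) m = (torsPol a₂ a₄ m).map f := by
  unfold torsPol
  rw [lad_map f a₂ a₄ m hm, lad_map f a₂ a₄ (m + 1) (by omega)]
  simp [gPol, Polynomial.map_sub, Polynomial.map_mul]

/-- the coefficients of the torsion polynomial lie in every subring containing `a₂`, `a₄` -/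
theorem torsPol_coeff_mem {K : Type*} [Field K] (A : ValuationSubring K) {a₂ a₄ : K}
    (h₂ : a₂ ∈ A) (h₄ : a₄ ∈ A) {m : ℕ} (hm : 1 ≤ m) (i : ℕ) :
    (torsPol a₂ a₄ m).coeff i ∈ A := by
  have h := torsPol_map A.subtype ⟨a₂, h₂⟩ ⟨a₄, h₄⟩ hm
  change torsPol a₂ a₄ m = _ at h
  rw [h, coeff_map]
  exact Subtype.property _

end TorsPol

/-! ### Torsion points -/

section Tors

open WeierstrassCurve WeierstrassCurve.Affine Fermat.Agent.S05

variable {K : Type*} [Field K] [DecidableEq K] [CharZero K] {W : WeierstrassCurve K}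

omit [DecidableEq K] [CharZero K] in
theorem prime_dvd_of_nsmul_eq_zero {G : Type*} [AddGroup G] {P : G} {p : ℕ} (hp : p.Prime)
    (hP : p • P = 0) (hP0 : P ≠ 0) {m : ℕ} (hm : m • P = 0) : p ∣ m := by
  have h1 : addOrderOf P ∣ p := addOrderOf_dvd_of_nsmul_eq_zero hP
  have h2 : addOrderOf P ∣ m := addOrderOf_dvd_of_nsmul_eq_zero hm
  rcases (Nat.dvd_prime hp).mp h1 with h | h
  · exact absurd (AddMonoid.addOrderOf_eq_one_iff.mp h) hP0
  · rwa [h] at h2

/-- the `x`-coordinate of a point of odd prime order is nonzero -/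
theorem x_ne_zero_of_torsion (hW : IsLeg W) {p : ℕ} (hp : p.Prime) (hp2 : p ≠ 2) {x y : K}
    (h : W.toAffine.Nonsingular x y) (hP : p • Point.some x y h = 0) : x ≠ 0 := by
  rintro rfl
  have e := eq_of_nonsingular hW h
  have hy : y = 0 := by
    have : y ^ 2 = 0 := by rw [e]; ring
    exact pow_eq_zero_iff (two_ne_zero) |>.mp this
  have h2 := two_nsmul_some_eq_zero hW h hy
  have := prime_dvd_of_nsmul_eq_zero hp hP (Point.some_ne_zero _) h2
  exact hp2 ((Nat.prime_dvd_prime_iff_eq hp Nat.prime_two).mp this)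

/-- **the torsion polynomial vanishes at the `x`-coordinates of the `p`-torsion points** -/
theorem torsPol_eval_eq_zero (hW : IsLeg W) (ha₄ : W.a₄ ≠ 0) (hdisc : W.a₂ ^ 2 - 4 * W.a₄ ≠ 0)
    {p m : ℕ} (hp : p.Prime) (hpm : p = 2 * m + 1) {x y : K}
    (h : W.toAffine.Nonsingular x y) (hP : p • Point.some x y h = 0) :
    (torsPol W.a₂ W.a₄ m).eval x = 0 := by
  have hp2 : p ≠ 2 := by omega
  have hm : 1 ≤ m := by
    have := hp.two_le
    omega
  have hx : x ≠ 0 := x_ne_zero_of_torsion hW hp hp2 h hP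
  have hS0 : Point.some x y h ≠ 0 := Point.some_ne_zero _
  obtain ⟨hnd₁, hc₁⟩ := val_lad hW ha₄ hdisc h hx m hm
  obtain ⟨hnd₂, hc₂⟩ := val_lad hW ha₄ hdisc h hx (m + 1) (by omega)
  have hm0 : m • Point.some x y h ≠ 0 := by
    intro h0
    have := Nat.le_of_dvd (by omega) (prime_dvd_of_nsmul_eq_zero hp hP hS0 h0)
    omega
  have hm1 : (m + 1) • Point.some x y h ≠ 0 := by
    intro h0
    have := Nat.le_of_dvd (by omega) (prime_dvd_of_nsmul_eq_zero hp hP hS0 h0)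
    omega
  rcases hc₁ with ⟨h0, -⟩ | ⟨x₁, y₁, hxy₁, e₁, eN₁⟩
  · exact absurd h0 hm0
  rcases hc₂ with ⟨h0, -⟩ | ⟨x₂, y₂, hxy₂, e₂, eN₂⟩
  · exact absurd h0 hm1
  have hsum : Point.some x₁ y₁ hxy₁ + Point.some x₂ y₂ hxy₂ = 0 := by
    rw [← e₁, ← e₂, ← add_nsmul, ← hP]
    congr 1
    omega
  have hxx : x₂ = x₁ := by
    obtain ⟨hneg, eneg⟩ := neg_some hW hxy₁
    have e3 : Point.some x₂ y₂ hxy₂ = Point.some x₁ (-y₁) hneg := by
      rw [← eneg]
      exact eq_neg_of_add_eq_zero_right hsum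
    simp only [Point.some.injEq] at e3
    exact e3.1
  simp only [torsPol, gPol, eval_sub, eval_mul]
  rw [eN₁, eN₂, hxx]
  ring

/-- finiteness and cardinality of the `p`-torsion -/
theorem torsion_finite_card (hW : IsLeg W) (ha₄ : W.a₄ ≠ 0) (hdisc : W.a₂ ^ 2 - 4 * W.a₄ ≠ 0)
    {p : ℕ} (hp : p.Prime) (hp2 : p ≠ 2) :
    Finite ↥(Submodule.torsionBy ℤ W.toAffine.Point (p : ℤ)) ∧
      Nat.card ↥(Submodule.torsionBy ℤ W.toAffine.Point (p : ℤ)) < p ^ 3 := by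
  obtain ⟨m, hpm⟩ : ∃ m, p = 2 * m + 1 := by
    rcases hp.eq_two_or_odd' with h | h
    · exact absurd h hp2
    · exact h
  have hm : 1 ≤ m := by
    have := hp.two_le
    omega
  obtain ⟨e, htop, he⟩ := torsPol_top W.a₂ W.a₄ hm
  have hc : (-((2 * m + 1 : ℕ) : K)) ≠ 0 := by
    rw [neg_ne_zero]
    exact_mod_cast (by omega : 2 * m + 1 ≠ 0)
  have hf : torsPol W.a₂ W.a₄ m ≠ 0 := htop.ne_zero hc
  have hdeg : (torsPol W.a₂ W.a₄ m).natDegree = e := htop.natDegree_eq hc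
  obtain ⟨hfin, hcard⟩ := DPTors.torsion_finite_card_le W p (torsPol W.a₂ W.a₄ m) hf
    (fun x y h hP => torsPol_eval_eq_zero hW ha₄ hdisc hp hpm h (by
      rwa [natCast_zsmul] at hP))
  refine ⟨hfin, lt_of_le_of_lt hcard ?_⟩
  rw [hdeg]
  have h1 : 2 * e + 1 < p ^ 2 * 2 := by
    rw [hpm]
    nlinarith
  have h2 : p ^ 2 * 2 ≤ p ^ 3 := by
    rw [pow_succ p 2]
    exact Nat.mul_le_mul_left _ hp.two_le
  omega

end Tors

end Fermat.Agent.S13.Ladder
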