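/-
S13 route LAD (helper3), part 3: existence of `p`-torsion over an algebraically closed field of
characteristic zero, the statement (T), and the integrality of `p * ∏ x` over `x`-coordinates of
`p`-torsion points outside a valuation ring, for curves `Y² = X³ + a₂ X² + a₄ X`.
-/
import Mathlib
import Fermat.Agent.S05.XForm
import Fermat.Agent.S13.Ladder
import Fermat.Agent.S13.LadTors
import Fermat.Agent.S13.Content

set_option autoImplicit false

namespace Fermat.Agent.S13.Ladder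

open Polynomial WeierstrassCurve WeierstrassCurve.Affine Fermat.Agent.S05

section NZ

variable {K : Type*} [Field K] [DecidableEq K] [CharZero K] {W : WeierstrassCurve K}

omit [DecidableEq K] in
theorem delta_ne_zero (hW : IsLeg W) (ha₄ : W.a₄ ≠ 0) (hdisc : W.a₂ ^ 2 - 4 * W.a₄ ≠ 0) :
    W.Δ ≠ 0 := by
  have : W.Δ = 16 * W.a₄ ^ 2 * (W.a₂ ^ 2 - 4 * W.a₄) := by
    simp only [WeierstrassCurve.Δ, WeierstrassCurve.b₂, WeierstrassCurve.b₄, WeierstrassCurve.b₆,
      WeierstrassCurve.b₈, hW.a₁, hW.a₃, hW.a₆]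
    ring
  rw [this]
  exact mul_ne_zero (mul_ne_zero (by norm_num) (pow_ne_zero 2 ha₄)) hdisc

omit [DecidableEq K] in
theorem nonsingular_zero (hW : IsLeg W) (ha₄ : W.a₄ ≠ 0) (hdisc : W.a₂ ^ 2 - 4 * W.a₄ ≠ 0) :
    W.toAffine.Nonsingular 0 0 :=
  (W.toAffine.equation_iff_nonsingular_of_Δ_ne_zero (delta_ne_zero hW ha₄ hdisc)).mp
    ((equation_iff hW 0 0).mpr (by ring))

omit [DecidableEq K] in
theorem exists_nonsingular [IsAlgClosed K] (hW : IsLeg W) (ha₄ : W.a₄ ≠ 0)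
    (hdisc : W.a₂ ^ 2 - 4 * W.a₄ ≠ 0) (x : K) : ∃ y, W.toAffine.Nonsingular x y := by
  obtain ⟨y, hy⟩ := IsAlgClosed.exists_pow_nat_eq (x ^ 3 + W.a₂ * x ^ 2 + W.a₄ * x)
    (n := 2) (by norm_num)
  exact ⟨y, (W.toAffine.equation_iff_nonsingular_of_Δ_ne_zero (delta_ne_zero hW ha₄ hdisc)).mp
    ((equation_iff hW x y).mpr hy)⟩

/-- translation by the `2`-torsion point `(0, 0)` -/
theorem add_T0 (hW : IsLeg W) {x y : K} (h : W.toAffine.Nonsingular x y) (hx : x ≠ 0)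
    (h0 : W.toAffine.Nonsingular 0 0) :
    ∃ (y' : K) (h' : W.toAffine.Nonsingular (W.a₄ / x) y'),
      Point.some x y h + Point.some 0 0 h0 = Point.some (W.a₄ / x) y' h' := by
  have hne : ¬(x = 0 ∧ y = -0) := fun hh => hx hh.1
  obtain ⟨ℓ, x₃, y₃, h₃, hsum, e3, -, eℓ, -⟩ := add_some_line hW h h0 hne
  have e := eq_of_nonsingular hW h
  have hx3 : x₃ = W.a₄ / x := by
    rw [eq_div_iff hx]
    have h1 : x₃ * x * x = W.a₄ * x := by
      rw [e3]
      linear_combination (ℓ * x + y) * eℓ + e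
    exact mul_right_cancel₀ hx h1
  subst hx3
  exact ⟨y₃, h₃, hsum⟩

theorem odd_nsmul_T0 (hW : IsLeg W) (h0 : W.toAffine.Nonsingular 0 0) (m : ℕ) :
    (2 * m + 1) • Point.some 0 0 h0 = Point.some 0 0 h0 := by
  have h2 := two_nsmul_some_eq_zero hW h0 rfl
  rw [add_nsmul, mul_nsmul, h2, nsmul_zero, zero_add, one_nsmul]

omit [DecidableEq K] [CharZero K] in
/-- a polynomial without nonzero roots over an algebraically closed field is a monomial -/
theorem eq_C_mul_X_pow_of_no_root [IsAlgClosed K] {f : K[X]}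
    (hroot : ∀ x, x ≠ 0 → f.eval x ≠ 0) : f = C f.leadingCoeff * X ^ f.natDegree := by
  by_cases hf : f = 0
  · simp [hf]
  have hs := IsAlgClosed.splits f
  have hroots : f.roots = Multiset.replicate f.natDegree 0 := by
    rw [Multiset.eq_replicate]
    refine ⟨hs.natDegree_eq_card_roots.symm, fun b hb => ?_⟩
    by_contra hb0
    exact hroot b hb0 ((mem_roots hf).mp hb)
  conv_lhs => rw [hs.eq_prod_roots, hroots]
  simp

/-- **existence of a point of order `p`** -/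
theorem exists_torsion [IsAlgClosed K] (hW : IsLeg W) (ha₄ : W.a₄ ≠ 0)
    (hdisc : W.a₂ ^ 2 - 4 * W.a₄ ≠ 0) {p : ℕ} (hp : p.Prime) (hp2 : p ≠ 2) :
    ∃ (x y : K) (h : W.toAffine.Nonsingular x y), p • Point.some x y h = 0 := by
  by_contra hno
  push Not at hno
  obtain ⟨m, hpm⟩ : ∃ m, p = 2 * m + 1 := by
    rcases hp.eq_two_or_odd' with h | h
    · exact absurd h hp2
    · exact h
  have hp1 : 1 ≤ p := hp.one_lt.le
  have h0 := nonsingular_zero hW ha₄ hdisc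
  have hpT0 : p • Point.some 0 0 h0 = Point.some 0 0 h0 := by
    rw [hpm]; exact odd_nsmul_T0 hW h0 m
  obtain ⟨e, hN, hD, -⟩ := lad_top W.a₂ W.a₄ p hp1
  -- description of `p • S` for `x ≠ 0`
  have key : ∀ (x y : K) (h : W.toAffine.Nonsingular x y), x ≠ 0 →
      ∃ (x' y' : K) (h' : W.toAffine.Nonsingular x' y'),
        p • Point.some x y h = Point.some x' y' h' ∧
        (lad W.a₂ W.a₄ p).1.eval x = x' * (lad W.a₂ W.a₄ p).2.eval x ∧
        (lad W.a₂ W.a₄ p).2.eval x ≠ 0 := by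
    intro x y h hx
    obtain ⟨hnd, hc⟩ := val_lad hW ha₄ hdisc h hx p hp1
    rcases hc with ⟨h0', -⟩ | ⟨x', y', h', e', eN⟩
    · exact absurd h0' (hno x y h)
    · refine ⟨x', y', h', e', eN, ?_⟩
      rw [eN] at hnd
      exact val_den_ne_zero hnd
  -- the numerator has no nonzero root
  have hNroot : ∀ x, x ≠ 0 → (lad W.a₂ W.a₄ p).1.eval x ≠ 0 := by
    intro x hx hNx
    obtain ⟨y, h⟩ := exists_nonsingular hW ha₄ hdisc x
    obtain ⟨x', y', h', e', eN, hDx⟩ := key x y h hx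
    have hx' : x' = 0 := by
      rw [hNx] at eN
      rcases mul_eq_zero.mp eN.symm with h1 | h1
      · exact h1
      · exact absurd h1 hDx
    subst hx'
    have hy' : y' = 0 := by
      have h2 : y' ^ 2 = 0 := by rw [eq_of_nonsingular hW h']; ring
      exact (pow_eq_zero_iff two_ne_zero).mp h2
    subst hy'
    obtain ⟨y'', h'', es⟩ := add_T0 hW h hx h0
    apply hno (W.a₄ / x) y'' h''
    rw [← es, nsmul_add, e', hpT0]
    exact add_some_eq_zero hW h' h0 ⟨rfl, by simp⟩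
  have hDroot : ∀ x, x ≠ 0 → (lad W.a₂ W.a₄ p).2.eval x ≠ 0 := by
    intro x hx
    obtain ⟨y, h⟩ := exists_nonsingular hW ha₄ hdisc x
    obtain ⟨x', y', h', e', eN, hDx⟩ := key x y h hx
    exact hDx
  have hNform : (lad W.a₂ W.a₄ p).1 = X ^ (e + 1) := by
    have := eq_C_mul_X_pow_of_no_root hNroot
    rw [hN.leadingCoeff_eq one_ne_zero, hN.natDegree_eq one_ne_zero, C_1, one_mul] at this
    exact this
  have hpK : ((p : K)) ^ 2 ≠ 0 := pow_ne_zero 2 (by exact_mod_cast hp.ne_zero)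
  have hDform : (lad W.a₂ W.a₄ p).2 = C ((p : K) ^ 2) * X ^ e := by
    have := eq_C_mul_X_pow_of_no_root hDroot
    rw [hD.leadingCoeff_eq hpK, hD.natDegree_eq hpK] at this
    exact this
  -- evaluate at `x = 1` and at its translate
  obtain ⟨y₁, h₁⟩ := exists_nonsingular hW ha₄ hdisc 1
  obtain ⟨x', y', h', e', eN, hDx⟩ := key 1 y₁ h₁ one_ne_zero
  have ex' : x' * (p : K) ^ 2 = 1 := by
    rw [hNform, hDform] at eN
    simpa using eN.symm
  have hx'0 : x' ≠ 0 := by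
    rintro rfl
    simp at ex'
  obtain ⟨y'', h'', es⟩ := add_T0 hW h₁ one_ne_zero h0
  obtain ⟨y₃, h₃, es'⟩ := add_T0 hW h' hx'0 h0
  have ha41 : W.a₄ / 1 ≠ 0 := by simpa using ha₄
  obtain ⟨x₄, y₄, h₄, e₄, eN₄, hDx₄⟩ := key (W.a₄ / 1) y'' h'' ha41
  have hx4 : x₄ = W.a₄ / x' := by
    have e5 : Point.some x₄ y₄ h₄ = Point.some (W.a₄ / x') y₃ h₃ := by
      rw [← e₄, ← es, nsmul_add, e', hpT0, es']
    simp only [Point.some.injEq] at e5
    exact e5.1
  rw [hNform, hDform, hx4] at eN₄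
  simp only [eval_pow, eval_X, eval_mul, eval_C, div_one] at eN₄
  have hx'p : x' = (p : K) ^ 2 := by
    have h5 : W.a₄ ^ (e + 1) * x' = W.a₄ ^ (e + 1) * (p : K) ^ 2 := by
      have h6 : W.a₄ ^ (e + 1) * x' = W.a₄ * ((p : K) ^ 2 * W.a₄ ^ e) := by
        rw [eN₄]
        field_simp
      rw [h6]
      ring
    exact mul_left_cancel₀ (pow_ne_zero _ ha₄) h5
  have h4 : (p : K) ^ 4 = 1 := by
    rw [hx'p] at ex'
    linear_combination ex'
  have h4' : p ^ 4 = 1 := by exact_mod_cast h4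
  have := hp.one_lt
  rcases Nat.pow_eq_one.mp h4' with h | h
  · omega
  · omega

/-- **(T)** for a curve `Y² = X³ + a₂ X² + a₄ X` over an algebraically closed field of
characteristic zero -/
theorem torsion_T [IsAlgClosed K] (hW : IsLeg W) (ha₄ : W.a₄ ≠ 0)
    (hdisc : W.a₂ ^ 2 - 4 * W.a₄ ≠ 0) {p : ℕ} (hp : p.Prime) (hp2 : p ≠ 2) :
    Nontrivial ↥(Submodule.torsionBy ℤ W.toAffine.Point (p : ℤ)) ∧
      Finite ↥(Submodule.torsionBy ℤ W.toAffine.Point (p : ℤ)) ∧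
      Nat.card ↥(Submodule.torsionBy ℤ W.toAffine.Point (p : ℤ)) < p ^ 3 := by
  obtain ⟨hfin, hcard⟩ := torsion_finite_card hW ha₄ hdisc hp hp2
  refine ⟨?_, hfin, hcard⟩
  obtain ⟨x, y, h, hP⟩ := exists_torsion hW ha₄ hdisc hp hp2
  refine ⟨⟨⟨Point.some x y h, ?_⟩, 0, ?_⟩⟩
  · rw [Submodule.mem_torsionBy_iff, natCast_zsmul]
    exact hP
  · intro h0
    exact Point.some_ne_zero h (congrArg Subtype.val h0)

/-- **integrality of `p ∏ x`** over the `x`-coordinates outside `A` of `p`-torsion points -/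
theorem natCast_mul_prod_mem (hW : IsLeg W) (ha₄ : W.a₄ ≠ 0) (hdisc : W.a₂ ^ 2 - 4 * W.a₄ ≠ 0)
    {p : ℕ} (hp : p.Prime) (hp2 : p ≠ 2) (A : ValuationSubring K) (h₂ : W.a₂ ∈ A)
    (h₄ : W.a₄ ∈ A) (S : Finset K)
    (hS : ∀ x ∈ S, x ∉ A ∧ ∃ (y : K) (h : W.toAffine.Nonsingular x y),
      p • Point.some x y h = 0) :
    (p : K) * ∏ x ∈ S, x ∈ A := by
  obtain ⟨m, hpm⟩ : ∃ m, p = 2 * m + 1 := by
    rcases hp.eq_two_or_odd' with h | h
    · exact absurd h hp2
    · exact h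
  have hm : 1 ≤ m := by
    have := hp.two_le
    omega
  obtain ⟨e, htop, -⟩ := torsPol_top W.a₂ W.a₄ hm
  have hc : (-((2 * m + 1 : ℕ) : K)) ≠ 0 := by
    rw [neg_ne_zero]
    exact_mod_cast (by omega : 2 * m + 1 ≠ 0)
  have hlc := htop.leadingCoeff_eq hc
  have hmem := Content.leadingCoeff_mul_prod_mem A (torsPol W.a₂ W.a₄ m)
    (torsPol_coeff_mem A h₂ h₄ hm) S (fun r hr => ⟨by
      obtain ⟨-, y, h, hP⟩ := hS r hr
      exact torsPol_eval_eq_zero hW ha₄ hdisc hp hpm h hP, (hS r hr).1⟩)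
  rw [hlc] at hmem
  have h2 := A.neg_mem _ hmem
  convert h2 using 1
  rw [hpm]
  ring

end NZ

end Fermat.Agent.S13.Ladder
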