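import Mathlib
import Fermat.Prelude.Def_FLTPrelim_Ramification
import Fermat.Agent.S54.Frobenius

/-!
# The Minkowski bridge for S13

An open normal subgroup `H` of the absolute Galois group of `ℚ` which contains, for every prime
`ℓ`, the inertia group of SOME valuation subring of the algebraic closure above `ℓ`, is the whole
group (`Mink.eq_top_of_isOpen`, `Mink.eq_top`).  Equivalently: a homomorphism from the absolute
Galois group with open kernel which is trivial on one inertia group above every prime is trivial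
(`Mink.monoidHom_eq_one`).

Ingredients: Minkowski's theorem in Mathlib's form
`NumberField.exists_not_isUnramifiedAt_int_of_isGalois`, the inertia group has order the
ramification index (`Ideal.card_inertia_eq_ramificationIdxIn`), and the profinite lifting lemmas
`Algebra.IsInvariant.exists_smul_of_under_eq_of_profinite` and
`Ideal.Quotient.stabilizerHom_surjective_of_profinite`.
-/

set_option autoImplicit false

open scoped Pointwise NumberField

namespace Fermat.Agent.S13.Mink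

open Fermat.Agent.S54

section Finite

/-- **Minkowski, inertia form.**  A Galois number field `K ≠ ℚ` has a prime `ℓ` such that every
prime of `𝓞 K` above `ℓ` has a nontrivial inertia group. -/
theorem exists_prime_forall_exists_inertia (K : Type*) [Field K] [NumberField K] [IsGalois ℚ K]
    (hK : Module.finrank ℚ K ≠ 1) :
    ∃ ℓ : ℕ, ℓ.Prime ∧ ∀ P : Ideal (NumberField.RingOfIntegers K), P.IsPrime →
      ((ℓ : ℕ) : NumberField.RingOfIntegers K) ∈ P →
        ∃ τ : K ≃ₐ[ℚ] K, τ ≠ 1 ∧ ∀ x : NumberField.RingOfIntegers K,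
          ∃ y ∈ P, (y : K) = τ (x : K) - (x : K) := by
  have hpos : 0 < Module.finrank ℚ K := Module.finrank_pos
  obtain ⟨ℓ, hℓ, hram⟩ := NumberField.exists_not_isUnramifiedAt_int_of_isGalois (K := K)
    (𝒪 := 𝓞 K) (by omega)
  refine ⟨ℓ, hℓ, fun P hP hℓP => ?_⟩
  have hnr := hram P hP hℓP
  let _ : MulSemiringAction Gal(K/ℚ) (𝓞 K) := IsIntegralClosure.MulSemiringAction ℤ ℚ K (𝓞 K)
  have hgg : IsGaloisGroup Gal(K/ℚ) ℤ (𝓞 K) := IsGaloisGroup.of_isFractionRing Gal(K/ℚ) ℤ (𝓞 K) ℚ K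
  have hP0 : P ≠ ⊥ := by
    rintro rfl
    have h0 : ((ℓ : ℕ) : 𝓞 K) = 0 := by simpa using hℓP
    exact hℓ.ne_zero (by exact_mod_cast h0)
  have hPmax : P.IsMaximal := hP.isMaximal hP0
  have hne1 : P.ramificationIdx ℤ ≠ 1 := by
    rwa [Ne, Ideal.ramificationIdx_eq_one_iff]
  have hcard : Nat.card (P.inertia Gal(K/ℚ)) = (P.under ℤ).ramificationIdxIn (𝓞 K) :=
    Ideal.card_inertia_eq_ramificationIdxIn (P.under ℤ) P
  rw [Ideal.ramificationIdxIn_eq_ramificationIdx (P.under ℤ) P Gal(K/ℚ)] at hcard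
  have hnt : Nontrivial (P.inertia Gal(K/ℚ)) := by
    rw [← Finite.one_lt_card_iff_nontrivial]
    have h0 : Nat.card (P.inertia Gal(K/ℚ)) ≠ 0 := Nat.card_pos.ne'
    omega
  obtain ⟨⟨τ, hτ⟩, hτ1⟩ := exists_ne (1 : P.inertia Gal(K/ℚ))
  refine ⟨τ, fun h => hτ1 (Subtype.ext h), fun x => ⟨τ • x - x, hτ x, ?_⟩⟩
  have : ((τ • x : 𝓞 K) : K) = τ (x : K) := algebraMap_galRestrict_apply ℤ τ x
  rw [← this]
  simp


/-- The same statement for an arbitrary `ℚ`-algebra structure on `K`. -/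
theorem exists_prime_forall_exists_inertia' (K : Type*) [Field K] [inst : Algebra ℚ K]
    [FiniteDimensional ℚ K] [IsGalois ℚ K] (hK : Module.finrank ℚ K ≠ 1) :
    ∃ ℓ : ℕ, ℓ.Prime ∧ ∀ P : Ideal (NumberField.RingOfIntegers K), P.IsPrime →
      ((ℓ : ℕ) : NumberField.RingOfIntegers K) ∈ P →
        ∃ τ : K ≃ₐ[ℚ] K, τ ≠ 1 ∧ ∀ x : NumberField.RingOfIntegers K,
          ∃ y ∈ P, (y : K) = τ (x : K) - (x : K) := by
  have hcz : CharZero K := charZero_of_injective_algebraMap (algebraMap ℚ K).injective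
  obtain rfl : inst = DivisionRing.toRatAlgebra := Subsingleton.elim _ _
  have : NumberField K := { to_charZero := inferInstance, to_finiteDimensional := inferInstance }
  exact exists_prime_forall_exists_inertia K hK

end Finite

section Core

variable {L : Type*} [Field L] [Algebra ℚ L] [IsAlgClosure ℚ L]

/-- **From integers to the valuation ring.**  If `σ` moves every integral element of `L` by an
element of the maximal ideal of `A` (a valuation subring of residue characteristic `ℓ`), then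
`σ` lies in the inertia group of `A`. -/
theorem mem_inertiaSubgroupIn_of_forall_isIntegral (A : ValuationSubring L) {ℓ : ℕ}
    (hℓ : ℓ.Prime) (hA : A.LiesOverPrime ℓ) (σ : L ≃ₐ[ℚ] L)
    (key : ∀ b : L, IsIntegral ℤ b → σ b - b ∈ A.nonunits) :
    σ ∈ A.inertiaSubgroupIn ℚ := by
  have hA' : (ℓ : L) ∈ A.nonunits := hA
  have : CharZero L := charZero_of_injective_algebraMap (algebraMap ℚ L).injective
  have halg : Algebra.IsAlgebraic ℚ L := IsAlgClosure.isAlgebraic
  have keyA : ∀ x ∈ A, σ x ∈ A ∧ σ x - x ∈ A.nonunits := by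
    intro x hx
    have hxalg : IsAlgebraic ℤ x :=
      (IsFractionRing.isAlgebraic_iff ℤ ℚ L).mpr (Algebra.IsAlgebraic.isAlgebraic x)
    obtain ⟨b, hb, hbn, hbx⟩ := exists_integral_denominator A hℓ hA' hx hxalg
    have hbA : b ∈ A := mem_valuationSubring_of_isIntegral A hb
    have hb0 : b ≠ 0 := fun h => hbn (h ▸ A.nonunits.zero_mem)
    have h1 := key b hb
    have h2 := key (b * x) hbx
    have hσbn : σ b ∉ A.nonunits := by
      intro h
      apply hbn
      have : b = σ b - (σ b - b) := by ring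
      rw [this]
      exact A.nonunits.sub_mem h h1
    have hσb0 : σ b ≠ 0 := fun h => hσbn (h ▸ A.nonunits.zero_mem)
    have hσbinv : (σ b)⁻¹ ∈ A := inv_mem_of_notMem_nonunits A hσbn
    have hσa : σ (b * x) ∈ A := by
      have : σ (b * x) = (σ (b * x) - (b * x)) + (b * x) := by ring
      rw [this]
      exact A.add_mem _ _ (A.nonunits_subset h2) (A.mul_mem _ _ hbA hx)
    have hσx : σ x = (σ b)⁻¹ * σ (b * x) := by
      rw [map_mul, ← mul_assoc, inv_mul_cancel₀ hσb0, one_mul]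
    refine ⟨hσx ▸ A.mul_mem _ _ hσbinv hσa, ?_⟩
    have h5 : σ x - x = (σ b)⁻¹ * ((σ (b * x) - (b * x)) - x * (σ b - b)) := by
      rw [hσx]
      field_simp
      ring
    rw [h5]
    exact mul_mem_nonunits A hσbinv
      (A.nonunits.sub_mem h2 (mul_mem_nonunits A hx h1))
  have hdec : σ ∈ A.decompositionSubgroup ℚ := by
    rw [MulAction.mem_stabilizer_iff]
    ext x
    rw [ValuationSubring.mem_pointwise_smul_iff_inv_smul_mem]
    constructor
    · intro h
      have := (keyA _ h).1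
      rwa [AlgEquiv.smul_def, ← AlgEquiv.mul_apply, mul_inv_cancel, AlgEquiv.one_apply] at this
    · intro hx
      by_contra hnot
      have hy : (σ⁻¹ • x)⁻¹ ∈ A.nonunits := A.inv_mem_nonunits_iff.mpr (Or.inr hnot)
      have h1 := (keyA _ (A.nonunits_subset hy)).2
      have h2 : σ ((σ⁻¹ • x)⁻¹) = x⁻¹ := by
        rw [map_inv₀, AlgEquiv.smul_def, ← AlgEquiv.mul_apply, mul_inv_cancel,
          AlgEquiv.one_apply]
      rw [h2] at h1
      have h3 : x⁻¹ ∈ A.nonunits := by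
        have : x⁻¹ = (x⁻¹ - (σ⁻¹ • x)⁻¹) + (σ⁻¹ • x)⁻¹ := by ring
        rw [this]
        exact A.nonunits.add_mem h1 hy
      rcases A.inv_mem_nonunits_iff.mp h3 with h | h
      · apply hnot
        rw [h, smul_zero]
        exact A.zero_mem
      · exact h hx
  refine ⟨⟨σ, hdec⟩, ?_, rfl⟩
  show (⟨σ, hdec⟩ : A.decompositionSubgroup ℚ) ∈ A.inertiaSubgroup ℚ
  rw [ValuationSubring.inertiaSubgroup, MonoidHom.mem_ker]
  ext x
  obtain ⟨a, rfl⟩ := IsLocalRing.residue_surjective x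
  show (⟨σ, hdec⟩ : A.decompositionSubgroup ℚ) • (IsLocalRing.residue A a) = IsLocalRing.residue A a
  rw [← IsLocalRing.ResidueField.residue_smul, ← sub_eq_zero, ← map_sub,
    IsLocalRing.residue_eq_zero_iff, ← A.coe_mem_nonunits_iff]
  exact (keyA a a.2).2

/-- The stabilizer of an integral element is open in the absolute Galois group. -/
theorem isOpen_stabilizer (b : integralClosure ℤ L) :
    IsOpen ((MulAction.stabilizer (L ≃ₐ[ℚ] L) b : Subgroup (L ≃ₐ[ℚ] L)) : Set (L ≃ₐ[ℚ] L)) := by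
  convert stabilizer_isOpen_of_isIntegral (K := ℚ) (b : L) using 1
  ext g
  simp only [SetLike.mem_coe, MulAction.mem_stabilizer_iff, Subtype.ext_iff]
  rfl

/-- **Lifting inertia, integral level.**  Let `H` be a closed normal subgroup of the absolute
Galois group, `Q` a prime of the ring of all algebraic integers, and `g` an automorphism which
moves every `H`-invariant integer by an element of `Q`.  Then some `h * g` with `h ∈ H` moves
every integer by an element of `Q`. -/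
theorem exists_mul_forall_sub_mem (H : Subgroup (L ≃ₐ[ℚ] L)) [H.Normal]
    (hH : IsClosed (H : Set (L ≃ₐ[ℚ] L))) (Q : Ideal (integralClosure ℤ L)) [Q.IsPrime]
    (g : L ≃ₐ[ℚ] L)
    (hg : ∀ x : integralClosure ℤ L, (∀ h : H, h • x = x) → g • x - x ∈ Q) :
    ∃ h : L ≃ₐ[ℚ] L, h ∈ H ∧ ∀ b : integralClosure ℤ L, (h * g) • b - b ∈ Q := by
  have : IsGalois ℚ L := IsAlgClosure.isGalois ℚ L
  let _ : TopologicalSpace (integralClosure ℤ L) := ⊥
  have : DiscreteTopology (integralClosure ℤ L) := ⟨rfl⟩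
  have : CompactSpace H := isCompact_iff_compactSpace.mp hH.isCompact
  have : ContinuousSMul H (integralClosure ℤ L) := by
    rw [continuousSMul_iff_stabilizer_isOpen]
    intro b
    have h1 := isOpen_stabilizer (L := L) b
    have h2 : ((MulAction.stabilizer H b : Subgroup H) : Set H) =
        (fun h : H => (h : L ≃ₐ[ℚ] L)) ⁻¹'
          ((MulAction.stabilizer (L ≃ₐ[ℚ] L) b : Subgroup (L ≃ₐ[ℚ] L)) : Set (L ≃ₐ[ℚ] L)) := by
      ext h
      rfl
    rw [h2]
    exact h1.preimage continuous_subtype_val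
  have hinv : Algebra.IsInvariant (FixedPoints.subalgebra ℤ (integralClosure ℤ L) H)
      (integralClosure ℤ L) H := ⟨fun b hb => ⟨⟨b, hb⟩, rfl⟩⟩
  -- `H`-invariant integers are preserved by `g` and `g⁻¹`
  have hfix : ∀ (k : L ≃ₐ[ℚ] L) (x : integralClosure ℤ L), (∀ h : H, h • x = x) →
      ∀ h : H, h • (k • x) = k • x := by
    intro k x hx h
    have h1 : k⁻¹ * (h : L ≃ₐ[ℚ] L) * k ∈ H := by
      have := ‹H.Normal›.conj_mem _ h.2 k⁻¹
      simpa using this
    have h2 := hx ⟨_, h1⟩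
    have h3 : (h : L ≃ₐ[ℚ] L) • (k • x) = k • ((k⁻¹ * (h : L ≃ₐ[ℚ] L) * k) • x) := by
      simp [mul_smul]
    show (h : L ≃ₐ[ℚ] L) • (k • x) = k • x
    rw [h3]
    exact congrArg (k • ·) h2
  -- Step 1: `g • Q` and `Q` lie over the same prime of the invariants
  have hunder : Ideal.under (FixedPoints.subalgebra ℤ (integralClosure ℤ L) H) (g • Q) =
      Ideal.under (FixedPoints.subalgebra ℤ (integralClosure ℤ L) H) Q := by
    ext x
    rw [Ideal.mem_comap, Ideal.mem_comap, Ideal.mem_pointwise_smul_iff_inv_smul_mem]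
    have hx' : ∀ h : H, h • (g⁻¹ • (x : integralClosure ℤ L)) = g⁻¹ • (x : integralClosure ℤ L) :=
      hfix g⁻¹ x x.2
    have h1 := hg _ hx'
    rw [smul_inv_smul] at h1
    constructor
    · intro h
      have := Q.add_mem h1 h
      simpa using this
    · intro h
      have := Q.sub_mem h h1
      simpa using this
  obtain ⟨h1, hh1⟩ := Algebra.IsInvariant.exists_smul_of_under_eq_of_profinite
    (A := FixedPoints.subalgebra ℤ (integralClosure ℤ L) H) (G := H) (g • Q) Q hunder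
  -- Step 2: `σ₁ := h₁ * g` stabilizes `Q` and induces an automorphism of `B ⧸ Q` over `𝒪 ⧸ P`
  have hσ1 : ((h1 : L ≃ₐ[ℚ] L) * g) • Q = Q := by
    rw [mul_smul]
    exact hh1.symm
  have hσ1x : ∀ x : integralClosure ℤ L, (∀ h : H, h • x = x) →
      ((h1 : L ≃ₐ[ℚ] L) * g) • x - x ∈ Q := by
    intro x hx
    rw [mul_smul]
    have h3 : (h1 : L ≃ₐ[ℚ] L) • (g • x) = g • x := hfix g x hx h1
    rw [h3]
    exact hg x hx
  have hlies : Q.LiesOver (Ideal.under (FixedPoints.subalgebra ℤ (integralClosure ℤ L) H) Q) :=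
    ⟨rfl⟩
  let φ := Ideal.Quotient.stabilizerHom Q (Q.under ℤ) (L ≃ₐ[ℚ] L)
    ⟨(h1 : L ≃ₐ[ℚ] L) * g, hσ1⟩
  have hφ_apply : ∀ b : integralClosure ℤ L, φ (Ideal.Quotient.mk Q b) =
      Ideal.Quotient.mk Q (((h1 : L ≃ₐ[ℚ] L) * g) • b) := fun b =>
    Ideal.Quotient.stabilizerHom_apply Q (Q.under ℤ) (L ≃ₐ[ℚ] L) _ b
  let φ' : ((integralClosure ℤ L) ⧸ Q) ≃ₐ[(FixedPoints.subalgebra ℤ (integralClosure ℤ L) H) ⧸
      (Ideal.under (FixedPoints.subalgebra ℤ (integralClosure ℤ L) H) Q)]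
      ((integralClosure ℤ L) ⧸ Q) := AlgEquiv.ofRingEquiv (f := φ.toRingEquiv) (by
    intro r
    obtain ⟨x, rfl⟩ := Ideal.Quotient.mk_surjective r
    show φ (Ideal.Quotient.mk Q (x : integralClosure ℤ L)) =
      Ideal.Quotient.mk Q (x : integralClosure ℤ L)
    rw [hφ_apply, Ideal.Quotient.eq]
    exact hσ1x x x.2)
  have hφ'_apply : ∀ b : integralClosure ℤ L, φ' (Ideal.Quotient.mk Q b) =
      Ideal.Quotient.mk Q (((h1 : L ≃ₐ[ℚ] L) * g) • b) := hφ_apply
  -- Step 3: realise this automorphism by an element of `H`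
  obtain ⟨⟨h2, hh2⟩, hφ⟩ := Ideal.Quotient.stabilizerHom_surjective_of_profinite (G := H)
    (Ideal.under (FixedPoints.subalgebra ℤ (integralClosure ℤ L) H) Q) Q φ'
  refine ⟨(h2 : L ≃ₐ[ℚ] L)⁻¹ * h1, H.mul_mem (H.inv_mem h2.2) h1.2, fun b => ?_⟩
  have e1 := DFunLike.congr_fun hφ (Ideal.Quotient.mk Q b)
  rw [Ideal.Quotient.stabilizerHom_apply, hφ'_apply, Ideal.Quotient.eq] at e1
  -- e1 : h2 • b - (h1 * g) • b ∈ Q
  have hh2' : (h2 : L ≃ₐ[ℚ] L) • Q = Q := hh2
  have e2 : (h2 : L ≃ₐ[ℚ] L)⁻¹ • ((h2 : L ≃ₐ[ℚ] L) • b - ((h1 : L ≃ₐ[ℚ] L) * g) • b) ∈ Q := by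
    rw [← Ideal.mem_pointwise_smul_iff_inv_smul_mem, hh2']
    exact e1
  rw [smul_sub, inv_smul_smul] at e2
  have e3 := Q.neg_mem e2
  rw [neg_sub] at e3
  rw [mul_assoc, mul_smul]
  exact e3

/-- **Minkowski bridge.**  An open normal subgroup of the absolute Galois group of `ℚ` which
contains, for every prime `ℓ`, the inertia group of some valuation subring above `ℓ`, is the
whole group. -/
theorem eq_top_of_isOpen (H : Subgroup (L ≃ₐ[ℚ] L)) [H.Normal]
    (hopen : IsOpen (H : Set (L ≃ₐ[ℚ] L)))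
    (hI : ∀ ℓ : ℕ, ℓ.Prime →
      ∃ A : ValuationSubring L, A.LiesOverPrime ℓ ∧ A.inertiaSubgroupIn ℚ ≤ H) :
    H = ⊤ := by
  have : IsGalois ℚ L := IsAlgClosure.isGalois ℚ L
  have hclosed : IsClosed (H : Set (L ≃ₐ[ℚ] L)) := Subgroup.isClosed_of_isOpen H hopen
  let K : IntermediateField ℚ L := IntermediateField.fixedField H
  have hfixK : K.fixingSubgroup = H := InfiniteGalois.fixingSubgroup_fixedField ⟨H, hclosed⟩
  let _ : Algebra ℚ K := K.algebra'
  have hfd : FiniteDimensional ℚ K :=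
    (InfiniteGalois.isOpen_iff_finite K).mp (by rw [hfixK]; exact hopen)
  have hgal : IsGalois ℚ K :=
    (InfiniteGalois.normal_iff_isGalois K).mp (hfixK ▸ inferInstance)
  by_contra hne
  have hK1 : Module.finrank ℚ K ≠ 1 := by
    intro h1
    have hbot : K = ⊥ := IntermediateField.finrank_eq_one_iff.mp h1
    apply hne
    rw [← hfixK, hbot, IntermediateField.fixingSubgroup_bot]
  obtain ⟨ℓ, hℓ, hP⟩ := exists_prime_forall_exists_inertia' K hK1
  obtain ⟨A, hA, hAH⟩ := hI ℓ hℓ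
  have hA' : (ℓ : L) ∈ A.nonunits := hA
  -- the prime of `𝓞 K` below `A`
  have hint : ∀ x : 𝓞 K, IsIntegral ℤ (((x : K) : L)) := fun x =>
    (NumberField.RingOfIntegers.isIntegral_coe x).map (IsScalarTower.toAlgHom ℤ K L) 
  let f : 𝓞 K →+* A :=
    { toFun := fun x => ⟨((x : K) : L), mem_valuationSubring_of_isIntegral A (hint x)⟩
      map_one' := by ext; simp
      map_mul' := fun _ _ => by ext; simp
      map_zero' := by ext; simp
      map_add' := fun _ _ => by ext; simp }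
  let P : Ideal (𝓞 K) := (IsLocalRing.maximalIdeal A).comap f
  have hPmem : ∀ x : 𝓞 K, x ∈ P ↔ (((x : K) : L)) ∈ A.nonunits := fun x => by
    rw [show (((x : K) : L)) = ((f x : A) : L) from rfl, A.coe_mem_nonunits_iff]
    rfl
  have hPprime : P.IsPrime := Ideal.comap_isPrime f _
  have hℓP : ((ℓ : ℕ) : 𝓞 K) ∈ P := by
    rw [hPmem]
    simpa using hA'
  obtain ⟨τ, hτ1, hτ⟩ := hP P hPprime hℓP
  obtain ⟨g, hg⟩ := AlgEquiv.restrictNormalHom_surjective L τ
  -- the prime of the ring of all algebraic integers below `A`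
  let fB : integralClosure ℤ L →+* A :=
    { toFun := fun b => ⟨b.1, mem_valuationSubring_of_isIntegral A b.2⟩
      map_one' := rfl
      map_mul' := fun _ _ => rfl
      map_zero' := rfl
      map_add' := fun _ _ => rfl }
  let Q : Ideal (integralClosure ℤ L) := (IsLocalRing.maximalIdeal A).comap fB
  have hQmem : ∀ b : integralClosure ℤ L, b ∈ Q ↔ (b : L) ∈ A.nonunits := fun b => by
    rw [show (b : L) = ((fB b : A) : L) from rfl, A.coe_mem_nonunits_iff]
    rfl
  have hQprime : Q.IsPrime := Ideal.comap_isPrime fB _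
  have key : ∀ x : integralClosure ℤ L, (∀ h : H, h • x = x) → g • x - x ∈ Q := by
    intro x hx
    have hxK : (x : L) ∈ K := fun h => congrArg Subtype.val (hx h)
    have hxint : IsIntegral ℤ (⟨(x : L), hxK⟩ : K) := by
      have := x.2
      exact (isIntegral_algHom_iff (IsScalarTower.toAlgHom ℤ K L)
        (algebraMap K L).injective).mp this
    obtain ⟨y, hyP, hy⟩ := hτ ⟨⟨(x : L), hxK⟩, hxint⟩
    rw [hQmem]
    show g (x : L) - (x : L) ∈ A.nonunits
    have h1 : g (x : L) = ((τ ⟨(x : L), hxK⟩ : K) : L) := by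
      rw [← hg]
      exact (AlgEquiv.restrictNormal_commutes g K ⟨(x : L), hxK⟩).symm
    have h2 := (hPmem y).mp hyP
    rw [hy] at h2
    rw [h1]
    exact h2
  obtain ⟨h, hhH, hh⟩ := exists_mul_forall_sub_mem H hclosed Q g key
  have hmem : h * g ∈ A.inertiaSubgroupIn ℚ :=
    mem_inertiaSubgroupIn_of_forall_isIntegral A hℓ hA (h * g)
      (fun b hb => (hQmem _).mp (hh ⟨b, hb⟩))
  have hgH : g ∈ H := by
    have h1 := H.mul_mem (H.inv_mem hhH) (hAH hmem)
    simpa using h1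
  apply hτ1
  ext x
  rw [← hfixK] at hgH
  have h1 : g (x : L) = x := hgH ⟨x, x.2⟩
  have h2 : ((τ x : K) : L) = g (x : L) := by
    rw [← hg]
    exact AlgEquiv.restrictNormal_commutes g K x
  rw [h2, h1]
  rfl

/-- **Minkowski bridge**, with openness witnessed by a finite extension `E` of `ℚ` whose
fixing subgroup lies in `H`. -/
theorem eq_top (E : IntermediateField ℚ L) [FiniteDimensional ℚ E]
    (H : Subgroup (L ≃ₐ[ℚ] L)) [H.Normal] (hE : E.fixingSubgroup ≤ H)
    (hI : ∀ ℓ : ℕ, ℓ.Prime →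
      ∃ A : ValuationSubring L, A.LiesOverPrime ℓ ∧ A.inertiaSubgroupIn ℚ ≤ H) :
    H = ⊤ :=
  eq_top_of_isOpen H (Subgroup.isOpen_mono hE (IntermediateField.fixingSubgroup_isOpen E)) hI

/-- **Minkowski bridge**, `∀ A` form of the inertia hypothesis. -/
theorem eq_top_of_forall (E : IntermediateField ℚ L) [FiniteDimensional ℚ E]
    (H : Subgroup (L ≃ₐ[ℚ] L)) [H.Normal] (hE : E.fixingSubgroup ≤ H)
    (hI : ∀ ℓ : ℕ, ℓ.Prime →
      ∀ A : ValuationSubring L, A.LiesOverPrime ℓ → A.inertiaSubgroupIn ℚ ≤ H) :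
    H = ⊤ := by
  have : CharZero L := charZero_of_injective_algebraMap (algebraMap ℚ L).injective
  refine eq_top E H hE (fun ℓ hℓ => ?_)
  obtain ⟨A, hA⟩ := exists_liesOverPrime L hℓ
  exact ⟨A, hA, hI ℓ hℓ A hA⟩

/-- **Minkowski bridge for characters.**  A homomorphism from the absolute Galois group of `ℚ`
with open kernel which is trivial on the inertia group of some valuation subring above every
prime is trivial. -/
theorem monoidHom_eq_one_of_isOpen {M : Type*} [Group M] (χ : (L ≃ₐ[ℚ] L) →* M)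
    (hopen : IsOpen (χ.ker : Set (L ≃ₐ[ℚ] L)))
    (hI : ∀ ℓ : ℕ, ℓ.Prime →
      ∃ A : ValuationSubring L, A.LiesOverPrime ℓ ∧ ∀ σ ∈ A.inertiaSubgroupIn ℚ, χ σ = 1)
    (σ : L ≃ₐ[ℚ] L) : χ σ = 1 := by
  have h := eq_top_of_isOpen χ.ker hopen (fun ℓ hℓ => by
    obtain ⟨A, hA, h⟩ := hI ℓ hℓ
    exact ⟨A, hA, fun τ hτ => MonoidHom.mem_ker.mpr (h τ hτ)⟩)
  exact MonoidHom.mem_ker.mp (h ▸ Subgroup.mem_top σ)

/-- **Minkowski bridge for characters**, with openness witnessed by a finite extension `E` of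
`ℚ` on whose fixing subgroup the character is trivial. -/
theorem monoidHom_eq_one {M : Type*} [Group M] (χ : (L ≃ₐ[ℚ] L) →* M)
    (E : IntermediateField ℚ L) [FiniteDimensional ℚ E]
    (hE : ∀ σ ∈ E.fixingSubgroup, χ σ = 1)
    (hI : ∀ ℓ : ℕ, ℓ.Prime →
      ∃ A : ValuationSubring L, A.LiesOverPrime ℓ ∧ ∀ σ ∈ A.inertiaSubgroupIn ℚ, χ σ = 1)
    (σ : L ≃ₐ[ℚ] L) : χ σ = 1 :=
  monoidHom_eq_one_of_isOpen χ
    (Subgroup.isOpen_mono (fun τ hτ => MonoidHom.mem_ker.mpr (hE τ hτ))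
      (IntermediateField.fixingSubgroup_isOpen E)) hI σ

end Core

section Qbar

/-! ### The same statements for `AlgebraicClosure ℚ`

These are stated with the `ℚ`-algebra structure on `AlgebraicClosure ℚ` which instance synthesis
finds (the one used by the frozen statements), for which `IsAlgClosure` is not found
automatically. -/

/-- `Mink.eq_top_of_isOpen` for `AlgebraicClosure ℚ`. -/
theorem eq_top_of_isOpen_Qbar
    (H : Subgroup (AlgebraicClosure ℚ ≃ₐ[ℚ] AlgebraicClosure ℚ)) [H.Normal]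
    (hopen : IsOpen (H : Set (AlgebraicClosure ℚ ≃ₐ[ℚ] AlgebraicClosure ℚ)))
    (hI : ∀ ℓ : ℕ, ℓ.Prime → ∃ A : ValuationSubring (AlgebraicClosure ℚ),
      A.LiesOverPrime ℓ ∧ A.inertiaSubgroupIn ℚ ≤ H) :
    H = ⊤ := by
  have : IsAlgClosure ℚ (AlgebraicClosure ℚ) := AlgebraicClosure.instIsAlgClosure ℚ
  exact eq_top_of_isOpen H hopen hI

/-- `Mink.eq_top` for `AlgebraicClosure ℚ`. -/
theorem eq_top_Qbar (E : IntermediateField ℚ (AlgebraicClosure ℚ)) [FiniteDimensional ℚ E]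
    (H : Subgroup (AlgebraicClosure ℚ ≃ₐ[ℚ] AlgebraicClosure ℚ)) [H.Normal]
    (hE : E.fixingSubgroup ≤ H)
    (hI : ∀ ℓ : ℕ, ℓ.Prime → ∃ A : ValuationSubring (AlgebraicClosure ℚ),
      A.LiesOverPrime ℓ ∧ A.inertiaSubgroupIn ℚ ≤ H) :
    H = ⊤ := by
  have : IsAlgClosure ℚ (AlgebraicClosure ℚ) := AlgebraicClosure.instIsAlgClosure ℚ
  exact eq_top E H hE hI

/-- `Mink.monoidHom_eq_one_of_isOpen` for `AlgebraicClosure ℚ`. -/
theorem monoidHom_eq_one_of_isOpen_Qbar {M : Type*} [Group M]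
    (χ : (AlgebraicClosure ℚ ≃ₐ[ℚ] AlgebraicClosure ℚ) →* M)
    (hopen : IsOpen (χ.ker : Set (AlgebraicClosure ℚ ≃ₐ[ℚ] AlgebraicClosure ℚ)))
    (hI : ∀ ℓ : ℕ, ℓ.Prime → ∃ A : ValuationSubring (AlgebraicClosure ℚ),
      A.LiesOverPrime ℓ ∧ ∀ σ ∈ A.inertiaSubgroupIn ℚ, χ σ = 1)
    (σ : AlgebraicClosure ℚ ≃ₐ[ℚ] AlgebraicClosure ℚ) : χ σ = 1 := by
  have : IsAlgClosure ℚ (AlgebraicClosure ℚ) := AlgebraicClosure.instIsAlgClosure ℚ
  exact monoidHom_eq_one_of_isOpen χ hopen hI σ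

/-- `Mink.monoidHom_eq_one` for `AlgebraicClosure ℚ`. -/
theorem monoidHom_eq_one_Qbar {M : Type*} [Group M]
    (χ : (AlgebraicClosure ℚ ≃ₐ[ℚ] AlgebraicClosure ℚ) →* M)
    (E : IntermediateField ℚ (AlgebraicClosure ℚ)) [FiniteDimensional ℚ E]
    (hE : ∀ σ ∈ E.fixingSubgroup, χ σ = 1)
    (hI : ∀ ℓ : ℕ, ℓ.Prime → ∃ A : ValuationSubring (AlgebraicClosure ℚ),
      A.LiesOverPrime ℓ ∧ ∀ σ ∈ A.inertiaSubgroupIn ℚ, χ σ = 1)
    (σ : AlgebraicClosure ℚ ≃ₐ[ℚ] AlgebraicClosure ℚ) : χ σ = 1 := by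
  have : IsAlgClosure ℚ (AlgebraicClosure ℚ) := AlgebraicClosure.instIsAlgClosure ℚ
  exact monoidHom_eq_one χ E hE hI σ

end Qbar

end Fermat.Agent.S13.Mink
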