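import Mathlib
import Fermat.Agent.S05.OrdLib
import Fermat.Agent.S05.OrdQbar

/-!
# S13, piece RATPROD

Rationality of Galois-stable products in `AlgebraicClosure ℚ`, and `m_A ∩ ℚ = p ℤ_(p)` for a
valuation subring `A` of `AlgebraicClosure ℚ` over `p`.
-/

set_option autoImplicit false

namespace Fermat.Agent.S13.RatProd

open Fermat.Agent.S05

/-- An element of `AlgebraicClosure ℚ` fixed by the whole Galois group is rational. -/
theorem mem_range_of_fixed (x : AlgebraicClosure ℚ)
    (h : ∀ σ : AlgebraicClosure ℚ ≃ₐ[ℚ] AlgebraicClosure ℚ, σ x = x) :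
    ∃ q : ℚ, algebraMap ℚ (AlgebraicClosure ℚ) q = x := by
  have hcl : IsAlgClosure ℚ (AlgebraicClosure ℚ) := AlgebraicClosure.instIsAlgClosure ℚ
  have : IsGalois ℚ (AlgebraicClosure ℚ) := IsAlgClosure.isGalois ℚ (AlgebraicClosure ℚ)
  exact (InfiniteGalois.mem_range_algebraMap_iff_fixed (k := ℚ) (K := AlgebraicClosure ℚ) x).mpr h

/-- `m_A ∩ ℚ = p ℤ_(p)`: a rational number in the maximal ideal of `A` is `p` times an element
of `A`. -/
theorem ratCast_div_prime_mem {p : ℕ} (hp : p.Prime) (A : ValuationSubring (AlgebraicClosure ℚ))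
    (hA : A.LiesOverPrime p) (q : ℚ)
    (hq : algebraMap ℚ (AlgebraicClosure ℚ) q ∈ A.nonunits) :
    algebraMap ℚ (AlgebraicClosure ℚ) q / (p : AlgebraicClosure ℚ) ∈ A := by
  have : Fact p.Prime := ⟨hp⟩
  by_cases hq0 : q = 0
  · rw [hq0, map_zero, zero_div]
    exact A.zero_mem
  obtain ⟨ord, hord, hordQ, -⟩ := exists_ord hp A hA
  have hinj : Function.Injective (algebraMap ℚ (AlgebraicClosure ℚ)) :=
    (algebraMap ℚ (AlgebraicClosure ℚ)).injective
  have hq0' : algebraMap ℚ (AlgebraicClosure ℚ) q ≠ 0 := (map_ne_zero_iff _ hinj).mpr hq0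
  have hpos : 0 < ord (algebraMap ℚ (AlgebraicClosure ℚ) q) := (hord.mem_nonunits_iff hq0').mp hq
  rw [hordQ q hq0] at hpos
  have hpos' : (1 : ℤ) ≤ padicValRat p q := by
    have : (0 : ℤ) < padicValRat p q := by exact_mod_cast hpos
    omega
  have hp0 : (p : ℚ) ≠ 0 := Nat.cast_ne_zero.mpr hp.ne_zero
  have e : algebraMap ℚ (AlgebraicClosure ℚ) q / (p : AlgebraicClosure ℚ)
      = algebraMap ℚ (AlgebraicClosure ℚ) (q / p) := by
    rw [map_div₀, map_natCast]
  have hqp : q / p ≠ 0 := div_ne_zero hq0 hp0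
  rw [e, hord.mem_iff _ ((map_ne_zero_iff _ hinj).mpr hqp), hordQ _ hqp,
    padicValRat.div hq0 hp0, padicValRat.self hp.one_lt]
  have : (0 : ℤ) ≤ padicValRat p q - 1 := by omega
  exact_mod_cast this

/-- A nonempty product of elements outside `A` is outside `A`. -/
theorem one_lt_valuation_prod {K : Type*} [Field K] (A : ValuationSubring K) (s : Finset K)
    (hne : s.Nonempty) (hs : ∀ x ∈ s, x ∉ A) : 1 < A.valuation (∏ x ∈ s, x) := by
  classical
  induction hne using Finset.Nonempty.cons_induction with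
  | singleton a =>
    rw [Finset.prod_singleton]
    have := hs a (Finset.mem_singleton_self a)
    rw [← A.valuation_le_one_iff, not_le] at this
    exact this
  | cons a s ha hne ih =>
    rw [Finset.prod_cons, map_mul]
    have h1 : 1 < A.valuation a := by
      have := hs a (Finset.mem_cons_self a s)
      rw [← A.valuation_le_one_iff, not_le] at this
      exact this
    have h2 := ih (fun x hx => hs x (Finset.mem_cons_of_mem hx))
    calc (1 : A.ValueGroup) = 1 * 1 := (mul_one 1).symm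
      _ < A.valuation a * A.valuation (∏ x ∈ s, x) :=
        mul_lt_mul'' h1 h2 zero_le_one zero_le_one

/-- **Rationality of stable products.** For a nonempty Galois-stable finite set `s` of elements
outside `A` (`A` over `p`), the inverse of `p * ∏ s` lies in `A`. -/
theorem inv_prime_mul_prod_mem {p : ℕ} (hp : p.Prime)
    (A : ValuationSubring (AlgebraicClosure ℚ)) (hA : A.LiesOverPrime p)
    (s : Finset (AlgebraicClosure ℚ)) (hne : s.Nonempty)
    (hG : ∀ σ : AlgebraicClosure ℚ ≃ₐ[ℚ] AlgebraicClosure ℚ, s.image σ = s)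
    (hs : ∀ x ∈ s, x ∉ A) :
    ((p : AlgebraicClosure ℚ) * ∏ x ∈ s, x)⁻¹ ∈ A := by
  classical
  have hfix : ∀ σ : AlgebraicClosure ℚ ≃ₐ[ℚ] AlgebraicClosure ℚ, σ (∏ x ∈ s, x) = ∏ x ∈ s, x := by
    intro σ
    rw [map_prod]
    conv_rhs => rw [← hG σ]
    rw [Finset.prod_image (fun x _ y _ h => σ.injective h)]
  obtain ⟨q, hq⟩ := mem_range_of_fixed _ hfix
  have hv := one_lt_valuation_prod A s hne hs
  have hr0 : (∏ x ∈ s, x) ≠ 0 := by
    intro h
    rw [h, map_zero] at hv
    exact not_lt.mpr zero_le_one hv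
  have hnon : algebraMap ℚ (AlgebraicClosure ℚ) q⁻¹ ∈ A.nonunits := by
    rw [map_inv₀, hq, A.mem_nonunits_iff, map_inv₀]
    exact inv_lt_one_of_one_lt₀ hv
  have key := ratCast_div_prime_mem hp A hA q⁻¹ hnon
  rw [map_inv₀, hq] at key
  have e : ((p : AlgebraicClosure ℚ) * ∏ x ∈ s, x)⁻¹
      = (∏ x ∈ s, x)⁻¹ / (p : AlgebraicClosure ℚ) := by
    rw [mul_inv, div_eq_mul_inv, mul_comm]
  rw [e]
  exact key

end Fermat.Agent.S13.RatProd
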