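/-
S13 piece (Xp)_leg, product form (route DP): for a Weierstrass curve `W'` over `ℚ` with
`a₃ = a₆ = 0` and an odd prime `p`, given (N2) "the `x`-coordinate of every nonzero `p`-torsion
point is a root of `preΨ_p`", if `a₄` is integral at a valuation subring `A` of `ℚ̄` over `p` and
every nonzero `p`-torsion point has non-integral `x`-coordinate at `A`, then the `p`-torsion has no
proper nonzero Galois-stable subspace.
-/
import Mathlib
import Fermat.Prelude.Def_FLTPrelim_CofixedLine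
import Fermat.Prelude.Def_FLTPrelim_Ramification
import Fermat.Agent.S13.XpAbs
import Fermat.Agent.S13.XpCurve
import Fermat.Agent.S13.DPZero

set_option autoImplicit false

namespace Fermat.Agent.S13.XpLeg

open WeierstrassCurve WeierstrassCurve.Affine WeierstrassCurve.Affine.Point Polynomial

/-- a vector space over `ZMod p` with a proper nonzero subspace has at least `p ^ 2` elements -/
theorem sq_le_card {p : ℕ} [Fact p.Prime] {V : Type*} [AddCommGroup V] [Module (ZMod p) V]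
    [Finite V] {N : Submodule (ZMod p) V} (h0 : N ≠ ⊥) (h1 : N ≠ ⊤) : p ^ 2 ≤ Nat.card V := by
  have : Module.Finite (ZMod p) V := Module.Finite.of_finite
  have hc := Module.natCard_eq_pow_finrank (K := ZMod p) (V := V)
  rw [Nat.card_zmod] at hc
  have hp := (Fact.out : p.Prime)
  have hlt := Submodule.finrank_lt h1
  have hpos : 0 < Module.finrank (ZMod p) N := by
    rw [Nat.pos_iff_ne_zero, Ne, Submodule.finrank_eq_zero]
    exact h0
  rw [hc]
  exact Nat.pow_le_pow_right hp.pos (by omega)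

variable {W' : WeierstrassCurve ℚ} {p : ℕ}

/-- the torsion is finite as soon as a nonzero polynomial vanishes on its `x`-coordinates -/
theorem finite_of_eval_eq_zero (f : (AlgebraicClosure ℚ)[X]) (hf : f ≠ 0)
    (h0 : ∀ (x y : AlgebraicClosure ℚ) (h : (W'⁄(AlgebraicClosure ℚ)).Nonsingular x y),
      (p : ℤ) • Point.some x y h = 0 → f.eval x = 0) :
    Finite (Submodule.torsionBy ℤ (W'⁄(AlgebraicClosure ℚ)).Point p) := by
  classical
  have hs : {Q : Submodule.torsionBy ℤ (W'⁄(AlgebraicClosure ℚ)).Point p | Q ≠ 0}.Finite := by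
    refine Set.Finite.of_finite_fibers XpCurve.xc ?_ ?_
    · refine (f.roots.toFinset.finite_toSet).subset ?_
      rintro x ⟨Q, hQ, rfl⟩
      obtain ⟨y, hy, -, e⟩ := XpCurve.exists_some hQ
      simp only [Finset.mem_coe, Multiset.mem_toFinset]
      exact (mem_roots hf).mpr (h0 _ y hy e)
    · rintro x ⟨Q, hQ, rfl⟩
      refine ((Set.finite_singleton (-Q)).insert Q).subset ?_
      rintro Q' ⟨hQ', hx⟩
      rcases XpCurve.eq_or_eq_neg hQ' hQ hx with h | h
      · exact Or.inl h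
      · exact Or.inr h
  have hu : (Set.univ : Set (Submodule.torsionBy ℤ (W'⁄(AlgebraicClosure ℚ)).Point p)) =
      insert 0 {Q | Q ≠ 0} := by
    ext Q
    by_cases h : Q = 0 <;> simp [h]
  exact Set.finite_univ_iff.mp (hu ▸ hs.insert 0)

/-- the `x`-coordinate is at most two-to-one on the nonzero torsion points -/
theorem card_le [Finite (Submodule.torsionBy ℤ (W'⁄(AlgebraicClosure ℚ)).Point p)]
    (S : Finset (AlgebraicClosure ℚ))
    (hS : ∀ x, x ∈ S ↔ ∃ (y : AlgebraicClosure ℚ)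
      (h : (W'⁄(AlgebraicClosure ℚ)).Nonsingular x y), (p : ℤ) • Point.some x y h = 0) :
    Nat.card (Submodule.torsionBy ℤ (W'⁄(AlgebraicClosure ℚ)).Point p) ≤ 2 * S.card + 1 := by
  classical
  have : Fintype (Submodule.torsionBy ℤ (W'⁄(AlgebraicClosure ℚ)).Point p) := Fintype.ofFinite _
  rw [Nat.card_eq_fintype_card, ← Finset.card_univ]
  have hu : (Finset.univ : Finset (Submodule.torsionBy ℤ (W'⁄(AlgebraicClosure ℚ)).Point p)) =
      insert 0 (Finset.univ.filter fun Q => Q ≠ 0) := by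
    ext Q
    by_cases h : Q = 0 <;> simp [h]
  rw [hu]
  refine (Finset.card_insert_le _ _).trans (Nat.add_le_add_right ?_ 1)
  refine (Finset.card_le_mul_card_image (f := XpCurve.xc) _ 2 ?_).trans
    (Nat.mul_le_mul_left 2 (Finset.card_le_card ?_))
  · intro b hb
    obtain ⟨Q, hQ, rfl⟩ := Finset.mem_image.mp hb
    have hQ0 : Q ≠ 0 := (Finset.mem_filter.mp hQ).2
    refine (Finset.card_le_card ?_).trans (Finset.card_le_two (a := Q) (b := -Q))
    intro Q' hQ'
    obtain ⟨hQ'1, hx⟩ := Finset.mem_filter.mp hQ'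
    have hQ'0 : Q' ≠ 0 := (Finset.mem_filter.mp hQ'1).2
    rcases XpCurve.eq_or_eq_neg hQ'0 hQ0 hx with h | h
    · rw [h]; exact Finset.mem_insert_self _ _
    · rw [h]; exact Finset.mem_insert_of_mem (Finset.mem_singleton_self _)
  · intro x hx
    obtain ⟨Q, hQ, rfl⟩ := Finset.mem_image.mp hx
    obtain ⟨y, hy, -, e⟩ := XpCurve.exists_some (Finset.mem_filter.mp hQ).2
    exact (hS _).mpr ⟨y, hy, e⟩

/-- **(Xp)_leg in product form**, with (N2) as a hypothesis. -/
theorem no_stable_line (W' : WeierstrassCurve ℚ) (h3 : W'.a₃ = 0) (h6 : W'.a₆ = 0) {p : ℕ}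
    (hp : p.Prime) (hp2 : p ≠ 2) (A : ValuationSubring (AlgebraicClosure ℚ))
    (hA : A.LiesOverPrime p) (ha4 : algebraMap ℚ (AlgebraicClosure ℚ) W'.a₄ ∈ A)
    (hN2 : ∀ (x y : AlgebraicClosure ℚ) (h : (W'⁄(AlgebraicClosure ℚ)).Nonsingular x y),
      (p : ℤ) • Point.some x y h = 0 → ((W'⁄(AlgebraicClosure ℚ)).preΨ (p : ℤ)).eval x = 0)
    (hker : ∀ (x y : AlgebraicClosure ℚ) (h : (W'⁄(AlgebraicClosure ℚ)).Nonsingular x y),
      (p : ℤ) • Point.some x y h = 0 → x ∉ A) :
    ¬ ∃ N : Submodule (ZMod p) (Submodule.torsionBy ℤ (W'⁄(AlgebraicClosure ℚ)).Point p),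
      IsGaloisStable ℚ N ∧ N ≠ ⊥ ∧ N ≠ ⊤ := by
  classical
  have hfp : Fact p.Prime := ⟨hp⟩
  have hpodd : Odd p := hp.odd_of_ne_two hp2
  have hpK : (((p : ℕ) : ℤ) : AlgebraicClosure ℚ) ≠ 0 := by
    exact_mod_cast hp.ne_zero
  have hf0 : (W'⁄(AlgebraicClosure ℚ)).preΨ (p : ℤ) ≠ 0 := WeierstrassCurve.preΨ_ne_zero _ hpK
  have hnev : ¬ Even ((p : ℕ) : ℤ) := by
    rw [Int.even_coe_nat]
    exact Nat.not_even_iff_odd.mpr hpodd
  have hdeg : ((W'⁄(AlgebraicClosure ℚ)).preΨ (p : ℤ)).natDegree = (p ^ 2 - 1) / 2 := by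
    rw [WeierstrassCurve.natDegree_preΨ _ hpK, if_neg hnev, Int.natAbs_natCast]
  have hlc : ((W'⁄(AlgebraicClosure ℚ)).preΨ (p : ℤ)).leadingCoeff = (p : AlgebraicClosure ℚ) := by
    rw [WeierstrassCurve.leadingCoeff_preΨ _ hpK, if_neg hnev]
    push_cast
    rfl
  have hfin := finite_of_eval_eq_zero _ hf0 hN2
  refine XpCurve.no_stable W' hp A hA hker ?_
  rintro ⟨N, hN0, hN1⟩ S hS
  -- `S` is a full set of roots of `preΨ_p`
  have hroots : ∀ s ∈ S, ((W'⁄(AlgebraicClosure ℚ)).preΨ (p : ℤ)).eval s = 0 := by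
    intro s hs
    obtain ⟨y, h, e⟩ := (hS s).mp hs
    exact hN2 s y h e
  have hle : S.card ≤ (p ^ 2 - 1) / 2 := by
    rw [← hdeg]
    refine Polynomial.card_le_degree_of_subset_roots ?_
    intro s hs
    exact (mem_roots hf0).mpr (hroots s (Finset.mem_val.mp hs))
  have hge : (p ^ 2 - 1) / 2 ≤ S.card := by
    have h1 := sq_le_card hN0 hN1
    have h2 := card_le S hS
    omega
  have hcard : S.card = ((W'⁄(AlgebraicClosure ℚ)).preΨ (p : ℤ)).natDegree := by
    rw [hdeg]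
    exact le_antisymm hle hge
  have hprod := XpAbs.prod_roots _ S hroots hcard hf0
  rw [hlc] at hprod
  rw [hprod, ← Polynomial.coeff_zero_eq_eval_zero,
    DPZero.preΨ_coeff_zero_of_odd (W := W'⁄(AlgebraicClosure ℚ))
      (by change algebraMap ℚ (AlgebraicClosure ℚ) W'.a₃ = 0; rw [h3, _root_.map_zero])
      (by change algebraMap ℚ (AlgebraicClosure ℚ) W'.a₆ = 0; rw [h6, _root_.map_zero]) hpodd]
  have ha4' : (W'⁄(AlgebraicClosure ℚ)).a₄ ∈ A := ha4
  have hneg : ∀ k : ℕ, ((-1 : AlgebraicClosure ℚ)) ^ k ∈ A := fun k =>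
    pow_mem (neg_mem (one_mem A)) k
  exact mul_mem (hneg _) (mul_mem (hneg _) (pow_mem ha4' _))

end Fermat.Agent.S13.XpLeg
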